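import Mathlib

/-!
# CFT / P1: Frobenius elements and the Artin map of an abelian extension of number fields

* `IsPowFrob n σ Q`: `σ • x ≡ x ^ n mod Q` for all `x` (Mathlib's `IsArithFrobAt` is the case `n = #(R/Q ∩ R)`).
* `IsUnramifiedIn K L 𝔭`: all inertia groups above `𝔭` are trivial.
* `frobAt K L 𝔭 : Gal(L/K)`: the Frobenius of a nonzero prime `𝔭` of `𝓞 K` (abelian extension: independent of the
  prime above), `isArithFrobAt_frobAt`, `frobAt_unique`.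
* `artin K L : (Ideal (𝓞 K))⁰ →* Gal(L/K)`: the Artin map on nonzero integral ideals.
-/

set_option autoImplicit false

open NumberField
open scoped IsMulCommutative Pointwise nonZeroDivisors

namespace Fermat.Agent.CFT

section PowFrob

variable {S : Type*} [CommRing S] {G : Type*} [Group G] [MulSemiringAction G S]

/-- `σ • x ≡ x ^ n mod Q` for all `x`. -/
def IsPowFrob (n : ℕ) (σ : G) (Q : Ideal S) : Prop := ∀ x : S, σ • x - x ^ n ∈ Q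

lemma IsPowFrob.mul {n m : ℕ} {σ τ : G} {Q : Ideal S} (hσ : IsPowFrob n σ Q) (hτ : IsPowFrob m τ Q) :
    IsPowFrob (m * n) (σ * τ) Q := by
  intro x
  have h1 := hσ (τ • x)
  have h2 : (τ • x) ^ n - (x ^ m) ^ n ∈ Q := by
    have := hτ x
    exact (Ideal.Quotient.eq).mp (by
      rw [map_pow, map_pow]
      congr 1
      exact (Ideal.Quotient.eq).mpr this)
  have := add_mem h1 h2
  rw [sub_add_sub_cancel] at this
  rwa [mul_smul, pow_mul]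

lemma IsPowFrob.one_zero_pow (Q : Ideal S) : IsPowFrob 1 (1 : G) Q := by
  intro x; simp

lemma IsPowFrob.pow {n : ℕ} {σ : G} {Q : Ideal S} (hσ : IsPowFrob n σ Q) (k : ℕ) :
    IsPowFrob (n ^ k) (σ ^ k) Q := by
  induction k with
  | zero => simpa using IsPowFrob.one_zero_pow (G := G) Q
  | succ k ih =>
    rw [pow_succ, pow_succ']
    exact hσ.mul ih

lemma IsPowFrob.mul_inv_mem_inertia {n : ℕ} {σ τ : G} {Q : Ideal S} (hσ : IsPowFrob n σ Q)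
    (hτ : IsPowFrob n τ Q) : σ * τ⁻¹ ∈ Q.inertia G := by
  intro x
  simpa [mul_smul] using sub_mem (hσ (τ⁻¹ • x)) (hτ (τ⁻¹ • x))

/-- the identity is a power Frobenius for the exponent `#(S/Q)`. -/
lemma IsPowFrob.one_card (Q : Ideal S) [Q.IsPrime] [Finite (S ⧸ Q)] :
    IsPowFrob (Nat.card (S ⧸ Q)) (1 : G) Q := by
  intro x
  rw [one_smul, ← Ideal.Quotient.eq, map_pow]
  classical
  have : Fintype (S ⧸ Q) := Fintype.ofFinite _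
  have hmax : Q.IsMaximal :=
    Ideal.Quotient.maximal_of_isField _ (Finite.isField_of_domain (S ⧸ Q))
  let _ : Field (S ⧸ Q) := Ideal.Quotient.field Q
  rw [Nat.card_eq_fintype_card, FiniteField.pow_card]

lemma isArithFrobAt_iff {R : Type*} [CommRing R] [Algebra R S] [SMulCommClass G R S] (σ : G)
    (Q : Ideal S) : IsArithFrobAt R σ Q ↔ IsPowFrob (Nat.card (R ⧸ Q.under R)) σ Q := Iff.rfl

end PowFrob


section FrobAt

variable (K L : Type*) [Field K] [NumberField K] [Field L] [NumberField L] [Algebra K L]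
  [IsAbelianGalois K L]

/-- `𝔭` is unramified in `L`: all inertia groups above `𝔭` are trivial. -/
def IsUnramifiedIn (𝔭 : Ideal (𝓞 K)) : Prop :=
  ∀ 𝔓 : Ideal (𝓞 L), 𝔓.IsPrime → 𝔓.under (𝓞 K) = 𝔭 → 𝔓.inertia Gal(L/K) = ⊥

lemma finite_quotient_of_prime {F : Type*} [Field F] [NumberField F] (𝔓 : Ideal (𝓞 F))
    (h : 𝔓 ≠ ⊥) : Finite (𝓞 F ⧸ 𝔓) := Ideal.finiteQuotientOfFreeOfNeBot 𝔓 h

lemma ne_bot_of_under_ne_bot {𝔓 : Ideal (𝓞 L)} (h : 𝔓.under (𝓞 K) ≠ ⊥) : 𝔓 ≠ ⊥ := by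
  rintro rfl
  apply h
  rw [Ideal.under_bot]

/-- in an abelian extension there is a common Frobenius for all primes above a nonzero prime `𝔭`. -/
lemma exists_frob (𝔭 : Ideal (𝓞 K)) [𝔭.IsPrime] (h𝔭 : 𝔭 ≠ ⊥) :
    ∃ σ : Gal(L/K), ∀ 𝔓 : Ideal (𝓞 L), 𝔓.IsPrime → 𝔓.under (𝓞 K) = 𝔭 →
      IsArithFrobAt (𝓞 K) σ 𝔓 := by
  obtain ⟨⟨𝔓₀, h𝔓₀, h𝔓₀'⟩⟩ := Ideal.nonempty_primesOver (S := 𝓞 L) 𝔭
  have hu₀ : 𝔓₀.under (𝓞 K) = 𝔭 := h𝔓₀'.over.symm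
  have hne : 𝔓₀ ≠ ⊥ := ne_bot_of_under_ne_bot K L (hu₀ ▸ h𝔭)
  have := finite_quotient_of_prime 𝔓₀ hne
  refine ⟨arithFrobAt (𝓞 K) Gal(L/K) 𝔓₀, fun 𝔓 h𝔓 hu => ?_⟩
  obtain ⟨τ, rfl⟩ := Algebra.IsInvariant.exists_smul_of_under_eq (𝓞 K) (𝓞 L) Gal(L/K) 𝔓₀ 𝔓
    (hu₀.trans hu.symm)
  have := (IsArithFrobAt.arithFrobAt (𝓞 K) Gal(L/K) 𝔓₀).conj τ
  rwa [mul_comm τ, mul_inv_cancel_right] at this

open Classical in
/-- the Frobenius of a nonzero prime `𝔭` of `𝓞 K` in the abelian extension `L/K` (junk value `1` otherwise). -/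
noncomputable def frobAt (𝔭 : Ideal (𝓞 K)) : Gal(L/K) :=
  if h : 𝔭.IsPrime ∧ 𝔭 ≠ ⊥ then (@exists_frob K L _ _ _ _ _ _ 𝔭 h.1 h.2).choose else 1

lemma isArithFrobAt_frobAt {𝔭 : Ideal (𝓞 K)} [h𝔭 : 𝔭.IsPrime] (hne : 𝔭 ≠ ⊥) (𝔓 : Ideal (𝓞 L))
    [h𝔓 : 𝔓.IsPrime] (hu : 𝔓.under (𝓞 K) = 𝔭) : IsArithFrobAt (𝓞 K) (frobAt K L 𝔭) 𝔓 := by
  rw [frobAt, dif_pos ⟨h𝔭, hne⟩]
  exact (@exists_frob K L _ _ _ _ _ _ 𝔭 h𝔭 hne).choose_spec 𝔓 h𝔓 hu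

lemma isPowFrob_frobAt {𝔭 : Ideal (𝓞 K)} [h𝔭 : 𝔭.IsPrime] (hne : 𝔭 ≠ ⊥) (𝔓 : Ideal (𝓞 L))
    [h𝔓 : 𝔓.IsPrime] (hu : 𝔓.under (𝓞 K) = 𝔭) :
    IsPowFrob (Nat.card (𝓞 K ⧸ 𝔭)) (frobAt K L 𝔭) 𝔓 := by
  have := isArithFrobAt_frobAt K L hne 𝔓 hu
  rw [isArithFrobAt_iff, hu] at this
  exact this

variable {K L} in
/-- uniqueness of the Frobenius at an unramified prime, in the power form. -/
lemma eq_of_isPowFrob {𝔭 : Ideal (𝓞 K)} (hunr : IsUnramifiedIn K L 𝔭) {𝔓 : Ideal (𝓞 L)}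
    [h𝔓 : 𝔓.IsPrime] (hu : 𝔓.under (𝓞 K) = 𝔭) {n : ℕ} {σ τ : Gal(L/K)} (hσ : IsPowFrob n σ 𝔓)
    (hτ : IsPowFrob n τ 𝔓) : σ = τ := by
  have h := hσ.mul_inv_mem_inertia hτ
  rw [hunr 𝔓 h𝔓 hu, Subgroup.mem_bot] at h
  exact mul_inv_eq_one.mp h

variable {K L} in
lemma frobAt_unique {𝔭 : Ideal (𝓞 K)} [h𝔭 : 𝔭.IsPrime] (hne : 𝔭 ≠ ⊥)
    (hunr : IsUnramifiedIn K L 𝔭) {𝔓 : Ideal (𝓞 L)} [h𝔓 : 𝔓.IsPrime] (hu : 𝔓.under (𝓞 K) = 𝔭)
    {σ : Gal(L/K)} (hσ : IsPowFrob (Nat.card (𝓞 K ⧸ 𝔭)) σ 𝔓) : σ = frobAt K L 𝔭 :=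
  eq_of_isPowFrob hunr hu hσ (isPowFrob_frobAt K L hne 𝔓 hu)

/-- the Artin map on nonzero integral ideals. -/
noncomputable def artin : (Ideal (𝓞 K))⁰ →* Gal(L/K) where
  toFun I := ((UniqueFactorizationMonoid.normalizedFactors (I : Ideal (𝓞 K))).map (frobAt K L)).prod
  map_one' := by
    rw [Submonoid.coe_one, UniqueFactorizationMonoid.normalizedFactors_one]
    simp
  map_mul' I J := by
    have hI : (I : Ideal (𝓞 K)) ≠ 0 := nonZeroDivisors.coe_ne_zero I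
    have hJ : (J : Ideal (𝓞 K)) ≠ 0 := nonZeroDivisors.coe_ne_zero J
    rw [Submonoid.coe_mul, UniqueFactorizationMonoid.normalizedFactors_mul hI hJ, Multiset.map_add,
      Multiset.prod_add]

lemma artin_apply (I : (Ideal (𝓞 K))⁰) : artin K L I =
    ((UniqueFactorizationMonoid.normalizedFactors (I : Ideal (𝓞 K))).map (frobAt K L)).prod := rfl

lemma artin_prime {𝔭 : Ideal (𝓞 K)} [h𝔭 : 𝔭.IsPrime] (hne : 𝔭 ≠ ⊥) :
    artin K L ⟨𝔭, mem_nonZeroDivisors_of_ne_zero hne⟩ = frobAt K L 𝔭 := by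
  rw [artin_apply]
  have hirr : Irreducible 𝔭 := (Ideal.prime_of_isPrime hne h𝔭).irreducible
  rw [UniqueFactorizationMonoid.normalizedFactors_irreducible hirr]
  simp

/-- two monoid homs on the nonzero ideals of a Dedekind domain which agree on the primes are equal. -/
lemma monoidHom_ext_prime {R : Type*} [CommRing R] [IsDedekindDomain R] {H : Type*} [CommMonoid H]
    (f g : (Ideal R)⁰ →* H)
    (h : ∀ (𝔭 : Ideal R) (_ : 𝔭.IsPrime) (hne : 𝔭 ≠ ⊥),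
      f ⟨𝔭, mem_nonZeroDivisors_of_ne_zero hne⟩ = g ⟨𝔭, mem_nonZeroDivisors_of_ne_zero hne⟩) : f = g := by
  ext ⟨I, hI⟩
  have hI0 : I ≠ 0 := nonZeroDivisors.ne_zero hI
  induction I using UniqueFactorizationMonoid.induction_on_prime with
  | h₁ => exact absurd rfl hI0
  | h₂ x hx =>
    have : (⟨x, hI⟩ : (Ideal R)⁰) = 1 :=
      Subtype.ext (show x = (1 : Ideal R) from (Ideal.isUnit_iff.mp hx).trans Ideal.one_eq_top.symm)
    rw [this, map_one, map_one]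
  | h₃ a p ha hp ih =>
    have hp0 : p ≠ ⊥ := hp.ne_zero
    have hpP : p.IsPrime := Ideal.isPrime_of_prime hp
    have ha' : a ∈ (Ideal R)⁰ := mem_nonZeroDivisors_of_ne_zero ha
    have : (⟨p * a, hI⟩ : (Ideal R)⁰) = ⟨p, mem_nonZeroDivisors_of_ne_zero hp0⟩ * ⟨a, ha'⟩ := rfl
    rw [this, map_mul, map_mul, h p hpP hp0, ih ha' ha]

end FrobAt

end Fermat.Agent.CFT
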