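import Mathlib
import Fermat.Agent.CFT.P1FrobAt

/-!
# CFT / P1: functoriality of the Frobenius elements and of the Artin map

`K ⊆ F`, `K ⊆ L`, `F, L ⊆ M`, with `L/K` and `M/F` abelian.
* `resGal K F L M : Gal(M/F) →* Gal(L/K)` (restriction);
* base change: `resGal (frobAt F M 𝔅) = frobAt K L (𝔅 ∩ K) ^ f(𝔅/𝔭)`, `resGal (artin F M 𝔄) = artin K L (N_{F/K} 𝔄)`;
* norms are in the kernel of the Artin map of an unramified abelian extension.
-/

set_option autoImplicit false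

open NumberField
open scoped IsMulCommutative Pointwise nonZeroDivisors

namespace Fermat.Agent.CFT

section Tower

variable (K F L M : Type*) [Field K] [Field F] [Field L] [Field M]
  [Algebra K F] [Algebra K L] [Algebra F M] [Algebra L M] [Algebra K M]
  [IsScalarTower K F M] [IsScalarTower K L M]

/-- restriction `Gal(M/F) → Gal(L/K)` -/
noncomputable def resGal [Normal K L] : Gal(M/F) →* Gal(L/K) :=
  (AlgEquiv.restrictNormalHom L).comp (AlgEquiv.restrictScalarsHom K)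

lemma resGal_commutes [Normal K L] (σ : Gal(M/F)) (x : L) :
    algebraMap L M (resGal K F L M σ x) = σ (algebraMap L M x) := by
  simp only [resGal, MonoidHom.comp_apply, AlgEquiv.restrictScalarsHom_apply]
  exact AlgEquiv.restrictNormal_commutes _ L x

end Tower

section NF

variable (K F L M : Type*) [Field K] [Field F] [Field L] [Field M]
  [NumberField K] [NumberField F] [NumberField L] [NumberField M]
  [Algebra K F] [Algebra K L] [Algebra F M] [Algebra L M] [Algebra K M]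
  [IsScalarTower K F M] [IsScalarTower K L M] [IsAbelianGalois K L] [IsAbelianGalois F M]

lemma coe_galSMul {A B : Type*} [Field A] [Field B] [Algebra A B] (σ : Gal(B/A)) (x : 𝓞 B) :
    ((σ • x : 𝓞 B) : B) = σ (x : B) := rfl

lemma algebraMap_resGal_smul (σ : Gal(M/F)) (x : 𝓞 L) :
    algebraMap (𝓞 L) (𝓞 M) (resGal K F L M σ • x) = σ • algebraMap (𝓞 L) (𝓞 M) x := by
  apply RingOfIntegers.ext
  rw [coe_galSMul]
  show algebraMap L M ((resGal K F L M σ • x : 𝓞 L) : L) = σ (algebraMap L M (x : L))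
  rw [coe_galSMul, resGal_commutes]

/-- a power Frobenius for `M/F` at `𝔓'` restricts to a power Frobenius for `L/K` at `𝔓' ∩ 𝓞 L`. -/
lemma IsPowFrob.resGal {n : ℕ} {σ : Gal(M/F)} {𝔓' : Ideal (𝓞 M)} (h : IsPowFrob n σ 𝔓') :
    IsPowFrob n (resGal K F L M σ) (𝔓'.under (𝓞 L)) := by
  intro x
  rw [Ideal.under, Ideal.mem_comap, map_sub, map_pow, algebraMap_resGal_smul]
  exact h _

lemma natCard_quotient_eq_absNorm {A : Type*} [Field A] [NumberField A] (I : Ideal (𝓞 A)) :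
    Nat.card (𝓞 A ⧸ I) = Ideal.absNorm I := by
  rw [Ideal.absNorm_apply, Submodule.cardQuot_apply]

/-- `L/K` is unramified at all nonzero primes. -/
def IsUnramifiedEverywhere : Prop :=
  ∀ 𝔭 : Ideal (𝓞 K), 𝔭.IsPrime → 𝔭 ≠ ⊥ → IsUnramifiedIn K L 𝔭

variable {K F L M}

/-- **base change**, prime version. -/
theorem resGal_frobAt {𝔅 : Ideal (𝓞 F)} [h𝔅 : 𝔅.IsPrime] (hne : 𝔅 ≠ ⊥)
    (hunr : IsUnramifiedIn K L (𝔅.under (𝓞 K))) {s : ℕ}
    (hs : Ideal.relNorm (𝓞 K) 𝔅 = (𝔅.under (𝓞 K)) ^ s) :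
    resGal K F L M (frobAt F M 𝔅) = frobAt K L (𝔅.under (𝓞 K)) ^ s := by
  obtain ⟨⟨𝔓', h𝔓', h𝔓'o⟩⟩ := Ideal.nonempty_primesOver (S := 𝓞 M) 𝔅
  have hu' : 𝔓'.under (𝓞 F) = 𝔅 := h𝔓'o.over.symm
  have h𝔭ne : 𝔅.under (𝓞 K) ≠ ⊥ := Ideal.under_ne_bot (𝓞 K) hne
  have h𝔭 : (𝔅.under (𝓞 K)).IsPrime := Ideal.IsPrime.under _ _
  have h𝔓 : (𝔓'.under (𝓞 L)).IsPrime := Ideal.IsPrime.under _ _
  have hu : (𝔓'.under (𝓞 L)).under (𝓞 K) = 𝔅.under (𝓞 K) := by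
    rw [Ideal.under_under, ← hu', Ideal.under_under]
  have h1 : IsPowFrob (Nat.card (𝓞 F ⧸ 𝔅)) (resGal K F L M (frobAt F M 𝔅)) (𝔓'.under (𝓞 L)) :=
    (isPowFrob_frobAt F M hne 𝔓' hu').resGal K F L M
  have h2 := (isPowFrob_frobAt K L h𝔭ne (𝔓'.under (𝓞 L)) hu).pow s
  have hcard : Nat.card (𝓞 F ⧸ 𝔅) = Nat.card (𝓞 K ⧸ 𝔅.under (𝓞 K)) ^ s := by
    rw [natCard_quotient_eq_absNorm, natCard_quotient_eq_absNorm, ← Ideal.absNorm_relNorm (𝓞 K) (𝓞 F) 𝔅,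
      hs, map_pow]
  rw [hcard] at h1
  exact eq_of_isPowFrob hunr hu h1 h2

variable (K F) in
/-- the relative norm on nonzero ideals. -/
noncomputable def relNorm₀ : (Ideal (𝓞 F))⁰ →* (Ideal (𝓞 K))⁰ where
  toFun I := ⟨Ideal.relNorm (𝓞 K) (I : Ideal (𝓞 F)), mem_nonZeroDivisors_of_ne_zero (by
    rw [Ne, Ideal.zero_eq_bot, Ideal.relNorm_eq_bot_iff]
    exact nonZeroDivisors.coe_ne_zero I)⟩
  map_one' := Subtype.ext (by
    show Ideal.relNorm (𝓞 K) ((1 : (Ideal (𝓞 F))⁰) : Ideal (𝓞 F)) = 1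
    rw [Submonoid.coe_one, map_one])
  map_mul' I J := Subtype.ext (by
    show Ideal.relNorm (𝓞 K) ((I * J : (Ideal (𝓞 F))⁰) : Ideal (𝓞 F)) = _
    rw [Submonoid.coe_mul, map_mul]
    rfl)

@[simp] lemma coe_relNorm₀ (I : (Ideal (𝓞 F))⁰) :
    ((relNorm₀ K F I : (Ideal (𝓞 K))⁰) : Ideal (𝓞 K)) = Ideal.relNorm (𝓞 K) (I : Ideal (𝓞 F)) := rfl

/-- **base change**, ideal version: `φ_{M/F}(𝔄)|_L = φ_{L/K}(N_{F/K} 𝔄)`. -/
theorem resGal_artin (hunr : IsUnramifiedEverywhere K L) (𝔄 : (Ideal (𝓞 F))⁰) :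
    resGal K F L M (artin F M 𝔄) = artin K L (relNorm₀ K F 𝔄) := by
  suffices h : (resGal K F L M).comp (artin F M) = (artin K L).comp (relNorm₀ K F) from
    DFunLike.congr_fun h 𝔄
  refine monoidHom_ext_prime _ _ fun 𝔅 h𝔅 hne => ?_
  have h𝔭 : (𝔅.under (𝓞 K)).IsPrime := Ideal.IsPrime.under _ _
  have h𝔭ne : 𝔅.under (𝓞 K) ≠ ⊥ := Ideal.under_ne_bot (𝓞 K) hne
  have hlo : 𝔅.LiesOver (𝔅.under (𝓞 K)) := ⟨rfl⟩
  obtain ⟨s, hs⟩ := Ideal.exists_relNorm_eq_pow_of_isPrime 𝔅 (𝔅.under (𝓞 K))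
  rw [MonoidHom.comp_apply, MonoidHom.comp_apply, artin_prime F M hne,
    resGal_frobAt hne (hunr _ h𝔭 h𝔭ne) hs]
  have : relNorm₀ K F ⟨𝔅, mem_nonZeroDivisors_of_ne_zero hne⟩ =
      (⟨𝔅.under (𝓞 K), mem_nonZeroDivisors_of_ne_zero h𝔭ne⟩ : (Ideal (𝓞 K))⁰) ^ s :=
    Subtype.ext (by rw [coe_relNorm₀, hs]; rfl)
  rw [this, map_pow, artin_prime K L h𝔭ne]

/-- norms from `L` are in the kernel of the Artin map of the unramified abelian extension `L/K`. -/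
theorem artin_relNorm (hunr : IsUnramifiedEverywhere K L) (𝔄 : (Ideal (𝓞 L))⁰) :
    artin K L (relNorm₀ K L 𝔄) = 1 := by
  rw [← resGal_artin (F := L) (M := L) hunr 𝔄]
  have : artin L L 𝔄 = 1 := Subsingleton.elim _ _
  rw [this, map_one]

end NF

end Fermat.Agent.CFT
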