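import Mathlib
import Fermat.Agent.CFT.P1FrobAt
import Fermat.Agent.CFT.P1Tower

/-!
# CFT / P1: restriction of the Artin map to a subextension (`K ⊆ L ⊆ M`, `M/K` abelian)
-/

set_option autoImplicit false

open NumberField
open scoped IsMulCommutative Pointwise nonZeroDivisors

namespace Fermat.Agent.CFT

section Restrict

variable {K L M : Type*} [Field K] [Field L] [Field M]
  [NumberField K] [NumberField L] [NumberField M]
  [Algebra K L] [Algebra L M] [Algebra K M] [IsScalarTower K L M]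
  [IsAbelianGalois K L] [IsAbelianGalois K M]

/-- restriction of the Frobenius to a subextension. -/
theorem resGal_frobAt_self {𝔭 : Ideal (𝓞 K)} [h𝔭 : 𝔭.IsPrime] (hne : 𝔭 ≠ ⊥)
    (hunr : IsUnramifiedIn K L 𝔭) :
    resGal K K L M (frobAt K M 𝔭) = frobAt K L 𝔭 := by
  obtain ⟨⟨𝔓', h𝔓', h𝔓'o⟩⟩ := Ideal.nonempty_primesOver (S := 𝓞 M) 𝔭
  have hu' : 𝔓'.under (𝓞 K) = 𝔭 := h𝔓'o.over.symm
  have h𝔓 : (𝔓'.under (𝓞 L)).IsPrime := Ideal.IsPrime.under _ _
  have hu : (𝔓'.under (𝓞 L)).under (𝓞 K) = 𝔭 := by rw [Ideal.under_under, hu']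
  have h1 : IsPowFrob (Nat.card (𝓞 K ⧸ 𝔭)) (resGal K K L M (frobAt K M 𝔭)) (𝔓'.under (𝓞 L)) :=
    (isPowFrob_frobAt K M hne 𝔓' hu').resGal K K L M
  exact frobAt_unique hne hunr hu h1

/-- restriction of the Artin map to a subextension. -/
theorem resGal_artin_self (hunr : IsUnramifiedEverywhere K L) (𝔄 : (Ideal (𝓞 K))⁰) :
    resGal K K L M (artin K M 𝔄) = artin K L 𝔄 := by
  suffices h : (resGal K K L M).comp (artin K M) = artin K L from DFunLike.congr_fun h 𝔄
  refine monoidHom_ext_prime _ _ fun 𝔭 h𝔭 hne => ?_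
  rw [MonoidHom.comp_apply, artin_prime K M hne, artin_prime K L hne,
    resGal_frobAt_self hne (hunr 𝔭 h𝔭 hne)]

end Restrict

end Fermat.Agent.CFT
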