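import Mathlib

/-!
# CFT / P2: the norm of a totally complex number field is positive; norms of elements `≡ 1 mod m`
-/

set_option autoImplicit false

open NumberField

namespace Fermat.Agent.CFT

section NormPos

variable {F : Type*} [Field F] [NumberField F]

open InfinitePlace in
/-- in a totally complex number field the norm is nonnegative. -/
theorem norm_nonneg_of_isTotallyComplex [IsTotallyComplex F] (x : F) : 0 ≤ Algebra.norm ℚ x := by
  classical
  have h1 := Algebra.norm_eq_prod_embeddings ℚ ℂ x
  rw [← Fintype.prod_equiv (RingHom.equivRatAlgHom F ℂ) (fun f => f x)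
      (fun φ => φ x) fun _ => by simp [RingHom.equivRatAlgHom_apply]] at h1
  rw [← Finset.prod_fiberwise Finset.univ InfinitePlace.mk (fun φ : F →+* ℂ => φ x)] at h1
  have h2 : ∀ w : InfinitePlace F, ∏ φ ∈ Finset.univ.filter (fun φ : F →+* ℂ => mk φ = w), φ x =
      ((Complex.normSq (w.embedding x) : ℝ) : ℂ) := by
    intro w
    have hw : w.IsComplex := IsTotallyComplex.isComplex w
    have hne : w.embedding ≠ ComplexEmbedding.conjugate w.embedding := by
      intro h
      exact (isComplex_iff.mp hw) (ComplexEmbedding.isReal_iff.mpr h.symm)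
    have hset : Finset.univ.filter (fun φ : F →+* ℂ => mk φ = w) =
        {w.embedding, ComplexEmbedding.conjugate w.embedding} := by
      ext φ
      simp only [Finset.mem_filter, Finset.mem_univ, true_and, Finset.mem_insert,
        Finset.mem_singleton]
      conv_lhs => rw [← mk_embedding w, mk_eq_iff]
      constructor
      · rintro (h | h)
        · exact Or.inl h
        · right
          rw [← h, ComplexEmbedding.involutive_conjugate]
      · rintro (h | h)
        · exact Or.inl h
        · right
          rw [h, ComplexEmbedding.involutive_conjugate]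
    rw [hset, Finset.prod_pair hne, ComplexEmbedding.conjugate_coe_eq, Complex.mul_conj]
  rw [Finset.prod_congr rfl (fun w _ => h2 w), ← Complex.ofReal_prod] at h1
  have h3 : ((Algebra.norm ℚ x : ℚ) : ℝ) = ∏ w : InfinitePlace F, Complex.normSq (w.embedding x) := by
    apply Complex.ofReal_injective
    rw [← h1]
    simp
  have h4 : (0 : ℝ) ≤ ((Algebra.norm ℚ x : ℚ) : ℝ) := by
    rw [h3]
    exact Finset.prod_nonneg fun w _ => Complex.normSq_nonneg _
  exact_mod_cast h4

/-- in a totally complex number field the norm of a nonzero integer is positive. -/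
theorem intNorm_pos_of_isTotallyComplex [IsTotallyComplex F] {α : 𝓞 F} (hα : α ≠ 0) :
    0 < Algebra.norm ℤ α := by
  have h1 : (0 : ℚ) ≤ ((Algebra.norm ℤ α : ℤ) : ℚ) := by
    rw [Algebra.coe_norm_int]
    exact norm_nonneg_of_isTotallyComplex _
  have h2 : Algebra.norm ℤ α ≠ 0 := Algebra.norm_ne_zero_iff.mpr hα
  have h3 : (0 : ℤ) ≤ Algebra.norm ℤ α := by exact_mod_cast h1
  omega

/-- the norm of an integer `≡ 1 mod m` is `≡ 1 mod m`. -/
theorem intNorm_modEq_one {m : ℕ} {α : 𝓞 F} (hα : α - 1 ∈ Ideal.span {(m : 𝓞 F)}) :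
    ((Algebra.norm ℤ α : ℤ) : ZMod m) = 1 := by
  classical
  obtain ⟨β, hβ⟩ := Ideal.mem_span_singleton'.mp hα
  have hαβ : α = 1 + β * (m : 𝓞 F) := by rw [hβ]; ring
  let b := RingOfIntegers.basis F
  rw [Algebra.norm_eq_matrix_det b, hαβ, map_add, map_one, map_mul, map_natCast]
  show (Int.castRingHom (ZMod m)) (1 + Algebra.leftMulMatrix b β * (m : Matrix _ _ ℤ)).det = 1
  rw [RingHom.map_det]
  have : (Int.castRingHom (ZMod m)).mapMatrix (1 + Algebra.leftMulMatrix b β * (m : Matrix _ _ ℤ)) = 1 := by
    rw [map_add, map_one, map_mul, map_natCast]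
    have : ((m : ℕ) : Matrix (Module.Free.ChooseBasisIndex ℤ (𝓞 F)) (Module.Free.ChooseBasisIndex ℤ (𝓞 F)) (ZMod m)) = 0 := by
      ext i j
      simp [Matrix.natCast_apply, Matrix.one_apply]
    rw [this, mul_zero, add_zero]
  rw [this, Matrix.det_one]

end NormPos

end Fermat.Agent.CFT
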