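import Mathlib
import Fermat.Agent.CFT.P1FrobAt
import Fermat.Agent.CFT.P1Tower
import Fermat.Agent.CFT.P2NormPos
import Fermat.Agent.CFT.P1Restrict

/-!
# CFT / P2: the Artin map on roots of unity; principal ideals `≡ 1 mod m` in cyclotomic extensions
-/

set_option autoImplicit false

open NumberField
open scoped IsMulCommutative Pointwise nonZeroDivisors

namespace Fermat.Agent.CFT

section RootsOfUnity

variable (F M : Type*) [Field F] [Field M] [NumberField F] [NumberField M] [Algebra F M]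
  [IsAbelianGalois F M]

/-- `𝔄` is prime to `m`: no prime containing `𝔄` contains `m`. -/
def IsCoprimeTo (m : ℕ) (𝔄 : Ideal (𝓞 F)) : Prop :=
  ∀ 𝔅 : Ideal (𝓞 F), 𝔅.IsPrime → 𝔄 ≤ 𝔅 → (m : 𝓞 F) ∉ 𝔅

variable {F M}

/-- the Frobenius of `𝔅 ∤ m` raises the `m`-th roots of unity to the power `N𝔅`. -/
theorem frobAt_smul_of_pow_eq_one {𝔅 : Ideal (𝓞 F)} [h𝔅 : 𝔅.IsPrime] (hne : 𝔅 ≠ ⊥) {m : ℕ}
    (hm : (m : 𝓞 F) ∉ 𝔅) {ζ : 𝓞 M} (hζ : ζ ^ m = 1) :
    frobAt F M 𝔅 • ζ = ζ ^ Ideal.absNorm 𝔅 := by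
  obtain ⟨⟨𝔓', h𝔓', h𝔓'o⟩⟩ := Ideal.nonempty_primesOver (S := 𝓞 M) 𝔅
  have hu' : 𝔓'.under (𝓞 F) = 𝔅 := h𝔓'o.over.symm
  have H := isArithFrobAt_frobAt F M hne 𝔓' hu'
  have hm' : ((m : ℕ) : 𝓞 M) ∉ 𝔓' := by
    intro h
    apply hm
    rw [← hu', Ideal.under, Ideal.mem_comap, map_natCast]
    exact h
  have := AlgHom.IsArithFrobAt.apply_of_pow_eq_one H hζ hm'
  rw [hu', natCard_quotient_eq_absNorm] at this
  exact this

/-- the Artin symbol of an ideal prime to `m` raises the `m`-th roots of unity to the power `N𝔄`. -/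
theorem artin_smul_of_pow_eq_one {m : ℕ} {ζ : 𝓞 M} (hζ : ζ ^ m = 1) (𝔄 : (Ideal (𝓞 F))⁰)
    (hcop : IsCoprimeTo F m (𝔄 : Ideal (𝓞 F))) :
    artin F M 𝔄 • ζ = ζ ^ Ideal.absNorm (𝔄 : Ideal (𝓞 F)) := by
  obtain ⟨I, hI⟩ := 𝔄
  have hI0 : I ≠ 0 := nonZeroDivisors.ne_zero hI
  induction I using UniqueFactorizationMonoid.induction_on_prime with
  | h₁ => exact absurd rfl hI0
  | h₂ x hx =>
    have h1 : x = ⊤ := Ideal.isUnit_iff.mp hx
    have : (⟨x, hI⟩ : (Ideal (𝓞 F))⁰) = 1 :=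
      Subtype.ext (show x = (1 : Ideal (𝓞 F)) from h1.trans Ideal.one_eq_top.symm)
    rw [this, map_one, one_smul]
    show ζ = ζ ^ Ideal.absNorm ((1 : (Ideal (𝓞 F))⁰) : Ideal (𝓞 F))
    rw [Submonoid.coe_one, Ideal.one_eq_top, Ideal.absNorm_top, pow_one]
  | h₃ a p ha hp ih =>
    have hp0 : p ≠ ⊥ := hp.ne_zero
    have hpP : p.IsPrime := Ideal.isPrime_of_prime hp
    have ha' : a ∈ (Ideal (𝓞 F))⁰ := mem_nonZeroDivisors_of_ne_zero ha
    have hsplit : (⟨p * a, hI⟩ : (Ideal (𝓞 F))⁰) =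
        ⟨p, mem_nonZeroDivisors_of_ne_zero hp0⟩ * ⟨a, ha'⟩ := rfl
    have hcopa : IsCoprimeTo F m a := fun 𝔅 h𝔅 hle => hcop 𝔅 h𝔅 (le_trans Ideal.mul_le_right hle)
    have hmp : (m : 𝓞 F) ∉ p := hcop p hpP Ideal.mul_le_left
    rw [hsplit, map_mul, mul_smul, ih ha' hcopa ha, smul_pow', artin_prime F M hp0,
      frobAt_smul_of_pow_eq_one hp0 hmp hζ, ← pow_mul]
    show ζ ^ (Ideal.absNorm p * Ideal.absNorm a) = ζ ^ Ideal.absNorm (p * a)
    rw [map_mul]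

end RootsOfUnity

section Principal

variable (F E : Type*) [Field F] [Field E] [NumberField F] [NumberField E] [Algebra F E]
  [IsAbelianGalois F E]

variable {F}

lemma isCoprimeTo_span_singleton {m : ℕ} {α : 𝓞 F} (hα : α - 1 ∈ Ideal.span {(m : 𝓞 F)}) :
    IsCoprimeTo F m (Ideal.span {α}) := by
  intro 𝔅 h𝔅 hle hm
  have h1 : α ∈ 𝔅 := hle (Ideal.mem_span_singleton_self α)
  have h2 : α - 1 ∈ 𝔅 := ((Ideal.span_singleton_le_iff_mem 𝔅).mpr hm) hα
  have h3 : (1 : 𝓞 F) ∈ 𝔅 := by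
    have := sub_mem h1 h2
    simpa using this
  exact h𝔅.ne_top ((Ideal.eq_top_iff_one _).mpr h3)

/-- the Artin symbol of `(α)`, `α ≡ 1 mod m`, fixes the `m`-th roots of unity (`F` totally complex). -/
theorem artin_span_singleton_smul [IsTotallyComplex F] {m : ℕ} [NeZero m] {α : 𝓞 F} (hα0 : α ≠ 0)
    (hα : α - 1 ∈ Ideal.span {(m : 𝓞 F)}) {ζ : 𝓞 E} (hζ : ζ ^ m = 1) :
    artin F E ⟨Ideal.span {α}, mem_nonZeroDivisors_of_ne_zero
      (by rwa [Ne, Ideal.zero_eq_bot, Ideal.span_singleton_eq_bot])⟩ • ζ = ζ := by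
  rw [artin_smul_of_pow_eq_one hζ _ (isCoprimeTo_span_singleton hα)]
  show ζ ^ Ideal.absNorm (Ideal.span {α}) = ζ
  rw [Ideal.absNorm_span_singleton]
  have hpos := intNorm_pos_of_isTotallyComplex hα0
  have hmod := intNorm_modEq_one hα
  obtain ⟨n, hn⟩ : ∃ n : ℕ, Algebra.norm ℤ α = (n : ℤ) := ⟨_, (Int.toNat_of_nonneg hpos.le).symm⟩
  rw [hn, Int.natAbs_natCast]
  rw [hn] at hmod
  have hn1 : ((n : ℕ) : ZMod m) = ((1 : ℕ) : ZMod m) := by
    rw [Nat.cast_one]; exact_mod_cast hmod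
  rw [ZMod.natCast_eq_natCast_iff'] at hn1
  rw [← Nat.mod_add_div n m, pow_add, pow_mul, hζ, one_pow, mul_one, hn1]
  rcases Nat.lt_or_ge 1 m with h | h
  · rw [Nat.mod_eq_of_lt h, pow_one]
  · have hm1 : m = 1 := by
      have := NeZero.pos m
      omega
    subst hm1
    rw [pow_one] at hζ
    rw [hζ, one_pow]

/-- **cyclotomic reciprocity**: in `E = F(ζ_m)` (`F` totally complex) the Artin symbol of a principal ideal
`(α)` with `α ≡ 1 mod m` is trivial. -/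
theorem artin_span_singleton_of_cyclotomic [IsTotallyComplex F] {m : ℕ} [NeZero m]
    [IsCyclotomicExtension {m} F E] {α : 𝓞 F} (hα0 : α ≠ 0)
    (hα : α - 1 ∈ Ideal.span {(m : 𝓞 F)}) :
    artin F E ⟨Ideal.span {α}, mem_nonZeroDivisors_of_ne_zero
      (by rwa [Ne, Ideal.zero_eq_bot, Ideal.span_singleton_eq_bot])⟩ = 1 := by
  refine IsCyclotomicExtension.algEquiv_eq_of_apply_eq {m} F E fun n hn hn0 => ?_
  rw [Set.mem_singleton_iff] at hn
  subst hn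
  obtain ⟨r, hr⟩ := IsCyclotomicExtension.exists_isPrimitiveRoot F E (Set.mem_singleton n) hn0
  refine ⟨r, hr, ?_⟩
  have hint : IsIntegral ℤ r := hr.isIntegral (Nat.pos_of_ne_zero hn0)
  let ζ : 𝓞 E := ⟨r, hint⟩
  have hζ : ζ ^ n = 1 := RingOfIntegers.ext (by
    show ((ζ ^ n : 𝓞 E) : E) = ((1 : 𝓞 E) : E)
    rw [RingOfIntegers.coe_eq_algebraMap, RingOfIntegers.coe_eq_algebraMap, map_pow, map_one]
    exact hr.pow_eq_one)
  have h := artin_span_singleton_smul E hα0 hα hζ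
  have h2 := congrArg (fun x : 𝓞 E => (x : E)) h
  simp only [coe_galSMul] at h2
  rw [AlgEquiv.one_apply]
  exact h2

end Principal

section Sub

variable {F M' E : Type*} [Field F] [Field M'] [Field E] [NumberField F] [NumberField M']
  [NumberField E] [Algebra F M'] [Algebra M' E] [Algebra F E] [IsScalarTower F M' E]
  [IsAbelianGalois F M'] [IsAbelianGalois F E]

/-- the same for an unramified subextension `M'/F` of the cyclotomic extension `F(ζ_m)/F`. -/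
theorem artin_span_singleton_of_le_cyclotomic [IsTotallyComplex F] {m : ℕ} [NeZero m]
    [IsCyclotomicExtension {m} F E] (hunr : IsUnramifiedEverywhere F M') {α : 𝓞 F} (hα0 : α ≠ 0)
    (hα : α - 1 ∈ Ideal.span {(m : 𝓞 F)}) :
    artin F M' ⟨Ideal.span {α}, mem_nonZeroDivisors_of_ne_zero
      (by rwa [Ne, Ideal.zero_eq_bot, Ideal.span_singleton_eq_bot])⟩ = 1 := by
  rw [← resGal_artin_self (M := E) hunr, artin_span_singleton_of_cyclotomic E hα0 hα, map_one]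

end Sub

end Fermat.Agent.CFT
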