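import Mathlib
import Fermat.Agent.CFT.P1FrobAt
import Fermat.Agent.CFT.P2Cyclo

/-!
# CFT / P2: the cyclotomic law in the blueprint shape (`IsCoprime` with `span {m}`, roots of unity
in the field)
-/

set_option autoImplicit false

open NumberField
open scoped IsMulCommutative Pointwise nonZeroDivisors

namespace Fermat.Agent.CFT

section Law

variable (F C : Type*) [Field F] [Field C] [NumberField F] [NumberField C] [Algebra F C]

variable {F} in
omit [NumberField F] in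
/-- `IsCoprimeTo F m 𝔄` (no prime contains both `𝔄` and `m`) is coprimality with `(m)`. -/
theorem isCoprimeTo_iff_isCoprime {m : ℕ} {𝔄 : Ideal (𝓞 F)} :
    IsCoprimeTo F m 𝔄 ↔ IsCoprime 𝔄 (Ideal.span {(m : 𝓞 F)}) := by
  rw [Ideal.isCoprime_iff_sup_eq]
  constructor
  · intro h
    by_contra hne
    obtain ⟨𝔅, h𝔅, hle⟩ := Ideal.exists_le_maximal _ hne
    refine h 𝔅 h𝔅.isPrime (le_trans le_sup_left hle) (hle ?_)
    exact Ideal.mem_sup_right (Ideal.mem_span_singleton_self _)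
  · intro h 𝔅 h𝔅 hle hm
    apply h𝔅.ne_top
    rw [eq_top_iff, ← h]
    exact sup_le hle ((Ideal.span_singleton_le_iff_mem 𝔅).mpr hm)

variable [IsAbelianGalois F C]

/-- the cyclotomic law: the Artin symbol of an ideal prime to `m` raises every `m`-th root of
unity of `C` to the power `N𝔞` (no hypothesis that `C` is generated by them). -/
theorem artin_cyclotomic (m : ℕ) [NeZero m] (𝔞 : (Ideal (𝓞 F))⁰)
    (h𝔞 : IsCoprime (𝔞 : Ideal (𝓞 F)) (Ideal.span {(m : 𝓞 F)})) (ζ : C) (hζ : ζ ^ m = 1) :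
    artin F C 𝔞 ζ = ζ ^ Ideal.absNorm (𝔞 : Ideal (𝓞 F)) := by
  have hint : IsIntegral ℤ ζ := by
    refine ⟨Polynomial.X ^ m - 1, Polynomial.monic_X_pow_sub_C 1 (NeZero.ne m), ?_⟩
    simp [hζ]
  set z : 𝓞 C := ⟨ζ, hint⟩ with hz
  have hz1 : z ^ m = 1 := RingOfIntegers.ext (by
    show ((z ^ m : 𝓞 C) : C) = ((1 : 𝓞 C) : C)
    rw [RingOfIntegers.coe_eq_algebraMap, RingOfIntegers.coe_eq_algebraMap, map_pow, map_one]
    exact hζ)
  have h := artin_smul_of_pow_eq_one (F := F) (M := C) hz1 𝔞 (isCoprimeTo_iff_isCoprime.mpr h𝔞)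
  have h2 := congrArg (fun y : 𝓞 C => (y : C)) h
  simp only [coe_galSMul, map_pow] at h2
  exact h2

/-- the cyclotomic law for prime ideals. -/
theorem frobAt_cyclotomic (m : ℕ) [NeZero m] {𝔮 : Ideal (𝓞 F)} [h𝔮 : 𝔮.IsPrime] (hne : 𝔮 ≠ ⊥)
    (hm : (m : 𝓞 F) ∉ 𝔮) (ζ : C) (hζ : ζ ^ m = 1) :
    frobAt F C 𝔮 ζ = ζ ^ Ideal.absNorm 𝔮 := by
  have hint : IsIntegral ℤ ζ := by
    refine ⟨Polynomial.X ^ m - 1, Polynomial.monic_X_pow_sub_C 1 (NeZero.ne m), ?_⟩
    simp [hζ]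
  set z : 𝓞 C := ⟨ζ, hint⟩ with hz
  have hz1 : z ^ m = 1 := RingOfIntegers.ext (by
    show ((z ^ m : 𝓞 C) : C) = ((1 : 𝓞 C) : C)
    rw [RingOfIntegers.coe_eq_algebraMap, RingOfIntegers.coe_eq_algebraMap, map_pow, map_one]
    exact hζ)
  have h := frobAt_smul_of_pow_eq_one (F := F) (M := C) hne hm hz1
  have h2 := congrArg (fun y : 𝓞 C => (y : C)) h
  simp only [coe_galSMul, map_pow] at h2
  exact h2

end Law

end Fermat.Agent.CFT
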