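import Mathlib
import Fermat.Agent.CFT.P2CycloLaw

/-!
# S14 moonshot: "prime to `m`" through the absolute norm

For an ideal `𝔄` of the ring of integers of a number field `F` and a natural number `m`:
`IsCoprime 𝔄 (span {m}) ↔ (absNorm 𝔄).Coprime m`; the same for `IsCoprimeTo F m 𝔄`.
-/

set_option autoImplicit false

open NumberField

namespace Fermat.Agent.CFT

section CoprimeNorm

variable {F : Type*} [Field F] [NumberField F]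

/-- If `(absNorm 𝔄, m) = 1` then `𝔄 + (m) = 1` (Bezout, `absNorm 𝔄 ∈ 𝔄`). -/
theorem isCoprime_span_natCast_of_coprime_absNorm {𝔄 : Ideal (𝓞 F)} {m : ℕ}
    (h : (Ideal.absNorm 𝔄).Coprime m) : IsCoprime 𝔄 (Ideal.span {(m : 𝓞 F)}) := by
  rw [Ideal.isCoprime_iff_exists]
  have hb : IsCoprime ((Ideal.absNorm 𝔄 : ℕ) : ℤ) (m : ℤ) := Nat.isCoprime_iff_coprime.mpr h
  obtain ⟨u, v, huv⟩ := hb
  refine ⟨(u : 𝓞 F) * (Ideal.absNorm 𝔄 : 𝓞 F), 𝔄.mul_mem_left _ (Ideal.absNorm_mem 𝔄),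
    (v : 𝓞 F) * (m : 𝓞 F), Ideal.mul_mem_left _ _ (Ideal.mem_span_singleton_self _), ?_⟩
  have := congrArg (fun z : ℤ => (z : 𝓞 F)) huv
  simpa using this

/-- If `𝔄 + (m) = 1` and `𝔄 ≠ ⊥` then `(absNorm 𝔄, m) = 1` (`m` is a unit of the finite ring
`𝓞 F ⧸ 𝔄`, Cauchy). -/
theorem coprime_absNorm_of_isCoprime_span_natCast {𝔄 : Ideal (𝓞 F)} (hne : 𝔄 ≠ ⊥) {m : ℕ}
    (h : IsCoprime 𝔄 (Ideal.span {(m : 𝓞 F)})) : (Ideal.absNorm 𝔄).Coprime m := by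
  rw [Nat.coprime_iff_gcd_eq_one]
  by_contra hg
  obtain ⟨q, hq, hqd⟩ := Nat.exists_prime_and_dvd hg
  have hqN : q ∣ Ideal.absNorm 𝔄 := hqd.trans (Nat.gcd_dvd_left _ _)
  have hqm : q ∣ m := hqd.trans (Nat.gcd_dvd_right _ _)
  have : Finite (𝓞 F ⧸ 𝔄) := Ideal.finiteQuotientOfFreeOfNeBot 𝔄 hne
  have : Fintype (𝓞 F ⧸ 𝔄) := Fintype.ofFinite _
  have : Fact q.Prime := ⟨hq⟩
  have hcard : q ∣ Fintype.card (𝓞 F ⧸ 𝔄) := by
    rw [← Nat.card_eq_fintype_card, ← Submodule.cardQuot_apply, ← Ideal.absNorm_apply]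
    exact hqN
  obtain ⟨x, hx⟩ := exists_prime_addOrderOf_dvd_card q hcard
  -- `q • x = 0` but `x ≠ 0`
  have hx0 : x ≠ 0 := by
    rintro rfl
    rw [addOrderOf_zero] at hx
    exact hq.one_lt.ne hx
  have hqx : (q : 𝓞 F ⧸ 𝔄) * x = 0 := by
    rw [← nsmul_eq_mul, ← hx]; exact addOrderOf_nsmul_eq_zero x
  -- `m` is a unit mod `𝔄`
  rw [Ideal.isCoprime_iff_exists] at h
  obtain ⟨a, ha, b, hb, hab⟩ := h
  obtain ⟨c, rfl⟩ := Ideal.mem_span_singleton'.mp hb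
  obtain ⟨m', rfl⟩ := hqm
  have h1 : (Ideal.Quotient.mk 𝔄 c) * ((q : 𝓞 F ⧸ 𝔄) * (m' : 𝓞 F ⧸ 𝔄)) = 1 := by
    have := congrArg (Ideal.Quotient.mk 𝔄) hab
    rw [map_add, Ideal.Quotient.eq_zero_iff_mem.mpr ha, zero_add, map_mul, map_one] at this
    simpa using this
  apply hx0
  calc x = ((Ideal.Quotient.mk 𝔄 c) * ((q : 𝓞 F ⧸ 𝔄) * (m' : 𝓞 F ⧸ 𝔄))) * x := by
        rw [h1, one_mul]
    _ = (Ideal.Quotient.mk 𝔄 c) * (m' : 𝓞 F ⧸ 𝔄) * ((q : 𝓞 F ⧸ 𝔄) * x) := by ring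
    _ = 0 := by rw [hqx, mul_zero]

/-- "prime to `m`" through the absolute norm. -/
theorem isCoprime_span_natCast_iff_coprime_absNorm {𝔄 : Ideal (𝓞 F)} (hne : 𝔄 ≠ ⊥) {m : ℕ} :
    IsCoprime 𝔄 (Ideal.span {(m : 𝓞 F)}) ↔ (Ideal.absNorm 𝔄).Coprime m :=
  ⟨coprime_absNorm_of_isCoprime_span_natCast hne, isCoprime_span_natCast_of_coprime_absNorm⟩

/-- "prime to `m`" (in the form `IsCoprimeTo`) through the absolute norm. -/
theorem isCoprimeTo_iff_coprime_absNorm {𝔄 : Ideal (𝓞 F)} (hne : 𝔄 ≠ ⊥) {m : ℕ} :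
    IsCoprimeTo F m 𝔄 ↔ (Ideal.absNorm 𝔄).Coprime m :=
  isCoprimeTo_iff_isCoprime.trans (isCoprime_span_natCast_iff_coprime_absNorm hne)

/-- version for nonzero integral ideals -/
theorem isCoprime_span_natCast_iff_coprime_absNorm₀ (𝔄 : nonZeroDivisors (Ideal (𝓞 F))) {m : ℕ} :
    IsCoprime (𝔄 : Ideal (𝓞 F)) (Ideal.span {(m : 𝓞 F)}) ↔
      (Ideal.absNorm (𝔄 : Ideal (𝓞 F))).Coprime m :=
  isCoprime_span_natCast_iff_coprime_absNorm (nonZeroDivisors.coe_ne_zero 𝔄)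

end CoprimeNorm

end Fermat.Agent.CFT
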