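import Mathlib

/-!
# S14 moonshot, package LN (local norms), owner helper2

`exists_intNorm_sub_pow_mem`: if `M/F` is a Galois extension of number fields with trivial inertia
at all primes containing the natural number `m ≠ 0`, then for every `β : 𝓞 F` some power
`β ^ (m ^ k)` is congruent modulo `m` to a norm `Algebra.intNorm (𝓞 F) (𝓞 M) γ`.
(Residue-field norm surjectivity + CRT; the passage from the radical of `(m)` to `(m)` is done by
raising to the power `m ^ k`.)
-/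

namespace Fermat.Agent.CFT.LN

open scoped Pointwise NumberField

section Residue

variable {A B : Type*} [CommRing A] [CommRing B] [Algebra A B]
variable {G : Type*} [Group G] [Fintype G] [MulSemiringAction G B] [SMulCommClass G A B]
variable [Algebra.IsInvariant A B G]

open Classical in
/-- Residue-level norm surjectivity at a prime with trivial inertia: every `a : A` is, modulo `Q`,
the product of the conjugates of some `g : B` under the decomposition group of `Q`. -/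
theorem exists_prod_stabilizer_smul_sub_mem (Q : Ideal B) [Q.IsMaximal] (P : Ideal A)
    [P.IsMaximal] [Q.LiesOver P] [Finite (B ⧸ Q)] (hI : Q.inertia G = ⊥) (a : A) :
    ∃ g : B, (∏ σ ∈ Finset.univ.filter (fun σ : G => σ • Q = Q), σ • g) - algebraMap A B a ∈ Q := by
  letI : Field (A ⧸ P) := Ideal.Quotient.field P
  letI : Field (B ⧸ Q) := Ideal.Quotient.field Q
  obtain ⟨x, hx⟩ := FiniteField.norm_surjective (A ⧸ P) (B ⧸ Q) (Ideal.Quotient.mk P a)
  obtain ⟨g, rfl⟩ := Ideal.Quotient.mk_surjective x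
  refine ⟨g, ?_⟩
  have hsurj := Ideal.Quotient.stabilizerHom_surjective G P Q
  have hinj : Function.Injective (Ideal.Quotient.stabilizerHom Q P G) := by
    rw [← MonoidHom.ker_eq_bot_iff, Ideal.Quotient.ker_stabilizerHom]
    rw [eq_bot_iff]
    intro σ hσ
    have : (σ : G) ∈ Q.inertia G := Ideal.coe_mem_inertia.mpr hσ
    rw [hI, Subgroup.mem_bot] at this
    exact Subgroup.mem_bot.mpr (Subtype.ext this)
  have hbij : Function.Bijective (Ideal.Quotient.stabilizerHom Q P G) := ⟨hinj, hsurj⟩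
  have h1 := Algebra.norm_eq_prod_automorphisms (A ⧸ P) (Ideal.Quotient.mk Q g)
  rw [hx] at h1
  haveI : Fintype ((B ⧸ Q) ≃ₐ[A ⧸ P] (B ⧸ Q)) := Fintype.ofFinite _
  have h2 : ∏ τ : (B ⧸ Q) ≃ₐ[A ⧸ P] (B ⧸ Q), τ (Ideal.Quotient.mk Q g) =
      ∏ σ : MulAction.stabilizer G Q, (Ideal.Quotient.stabilizerHom Q P G σ)
        (Ideal.Quotient.mk Q g) := by
    rw [← hbij.prod_comp]
  simp only [Ideal.Quotient.stabilizerHom_apply] at h2
  have h3 : ∏ σ : MulAction.stabilizer G Q, Ideal.Quotient.mk Q (σ • g) =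
      ∏ σ ∈ Finset.univ.filter (fun σ : G => σ • Q = Q), Ideal.Quotient.mk Q (σ • g) := by
    rw [Finset.prod_subtype (Finset.univ.filter (fun σ : G => σ • Q = Q))
      (p := fun σ => σ ∈ MulAction.stabilizer G Q) (by simp [MulAction.mem_stabilizer_iff])]
    rfl
  rw [← Ideal.Quotient.eq, map_prod, ← h3, ← h2]
  convert h1.symm using 1
  · convert Finset.prod_congr ?_ (fun _ _ => rfl)
    exact Finset.ext (fun _ => by simp only [Finset.mem_univ])
  · rfl

/-- Global form: for a finite `G`-stable set `S` of maximal ideals of `B` with trivial inertia and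
finite residue fields, every `a : A` is a norm modulo every member of `S`. -/
theorem exists_prod_smul_sub_mem (S : Finset (Ideal B))
    (hmax : ∀ Q ∈ S, Q.IsMaximal) (hstab : ∀ (σ : G), ∀ Q ∈ S, σ • Q ∈ S)
    (hfin : ∀ Q ∈ S, Finite (B ⧸ Q)) (hI : ∀ Q ∈ S, Q.inertia G = ⊥) (a : A) :
    ∃ γ : B, ∀ Q ∈ S, (∏ σ : G, σ • γ) - algebraMap A B a ∈ Q := by
  classical
  -- local data
  have hR1 : ∀ Q ∈ S, ∃ g : B,
      (∏ σ ∈ Finset.univ.filter (fun σ : G => σ • Q = Q), σ • g) - algebraMap A B a ∈ Q := by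
    intro Q hQ
    haveI := hmax Q hQ
    haveI := hfin Q hQ
    haveI : (Q.under A).IsMaximal := by
      haveI : Algebra.IsIntegral A B := Algebra.IsInvariant.isIntegral A B G
      exact Ideal.IsMaximal.under A Q
    haveI : Q.LiesOver (Q.under A) := ⟨rfl⟩
    exact exists_prod_stabilizer_smul_sub_mem Q (Q.under A) (hI Q hQ) a
  choose! g hg using hR1
  -- representatives
  let rep : Ideal A → Ideal B := fun 𝔯 =>
    if h : ∃ Q₀ ∈ S, Q₀.under A = 𝔯 then h.choose else ⊥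
  have hrep : ∀ Q ∈ S, rep (Q.under A) ∈ S ∧ (rep (Q.under A)).under A = Q.under A := by
    intro Q hQ
    have h : ∃ Q₀ ∈ S, Q₀.under A = Q.under A := ⟨Q, hQ, rfl⟩
    simp only [rep, dif_pos h]
    exact h.choose_spec
  let t : Ideal B → B := fun Q => if rep (Q.under A) = Q then g Q else 1
  -- CRT
  have hcop : Pairwise (Function.onFun IsCoprime fun Q : S => (Q : Ideal B)) := by
    intro Q Q' hne
    rw [Function.onFun, Ideal.isCoprime_iff_sup_eq]
    exact Ideal.IsMaximal.coprime_of_ne (hmax Q Q.2) (hmax Q' Q'.2)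
      (fun h => hne (Subtype.ext h))
  obtain ⟨γ, hγ⟩ := Ideal.exists_forall_sub_mem_ideal hcop (fun Q : S => t Q)
  refine ⟨γ, ?_⟩
  have hγ' : ∀ Q ∈ S, γ - t Q ∈ Q := fun Q hQ => hγ ⟨Q, hQ⟩
  -- invariance of the difference
  set x := (∏ σ : G, σ • γ) - algebraMap A B a with hx
  have hxinv : ∀ τ : G, τ • x = x := by
    intro τ
    rw [hx, smul_sub, smul_algebraMap, Finset.smul_prod_perm]
  -- reduce to representatives
  have key : ∀ Q ∈ S, rep (Q.under A) = Q → x ∈ Q := by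
    intro Q hQ hrepQ
    haveI := hmax Q hQ
    rw [hx, ← Ideal.Quotient.eq, map_prod]
    have h1 : ∀ σ : G, Ideal.Quotient.mk Q (σ • γ) =
        if σ • Q = Q then Ideal.Quotient.mk Q (σ • g Q) else 1 := by
      intro σ
      split_ifs with hσ
      · rw [Ideal.Quotient.eq, ← smul_sub]
        have := hγ' Q hQ
        simp only [t, if_pos hrepQ] at this
        have h2 : σ • (γ - g Q) ∈ σ • Q := Ideal.smul_mem_pointwise_smul _ _ _ this
        rwa [hσ] at h2
      · have hQ'' : σ⁻¹ • Q ∈ S := hstab σ⁻¹ Q hQ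
        have hunder : (σ⁻¹ • Q).under A = Q.under A := by
          ext y
          simp only [Ideal.under, Ideal.mem_comap]
          rw [Ideal.mem_inv_pointwise_smul_iff, smul_algebraMap]
        have hne : rep ((σ⁻¹ • Q).under A) ≠ σ⁻¹ • Q := by
          rw [hunder, hrepQ]
          intro h
          apply hσ
          conv_lhs => rw [h]
          rw [smul_inv_smul]
        have := hγ' _ hQ''
        simp only [t, if_neg hne] at this
        rw [Ideal.mem_inv_pointwise_smul_iff, smul_sub, smul_one] at this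
        rw [← map_one (Ideal.Quotient.mk Q), Ideal.Quotient.eq]
        exact this
    simp only [h1]
    rw [← Finset.prod_filter, ← map_prod, Ideal.Quotient.eq]
    exact hg Q hQ
  intro Q' hQ'
  obtain ⟨hQS, hQu⟩ := hrep Q' hQ'
  set Q := rep (Q'.under A) with hQdef
  haveI := (hmax Q hQS).isPrime
  haveI := (hmax Q' hQ').isPrime
  obtain ⟨τ, hτ⟩ := Algebra.IsInvariant.exists_smul_of_under_eq A B G Q Q' hQu
  have hxQ : x ∈ Q := key Q hQS (by rw [hQu])
  rw [hτ, ← hxinv τ]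
  exact Ideal.smul_mem_pointwise_smul _ _ _ hxQ

end Residue

section Pow

variable {R : Type*} [CommRing R]

theorem pow_sub_pow_mem_mul {I J : Ideal R} (hIJ : I ≤ J) {n : ℕ} (hn : (n : R) ∈ J) {x y : R}
    (h : x - y ∈ I) : x ^ n - y ^ n ∈ I * J := by
  have h1 : x ^ n - y ^ n = (x - y) * ∑ i ∈ Finset.range n, x ^ i * y ^ (n - 1 - i) :=
    (Commute.all x y).mul_geom_sum₂ n |>.symm
  rw [h1]
  refine Ideal.mul_mem_mul h ?_
  -- the geometric sum is congruent to `n * y^(n-1)` modulo `I ≤ J`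
  have h2 : (∑ i ∈ Finset.range n, x ^ i * y ^ (n - 1 - i)) - (n : R) * y ^ (n - 1) ∈ I := by
    rw [← Ideal.Quotient.eq_zero_iff_mem]
    have hxy : Ideal.Quotient.mk I x = Ideal.Quotient.mk I y := Ideal.Quotient.eq.mpr h
    simp only [map_sub, map_sum, map_mul, map_pow, hxy, map_natCast]
    have : ∀ i ∈ Finset.range n, (Ideal.Quotient.mk I y) ^ i * (Ideal.Quotient.mk I y) ^ (n - 1 - i)
        = (Ideal.Quotient.mk I y) ^ (n - 1) := by
      intro i hi
      rw [← pow_add]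
      congr 1
      have := Finset.mem_range.mp hi
      omega
    rw [Finset.sum_congr rfl this, Finset.sum_const, Finset.card_range, nsmul_eq_mul, sub_self]
  have h3 : (n : R) * y ^ (n - 1) ∈ J := Ideal.mul_mem_right _ _ hn
  have := J.add_mem (hIJ h2) h3
  simpa using this

theorem pow_pow_sub_pow_pow_mem {J : Ideal R} {n : ℕ} (hn : (n : R) ∈ J) {x y : R}
    (h : x - y ∈ J) (k : ℕ) : x ^ (n ^ k) - y ^ (n ^ k) ∈ J ^ (k + 1) := by
  induction k with
  | zero => simpa using h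
  | succ k ih =>
    rw [pow_succ n k, pow_mul, pow_mul, pow_succ J (k + 1)]
    exact pow_sub_pow_mem_mul (Ideal.pow_le_self (Nat.succ_ne_zero k)) hn ih

end Pow

section NF

variable (F M : Type*) [Field F] [NumberField F] [Field M] [NumberField M] [Algebra F M]

/-- LN' (product form): if `M/F` is Galois with trivial inertia at all primes containing `m`, then
for every `β : 𝓞 F` some power `β ^ (m ^ k)` is congruent mod `m` to a norm from `𝓞 M`. -/
theorem exists_prod_smul_sub_pow_mem [IsGalois F M] (m : ℕ) (hm : m ≠ 0)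
    (hunr : ∀ Q : Ideal (𝓞 M), Q.IsPrime → (m : 𝓞 M) ∈ Q → Q.inertia Gal(M/F) = ⊥) (β : 𝓞 F) :
    ∃ (γ : 𝓞 M) (k : ℕ), (∏ σ : Gal(M/F), σ • γ) - algebraMap (𝓞 F) (𝓞 M) (β ^ (m ^ k)) ∈
      Ideal.span {(m : 𝓞 M)} := by
  classical
  have hm0 : Ideal.span {(m : 𝓞 M)} ≠ ⊥ := by
    rw [Ne, Ideal.span_singleton_eq_bot]
    exact_mod_cast hm
  set S : Finset (Ideal (𝓞 M)) :=
    (UniqueFactorizationMonoid.normalizedFactors (Ideal.span {(m : 𝓞 M)})).toFinset with hS
  have hSmem : ∀ Q, Q ∈ S ↔ Q.IsPrime ∧ (m : 𝓞 M) ∈ Q := by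
    intro Q
    rw [hS, Multiset.mem_toFinset, Ideal.mem_normalizedFactors_iff hm0,
      Ideal.span_singleton_le_iff_mem]
  have hne : ∀ Q ∈ S, Q ≠ ⊥ := by
    intro Q hQ h
    rw [h] at hQ
    have := ((hSmem _).mp hQ).2
    rw [Ideal.mem_bot] at this
    exact hm (by exact_mod_cast this)
  obtain ⟨γ, hγ⟩ := exists_prod_smul_sub_mem (A := 𝓞 F) (B := 𝓞 M) (G := Gal(M/F)) S
    (fun Q hQ => by
      haveI := ((hSmem Q).mp hQ).1
      exact Ring.DimensionLEOne.maximalOfPrime (hne Q hQ) inferInstance)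
    (fun σ Q hQ => by
      rw [hSmem] at hQ ⊢
      haveI := hQ.1
      refine ⟨inferInstance, ?_⟩
      have := Ideal.smul_mem_pointwise_smul σ _ _ hQ.2
      rwa [show σ • ((m : ℕ) : 𝓞 M) = (m : 𝓞 M) from map_natCast (MulSemiringAction.toRingHom _ (𝓞 M) σ) m] at this)
    (fun Q hQ => Ideal.finiteQuotientOfFreeOfNeBot Q (hne Q hQ))
    (fun Q hQ => hunr Q ((hSmem Q).mp hQ).1 ((hSmem Q).mp hQ).2) β
  -- the radical
  set J := (Ideal.span {(m : 𝓞 M)}).radical with hJ
  have hxJ : (∏ σ : Gal(M/F), σ • γ) - algebraMap (𝓞 F) (𝓞 M) β ∈ J := by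
    rw [hJ, Ideal.radical_eq_sInf, Ideal.mem_sInf]
    intro Q hQ
    exact hγ Q ((hSmem Q).mpr ⟨hQ.2, (Ideal.span_singleton_le_iff_mem _).mp hQ.1⟩)
  have hmJ : ((m : ℕ) : 𝓞 M) ∈ J := Ideal.le_radical (Ideal.mem_span_singleton_self _)
  obtain ⟨n, hn⟩ := Ideal.exists_radical_pow_le_of_fg (Ideal.span {(m : 𝓞 M)})
    ((isNoetherianRing_iff_ideal_fg _).mp inferInstance _)
  refine ⟨γ ^ (m ^ n), n, ?_⟩
  have h1 := pow_pow_sub_pow_pow_mem hmJ hxJ n
  have h2 : J ^ (n + 1) ≤ Ideal.span {(m : 𝓞 M)} :=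
    (Ideal.pow_le_pow_right (Nat.le_succ n)).trans hn
  have h3 : (∏ σ : Gal(M/F), σ • γ ^ (m ^ n)) = (∏ σ : Gal(M/F), σ • γ) ^ (m ^ n) := by
    rw [← Finset.prod_pow]
    exact Finset.prod_congr rfl (fun σ _ => smul_pow' σ γ _)
  rw [h3, map_pow]
  exact h2 h1

omit [NumberField F] [NumberField M] in
theorem coe_algebraMap_ringOfIntegers (a : 𝓞 F) :
    ((algebraMap (𝓞 F) (𝓞 M) a : 𝓞 M) : M) = algebraMap F M (a : F) :=
  (IsScalarTower.algebraMap_apply (𝓞 F) (𝓞 M) M a).symm.trans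
    (IsScalarTower.algebraMap_apply (𝓞 F) F M a)

theorem algebraMap_intNorm_eq_prod_smul [IsGalois F M] (γ : 𝓞 M) :
    algebraMap (𝓞 F) (𝓞 M) (Algebra.intNorm (𝓞 F) (𝓞 M) γ) = ∏ σ : Gal(M/F), σ • γ := by
  apply NumberField.RingOfIntegers.coe_injective
  refine (coe_algebraMap_ringOfIntegers F M _).trans ?_
  have h2 : algebraMap (𝓞 F) F (Algebra.intNorm (𝓞 F) (𝓞 M) γ) =
      Algebra.norm F (algebraMap (𝓞 M) M γ) := Algebra.algebraMap_intNorm (K := F) (L := M) γ
  have h3 : ((Algebra.intNorm (𝓞 F) (𝓞 M) γ : 𝓞 F) : F) = Algebra.norm F (γ : M) := h2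
  rw [h3, Algebra.norm_eq_prod_automorphisms]
  have h4 : ((∏ σ : Gal(M/F), σ • γ : 𝓞 M) : M) = ∏ σ : Gal(M/F), ((σ • γ : 𝓞 M) : M) :=
    map_prod (algebraMap (𝓞 M) M) _ _
  refine Eq.trans ?_ h4.symm
  refine Finset.prod_congr rfl (fun σ _ => ?_)
  rfl

theorem mem_span_natCast_of_algebraMap_mem (m : ℕ) (hm : m ≠ 0) (a : 𝓞 F)
    (h : algebraMap (𝓞 F) (𝓞 M) a ∈ Ideal.span {(m : 𝓞 M)}) : a ∈ Ideal.span {(m : 𝓞 F)} := by
  rw [Ideal.mem_span_singleton'] at h ⊢
  obtain ⟨b, hb⟩ := h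
  -- `b = a / m` lies in `F` and is integral
  have hmF : (m : F) ≠ 0 := by exact_mod_cast hm
  have hmM : (m : M) ≠ 0 := by exact_mod_cast hm
  have hbM : (b : M) = algebraMap F M ((a : F) / m) := by
    have h1 : (b : M) * (m : M) = algebraMap F M (a : F) := by
      rw [← coe_algebraMap_ringOfIntegers, ← hb]
      simp
    rw [map_div₀, ← h1, map_natCast, mul_div_cancel_right₀ _ hmM]
  have hint : IsIntegral ℤ ((a : F) / m) := by
    have : IsIntegral ℤ (algebraMap F M ((a : F) / m)) := hbM ▸ b.isIntegral_coe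
    exact (isIntegral_algebraMap_iff (algebraMap F M).injective).mp this
  refine ⟨⟨_, hint⟩, ?_⟩
  apply NumberField.RingOfIntegers.coe_injective
  simp only [map_mul, map_natCast]
  change (a : F) / m * m = a
  rw [div_mul_cancel₀ _ hmF]

/-- LN' : norm surjectivity modulo `m` up to `m`-power exponents, for `M/F` Galois with trivial
inertia above `m`. -/
theorem exists_intNorm_sub_pow_mem [IsGalois F M] (m : ℕ) (hm : m ≠ 0)
    (hunr : ∀ Q : Ideal (𝓞 M), Q.IsPrime → (m : 𝓞 M) ∈ Q → Q.inertia Gal(M/F) = ⊥) (β : 𝓞 F) :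
    ∃ (γ : 𝓞 M) (k : ℕ), Algebra.intNorm (𝓞 F) (𝓞 M) γ - β ^ (m ^ k) ∈
      Ideal.span {(m : 𝓞 F)} := by
  obtain ⟨γ, k, h⟩ := exists_prod_smul_sub_pow_mem F M m hm hunr β
  refine ⟨γ, k, mem_span_natCast_of_algebraMap_mem F M m hm _ ?_⟩
  rw [map_sub, algebraMap_intNorm_eq_prod_smul]
  exact h

end NF

end Fermat.Agent.CFT.LN
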