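import Mathlib

/-!
# S14 moonshot, package ML (moving lemma)

For a Dedekind domain `R` and a nonzero ideal `𝔪`:

* `exists_mk0_eq_isCoprime_ideal` : every ideal class contains an integral ideal prime to `𝔪`;
* `exists_mul_eq_mul_isCoprime_ideal` : two integral ideals prime to `𝔪` in the same class differ
  by nonzero elements whose principal ideals are prime to `𝔪`.

The number field forms `exists_mk0_eq_isCoprime`, `exists_mul_eq_mul_isCoprime` are the blueprint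
statements ML and ML' (modulus a nonzero natural number `m`).
-/

namespace Fermat.Agent.CFT

open scoped nonZeroDivisors

section Dedekind

variable {R : Type*} [CommRing R] [IsDedekindDomain R]

/-- In a Dedekind domain, for nonzero ideals `𝔞₀`, `𝔪` there is `x ∈ 𝔞₀` with
`(x) = 𝔞₀ * 𝔞` and `𝔞` prime to `𝔪`. -/
theorem exists_span_singleton_eq_mul_isCoprime (𝔞₀ 𝔪 : Ideal R) (h₀ : 𝔞₀ ≠ ⊥) (hm : 𝔪 ≠ ⊥) :
    ∃ (x : R) (𝔞 : Ideal R), Ideal.span {x} = 𝔞₀ * 𝔞 ∧ IsCoprime 𝔞 𝔪 := by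
  have hI : 𝔞₀ * 𝔪 ≠ 0 := mul_ne_zero h₀ hm
  obtain ⟨x, hx⟩ := IsDedekindDomain.exists_sup_span_eq (I := 𝔞₀ * 𝔪) (J := 𝔞₀)
    Ideal.mul_le_left hI
  have hxmem : Ideal.span {x} ≤ 𝔞₀ := by rw [← hx]; exact le_sup_right
  obtain ⟨𝔞, h𝔞⟩ := Ideal.dvd_iff_le.mpr hxmem
  refine ⟨x, 𝔞, h𝔞, ?_⟩
  rw [Ideal.isCoprime_iff_sup_eq]
  rw [h𝔞, ← Ideal.mul_sup] at hx
  have h2 : 𝔞₀ * (𝔪 ⊔ 𝔞) = 𝔞₀ * ⊤ := by rw [hx, Ideal.mul_top]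
  have h3 := mul_left_cancel₀ h₀ h2
  rw [sup_comm]; exact h3

/-- **Moving lemma** (ML), Dedekind domain form: every ideal class contains an integral ideal
prime to a given nonzero ideal. -/
theorem exists_mk0_eq_isCoprime_ideal (𝔪 : Ideal R) (hm : 𝔪 ≠ ⊥) (c : ClassGroup R) :
    ∃ 𝔞 : (Ideal R)⁰, ClassGroup.mk0 𝔞 = c ∧ IsCoprime (𝔞 : Ideal R) 𝔪 := by
  by_cases htop : 𝔪 = ⊤
  · obtain ⟨𝔞, rfl⟩ := ClassGroup.mk0_surjective c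
    exact ⟨𝔞, rfl, by rw [htop, Ideal.isCoprime_iff_sup_eq]; simp⟩
  obtain ⟨𝔞₀, h𝔞₀⟩ := ClassGroup.mk0_surjective c⁻¹
  have h₀ : (𝔞₀ : Ideal R) ≠ ⊥ := nonZeroDivisors.coe_ne_zero 𝔞₀
  obtain ⟨x, 𝔞, hx, hcop⟩ := exists_span_singleton_eq_mul_isCoprime (𝔞₀ : Ideal R) 𝔪 h₀ hm
  have h𝔞 : 𝔞 ≠ ⊥ := by
    rintro rfl
    rw [Ideal.isCoprime_iff_sup_eq, bot_sup_eq] at hcop
    exact htop hcop
  have hx0 : x ≠ 0 := by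
    rintro rfl
    rw [Ideal.span_singleton_zero] at hx
    exact (mul_ne_zero h₀ h𝔞) hx.symm
  refine ⟨⟨𝔞, mem_nonZeroDivisors_of_ne_zero h𝔞⟩, ?_, hcop⟩
  have h1 : ClassGroup.mk0 ⟨𝔞, mem_nonZeroDivisors_of_ne_zero h𝔞⟩ = (ClassGroup.mk0 𝔞₀)⁻¹ := by
    rw [ClassGroup.mk0_eq_mk0_inv_iff]
    exact ⟨x, hx0, by rw [hx, mul_comm]⟩
  rw [h1, h𝔞₀, inv_inv]

/-- **Moving lemma** (ML'), Dedekind domain form: two integral ideals prime to `𝔪` in the same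
class differ by nonzero elements prime to `𝔪`. -/
theorem exists_mul_eq_mul_isCoprime_ideal (𝔪 : Ideal R) (hm : 𝔪 ≠ ⊥) (𝔞 𝔟 : (Ideal R)⁰)
    (h𝔞 : IsCoprime (𝔞 : Ideal R) 𝔪) (h𝔟 : IsCoprime (𝔟 : Ideal R) 𝔪)
    (h : ClassGroup.mk0 𝔞 = ClassGroup.mk0 𝔟) :
    ∃ α β : R, α ≠ 0 ∧ β ≠ 0 ∧ IsCoprime (Ideal.span {α}) 𝔪 ∧ IsCoprime (Ideal.span {β}) 𝔪 ∧
      Ideal.span {α} * (𝔞 : Ideal R) = Ideal.span {β} * (𝔟 : Ideal R) := by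
  obtain ⟨𝔠, h𝔠, hcop⟩ := exists_mk0_eq_isCoprime_ideal 𝔪 hm (ClassGroup.mk0 𝔞)⁻¹
  obtain ⟨α', hα'0, hα'⟩ := ClassGroup.mk0_eq_mk0_inv_iff.mp h𝔠
  obtain ⟨β', hβ'0, hβ'⟩ := ClassGroup.mk0_eq_mk0_inv_iff.mp (h ▸ h𝔠)
  -- `𝔠 * 𝔞 = (α')`, `𝔠 * 𝔟 = (β')`
  refine ⟨β', α', hβ'0, hα'0, ?_, ?_, ?_⟩
  · rw [← hβ']; exact IsCoprime.mul_left hcop h𝔟
  · rw [← hα']; exact IsCoprime.mul_left hcop h𝔞
  · rw [← hβ', ← hα']; ring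

end Dedekind

section NumberField

open NumberField

variable (F : Type*) [Field F] [NumberField F]

theorem span_natCast_ne_bot (m : ℕ) (hm : m ≠ 0) : Ideal.span {(m : 𝓞 F)} ≠ ⊥ := by
  rw [Ne, Ideal.span_singleton_eq_bot]
  exact_mod_cast hm

/-- ML: every ideal class contains an integral ideal prime to `m`. -/
theorem exists_mk0_eq_isCoprime (m : ℕ) (hm : m ≠ 0) (c : ClassGroup (𝓞 F)) :
    ∃ 𝔞 : (Ideal (𝓞 F))⁰, ClassGroup.mk0 𝔞 = c ∧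
      IsCoprime (𝔞 : Ideal (𝓞 F)) (Ideal.span {(m : 𝓞 F)}) :=
  exists_mk0_eq_isCoprime_ideal _ (span_natCast_ne_bot F m hm) c

/-- ML': two integral ideals prime to `m` in the same class differ by elements prime to `m`. -/
theorem exists_mul_eq_mul_isCoprime (m : ℕ) (hm : m ≠ 0) (𝔞 𝔟 : (Ideal (𝓞 F))⁰)
    (h𝔞 : IsCoprime (𝔞 : Ideal (𝓞 F)) (Ideal.span {(m : 𝓞 F)}))
    (h𝔟 : IsCoprime (𝔟 : Ideal (𝓞 F)) (Ideal.span {(m : 𝓞 F)}))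
    (h : ClassGroup.mk0 𝔞 = ClassGroup.mk0 𝔟) :
    ∃ α β : 𝓞 F, α ≠ 0 ∧ β ≠ 0 ∧
      IsCoprime (Ideal.span {α}) (Ideal.span {(m : 𝓞 F)}) ∧
      IsCoprime (Ideal.span {β}) (Ideal.span {(m : 𝓞 F)}) ∧
      Ideal.span {α} * (𝔞 : Ideal (𝓞 F)) = Ideal.span {β} * (𝔟 : Ideal (𝓞 F)) :=
  exists_mul_eq_mul_isCoprime_ideal _ (span_natCast_ne_bot F m hm) 𝔞 𝔟 h𝔞 h𝔟 h

end NumberField

end Fermat.Agent.CFT
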