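import Mathlib
import Fermat.Agent.CFT.P1FrobAt
import Fermat.Agent.CFT.P1Tower

/-!
# CFT: the subgroup of norm classes

`normClasses F M ≤ ClassGroup (𝓞 F)`: the subgroup generated by the classes of the relative norms of the nonzero
ideals of `𝓞 M` (blueprint definition), i.e. the image of `P_F · N_{M/F}(I_M)` in the class group.
Basic API: `mk0_relNorm₀_mem_normClasses`, a class-level norm map `normCl K F : Cl(F) →* Cl(K)` and the transitivity
`normCl K F (normClasses F M) ≤ normClasses K L` for `K ⊆ F, L ⊆ M`.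
-/

set_option autoImplicit false

open NumberField
open scoped nonZeroDivisors

namespace Fermat.Agent.CFT

section Def

variable (F M : Type*) [Field F] [NumberField F] [Field M] [NumberField M] [Algebra F M]

/-- The subgroup of `Cl(F)` generated by the classes of the norms of nonzero ideals of `M`. -/
noncomputable def normClasses : Subgroup (ClassGroup (𝓞 F)) :=
  Subgroup.closure {c | ∃ (𝔄 : (Ideal (𝓞 M))⁰)
    (h : Ideal.relNorm (𝓞 F) (𝔄 : Ideal (𝓞 M)) ∈ (Ideal (𝓞 F))⁰), c = ClassGroup.mk0 ⟨_, h⟩}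

variable {F M}

lemma mk0_relNorm₀_mem_normClasses (𝔄 : (Ideal (𝓞 M))⁰) :
    ClassGroup.mk0 (relNorm₀ F M 𝔄) ∈ normClasses F M :=
  Subgroup.subset_closure ⟨𝔄, (relNorm₀ F M 𝔄).2, rfl⟩

lemma normClasses_le_iff (H : Subgroup (ClassGroup (𝓞 F))) :
    normClasses F M ≤ H ↔ ∀ 𝔄 : (Ideal (𝓞 M))⁰, ClassGroup.mk0 (relNorm₀ F M 𝔄) ∈ H := by
  constructor
  · intro h 𝔄
    exact h (mk0_relNorm₀_mem_normClasses 𝔄)
  · intro h
    rw [normClasses, Subgroup.closure_le]
    rintro c ⟨𝔄, h𝔄, rfl⟩
    exact h 𝔄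

end Def

section ClassLift

variable {R : Type*} [CommRing R] [IsDedekindDomain R] {G : Type*} [CommGroup G]

/-- a monoid hom on the nonzero ideals of a Dedekind domain which kills the principal ideals descends to the
class group. -/
noncomputable def classLift (f : (Ideal R)⁰ →* G)
    (hf : ∀ (x : R) (hx : x ≠ 0),
      f ⟨Ideal.span {x}, mem_nonZeroDivisors_of_ne_zero (by simpa using hx)⟩ = 1) :
    ClassGroup R →* G :=
  ((Con.ker (ClassGroup.mk0 (R := R))).lift f (by
    intro I J hIJ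
    rw [Con.ker_rel] at hIJ ⊢
    obtain ⟨x, y, hx, hy, hxy⟩ := ClassGroup.mk0_eq_mk0_iff.mp hIJ
    have hx' : Ideal.span {x} ∈ (Ideal R)⁰ := mem_nonZeroDivisors_of_ne_zero (by simpa using hx)
    have hy' : Ideal.span {y} ∈ (Ideal R)⁰ := mem_nonZeroDivisors_of_ne_zero (by simpa using hy)
    have h : (⟨Ideal.span {x}, hx'⟩ : (Ideal R)⁰) * I = ⟨Ideal.span {y}, hy'⟩ * J :=
      Subtype.ext hxy
    have := congrArg f h
    rwa [map_mul, map_mul, hf x hx, hf y hy, one_mul, one_mul] at this)).comp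
    (Con.quotientKerEquivOfSurjective _ ClassGroup.mk0_surjective).symm.toMonoidHom

@[simp] lemma classLift_mk0 (f : (Ideal R)⁰ →* G)
    (hf : ∀ (x : R) (hx : x ≠ 0),
      f ⟨Ideal.span {x}, mem_nonZeroDivisors_of_ne_zero (by simpa using hx)⟩ = 1) (I : (Ideal R)⁰) :
    classLift f hf (ClassGroup.mk0 I) = f I := by
  have h : (Con.quotientKerEquivOfSurjective _ ClassGroup.mk0_surjective).symm (ClassGroup.mk0 I) =
      ((Con.ker (ClassGroup.mk0 (R := R))).mk' I) := by
    rw [MulEquiv.symm_apply_eq]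
    rfl
  simp only [classLift, MonoidHom.comp_apply, MulEquiv.coe_toMonoidHom, h, Con.lift_mk']

end ClassLift

section NormCl

variable (K F : Type*) [Field K] [NumberField K] [Field F] [NumberField F] [Algebra K F]

lemma relNorm₀_span_singleton (x : 𝓞 F) (hx : x ≠ 0) :
    ((relNorm₀ K F ⟨Ideal.span {x}, mem_nonZeroDivisors_of_ne_zero (by simpa using hx)⟩ :
      (Ideal (𝓞 K))⁰) : Ideal (𝓞 K)) = Ideal.span {Algebra.intNorm (𝓞 K) (𝓞 F) x} := by
  rw [coe_relNorm₀, Ideal.relNorm_singleton]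

/-- the relative norm on ideal classes. -/
noncomputable def normCl : ClassGroup (𝓞 F) →* ClassGroup (𝓞 K) :=
  classLift ((ClassGroup.mk0 (R := 𝓞 K)).comp (relNorm₀ K F)) (by
    intro x hx
    rw [MonoidHom.comp_apply, ClassGroup.mk0_eq_one_iff, relNorm₀_span_singleton K F x hx]
    exact ⟨⟨_, rfl⟩⟩)

@[simp] lemma normCl_mk0 (I : (Ideal (𝓞 F))⁰) :
    normCl K F (ClassGroup.mk0 I) = ClassGroup.mk0 (relNorm₀ K F I) := by
  rw [normCl, classLift_mk0]
  rfl

end NormCl

section Trans

variable (K F L M : Type*) [Field K] [Field F] [Field L] [Field M]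
  [NumberField K] [NumberField F] [NumberField L] [NumberField M]
  [Algebra K F] [Algebra K L] [Algebra F M] [Algebra L M] [Algebra K M]
  [IsScalarTower K F M] [IsScalarTower K L M]

lemma relNorm₀_relNorm₀ (𝔄 : (Ideal (𝓞 M))⁰) :
    relNorm₀ K F (relNorm₀ F M 𝔄) = relNorm₀ K L (relNorm₀ L M 𝔄) := by
  apply Subtype.ext
  simp only [coe_relNorm₀]
  rw [Ideal.relNorm_relNorm, Ideal.relNorm_relNorm]

/-- transitivity: the norm from `F` to `K` maps the norm classes of `M/F` into the norm classes of `L/K`. -/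
theorem normCl_mem_normClasses {c : ClassGroup (𝓞 F)} (hc : c ∈ normClasses F M) :
    normCl K F c ∈ normClasses K L := by
  have : normClasses F M ≤ (normClasses K L).comap (normCl K F) := by
    rw [normClasses_le_iff]
    intro 𝔄
    rw [Subgroup.mem_comap, normCl_mk0, relNorm₀_relNorm₀ K F L M]
    exact mk0_relNorm₀_mem_normClasses _
  exact this hc

end Trans

end Fermat.Agent.CFT
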