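import Mathlib
import Fermat.Prelude.Def_ExtCitation_AdmissibleExtension_v2

/-!
# S14 / package P0a: the Galois-group side of the reduction

`V` an admissible extension (`0 → C → V → μ_p`-twist), `GQ = Gal(Qbar/ℚ)`.  Either `C` has a
`GQ`-stable complement, or the kernel `N` of the action is an open normal subgroup of `GQ`,
contained in `H = ker (χ mod p)` with `[H : N] = p`, containing all inertia groups away from `p`,
containing `D_A ∩ H` for every place `A` over `p`, and such that conjugation by `σ` acts on `H/N`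
by `χ(σ)⁻¹`.
-/

set_option autoImplicit false

noncomputable section

namespace Fermat.Agent.CFT

open ExtCitation ValuationSubring

local notation "Qb" => AlgebraicClosure ℚ
local notation "GQ" => (AlgebraicClosure ℚ ≃ₐ[ℚ] AlgebraicClosure ℚ)

section chi

variable (p : ℕ) [Fact p.Prime]

/-- The mod `p` cyclotomic character of `GQ`, as a monoid homomorphism. -/
def chiP : GQ →* (ZMod p)ˣ :=
  haveI : NeZero p := ⟨(Fact.out : p.Prime).ne_zero⟩
  MonoidHom.mk'
    (fun σ => modularCyclotomicCharacter Qb (card_rootsOfUnity_eq_self p) (σ : Qb ≃+* Qb))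
    (fun a b => by rw [← map_mul]; congr 1)

theorem chiP_apply (σ : GQ) :
    haveI : NeZero p := ⟨(Fact.out : p.Prime).ne_zero⟩
    chiP p σ = modularCyclotomicCharacter Qb (card_rootsOfUnity_eq_self p) (σ : Qb ≃+* Qb) :=
  rfl

theorem cycloExp_cast (σ : GQ) :
    ((cycloExp p σ : ℕ) : ZMod p) = ((chiP p σ : (ZMod p)ˣ) : ZMod p) := by
  have : NeZero p := ⟨(Fact.out : p.Prime).ne_zero⟩
  unfold cycloExp
  exact ZMod.natCast_zmod_val _

end chi

section kernel

variable (V : Type) [AddCommGroup V] [DistribMulAction GQ V]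

/-- The kernel of the action of `GQ` on `V`. -/
def actKer : Subgroup GQ where
  carrier := {σ | ∀ v : V, σ • v = v}
  one_mem' := fun v => one_smul _ v
  mul_mem' := fun {a b} ha hb v => by rw [mul_smul, hb v, ha v]
  inv_mem' := fun {a} ha v => by rw [inv_smul_eq_iff, ha v]

variable {V}

theorem mem_actKer {σ : GQ} : σ ∈ actKer V ↔ ∀ v : V, σ • v = v := Iff.rfl

instance actKer_normal : (actKer V).Normal :=
  ⟨fun n hn g => by
    rw [mem_actKer] at hn ⊢
    intro v
    rw [mul_smul, mul_smul, hn, smul_inv_smul]⟩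

end kernel

/-- The output of the reduction: an open normal subgroup `N ≤ H = ker χ` of index `p` in `H`,
unramified outside `p`, split at `p`, with `Gal(K/ℚ)` acting on `H/N` through `χ⁻¹`. -/
structure ReductionData (p : ℕ) [Fact p.Prime] (N : Subgroup GQ) : Prop where
  normal : N.Normal
  isOpen : IsOpen (N : Set GQ)
  le_ker : N ≤ (chiP p).ker
  relIndex : N.relIndex (chiP p).ker = p
  inertia_le : ∀ ℓ : ℕ, ℓ.Prime → ℓ ≠ p → ∀ A : ValuationSubring Qb, A.LiesOverPrime ℓ →
    A.inertiaSubgroupIn ℚ ≤ N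
  decomp_le : ∀ A : ValuationSubring Qb, A.LiesOverPrime p →
    A.decompositionSubgroup ℚ ⊓ (chiP p).ker ≤ N
  conj : ∀ σ h : GQ, h ∈ (chiP p).ker → ∀ k : ℕ,
    (k : ZMod p) * ((chiP p σ : (ZMod p)ˣ) : ZMod p) = 1 → σ * h * σ⁻¹ * (h ^ k)⁻¹ ∈ N

variable {p : ℕ} [Fact p.Prime]
variable {V : Type} [AddCommGroup V] [Module (ZMod p) V]
  [DistribMulAction GQ V] [SMulCommClass GQ (ZMod p) V]
variable {C : Submodule (ZMod p) V}

section basic

variable (h : IsAdmissibleExtension p V C)

include h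

theorem smul_sub_chi_mem (σ : GQ) (x : V) :
    σ • x - ((chiP p σ : (ZMod p)ˣ) : ZMod p) • x ∈ C := by
  have := h.cyclo_quot σ x
  rwa [cycloExp_cast] at this

theorem smul_sub_mem_of_mem_ker {σ : GQ} (hσ : σ ∈ (chiP p).ker) (x : V) : σ • x - x ∈ C := by
  have := smul_sub_chi_mem h σ x
  rw [MonoidHom.mem_ker] at hσ
  rwa [hσ, Units.val_one, one_smul] at this

theorem exists_notMem : ∃ v₀ : V, v₀ ∉ C := by
  by_contra hcon
  push Not at hcon
  have h1 := h.card_sub
  have h2 := h.card_total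
  have h3 : Nat.card C = Nat.card V :=
    Nat.card_congr ⟨fun x => x.1, fun v => ⟨v, hcon v⟩, fun _ => rfl, fun _ => rfl⟩
  rw [h1, h2] at h3
  have hp : p.Prime := Fact.out
  have : 1 < p := hp.one_lt
  nlinarith [h3]

theorem card_quotient : Nat.card (V ⧸ C) = p := by
  have h1 := h.card_sub
  have h2 := h.card_total
  have h3 := Submodule.card_eq_card_quotient_mul_card C
  rw [h1, h2] at h3
  have hp : p.Prime := Fact.out
  have hpos : 0 < p := hp.pos
  have : p * p = p * Nat.card (V ⧸ C) := by rw [← h3]; ring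
  exact (Nat.eq_of_mul_eq_mul_left hpos this).symm

theorem exists_decomp {v₀ : V} (hv₀ : v₀ ∉ C) (v : V) :
    ∃ c ∈ C, ∃ a : ZMod p, v = c + a • v₀ := by
  have hcard := card_quotient h
  have hne : (Submodule.Quotient.mk v₀ : V ⧸ C) ≠ 0 := by
    rwa [Ne, Submodule.Quotient.mk_eq_zero]
  have htop := zmultiples_eq_top_of_prime_card (G := V ⧸ C) hcard hne
  have hmem : (Submodule.Quotient.mk v : V ⧸ C) ∈ AddSubgroup.zmultiples
      (Submodule.Quotient.mk v₀ : V ⧸ C) := by
    rw [htop]; exact AddSubgroup.mem_top _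
  obtain ⟨n, hn⟩ := AddSubgroup.mem_zmultiples_iff.1 hmem
  refine ⟨v - (n : ZMod p) • v₀, ?_, (n : ZMod p), by abel⟩
  rw [← Submodule.Quotient.mk_eq_zero, Submodule.Quotient.mk_sub, Submodule.Quotient.mk_smul,
    Int.cast_smul_eq_zsmul, hn, sub_self]

/-- an element of `H = ker χ` fixing one vector outside `C` acts trivially -/
theorem mem_actKer_of_fix {v₀ : V} (hv₀ : v₀ ∉ C) {σ : GQ} (_hσ : σ ∈ (chiP p).ker)
    (hfix : σ • v₀ = v₀) : σ ∈ actKer V := by
  rw [mem_actKer]
  intro v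
  obtain ⟨c, hc, a, rfl⟩ := exists_decomp h hv₀ v
  rw [smul_add, h.fixed_sub σ c hc, smul_comm, hfix]

theorem actKer_le_ker : actKer V ≤ (chiP p).ker := by
  intro σ hσ'
  have hσ : ∀ v : V, σ • v = v := mem_actKer.1 hσ'
  obtain ⟨v₀, hv₀⟩ := exists_notMem h
  have h1 := smul_sub_chi_mem h σ v₀
  rw [hσ v₀] at h1
  rw [MonoidHom.mem_ker]
  by_contra hne
  have hne' : (1 : ZMod p) - ((chiP p σ : (ZMod p)ˣ) : ZMod p) ≠ 0 := by
    rw [sub_ne_zero]
    intro h2
    apply hne
    exact Units.ext h2.symm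
  have h2 : ((1 : ZMod p) - ((chiP p σ : (ZMod p)ˣ) : ZMod p)) • v₀ ∈ C := by
    rw [sub_smul, one_smul]; exact h1
  apply hv₀
  have := C.smul_mem ((1 : ZMod p) - ((chiP p σ : (ZMod p)ˣ) : ZMod p))⁻¹ h2
  rwa [smul_smul, inv_mul_cancel₀ hne', one_smul] at this

/-- `D_A ∩ H` acts trivially when `C` has a `D_A`-stable complement -/
theorem decomp_inf_ker_le {A : ValuationSubring Qb} (hA : A.LiesOverPrime p) :
    A.decompositionSubgroup ℚ ⊓ (chiP p).ker ≤ actKer V := by
  rintro σ ⟨hσD, hσH⟩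
  obtain ⟨C', hC', hcompl⟩ := h.locally_split A hA
  rw [mem_actKer]
  intro v
  have hv : v ∈ C ⊔ C' := by rw [hcompl.sup_eq_top]; exact Submodule.mem_top
  obtain ⟨c, hc, c', hc', rfl⟩ := Submodule.mem_sup.1 hv
  rw [smul_add, h.fixed_sub σ c hc]
  congr 1
  have h1 : σ • c' - c' ∈ C := smul_sub_mem_of_mem_ker h hσH c'
  have h2 : σ • c' - c' ∈ C' := C'.sub_mem (hC' σ hσD c' hc') hc'
  have h3 : σ • c' - c' ∈ C ⊓ C' := ⟨h1, h2⟩
  rw [hcompl.inf_eq_bot, Submodule.mem_bot] at h3
  exact sub_eq_zero.1 h3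

end basic

section main

variable (h : IsAdmissibleExtension p V C)

include h

/-- If `H = ker χ` acts trivially on `V`, then `C` has a `GQ`-stable complement (an eigenspace). -/
theorem splitsGlobally_of_ker_le (hle : (chiP p).ker ≤ actKer V) : SplitsGlobally C := by
  by_cases hχ : ∀ σ : GQ, chiP p σ = 1
  · obtain ⟨C', hC'⟩ := Submodule.exists_isCompl C
    refine ⟨C', fun σ x hx => ?_, hC'⟩
    have : σ ∈ actKer V := hle (MonoidHom.mem_ker.2 (hχ σ))
    rw [mem_actKer.1 this x]; exact hx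
  · push Not at hχ
    obtain ⟨σ₀, hσ₀⟩ := hχ
    set g : ZMod p := ((chiP p σ₀ : (ZMod p)ˣ) : ZMod p) with hg
    have hg1 : (1 : ZMod p) - g ≠ 0 := by
      rw [sub_ne_zero]
      intro h2
      exact hσ₀ (Units.ext h2.symm)
    let C' : Submodule (ZMod p) V :=
      { carrier := {v | σ₀ • v = g • v}
        add_mem' := fun {a b} ha hb => by
          simp only [Set.mem_ofPred_eq] at *
          rw [smul_add, smul_add, ha, hb]
        zero_mem' := by simp
        smul_mem' := fun c {v} hv => by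
          simp only [Set.mem_ofPred_eq] at *
          rw [smul_comm, hv, smul_comm] }
    have hmemC' : ∀ v : V, v ∈ C' ↔ σ₀ • v = g • v := fun v => Iff.rfl
    refine ⟨C', ?_, ?_⟩
    · intro τ v hv
      rw [hmemC'] at hv ⊢
      have hκ : σ₀⁻¹ * τ⁻¹ * σ₀ * τ ∈ actKer V := by
        apply hle
        rw [MonoidHom.mem_ker]
        simp only [map_mul, map_inv]
        rw [mul_comm ((chiP p σ₀)⁻¹) ((chiP p τ)⁻¹), mul_assoc ((chiP p τ)⁻¹),
          inv_mul_cancel, mul_one, inv_mul_cancel]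
      have e : σ₀ * τ = τ * σ₀ * (σ₀⁻¹ * τ⁻¹ * σ₀ * τ) := by group
      rw [← mul_smul, e, mul_smul, mem_actKer.1 hκ v, mul_smul, hv, smul_comm]
    · refine ⟨?_, ?_⟩
      · rw [Submodule.disjoint_def]
        intro x hxC hxC'
        rw [hmemC'] at hxC'
        rw [h.fixed_sub σ₀ x hxC] at hxC'
        have h0 : ((1 : ZMod p) - g) • x = 0 := by
          rw [sub_smul, one_smul, ← hxC', sub_self]
        rcases smul_eq_zero.1 h0 with h1 | h1
        · exact absurd h1 hg1
        · exact h1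
      · rw [codisjoint_iff, _root_.eq_top_iff]
        intro v _
        set w : V := σ₀ • v - g • v with hw
        have hwC : w ∈ C := smul_sub_chi_mem h σ₀ v
        set a : ZMod p := ((1 : ZMod p) - g)⁻¹ with ha
        have ha1 : a * (1 - g) = 1 := inv_mul_cancel₀ hg1
        have hv' : v - a • w ∈ C' := by
          rw [hmemC', smul_sub, smul_comm σ₀ a w, h.fixed_sub σ₀ w hwC]
          have hs : σ₀ • v = w + g • v := by rw [hw]; abel
          rw [hs]
          have h0 : (1 - a + g * a : ZMod p) = 0 := by linear_combination -ha1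
          have key : ∀ w' v' : V,
              w' + g • v' - a • w' - g • (v' - a • w') = (1 - a + g * a : ZMod p) • w' := by
            intro w' v'
            module
          have h1 := key w v
          rw [h0, zero_smul, sub_eq_zero] at h1
          exact h1
        have : v = a • w + (v - a • w) := by abel
        rw [this]
        exact Submodule.add_mem_sup (C.smul_mem a hwC) hv'

/-- the additive "cocycle" `η ↦ η v₀ - v₀` on `H = ker χ`, as a homomorphism to `C` -/
def cocycleHom {v₀ : V} (_hv₀ : v₀ ∉ C) : (chiP p).ker →* Multiplicative C where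
  toFun η := Multiplicative.ofAdd ⟨(η : GQ) • v₀ - v₀, smul_sub_mem_of_mem_ker h η.2 v₀⟩
  map_one' := by
    apply Multiplicative.toAdd.injective
    apply Subtype.ext
    simp
  map_mul' η η' := by
    apply Multiplicative.toAdd.injective
    apply Subtype.ext
    simp only [toAdd_ofAdd, toAdd_mul, Submodule.coe_add, Subgroup.coe_mul]
    have h1 : (η : GQ) • ((η' : GQ) • v₀ - v₀) = (η' : GQ) • v₀ - v₀ :=
      h.fixed_sub _ _ (smul_sub_mem_of_mem_ker h η'.2 v₀)
    rw [mul_smul]
    rw [smul_sub] at h1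
    rw [sub_eq_iff_eq_add] at h1
    rw [h1]
    abel

theorem cocycleHom_ker {v₀ : V} (hv₀ : v₀ ∉ C) :
    (cocycleHom h hv₀).ker = (actKer V).subgroupOf (chiP p).ker := by
  ext η
  rw [MonoidHom.mem_ker, Subgroup.mem_subgroupOf]
  constructor
  · intro h1
    have h2 : (η : GQ) • v₀ - v₀ = 0 := by
      have := congrArg (fun x : Multiplicative C => ((Multiplicative.toAdd x : C) : V)) h1
      simpa [cocycleHom] using this
    exact mem_actKer_of_fix h hv₀ η.2 (sub_eq_zero.1 h2)
  · intro h1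
    apply Multiplicative.toAdd.injective
    apply Subtype.ext
    simp only [cocycleHom, MonoidHom.coe_mk, OneHom.coe_mk, toAdd_ofAdd, toAdd_one,
      ZeroMemClass.coe_zero]
    rw [mem_actKer.1 h1 v₀, sub_self]

theorem relIndex_actKer (hne : ¬ (chiP p).ker ≤ actKer V) :
    (actKer V).relIndex (chiP p).ker = p := by
  obtain ⟨v₀, hv₀⟩ := exists_notMem h
  have hcardC : Nat.card (Multiplicative C) = p := by
    rw [Nat.card_congr Multiplicative.toAdd]; exact h.card_sub
  have : Fact (Nat.card (Multiplicative C)).Prime := ⟨by rw [hcardC]; exact Fact.out⟩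
  rw [Subgroup.relIndex, ← cocycleHom_ker h hv₀, Subgroup.index_ker]
  rcases Subgroup.eq_bot_or_eq_top_of_prime_card (cocycleHom h hv₀).range with h1 | h1
  · exfalso
    apply hne
    intro η hη
    have h2 : (cocycleHom h hv₀) ⟨η, hη⟩ ∈ (cocycleHom h hv₀).range := ⟨_, rfl⟩
    rw [h1, Subgroup.mem_bot, ← MonoidHom.mem_ker, cocycleHom_ker h hv₀,
      Subgroup.mem_subgroupOf] at h2
    exact h2
  · rw [h1, Nat.card_congr Subgroup.topEquiv.toEquiv, hcardC]

theorem pow_smul_eq {v₀ : V} {η : GQ} (hη : η ∈ (chiP p).ker) (n : ℕ) :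
    η ^ n • v₀ = v₀ + (n : ZMod p) • (η • v₀ - v₀) := by
  induction n with
  | zero => simp
  | succ n ih =>
    have hd : η • v₀ - v₀ ∈ C := smul_sub_mem_of_mem_ker h hη v₀
    have h1 : η ^ n • (η • v₀ - v₀) = η • v₀ - v₀ := h.fixed_sub _ _ hd
    have h2 : η • v₀ = v₀ + (η • v₀ - v₀) := by abel
    rw [pow_succ, mul_smul, h2, smul_add, ih, h1, ← h2, Nat.cast_succ, add_smul, one_smul]
    abel

/-- conjugation by `σ` acts on `H/N` through `χ(σ)⁻¹` -/
theorem conj_mem_actKer (σ η : GQ) (hη : η ∈ (chiP p).ker) (k : ℕ)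
    (hk : (k : ZMod p) * ((chiP p σ : (ZMod p)ˣ) : ZMod p) = 1) :
    σ * η * σ⁻¹ * (η ^ k)⁻¹ ∈ actKer V := by
  obtain ⟨v₀, hv₀⟩ := exists_notMem h
  have hη1 : chiP p η = 1 := MonoidHom.mem_ker.1 hη
  have hκ : σ * η * σ⁻¹ * (η ^ k)⁻¹ ∈ (chiP p).ker := by
    rw [MonoidHom.mem_ker]
    simp only [map_mul, map_inv, map_pow, hη1, mul_one, one_pow, inv_one, mul_inv_cancel]
  apply mem_actKer_of_fix h hv₀ hκ
  set d : V := η • v₀ - v₀ with hd
  have hdC : d ∈ C := smul_sub_mem_of_mem_ker h hη v₀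
  -- `(η^k)⁻¹ v₀ = v₀ - k d`
  have h1 : (η ^ k)⁻¹ • v₀ = v₀ - (k : ZMod p) • d := by
    have h2 := pow_smul_eq h (v₀ := v₀) hη k
    rw [inv_smul_eq_iff, smul_sub, h2, smul_comm, h.fixed_sub _ _ hdC]
    abel
  -- `σ⁻¹ v₀ = χ(σ⁻¹) v₀ + c₁`
  set s : ZMod p := ((chiP p σ⁻¹ : (ZMod p)ˣ) : ZMod p) with hs
  set c₁ : V := σ⁻¹ • v₀ - s • v₀ with hc₁
  have hc₁C : c₁ ∈ C := smul_sub_chi_mem h σ⁻¹ v₀
  have h3 : σ⁻¹ • v₀ = s • v₀ + c₁ := by rw [hc₁]; abel
  have hsk : s = (k : ZMod p) := by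
    have h4 : s * ((chiP p σ : (ZMod p)ˣ) : ZMod p) = 1 := by
      rw [hs, ← Units.val_mul, ← map_mul, inv_mul_cancel, map_one, Units.val_one]
    have hu : ((chiP p σ : (ZMod p)ˣ) : ZMod p) ≠ 0 := (chiP p σ).ne_zero
    exact mul_right_cancel₀ hu (h4.trans hk.symm)
  -- `σ η σ⁻¹ v₀ = v₀ + s d`
  have h5 : (σ * η * σ⁻¹) • v₀ = v₀ + s • d := by
    rw [mul_smul, mul_smul, h3, smul_add, smul_comm η s v₀, h.fixed_sub η c₁ hc₁C]
    have h6 : η • v₀ = v₀ + d := by rw [hd]; abel
    rw [h6, smul_add, smul_add, smul_add, smul_comm σ s v₀, smul_comm σ s d,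
      h.fixed_sub σ d hdC]
    have h7 : s • σ • v₀ + σ • c₁ = v₀ := by
      have := congrArg (fun x => σ • x) h3
      simp only [smul_inv_smul, smul_add] at this
      rw [smul_comm] at this
      exact this.symm
    calc s • σ • v₀ + s • d + σ • c₁ = (s • σ • v₀ + σ • c₁) + s • d := by abel
      _ = v₀ + s • d := by rw [h7]
  have hκC : σ * η * σ⁻¹ ∈ (chiP p).ker := by
    rw [MonoidHom.mem_ker]
    simp only [map_mul, map_inv, hη1, mul_one, mul_inv_cancel]
  rw [mul_smul, h1, smul_sub, h5, smul_comm, h.fixed_sub _ _ hdC, hsk]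
  abel

end main

/-- **P0a, the Galois-group side of the reduction.** -/
theorem reduction (hadm : IsAdmissibleExtensionCts p V C) :
    SplitsGlobally C ∨ ∃ N : Subgroup GQ, ReductionData p N := by
  have h := hadm.toIsAdmissibleExtension
  by_cases hle : (chiP p).ker ≤ actKer V
  · exact Or.inl (splitsGlobally_of_ker_le h hle)
  · refine Or.inr ⟨actKer V, ?_⟩
    exact
      { normal := inferInstance
        isOpen := hadm.open_kernel
        le_ker := actKer_le_ker h
        relIndex := relIndex_actKer h hle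
        inertia_le := fun ℓ hℓ hℓp A hA σ hσ =>
          mem_actKer.2 (h.unramified_outside ℓ hℓ hℓp A hA σ hσ)
        decomp_le := fun A hA => decomp_inf_ker_le h hA
        conj := fun σ η hη k hk => conj_mem_actKer h σ η hη k hk }

end Fermat.Agent.CFT
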