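import Mathlib
import Fermat.Agent.CFT.P0Reduction
import Fermat.Agent.Cofix.Minkowski
import Fermat.Agent.CFT.P1Tower

/-!
# S14 / package P0b: from the Galois-group data to number fields inside `Qbar`
-/

set_option autoImplicit false

open scoped Pointwise NumberField

noncomputable section

namespace Fermat.Agent.CFT

open ExtCitation ValuationSubring

local notation "Qb" => AlgebraicClosure ℚ
local notation "GQ" => (AlgebraicClosure ℚ ≃ₐ[ℚ] AlgebraicClosure ℚ)
local notation "OQ" => integralClosure ℤ (AlgebraicClosure ℚ)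

local instance isAlgebraicQbar_p0 : Algebra.IsAlgebraic ℚ (AlgebraicClosure ℚ) :=
  AlgebraicClosure.isAlgebraic ℚ
local instance isAlgClosureQbar_p0 : IsAlgClosure ℚ (AlgebraicClosure ℚ) :=
  ⟨inferInstance, inferInstance⟩

section cyclo

variable (p : ℕ) [Fact p.Prime]

theorem exists_primitiveRoot_Qb : ∃ ζ : Qb, IsPrimitiveRoot ζ p := by
  have : NeZero p := ⟨(Fact.out : p.Prime).ne_zero⟩
  have : NeZero (p : Qb) := ⟨Nat.cast_ne_zero.mpr (NeZero.ne p)⟩
  exact HasEnoughRootsOfUnity.exists_primitiveRoot Qb p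

/-- a primitive `p`-th root of unity in `Qbar` -/
def zetaQb : Qb := (exists_primitiveRoot_Qb p).choose

theorem zetaQb_spec : IsPrimitiveRoot (zetaQb p) p := (exists_primitiveRoot_Qb p).choose_spec

/-- `K = ℚ(ζ_p)` inside `Qbar` -/
def Kp : IntermediateField ℚ Qb := IntermediateField.adjoin ℚ {zetaQb p}

theorem zetaQb_mem : zetaQb p ∈ Kp p :=
  IntermediateField.subset_adjoin ℚ _ (Set.mem_singleton _)

instance Kp_isCyclotomicExtension : IsCyclotomicExtension {p} ℚ (Kp p) := by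
  have : NeZero p := ⟨(Fact.out : p.Prime).ne_zero⟩
  exact (zetaQb_spec p).intermediateField_adjoin_isCyclotomicExtension ℚ

theorem chiP_spec (σ : GQ) {t : Qb} (ht : t ^ p = 1) :
    σ t = t ^ ((chiP p σ : (ZMod p)ˣ) : ZMod p).val := by
  have hp : NeZero p := ⟨(Fact.out : p.Prime).ne_zero⟩
  have ht0 : t ≠ 0 := by
    rintro rfl
    rw [zero_pow hp.out] at ht
    exact zero_ne_one ht
  have hmem : Units.mk0 t ht0 ∈ rootsOfUnity p Qb := by
    rw [mem_rootsOfUnity]
    ext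
    simpa using ht
  have := modularCyclotomicCharacter.spec Qb (card_rootsOfUnity_eq_self p) (σ : Qb ≃+* Qb) hmem
  rw [chiP_apply]
  simpa using this

theorem mem_ker_chiP_iff (σ : GQ) : σ ∈ (chiP p).ker ↔ σ (zetaQb p) = zetaQb p := by
  have hp : p.Prime := Fact.out
  have hζ := zetaQb_spec p
  have hspec := chiP_spec p σ (hζ.pow_eq_one)
  rw [MonoidHom.mem_ker]
  constructor
  · intro h
    rw [hspec, h, Units.val_one]
    have : Fact (1 < p) := ⟨hp.one_lt⟩
    rw [ZMod.val_one, pow_one]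
  · intro h
    rw [h] at hspec
    have h1 : (zetaQb p) ^ 1 = (zetaQb p) ^ ((chiP p σ : (ZMod p)ˣ) : ZMod p).val := by
      rw [pow_one]; exact hspec
    have : NeZero p := ⟨hp.ne_zero⟩
    have h2 := hζ.pow_inj hp.one_lt (ZMod.val_lt _) h1
    apply Units.ext
    rw [Units.val_one]
    have : Fact (1 < p) := ⟨hp.one_lt⟩
    apply ZMod.val_injective
    rw [ZMod.val_one, ← h2]

theorem fixingSubgroup_Kp : (Kp p).fixingSubgroup = (chiP p).ker := by
  ext σ
  rw [mem_ker_chiP_iff, IntermediateField.mem_fixingSubgroup_iff]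
  constructor
  · intro h
    exact h _ (zetaQb_mem p)
  · intro h x hx
    have hle : Kp p ≤ IntermediateField.fixedField (Subgroup.zpowers σ) := by
      rw [Kp, IntermediateField.adjoin_le_iff]
      intro y hy
      rw [Set.mem_singleton_iff] at hy
      subst hy
      rw [SetLike.mem_coe, IntermediateField.mem_fixedField_iff]
      intro τ hτ
      obtain ⟨n, rfl⟩ := Subgroup.mem_zpowers_iff.1 hτ
      have hfix : σ ∈ MulAction.stabilizer GQ (zetaQb p) := h
      have : σ ^ n ∈ MulAction.stabilizer GQ (zetaQb p) := Subgroup.zpow_mem _ hfix n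
      exact this
    have := hle hx
    rw [IntermediateField.mem_fixedField_iff] at this
    exact this σ (Subgroup.mem_zpowers σ)

end cyclo

section fields

variable {p : ℕ} [Fact p.Prime] {N : Subgroup GQ}

/-- `L`, the fixed field of `N` -/
def Lf (N : Subgroup GQ) : IntermediateField ℚ Qb := IntermediateField.fixedField N

section
variable (hN : ReductionData p N)
include hN

theorem fixingSubgroup_Lf : (Lf N).fixingSubgroup = N := by
  have hclosed : IsClosed (N : Set GQ) := Subgroup.isClosed_of_isOpen N hN.isOpen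
  exact InfiniteGalois.fixingSubgroup_fixedField ⟨N, hclosed⟩

theorem finite_and_isGalois_Lf : FiniteDimensional ℚ (Lf N) ∧ IsGalois ℚ (Lf N) := by
  have h1 : IsOpen (Lf N).fixingSubgroup.carrier ∧ (Lf N).fixingSubgroup.Normal := by
    rw [fixingSubgroup_Lf hN]; exact ⟨hN.isOpen, hN.normal⟩
  rwa [InfiniteGalois.isOpen_and_normal_iff_finite_and_isGalois] at h1

theorem finiteDimensional_Lf : FiniteDimensional ℚ (Lf N) := (finite_and_isGalois_Lf hN).1

theorem isGalois_Lf : IsGalois ℚ (Lf N) := (finite_and_isGalois_Lf hN).2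

theorem numberField_Lf : NumberField (Lf N) := by
  have := finiteDimensional_Lf hN
  exact ⟨⟩

theorem Kp_le_Lf : Kp p ≤ Lf N := by
  intro x hx
  rw [Lf, IntermediateField.mem_fixedField_iff]
  intro σ hσ
  have : σ ∈ (Kp p).fixingSubgroup := by rw [fixingSubgroup_Kp]; exact hN.le_ker hσ
  exact (IntermediateField.mem_fixingSubgroup_iff _ _).1 this x hx

end

/-- the `ℚ(ζ_p)`-algebra structure of `L` -/
@[reducible] def algKL (hN : ReductionData p N) : Algebra (Kp p) (Lf N) :=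
  (IntermediateField.inclusion (Kp_le_Lf hN)).toRingHom.toAlgebra

theorem coe_algebraMap_KL (hN : ReductionData p N) (x : Kp p) :
    ((@algebraMap (Kp p) (Lf N) _ _ (algKL hN) x : Lf N) : Qb) = (x : Qb) := rfl

instance numberField_Kp : NumberField (Kp p) := IsCyclotomicExtension.numberField {p} ℚ (Kp p)

section
variable (hN : ReductionData p N)
include hN

theorem isGalois_KL : @IsGalois (Kp p) _ (Lf N) _ (algKL hN) := by
  letI := algKL hN
  have := isGalois_Lf hN
  exact IsGalois.tower_top_of_isGalois ℚ (Kp p) (Lf N)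

theorem finrank_KL : @Module.finrank (Kp p) (Lf N) _ _ (algKL hN).toModule = p := by
  letI := algKL hN
  have hfd := finiteDimensional_Lf hN
  have h1 : Module.finrank ℚ (Lf N) = N.index := by
    rw [IntermediateField.finrank_eq_fixingSubgroup_index, fixingSubgroup_Lf hN]
  have h2 : Module.finrank ℚ (Kp p) = (chiP p).ker.index := by
    rw [IntermediateField.finrank_eq_fixingSubgroup_index, fixingSubgroup_Kp]
  have h3 := Module.finrank_mul_finrank ℚ (Kp p) (Lf N)
  have h4 := Subgroup.relIndex_mul_index hN.le_ker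
  rw [hN.relIndex] at h4
  rw [h1, h2, ← h4] at h3
  have hpos : 0 < (chiP p).ker.index := by
    rw [← h2]; exact Module.finrank_pos
  rw [mul_comm] at h3
  exact Nat.eq_of_mul_eq_mul_right hpos h3

end

section unram

open Fermat.Agent.Lib.Frob Fermat.Agent.Cofix.Mink

variable (hN : ReductionData p N)

omit [Fact p.Prime] in
/-- a prime of `𝓞 L` containing the rational prime `ℓ` lies over `(ℓ)` -/
theorem under_int_eq_span {F : Type*} [Field F] [NumberField F] (P : Ideal (𝓞 F)) [hP : P.IsPrime]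
    {ℓ : ℕ} (hℓ : ℓ.Prime) (hmem : (ℓ : 𝓞 F) ∈ P) : P.under ℤ = Ideal.span {(ℓ : ℤ)} := by
  have : Fact ℓ.Prime := ⟨hℓ⟩
  have hmax : (Ideal.span {(ℓ : ℤ)}).IsMaximal := Int.ideal_span_isMaximal_of_prime ℓ
  have hle : Ideal.span {(ℓ : ℤ)} ≤ P.under ℤ := by
    rw [Ideal.span_singleton_le_iff_mem, Ideal.under_def, Ideal.mem_comap]
    simpa using hmem
  have hne : P.under ℤ ≠ ⊤ := (inferInstance : (P.under ℤ).IsPrime).ne_top
  exact (hmax.eq_of_le hne hle).symm

omit [Fact p.Prime] in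
/-- every nonzero prime of `𝓞 F` contains a rational prime -/
theorem exists_prime_natCast_mem {F : Type*} [Field F] [NumberField F] (P : Ideal (𝓞 F))
    [hP : P.IsPrime] (h0 : P ≠ ⊥) : ∃ ℓ : ℕ, ℓ.Prime ∧ (ℓ : 𝓞 F) ∈ P := by
  have h1 : P.under ℤ ≠ ⊥ := Ideal.under_ne_bot (A := ℤ) h0
  have h2 : (P.under ℤ).IsPrime := inferInstance
  obtain ⟨ℓ, hℓ, hspan⟩ : ∃ ℓ : ℕ, ℓ.Prime ∧ P.under ℤ = Ideal.span {(ℓ : ℤ)} := by
    have hprinc : (P.under ℤ).IsPrincipal := inferInstance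
    obtain ⟨a, ha⟩ := hprinc
    have ha' : P.under ℤ = Ideal.span {a} := ha
    have ha0 : a ≠ 0 := by
      rintro rfl
      apply h1
      rw [ha']; simp
    have hprime : Prime a := by
      rw [← Ideal.span_singleton_prime ha0, ← ha']; exact h2
    refine ⟨a.natAbs, Int.prime_iff_natAbs_prime.1 hprime, ?_⟩
    rw [ha', Int.span_natAbs]
  refine ⟨ℓ, hℓ, ?_⟩
  have : (ℓ : ℤ) ∈ P.under ℤ := by rw [hspan]; exact Ideal.mem_span_singleton_self _
  rw [Ideal.under_def, Ideal.mem_comap] at this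
  simpa using this

include hN

/-- **Key lemma.** An element of `Gal(L/ℚ)` in the inertia group of a nonzero prime of `𝓞 L`
which fixes `K = ℚ(ζ_p)` pointwise is trivial. -/
theorem eq_one_of_mem_inertia_of_fix
    (𝔓 : Ideal (@NumberField.RingOfIntegers (Lf N) _)) (h𝔓 : 𝔓.IsPrime) (h0 : 𝔓 ≠ ⊥)
    (g : (Lf N) ≃ₐ[ℚ] (Lf N))
    (hg : ∀ x : 𝓞 (Lf N), g • x - x ∈ 𝔓)
    (hK : ∀ x : Lf N, (x : Qb) ∈ Kp p → g x = x) : g = 1 := by
  have hgal := isGalois_Lf hN
  have hnf := numberField_Lf hN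
  letI := algK_h7 (Lf N)
  obtain ⟨ℓ, hℓ, hℓ𝔓⟩ := exists_prime_natCast_mem 𝔓 h0
  obtain ⟨A, hA⟩ := exists_liesOverPrime ℓ hℓ
  set P₀ : Ideal (𝓞 (Lf N)) := (idealQ A).under (𝓞 (Lf N)) with hP₀
  have hP₀prime : P₀.IsPrime := inferInstance
  have hℓP₀ : (ℓ : 𝓞 (Lf N)) ∈ P₀ := by
    rw [hP₀, Ideal.under_def, Ideal.mem_comap, map_natCast]
    exact natCast_mem_idealQ A ℓ hA
  have hunder : P₀.under ℤ = 𝔓.under ℤ := by
    rw [under_int_eq_span P₀ hℓ hℓP₀, under_int_eq_span 𝔓 hℓ hℓ𝔓]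
  obtain ⟨τ, hτ⟩ := Algebra.IsInvariant.exists_smul_of_under_eq ℤ (𝓞 (Lf N))
    ((Lf N) ≃ₐ[ℚ] (Lf N)) P₀ 𝔓 hunder
  -- the conjugate `h = τ⁻¹ g τ` is in the inertia group of `P₀`
  set h : (Lf N) ≃ₐ[ℚ] (Lf N) := τ⁻¹ * g * τ with hh
  have hmem : h ∈ P₀.toAddSubgroup.inertia ((Lf N) ≃ₐ[ℚ] (Lf N)) := by
    intro x
    have h1 := hg (τ • x)
    rw [hτ] at h1
    have h2 : τ⁻¹ • (g • τ • x - τ • x) ∈ P₀ := by
      rw [← Ideal.mem_pointwise_smul_iff_inv_smul_mem]; exact h1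
    rw [smul_sub, inv_smul_smul] at h2
    rw [hh, mul_smul, mul_smul]
    exact h2
  obtain ⟨σ, hσI, hσh⟩ := exists_inertia_lift (Lf N) A ℓ hℓ hA h hmem
  -- `σ ∈ N`
  have hσN : σ ∈ N := by
    by_cases hℓp : ℓ = p
    · have hA' : A.LiesOverPrime p := hℓp ▸ hA
      apply hN.decomp_le A hA'
      refine Subgroup.mem_inf.2
        ⟨Fermat.Agent.Unram.mem_decompositionSubgroup_of_mem_inertiaSubgroupIn A hσI, ?_⟩
      rw [← fixingSubgroup_Kp, IntermediateField.mem_fixingSubgroup_iff]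
      intro x hx
      -- `x ∈ K ⊆ L`
      have hxL : x ∈ Lf N := Kp_le_Lf hN hx
      have e1 : σ x = ((AlgEquiv.restrictNormalHom (Lf N) σ) ⟨x, hxL⟩ : Lf N) :=
        (AlgEquiv.restrictNormal_commutes σ (Lf N) ⟨x, hxL⟩).symm
      rw [e1, hσh, hh]
      -- `τ x ∈ K` by normality of `K/ℚ`
      have hτx : ((τ ⟨x, hxL⟩ : Lf N) : Qb) ∈ Kp p := by
        let f : Kp p →ₐ[ℚ] Qb :=
          ((Lf N).val.comp (τ : (Lf N) →ₐ[ℚ] (Lf N))).comp
            (IntermediateField.inclusion (Kp_le_Lf hN))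
        have hgalK : IsGalois ℚ (Kp p) := IsCyclotomicExtension.isGalois {p} ℚ (Kp p)
        have hnormK : @Normal ℚ (Kp p) _ _ (Kp p).algebra' := hgalK.to_normal
        have hf : f.fieldRange = Kp p := AlgHom.fieldRange_of_normal f
        have : f ⟨x, hx⟩ ∈ f.fieldRange := ⟨⟨x, hx⟩, rfl⟩
        rw [hf] at this
        exact this
      have e2 : g (τ ⟨x, hxL⟩) = τ ⟨x, hxL⟩ := hK _ hτx
      show ((τ⁻¹ * g * τ) ⟨x, hxL⟩ : Lf N).1 = x
      rw [AlgEquiv.mul_apply, AlgEquiv.mul_apply, e2]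
      have : τ⁻¹ (τ ⟨x, hxL⟩) = ⟨x, hxL⟩ := by
        rw [← AlgEquiv.mul_apply, inv_mul_cancel, AlgEquiv.one_apply]
      rw [this]
    · exact hN.inertia_le ℓ hℓ hℓp A hA hσI
  have hσ1 : AlgEquiv.restrictNormalHom (Lf N) σ = 1 := by
    apply restrictNormalHom_eq_one_of_mem
    rw [fixingSubgroup_Lf hN]; exact hσN
  rw [hσ1] at hσh
  -- `τ⁻¹ g τ = 1`
  have : g = τ * h * τ⁻¹ := by rw [hh]; group
  rw [this, ← hσh]; group

/-- `L/K` is unramified at every nonzero prime. -/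
theorem isUnramifiedEverywhere_KL :
    letI := algKL hN
    haveI := numberField_Lf hN
    IsUnramifiedEverywhere (Kp p) (Lf N) := by
  letI := algKL hN
  haveI := numberField_Lf hN
  intro 𝔭 h𝔭 h𝔭0 𝔓 h𝔓 hu
  have h𝔓0 : 𝔓 ≠ ⊥ := by
    rintro rfl
    apply h𝔭0
    rw [← hu, Ideal.under_bot]
  rw [eq_bot_iff]
  intro g hg
  rw [Subgroup.mem_bot]
  have h1 : g.restrictScalars ℚ = 1 := by
    apply eq_one_of_mem_inertia_of_fix hN 𝔓 h𝔓 h𝔓0 (g.restrictScalars ℚ)
    · intro x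
      exact hg x
    · intro x hx
      have : x = algebraMap (Kp p) (Lf N) ⟨(x : Qb), hx⟩ := Subtype.ext rfl
      rw [this]
      exact g.commutes _
  refine AlgEquiv.ext fun x => ?_
  have := congrArg (fun f : (Lf N) ≃ₐ[ℚ] (Lf N) => f x) h1
  exact this

/-- the conjugation law: `Gal(K/ℚ)` acts on `Gal(L/K)` through `ω⁻¹`. -/
theorem conj_KL :
    letI := algKL hN
    ∀ (σ : (Lf N) ≃ₐ[ℚ] (Lf N)) (h : (Lf N) ≃ₐ[Kp p] (Lf N)) (ζ : Lf N) (a : ℕ),
      IsPrimitiveRoot ζ p → σ ζ = ζ ^ a →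
      σ * (h.restrictScalars ℚ) ^ a * σ⁻¹ = h.restrictScalars ℚ := by
  letI := algKL hN
  have hgal := isGalois_Lf hN
  intro σ h ζ a hζ hσζ
  have hp : p.Prime := Fact.out
  obtain ⟨σ', hσ'⟩ := AlgEquiv.restrictNormalHom_surjective Qb σ
  obtain ⟨η, hη⟩ := AlgEquiv.restrictNormalHom_surjective Qb (h.restrictScalars ℚ)
  -- `η ∈ H`
  have hηH : η ∈ (chiP p).ker := by
    rw [← fixingSubgroup_Kp, IntermediateField.mem_fixingSubgroup_iff]
    intro x hx
    have hxL : x ∈ Lf N := Kp_le_Lf hN hx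
    have e1 : η x = ((AlgEquiv.restrictNormalHom (Lf N) η) ⟨x, hxL⟩ : Lf N) :=
      (AlgEquiv.restrictNormal_commutes η (Lf N) ⟨x, hxL⟩).symm
    rw [e1, hη]
    have : (⟨x, hxL⟩ : Lf N) = algebraMap (Kp p) (Lf N) ⟨x, hx⟩ := Subtype.ext rfl
    rw [this]
    show ((h (algebraMap (Kp p) (Lf N) ⟨x, hx⟩) : Lf N) : Qb) = _
    rw [h.commutes]
    rfl
  -- `χ(σ') = a`
  have hζ' : IsPrimitiveRoot (ζ : Qb) p := hζ.map_of_injective (Lf N).val.injective
  have hσ'ζ : σ' (ζ : Qb) = (ζ : Qb) ^ a := by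
    have e1 : σ' (ζ : Qb) = ((AlgEquiv.restrictNormalHom (Lf N) σ') ζ : Lf N) :=
      (AlgEquiv.restrictNormal_commutes σ' (Lf N) ζ).symm
    rw [e1, hσ', hσζ]
    rfl
  have hχ : ((a : ℕ) : ZMod p) = ((chiP p σ' : (ZMod p)ˣ) : ZMod p) := by
    have h1 := chiP_spec p σ' hζ'.pow_eq_one
    rw [hσ'ζ] at h1
    have h2 : a ≡ ((chiP p σ' : (ZMod p)ˣ) : ZMod p).val [MOD p] := by
      have := (hζ'.isOfFinOrder (hp.ne_zero)).pow_eq_pow_iff_modEq.1 h1
      rwa [← hζ'.eq_orderOf] at this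
    rw [← ZMod.natCast_zmod_val ((chiP p σ' : (ZMod p)ˣ) : ZMod p)]
    exact (ZMod.natCast_eq_natCast_iff a _ p).2 h2
  have hk : ((a : ℕ) : ZMod p) * ((chiP p σ'⁻¹ : (ZMod p)ˣ) : ZMod p) = 1 := by
    rw [hχ, ← Units.val_mul, ← map_mul, mul_inv_cancel, map_one, Units.val_one]
  have hmem := hN.conj σ'⁻¹ η hηH a hk
  rw [inv_inv] at hmem
  have h1 : AlgEquiv.restrictNormalHom (Lf N) (σ'⁻¹ * η * σ' * (η ^ a)⁻¹) = 1 := by
    apply restrictNormalHom_eq_one_of_mem
    rw [fixingSubgroup_Lf hN]; exact hmem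
  rw [map_mul, map_mul, map_mul, map_inv, map_inv, map_pow, hσ', hη] at h1
  -- `σ⁻¹ h σ (h^a)⁻¹ = 1`
  have h2 : σ⁻¹ * h.restrictScalars ℚ * σ = (h.restrictScalars ℚ) ^ a := mul_inv_eq_one.1 h1
  rw [← h2]; group

end unram

end fields

section final

open ExtCitation

/-- **The class-field-theory half of S14**, as a statement about abstract number fields: there is
no unramified cyclic extension `L` of degree `p` of `K = ℚ(ζ_p)`, Galois over `ℚ`, on whose Galois
group `Gal(K/ℚ)` acts through `ω⁻¹`. -/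
def CoreStatement (p : ℕ) [Fact p.Prime] : Prop :=
  ∀ (K L : Type) [Field K] [NumberField K] [Field L] [NumberField L] [Algebra K L]
    [IsCyclotomicExtension {p} ℚ K] [IsGalois K L] [IsGalois ℚ L],
    Module.finrank K L = p → IsUnramifiedEverywhere K L →
    (∀ (σ : L ≃ₐ[ℚ] L) (h : L ≃ₐ[K] L) (ζ : L) (a : ℕ), IsPrimitiveRoot ζ p →
      σ ζ = ζ ^ a → σ * (h.restrictScalars ℚ) ^ a * σ⁻¹ = h.restrictScalars ℚ) → False

variable {p : ℕ} [Fact p.Prime]

/-- **P0b.** The data produced by the reduction contradict the class-field-theory core. -/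
theorem false_of_reductionData (hcore : CoreStatement p) {N : Subgroup GQ}
    (hN : ReductionData p N) : False := by
  letI := algKL hN
  haveI := numberField_Lf hN
  haveI := isGalois_Lf hN
  haveI := isGalois_KL hN
  exact hcore (Kp p) (Lf N) (finrank_KL hN) (isUnramifiedEverywhere_KL hN) (conj_KL hN)

/-- **S14 from the class-field-theory core.** -/
theorem extVanishingCts_of_core (hcore : CoreStatement p) : ExtVanishingCts p := by
  intro V _ _ _ _ C hadm
  rcases reduction hadm with h | ⟨N, hN⟩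
  · exact h
  · exact (false_of_reductionData hcore hN).elim

end final

end Fermat.Agent.CFT
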