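import Mathlib
import Fermat.Agent.CFT.P1FrobAt
import Fermat.Agent.CFT.P1Tower

/-!
# CFT / P1: primes whose Frobenius fixes an intermediate field have a degree-one prime above them
-/

set_option autoImplicit false

open NumberField
open scoped IsMulCommutative Pointwise nonZeroDivisors

namespace Fermat.Agent.CFT

section CardLe

/-- a finite field all of whose elements are roots of `X ^ q - X` has at most `q` elements. -/
lemma natCard_le_of_forall_pow_eq {k : Type*} [Field k] [Finite k] {q : ℕ} (hq : 1 < q)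
    (h : ∀ a : k, a ^ q = a) : Nat.card k ≤ q := by
  classical
  have := Fintype.ofFinite k
  rw [Nat.card_eq_fintype_card]
  have hne : (Polynomial.X ^ q - Polynomial.X : Polynomial k) ≠ 0 :=
    FiniteField.X_pow_card_sub_X_ne_zero k hq
  have hsub : (Finset.univ : Finset k).val ⊆ (Polynomial.X ^ q - Polynomial.X : Polynomial k).roots := by
    intro a _
    rw [Polynomial.mem_roots hne, Polynomial.IsRoot.def]
    simp [h a]
  have := Polynomial.card_le_degree_of_subset_roots hsub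
  rwa [FiniteField.X_pow_card_sub_X_natDegree_eq k hq, Finset.card_univ] at this

end CardLe

section NeBot

/-- a prime lying over a nonzero prime is nonzero (no Galois hypothesis). -/
lemma ne_bot_of_under_eq {A B : Type*} [Field A] [Field B] [NumberField A] [NumberField B]
    [Algebra A B] {𝔮 : Ideal (𝓞 A)} (hne : 𝔮 ≠ ⊥) {𝔔 : Ideal (𝓞 B)}
    (hu : 𝔔.under (𝓞 A) = 𝔮) : 𝔔 ≠ ⊥ := by
  rintro rfl
  apply hne
  rw [← hu, Ideal.under_bot]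

end NeBot

section DegreeOne

variable {K F Ω : Type*} [Field K] [Field F] [Field Ω]
  [NumberField K] [NumberField F] [NumberField Ω]
  [Algebra K F] [Algebra F Ω] [Algebra K Ω] [IsScalarTower K F Ω]
  [IsAbelianGalois K Ω]

/-- if the Frobenius of `𝔮` in `Ω/K` fixes the intermediate field `F` pointwise, every prime of `F`
above `𝔮` has residue degree one: its absolute norm is that of `𝔮`. -/
theorem absNorm_le_of_frobAt_fixes {𝔮 : Ideal (𝓞 K)} [h𝔮 : 𝔮.IsPrime] (hne : 𝔮 ≠ ⊥)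
    (hfix : ∀ x : F, frobAt K Ω 𝔮 (algebraMap F Ω x) = algebraMap F Ω x)
    (𝔔 : Ideal (𝓞 F)) [h𝔔 : 𝔔.IsPrime] (hu : 𝔔.under (𝓞 K) = 𝔮) :
    Ideal.absNorm 𝔔 ≤ Ideal.absNorm 𝔮 := by
  obtain ⟨⟨𝔓, h𝔓, h𝔓o⟩⟩ := Ideal.nonempty_primesOver (S := 𝓞 Ω) 𝔔
  have huF : 𝔓.under (𝓞 F) = 𝔔 := h𝔓o.over.symm
  have huK : 𝔓.under (𝓞 K) = 𝔮 := by rw [← hu, ← huF, Ideal.under_under]
  have hpow := isPowFrob_frobAt K Ω hne 𝔓 huK
  have h𝔔ne : 𝔔 ≠ ⊥ := ne_bot_of_under_eq hne hu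
  have := finite_quotient_of_prime 𝔔 h𝔔ne
  have := finite_quotient_of_prime 𝔮 hne
  have hmax : 𝔔.IsMaximal := Ring.DimensionLEOne.maximalOfPrime h𝔔ne h𝔔
  let _ := Ideal.Quotient.field 𝔔
  have hq1 : 1 < Nat.card (𝓞 K ⧸ 𝔮) := by
    have : Nontrivial (𝓞 K ⧸ 𝔮) := Ideal.Quotient.nontrivial_iff.mpr h𝔮.ne_top
    exact Finite.one_lt_card
  rw [← natCard_quotient_eq_absNorm, ← natCard_quotient_eq_absNorm]
  refine natCard_le_of_forall_pow_eq hq1 fun a => ?_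
  obtain ⟨x, rfl⟩ := Ideal.Quotient.mk_surjective a
  rw [← map_pow, eq_comm, Ideal.Quotient.eq, ← huF, Ideal.under, Ideal.mem_comap, map_sub, map_pow]
  have hx := hpow (algebraMap (𝓞 F) (𝓞 Ω) x)
  have hfx : frobAt K Ω 𝔮 • algebraMap (𝓞 F) (𝓞 Ω) x = algebraMap (𝓞 F) (𝓞 Ω) x := by
    apply RingOfIntegers.ext
    rw [coe_galSMul]
    exact hfix (x : F)
  rwa [hfx] at hx

/-- if the Frobenius of `𝔮` in `Ω/K` fixes the intermediate field `F` pointwise, every prime of `F`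
above `𝔮` has relative norm `𝔮`. -/
theorem relNorm_eq_of_frobAt_fixes {𝔮 : Ideal (𝓞 K)} [h𝔮 : 𝔮.IsPrime] (hne : 𝔮 ≠ ⊥)
    (hfix : ∀ x : F, frobAt K Ω 𝔮 (algebraMap F Ω x) = algebraMap F Ω x)
    (𝔔 : Ideal (𝓞 F)) [h𝔔 : 𝔔.IsPrime] (hu : 𝔔.under (𝓞 K) = 𝔮) :
    Ideal.relNorm (𝓞 K) 𝔔 = 𝔮 := by
  have hle := absNorm_le_of_frobAt_fixes hne hfix 𝔔 hu
  have : 𝔔.LiesOver 𝔮 := ⟨hu.symm⟩
  obtain ⟨s, hs⟩ := Ideal.exists_relNorm_eq_pow_of_isPrime 𝔔 𝔮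
  have habs : Ideal.absNorm 𝔮 ^ s = Ideal.absNorm 𝔔 := by
    rw [← map_pow, ← hs, Ideal.absNorm_relNorm]
  have h𝔔ne : 𝔔 ≠ ⊥ := ne_bot_of_under_eq hne hu
  have hq1 : 1 < Ideal.absNorm 𝔮 := by
    rw [← natCard_quotient_eq_absNorm]
    have := finite_quotient_of_prime 𝔮 hne
    have : Nontrivial (𝓞 K ⧸ 𝔮) := Ideal.Quotient.nontrivial_iff.mpr h𝔮.ne_top
    exact Finite.one_lt_card
  have hQ1 : 1 < Ideal.absNorm 𝔔 := by
    rw [← natCard_quotient_eq_absNorm]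
    have := finite_quotient_of_prime 𝔔 h𝔔ne
    have : Nontrivial (𝓞 F ⧸ 𝔔) := Ideal.Quotient.nontrivial_iff.mpr h𝔔.ne_top
    exact Finite.one_lt_card
  have hs1 : s = 1 := by
    rcases Nat.lt_or_ge s 1 with h0 | h1
    · have : s = 0 := by omega
      rw [this, pow_zero] at habs
      omega
    · by_contra h2
      have h3 : 2 ≤ s := by omega
      have : Ideal.absNorm 𝔮 ^ 2 ≤ Ideal.absNorm 𝔮 ^ s := Nat.pow_le_pow_right (by omega) h3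
      nlinarith
  rw [hs, hs1, pow_one]

/-- existence form: if the Frobenius of `𝔮` in `Ω/K` fixes `F` pointwise, then `𝔮` is the relative
norm of a prime of `F`. -/
theorem exists_relNorm_eq_of_frobAt_fixes {𝔮 : Ideal (𝓞 K)} [h𝔮 : 𝔮.IsPrime] (hne : 𝔮 ≠ ⊥)
    (hfix : ∀ x : F, frobAt K Ω 𝔮 (algebraMap F Ω x) = algebraMap F Ω x) :
    ∃ 𝔔 : Ideal (𝓞 F), 𝔔.IsPrime ∧ 𝔔.under (𝓞 K) = 𝔮 ∧ Ideal.relNorm (𝓞 K) 𝔔 = 𝔮 := by
  obtain ⟨⟨𝔔, h𝔔, h𝔔o⟩⟩ := Ideal.nonempty_primesOver (S := 𝓞 F) 𝔮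
  have hu : 𝔔.under (𝓞 K) = 𝔮 := h𝔔o.over.symm
  exact ⟨𝔔, h𝔔, hu, relNorm_eq_of_frobAt_fixes hne hfix 𝔔 hu⟩

end DegreeOne

section FrobOne

variable {K L : Type*} [Field K] [Field L] [NumberField K] [NumberField L] [Algebra K L]
  [IsAbelianGalois K L]

/-- if the Frobenius of `𝔭` is trivial, `𝔭` is the relative norm of a prime above it. -/
theorem exists_relNorm_eq_of_frobAt_eq_one {𝔭 : Ideal (𝓞 K)} [h𝔭 : 𝔭.IsPrime] (hne : 𝔭 ≠ ⊥)
    (h1 : frobAt K L 𝔭 = 1) :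
    ∃ 𝔓 : Ideal (𝓞 L), 𝔓.IsPrime ∧ 𝔓.under (𝓞 K) = 𝔭 ∧ Ideal.relNorm (𝓞 K) 𝔓 = 𝔭 := by
  refine exists_relNorm_eq_of_frobAt_fixes (F := L) (Ω := L) hne fun x => ?_
  rw [h1]
  rfl

end FrobOne

end Fermat.Agent.CFT
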