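import Mathlib
import Fermat.Agent.CFT.P1FrobAt
import Fermat.Agent.CFT.P1Tower
import Fermat.Agent.CFT.P1Restrict
import Fermat.Agent.CFT.P2Cyclo
import Fermat.Agent.CFT.NormClasses
import Fermat.Agent.CFT.LNLocalNorm
import Fermat.Agent.CFT.MLMoving

/-!
# S14 moonshot, package P3a (reciprocity for the auxiliary layers), owner helper2

Setting: `F ⊆ M ⊆ C = F(ζ_m)`, `M/F` abelian of prime degree `p ∤ m`, unramified everywhere,
`F` totally complex.  "Prime to `m`" means `IsCoprime (↑𝔞 : Ideal (𝓞 F)) (Ideal.span {(m : 𝓞 F)})`.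

* `isCoprime_span_natCast_iff` : this is `(Ideal.absNorm 𝔞).Coprime m`; `isCoprime_relNorm₀`.
* `exists_relNorm_eq_of_frobAt_eq_one` : a prime with trivial Frobenius is the norm of a prime.
* (a) `artin_pr_eq_one` : principal ideals prime to `m` are in the Artin kernel
  (cyclotomic law P2 + local norms LN + norms in the kernel P1).
* (c) `exists_artin_eq` : the Artin map on ideals prime to `m` is onto (needs `normClasses ≠ ⊤`).
* (b) `mk0_mem_normClasses_of_artin_eq_one` : an ideal prime to `m` in the Artin kernel has its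
  class in `normClasses F M` (needs both inequalities as hypotheses `hR4`, `hR5`).
-/

set_option autoImplicit false

namespace Fermat.Agent.CFT.P3a

open NumberField
open scoped IsMulCommutative Pointwise nonZeroDivisors

section Coprime

variable {F : Type*} [Field F] [NumberField F]

/-- ideal-theoretic coprimality to `m` is numeric coprimality of the absolute norm. -/
theorem isCoprime_span_natCast_iff (I : Ideal (𝓞 F)) (hI : I ≠ ⊥) (m : ℕ) :
    IsCoprime I (Ideal.span {(m : 𝓞 F)}) ↔ (Ideal.absNorm I).Coprime m := by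
  constructor
  · intro h
    rw [Nat.coprime_iff_gcd_eq_one]
    by_contra hg
    obtain ⟨r, hr, hrg⟩ := Nat.exists_prime_and_dvd hg
    have hrN : r ∣ Ideal.absNorm I := hrg.trans (Nat.gcd_dvd_left _ _)
    have hrm : r ∣ m := hrg.trans (Nat.gcd_dvd_right _ _)
    haveI : Fact r.Prime := ⟨hr⟩
    haveI : Finite (𝓞 F ⧸ I) := Ideal.finiteQuotientOfFreeOfNeBot I hI
    have hcard : Nat.card (𝓞 F ⧸ I) = Ideal.absNorm I := natCard_quotient_eq_absNorm I
    obtain ⟨x, hx⟩ := exists_prime_addOrderOf_dvd_card' (G := 𝓞 F ⧸ I) r (hcard ▸ hrN)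
    obtain ⟨y, rfl⟩ := Ideal.Quotient.mk_surjective x
    have hy0 : Ideal.Quotient.mk I y ≠ 0 := by
      intro h0
      rw [h0, addOrderOf_zero] at hx
      exact hr.one_lt.ne hx
    have hry : (r : 𝓞 F) * y ∈ I := by
      rw [← Ideal.Quotient.eq_zero_iff_mem, map_mul, map_natCast, ← nsmul_eq_mul, ← hx]
      exact addOrderOf_nsmul_eq_zero _
    rw [Ideal.isCoprime_iff_exists] at h
    obtain ⟨i, hi, j, hj, hij⟩ := h
    obtain ⟨c, rfl⟩ := Ideal.mem_span_singleton'.mp hj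
    obtain ⟨d, rfl⟩ := hrm
    apply hy0
    rw [Ideal.Quotient.eq_zero_iff_mem]
    have : y = y * i + c * (d : 𝓞 F) * ((r : 𝓞 F) * y) := by
      calc y = y * 1 := (mul_one y).symm
        _ = y * (i + c * ((r * d : ℕ) : 𝓞 F)) := by rw [hij]
        _ = y * i + c * (d : 𝓞 F) * ((r : 𝓞 F) * y) := by push_cast; ring
    rw [this]
    exact I.add_mem (I.mul_mem_left _ hi) (I.mul_mem_left _ hry)
  · intro h
    rw [Ideal.isCoprime_iff_exists]
    have h1 : IsCoprime ((Ideal.absNorm I : ℕ) : ℤ) (m : ℤ) := Nat.isCoprime_iff_coprime.mpr h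
    obtain ⟨u, v, huv⟩ := h1
    refine ⟨(u : 𝓞 F) * (Ideal.absNorm I : 𝓞 F), I.mul_mem_left _ (Ideal.absNorm_mem I),
      (v : 𝓞 F) * (m : 𝓞 F), Ideal.mul_mem_left _ _ (Ideal.mem_span_singleton_self _), ?_⟩
    have := congrArg (fun t : ℤ => (t : 𝓞 F)) huv
    simpa using this

end Coprime

section Principal

variable {F : Type*} [Field F]

/-- the nonzero principal ideal generated by `x ≠ 0`. -/
noncomputable def pr (x : 𝓞 F) (hx : x ≠ 0) : (Ideal (𝓞 F))⁰ :=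
  ⟨Ideal.span {x}, mem_nonZeroDivisors_of_ne_zero
    (by rwa [Ne, Ideal.zero_eq_bot, Ideal.span_singleton_eq_bot])⟩

@[simp] lemma coe_pr (x : 𝓞 F) (hx : x ≠ 0) : ((pr x hx : (Ideal (𝓞 F))⁰) : Ideal (𝓞 F)) =
    Ideal.span {x} := rfl

lemma pr_mul (x y : 𝓞 F) (hx : x ≠ 0) (hy : y ≠ 0) :
    pr (x * y) (mul_ne_zero hx hy) = pr x hx * pr y hy :=
  Subtype.ext (by simp [Ideal.span_singleton_mul_span_singleton])

lemma pr_pow (x : 𝓞 F) (hx : x ≠ 0) (n : ℕ) : pr (x ^ n) (pow_ne_zero n hx) = pr x hx ^ n :=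
  Subtype.ext (by simp [Ideal.span_singleton_pow])

variable [NumberField F]

lemma span_natCast_ne_top {m : ℕ} (hm1 : m ≠ 1) :
    Ideal.span {(m : 𝓞 F)} ≠ ⊤ := by
  intro h
  have h1 := Ideal.absNorm_span_natCast (S := 𝓞 F) m
  rw [h, Ideal.absNorm_top] at h1
  have hd : Module.finrank ℤ (𝓞 F) ≠ 0 := by
    rw [RingOfIntegers.rank]
    exact Module.finrank_pos.ne'
  rcases Nat.pow_eq_one.mp h1.symm with h2 | h2
  · exact hm1 h2
  · exact hd h2

lemma ne_zero_of_sub_one_mem {m : ℕ} (hm1 : m ≠ 1) {α : 𝓞 F}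
    (hα : α - 1 ∈ Ideal.span {(m : 𝓞 F)}) : α ≠ 0 := by
  rintro rfl
  apply span_natCast_ne_top (F := F) hm1
  rw [Ideal.eq_top_iff_one]
  have := Ideal.neg_mem_iff _ |>.mpr hα
  simpa using this

end Principal

section PartA

variable {F M C : Type*} [Field F] [Field M] [Field C] [NumberField F] [NumberField M]
  [NumberField C] [Algebra F M] [Algebra M C] [Algebra F C] [IsScalarTower F M C]
  [IsAbelianGalois F M] [IsAbelianGalois F C]

/-- **P3a (a)**: in an unramified layer `M/F` of prime degree `p` inside `F(ζ_m)`, `p ∤ m`, the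
Artin symbol of a principal ideal prime to `m` is trivial. -/
theorem artin_pr_eq_one [IsTotallyComplex F] {m : ℕ} [NeZero m] [IsCyclotomicExtension {m} F C]
    {p : ℕ} (hpm : m.Coprime p) (hcard : Nat.card Gal(M/F) = p)
    (hunr : IsUnramifiedEverywhere F M) {b : 𝓞 F} (hb0 : b ≠ 0)
    (hb : IsCoprime (Ideal.span {b}) (Ideal.span {(m : 𝓞 F)})) :
    artin F M (pr b hb0) = 1 := by
  have hm0 : m ≠ 0 := NeZero.ne m
  by_cases hm1 : m = 1
  · have : b - 1 ∈ Ideal.span {(m : 𝓞 F)} := by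
      rw [hm1, Nat.cast_one, Ideal.span_singleton_one]; trivial
    exact artin_span_singleton_of_le_cyclotomic (E := C) hunr hb0 this
  -- trivial inertia above `m`
  have hmM : ((m : ℕ) : 𝓞 M) ≠ 0 := by exact_mod_cast hm0
  have hunr' : ∀ Q : Ideal (𝓞 M), Q.IsPrime → (m : 𝓞 M) ∈ Q → Q.inertia Gal(M/F) = ⊥ := by
    intro Q hQ hmQ
    have hQ0 : Q ≠ ⊥ := by
      rintro rfl
      exact hmM ((Ideal.mem_bot).mp hmQ)
    have h1 : (Q.under (𝓞 F)).IsPrime := Ideal.IsPrime.under _ _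
    have h2 : Q.under (𝓞 F) ≠ ⊥ := Ideal.under_ne_bot (𝓞 F) hQ0
    exact hunr _ h1 h2 Q hQ rfl
  obtain ⟨γ, k, hγ⟩ := LN.exists_intNorm_sub_pow_mem F M m hm0 hunr' b
  -- an inverse of `b` modulo `m`
  rw [Ideal.isCoprime_span_singleton_iff] at hb
  obtain ⟨u, hu0, hu⟩ : ∃ u : 𝓞 F, u ≠ 0 ∧ u * b - 1 ∈ Ideal.span {(m : 𝓞 F)} := by
    obtain ⟨u, v, huv⟩ := hb
    have hmF : ((m : ℕ) : 𝓞 F) ≠ 0 := by exact_mod_cast hm0
    by_cases hu0 : u = 0
    · refine ⟨(m : 𝓞 F), hmF, ?_⟩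
      rw [Ideal.mem_span_singleton']
      refine ⟨b - v, ?_⟩
      rw [hu0, zero_mul, zero_add] at huv
      rw [← huv]; ring
    · refine ⟨u, hu0, ?_⟩
      rw [Ideal.mem_span_singleton']
      refine ⟨-v, ?_⟩
      rw [← huv]; ring
  set R := m ^ k with hR
  -- `α₁ = u^R b^R ≡ 1`, `α₂ = u^R N(γ) ≡ 1`
  have h1 : (u * b) ^ R - 1 ∈ Ideal.span {(m : 𝓞 F)} := by
    have := (Ideal.span {(m : 𝓞 F)}).mul_mem_left
      (∑ i ∈ Finset.range R, (u * b) ^ i) hu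
    rwa [mul_comm, mul_geom_sum] at this
  have h2 : u ^ R * Algebra.intNorm (𝓞 F) (𝓞 M) γ - 1 ∈ Ideal.span {(m : 𝓞 F)} := by
    have h3 := (Ideal.span {(m : 𝓞 F)}).mul_mem_left (u ^ R) hγ
    have := (Ideal.span {(m : 𝓞 F)}).add_mem h3 h1
    convert this using 1
    rw [mul_pow]; ring
  have hα₁0 : (u * b) ^ R ≠ 0 := pow_ne_zero _ (mul_ne_zero hu0 hb0)
  have hα₂0 := ne_zero_of_sub_one_mem hm1 h2
  have hN0 : Algebra.intNorm (𝓞 F) (𝓞 M) γ ≠ 0 := right_ne_zero_of_mul hα₂0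
  have hγ0 : γ ≠ 0 := by
    rintro rfl
    exact hN0 (Algebra.intNorm_zero (𝓞 F) (𝓞 M))
  have e1 := artin_span_singleton_of_le_cyclotomic (E := C) hunr hα₁0 h1
  have e2 := artin_span_singleton_of_le_cyclotomic (E := C) hunr hα₂0 h2
  change artin F M (pr _ hα₁0) = 1 at e1
  change artin F M (pr _ hα₂0) = 1 at e2
  -- the norm part is trivial
  have e3 : artin F M (pr _ hN0) = 1 := by
    have : pr _ hN0 = relNorm₀ F M (pr γ hγ0) :=
      Subtype.ext (by rw [coe_relNorm₀, coe_pr, coe_pr, Ideal.relNorm_singleton])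
    rw [this, artin_relNorm hunr]
  have hpr2 : pr _ hα₂0 = pr (u ^ R) (pow_ne_zero _ hu0) * pr _ hN0 := pr_mul _ _ _ _
  rw [hpr2, map_mul, e3, mul_one] at e2
  have hpr1 : pr _ hα₁0 = pr (u ^ R) (pow_ne_zero _ hu0) * pr b hb0 ^ R := by
    rw [← pr_pow, ← pr_mul]
    exact Subtype.ext (by simp [mul_pow])
  rw [hpr1, map_mul, e2, one_mul, map_pow] at e1
  -- `g ^ R = 1` and `g ^ p = 1`
  set g := artin F M (pr b hb0) with hg
  have hgp : g ^ p = 1 := by rw [← hcard]; exact pow_card_eq_one'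
  have hcop : (m ^ k).Coprime p := Nat.Coprime.pow_left k hpm
  have h4 : orderOf g ∣ Nat.gcd R p := Nat.dvd_gcd (orderOf_dvd_of_pow_eq_one e1)
    (orderOf_dvd_of_pow_eq_one hgp)
  rw [hR, Nat.Coprime.gcd_eq_one hcop, Nat.dvd_one, orderOf_eq_one_iff] at h4
  exact h4

end PartA

section DegreeOne

variable {F M : Type*} [Field F] [Field M] [NumberField F] [NumberField M] [Algebra F M]
  [IsAbelianGalois F M]

/-- a prime with trivial Frobenius is the relative norm of a prime above it. -/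
theorem exists_relNorm_eq_of_frobAt_eq_one {𝔮 : Ideal (𝓞 F)} [h𝔮 : 𝔮.IsPrime] (hne : 𝔮 ≠ ⊥)
    (h1 : frobAt F M 𝔮 = 1) : ∃ 𝔔 : Ideal (𝓞 M), 𝔔.IsPrime ∧ Ideal.relNorm (𝓞 F) 𝔔 = 𝔮 := by
  classical
  obtain ⟨⟨𝔔, h𝔔, h𝔔o⟩⟩ := Ideal.nonempty_primesOver (S := 𝓞 M) 𝔮
  have hu : 𝔔.under (𝓞 F) = 𝔮 := h𝔔o.over.symm
  refine ⟨𝔔, h𝔔, ?_⟩
  have h𝔔ne : 𝔔 ≠ ⊥ := ne_bot_of_under_ne_bot F M (hu ▸ hne)
  have hpow := isPowFrob_frobAt F M hne 𝔔 hu
  rw [h1, natCard_quotient_eq_absNorm] at hpow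
  set q := Ideal.absNorm 𝔮 with hq
  have hq1 : 1 < q := by
    have h0 : q ≠ 0 := by
      rw [hq, Ne, Ideal.absNorm_eq_zero_iff]; exact hne
    have h1' : q ≠ 1 := by
      rw [hq, Ne, Ideal.absNorm_eq_one_iff]; exact h𝔮.ne_top
    omega
  -- the residue field of `𝔔` has at most `q` elements
  haveI : 𝔔.IsMaximal := Ring.DimensionLEOne.maximalOfPrime h𝔔ne h𝔔
  letI : Field (𝓞 M ⧸ 𝔔) := Ideal.Quotient.field 𝔔
  haveI : Finite (𝓞 M ⧸ 𝔔) := finite_quotient_of_prime 𝔔 h𝔔ne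
  letI : Fintype (𝓞 M ⧸ 𝔔) := Fintype.ofFinite _
  have hroot : ∀ y : 𝓞 M ⧸ 𝔔, y ^ q = y := by
    intro y
    obtain ⟨x, rfl⟩ := Ideal.Quotient.mk_surjective y
    have := hpow x
    rw [one_smul, ← Ideal.Quotient.eq, map_pow] at this
    exact this.symm
  have hcard : Fintype.card (𝓞 M ⧸ 𝔔) ≤ q := by
    have hpoly : (Polynomial.X ^ q - Polynomial.X : Polynomial (𝓞 M ⧸ 𝔔)) ≠ 0 :=
      FiniteField.X_pow_card_sub_X_ne_zero _ hq1
    have hsub : (Finset.univ : Finset (𝓞 M ⧸ 𝔔)).val ⊆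
        (Polynomial.X ^ q - Polynomial.X : Polynomial (𝓞 M ⧸ 𝔔)).roots := by
      intro y _
      rw [Polynomial.mem_roots hpoly]
      simp [hroot y]
    have := Polynomial.card_le_degree_of_subset_roots hsub
    rwa [FiniteField.X_pow_card_sub_X_natDegree_eq _ hq1, Finset.card_univ] at this
  have hN : Ideal.absNorm 𝔔 ≤ q := by
    rw [← natCard_quotient_eq_absNorm, Nat.card_eq_fintype_card]; exact hcard
  haveI : 𝔔.LiesOver 𝔮 := h𝔔o
  obtain ⟨s, hs⟩ := Ideal.exists_relNorm_eq_pow_of_isPrime 𝔔 𝔮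
  have habs : Ideal.absNorm 𝔔 = q ^ s := by
    rw [← Ideal.absNorm_relNorm (𝓞 F) (𝓞 M) 𝔔, hs, map_pow]
  have hs0 : s ≠ 0 := by
    rintro rfl
    rw [pow_zero] at hs
    have : Ideal.relNorm (𝓞 F) 𝔔 ≤ 𝔮 := by
      rw [← hu]; exact Ideal.relNorm_le_comap (𝓞 F) 𝔔
    rw [hs, Ideal.one_eq_top, top_le_iff] at this
    exact h𝔮.ne_top this
  have hs1 : s ≤ 1 := by
    by_contra hcon
    push Not at hcon
    have : q ^ 2 ≤ q ^ s := Nat.pow_le_pow_right (by omega) hcon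
    have h3 : q * q ≤ q := by
      calc q * q = q ^ 2 := (sq q).symm
        _ ≤ q ^ s := this
        _ = Ideal.absNorm 𝔔 := habs.symm
        _ ≤ q := hN
    nlinarith
  have : s = 1 := by omega
  rw [hs, this, pow_one]

end DegreeOne

section PartB

variable {F M : Type*} [Field F] [Field M] [NumberField F] [NumberField M] [Algebra F M]

/-- the relative norm of an ideal prime to `m` is prime to `m`. -/
theorem isCoprime_relNorm₀ {m : ℕ} (𝔄 : (Ideal (𝓞 M))⁰)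
    (h : IsCoprime (𝔄 : Ideal (𝓞 M)) (Ideal.span {(m : 𝓞 M)})) :
    IsCoprime ((relNorm₀ F M 𝔄 : (Ideal (𝓞 F))⁰) : Ideal (𝓞 F)) (Ideal.span {(m : 𝓞 F)}) := by
  rw [isCoprime_span_natCast_iff _ (nonZeroDivisors.coe_ne_zero _)] at h ⊢
  rwa [coe_relNorm₀, Ideal.absNorm_relNorm]

/-- every norm class is the class of the norm of an ideal. -/
theorem exists_eq_mk0_relNorm₀ {c : ClassGroup (𝓞 F)} (hc : c ∈ normClasses F M) :
    ∃ 𝔄 : (Ideal (𝓞 M))⁰, c = ClassGroup.mk0 (relNorm₀ F M 𝔄) := by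
  have hle : normClasses F M ≤ (normCl F M).range := by
    rw [normClasses_le_iff]
    intro 𝔄
    exact ⟨ClassGroup.mk0 𝔄, normCl_mk0 F M 𝔄⟩
  obtain ⟨c', rfl⟩ := hle hc
  obtain ⟨𝔄, rfl⟩ := ClassGroup.mk0_surjective c'
  exact ⟨𝔄, normCl_mk0 F M 𝔄⟩

variable {C : Type*} [Field C] [NumberField C] [Algebra M C] [Algebra F C] [IsScalarTower F M C]
  [IsAbelianGalois F M] [IsAbelianGalois F C]
variable [IsTotallyComplex F] {m : ℕ} [NeZero m] [IsCyclotomicExtension {m} F C]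
  {p : ℕ}

include C in
/-- Claim A: an ideal prime to `m` whose class is a norm class has trivial Artin symbol. -/
theorem artin_eq_one_of_mem_normClasses (hpm : m.Coprime p) (hcard : Nat.card Gal(M/F) = p)
    (hunr : IsUnramifiedEverywhere F M) (𝔞 : (Ideal (𝓞 F))⁰)
    (h𝔞 : IsCoprime (𝔞 : Ideal (𝓞 F)) (Ideal.span {(m : 𝓞 F)}))
    (hc : ClassGroup.mk0 𝔞 ∈ normClasses F M) : artin F M 𝔞 = 1 := by
  have hm0 : m ≠ 0 := NeZero.ne m
  obtain ⟨𝔄, h𝔄⟩ := exists_eq_mk0_relNorm₀ hc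
  obtain ⟨𝔄', h𝔄', hcop'⟩ := exists_mk0_eq_isCoprime M m hm0 (ClassGroup.mk0 𝔄)
  have h1 : ClassGroup.mk0 𝔞 = ClassGroup.mk0 (relNorm₀ F M 𝔄') := by
    rw [h𝔄, ← normCl_mk0, ← normCl_mk0, h𝔄']
  have hcopN := isCoprime_relNorm₀ (F := F) 𝔄' hcop'
  obtain ⟨α, β, hα0, hβ0, hα, hβ, heq⟩ :=
    exists_mul_eq_mul_isCoprime F m hm0 𝔞 (relNorm₀ F M 𝔄') h𝔞 hcopN h1
  have heq' : pr α hα0 * 𝔞 = pr β hβ0 * relNorm₀ F M 𝔄' := Subtype.ext heq
  have := congrArg (artin F M) heq'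
  rw [map_mul, map_mul, artin_pr_eq_one (C := C) hpm hcard hunr hα0 hα,
    artin_pr_eq_one (C := C) hpm hcard hunr hβ0 hβ, artin_relNorm hunr, one_mul, mul_one] at this
  exact this

include C in
/-- (W): on ideals prime to `m` the Artin symbol only depends on the class modulo norm classes. -/
theorem artin_eq_of_div_mem_normClasses (hpm : m.Coprime p) (hcard : Nat.card Gal(M/F) = p)
    (hunr : IsUnramifiedEverywhere F M) (𝔞 𝔟 : (Ideal (𝓞 F))⁰)
    (h𝔞 : IsCoprime (𝔞 : Ideal (𝓞 F)) (Ideal.span {(m : 𝓞 F)}))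
    (h𝔟 : IsCoprime (𝔟 : Ideal (𝓞 F)) (Ideal.span {(m : 𝓞 F)}))
    (hc : (ClassGroup.mk0 𝔞)⁻¹ * ClassGroup.mk0 𝔟 ∈ normClasses F M) :
    artin F M 𝔞 = artin F M 𝔟 := by
  have hm0 : m ≠ 0 := NeZero.ne m
  obtain ⟨𝔠, h𝔠, hcop⟩ := exists_mk0_eq_isCoprime F m hm0 (ClassGroup.mk0 𝔞)⁻¹
  have h1 : artin F M (𝔞 * 𝔠) = 1 := by
    apply artin_eq_one_of_mem_normClasses (C := C) hpm hcard hunr
    · rw [Submonoid.coe_mul]; exact IsCoprime.mul_left h𝔞 hcop
    · rw [map_mul, h𝔠, mul_inv_cancel]; exact one_mem _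
  have h2 : artin F M (𝔟 * 𝔠) = 1 := by
    apply artin_eq_one_of_mem_normClasses (C := C) hpm hcard hunr
    · rw [Submonoid.coe_mul]; exact IsCoprime.mul_left h𝔟 hcop
    · rw [map_mul, h𝔠, mul_comm]; exact hc
  rw [map_mul] at h1 h2
  rw [eq_inv_of_mul_eq_one_left h1, eq_inv_of_mul_eq_one_left h2]

end PartB

section PartC

variable {F M : Type*} [Field F] [Field M] [NumberField F] [NumberField M] [Algebra F M]
  [IsAbelianGalois F M]

/-- if all primes not containing `m` have trivial Frobenius then every class is a norm class. -/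
theorem normClasses_eq_top_of_frobAt_eq_one {m : ℕ} (hm0 : m ≠ 0)
    (h : ∀ (𝔮 : Ideal (𝓞 F)) (_ : 𝔮.IsPrime), 𝔮 ≠ ⊥ → (m : 𝓞 F) ∉ 𝔮 → frobAt F M 𝔮 = 1) :
    normClasses F M = ⊤ := by
  -- every ideal prime to `m` has its class in `normClasses`
  have key : ∀ I : Ideal (𝓞 F), ∀ hI : I ∈ (Ideal (𝓞 F))⁰,
      IsCoprime I (Ideal.span {(m : 𝓞 F)}) →
      ClassGroup.mk0 ⟨I, hI⟩ ∈ normClasses F M := by
    intro I hI
    have hI0 : I ≠ 0 := nonZeroDivisors.ne_zero hI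
    induction I using UniqueFactorizationMonoid.induction_on_prime with
    | h₁ => exact absurd rfl hI0
    | h₂ x hx =>
      intro _
      have h1 : x = ⊤ := Ideal.isUnit_iff.mp hx
      have : (⟨x, hI⟩ : (Ideal (𝓞 F))⁰) = 1 :=
        Subtype.ext (show x = (1 : Ideal (𝓞 F)) from h1.trans Ideal.one_eq_top.symm)
      rw [this, map_one]; exact one_mem _
    | h₃ a q ha hq ih =>
      intro hcop
      have hq0 : q ≠ ⊥ := hq.ne_zero
      have hqP : q.IsPrime := Ideal.isPrime_of_prime hq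
      have ha' : a ∈ (Ideal (𝓞 F))⁰ := mem_nonZeroDivisors_of_ne_zero ha
      have hq' : q ∈ (Ideal (𝓞 F))⁰ := mem_nonZeroDivisors_of_ne_zero hq0
      have hsplit : (⟨q * a, hI⟩ : (Ideal (𝓞 F))⁰) = ⟨q, hq'⟩ * ⟨a, ha'⟩ := rfl
      have hcopq : IsCoprime q (Ideal.span {(m : 𝓞 F)}) := IsCoprime.of_mul_left_left hcop
      have hcopa : IsCoprime a (Ideal.span {(m : 𝓞 F)}) := IsCoprime.of_mul_left_right hcop
      have hmq : (m : 𝓞 F) ∉ q := by
        intro hm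
        rw [Ideal.isCoprime_iff_sup_eq] at hcopq
        have : q ⊔ Ideal.span {(m : 𝓞 F)} = q :=
          sup_eq_left.mpr ((Ideal.span_singleton_le_iff_mem q).mpr hm)
        rw [this] at hcopq
        exact hqP.ne_top hcopq
      obtain ⟨𝔔, h𝔔, h𝔔N⟩ := exists_relNorm_eq_of_frobAt_eq_one (M := M) hq0 (h q hqP hq0 hmq)
      have h𝔔0 : 𝔔 ≠ ⊥ := by
        rintro rfl
        rw [Ideal.relNorm_bot] at h𝔔N
        exact hq0 h𝔔N.symm
      have hqN : (⟨q, hq'⟩ : (Ideal (𝓞 F))⁰) =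
          relNorm₀ F M ⟨𝔔, mem_nonZeroDivisors_of_ne_zero h𝔔0⟩ :=
        Subtype.ext (by rw [coe_relNorm₀]; exact h𝔔N.symm)
      rw [hsplit, map_mul]
      refine mul_mem ?_ (ih ha' ha hcopa)
      rw [hqN]
      exact mk0_relNorm₀_mem_normClasses _
  rw [eq_top_iff]
  intro c _
  obtain ⟨𝔞, rfl, hcop⟩ := exists_mk0_eq_isCoprime F m hm0 c
  exact key 𝔞 𝔞.2 hcop

variable {C : Type*} [Field C] [NumberField C] [Algebra M C] [Algebra F C] [IsScalarTower F M C]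
  [IsAbelianGalois F C]
variable [IsTotallyComplex F] {m : ℕ} [NeZero m] [IsCyclotomicExtension {m} F C]
  {p : ℕ} [hp : Fact p.Prime]

omit [IsTotallyComplex F] [NeZero m] in
/-- **P3a (c)**: the Artin map restricted to the ideals prime to `m` is onto. -/
theorem exists_artin_eq (hm0 : m ≠ 0) (hcard : Nat.card Gal(M/F) = p)
    (hR4 : normClasses F M ≠ ⊤) (g : Gal(M/F)) :
    ∃ 𝔞 : (Ideal (𝓞 F))⁰, IsCoprime (𝔞 : Ideal (𝓞 F)) (Ideal.span {(m : 𝓞 F)}) ∧
      artin F M 𝔞 = g := by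
  by_contra hcon
  push Not at hcon
  apply hR4
  apply normClasses_eq_top_of_frobAt_eq_one hm0
  intro 𝔮 h𝔮 hne hm𝔮
  by_contra hfrob
  -- `frobAt 𝔮` generates the group of prime order
  have hgen : g ∈ Subgroup.zpowers (frobAt F M 𝔮) := mem_zpowers_of_prime_card hcard hfrob
  haveI : Finite Gal(M/F) := Nat.finite_of_card_ne_zero (hcard ▸ hp.out.ne_zero)
  rw [← mem_powers_iff_mem_zpowers] at hgen
  obtain ⟨k, hk⟩ := hgen
  have h𝔮max : 𝔮.IsMaximal := Ring.DimensionLEOne.maximalOfPrime hne h𝔮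
  have hcop : IsCoprime 𝔮 (Ideal.span {(m : 𝓞 F)}) := by
    rw [Ideal.isCoprime_iff_sup_eq]
    by_contra htop
    have h1 := h𝔮max.eq_of_le htop le_sup_left
    apply hm𝔮
    rw [h1]
    exact Ideal.mem_sup_right (Ideal.mem_span_singleton_self _)
  refine hcon (⟨𝔮, mem_nonZeroDivisors_of_ne_zero hne⟩ ^ k) ?_ ?_
  · rw [SubmonoidClass.coe_pow]
    exact IsCoprime.pow_left hcop
  · rw [map_pow, artin_prime F M hne]
    exact hk

end PartC

section PartD

variable {F M C : Type*} [Field F] [Field M] [Field C] [NumberField F] [NumberField M]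
  [NumberField C] [Algebra F M] [Algebra M C] [Algebra F C] [IsScalarTower F M C]
  [IsAbelianGalois F M] [IsAbelianGalois F C]
variable [IsTotallyComplex F] {m : ℕ} [NeZero m] [IsCyclotomicExtension {m} F C]
  {p : ℕ} [hp : Fact p.Prime]

include C in
/-- **P3a (b)**: reciprocity for the auxiliary layer `M/F ⊆ F(ζ_m)/F`, prime-to-`m` form: an ideal
prime to `m` with trivial Artin symbol has its class in `normClasses F M`. -/
theorem mk0_mem_normClasses_of_artin_eq_one (hpm : m.Coprime p)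
    (hcard : Nat.card Gal(M/F) = p) (hunr : IsUnramifiedEverywhere F M)
    (hR4 : normClasses F M ≠ ⊤) (hR5 : (normClasses F M).index ≤ p)
    (𝔞 : (Ideal (𝓞 F))⁰) (h𝔞 : IsCoprime (𝔞 : Ideal (𝓞 F)) (Ideal.span {(m : 𝓞 F)}))
    (h1 : artin F M 𝔞 = 1) : ClassGroup.mk0 𝔞 ∈ normClasses F M := by
  classical
  have hm0 : m ≠ 0 := NeZero.ne m
  haveI : Finite Gal(M/F) := Nat.finite_of_card_ne_zero (hcard ▸ hp.out.ne_zero)
  -- a section of the Artin map on ideals prime to `m`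
  choose a ha_cop ha using fun g : Gal(M/F) => exists_artin_eq (p := p) hm0 hcard hR4 g
  let φ : Gal(M/F) → ClassGroup (𝓞 F) ⧸ normClasses F M :=
    fun g => QuotientGroup.mk (ClassGroup.mk0 (a g))
  have hW : ∀ 𝔟 𝔠 : (Ideal (𝓞 F))⁰, IsCoprime (𝔟 : Ideal (𝓞 F)) (Ideal.span {(m : 𝓞 F)}) →
      IsCoprime (𝔠 : Ideal (𝓞 F)) (Ideal.span {(m : 𝓞 F)}) →
      (QuotientGroup.mk (ClassGroup.mk0 𝔟) : ClassGroup (𝓞 F) ⧸ normClasses F M) =
        QuotientGroup.mk (ClassGroup.mk0 𝔠) → artin F M 𝔟 = artin F M 𝔠 := by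
    intro 𝔟 𝔠 h𝔟 h𝔠 h
    exact artin_eq_of_div_mem_normClasses (C := C) hpm hcard hunr 𝔟 𝔠 h𝔟 h𝔠
      (QuotientGroup.eq.mp h)
  have hinj : Function.Injective φ := by
    intro g h hgh
    have := hW _ _ (ha_cop g) (ha_cop h) hgh
    rwa [ha, ha] at this
  have hle : Nat.card (ClassGroup (𝓞 F) ⧸ normClasses F M) ≤ Nat.card Gal(M/F) := by
    rw [hcard]; exact hR5
  have hbij : Function.Bijective φ := hinj.bijective_of_nat_card_le hle
  obtain ⟨g, hg⟩ := hbij.2 (QuotientGroup.mk (ClassGroup.mk0 𝔞))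
  have hg1 : g = 1 := by
    have := hW _ _ (ha_cop g) h𝔞 hg
    rw [ha, h1] at this
    exact this
  obtain ⟨g', hg'⟩ := hbij.2 (QuotientGroup.mk (ClassGroup.mk0 (1 : (Ideal (𝓞 F))⁰)))
  have hone : IsCoprime (((1 : (Ideal (𝓞 F))⁰)) : Ideal (𝓞 F)) (Ideal.span {(m : 𝓞 F)}) := by
    rw [Submonoid.coe_one]; exact isCoprime_one_left
  have hg'1 : g' = 1 := by
    have := hW _ _ (ha_cop g') hone hg'
    rw [ha, map_one] at this
    exact this
  rw [hg1] at hg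
  rw [hg'1] at hg'
  have : (QuotientGroup.mk (ClassGroup.mk0 𝔞) : ClassGroup (𝓞 F) ⧸ normClasses F M) =
      QuotientGroup.mk (ClassGroup.mk0 (1 : (Ideal (𝓞 F))⁰)) := hg.symm.trans hg'
  rw [map_one, QuotientGroup.mk_one, QuotientGroup.eq_one_iff] at this
  exact this

end PartD

end Fermat.Agent.CFT.P3a
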