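import Mathlib
import Fermat.Agent.CFT.P3aAuxRecip

/-!
# S14 moonshot, package P3a: the two consumer statements in the exact shape used by P3b (lead)

Thin wrappers around `P3a.mk0_mem_normClasses_of_artin_eq_one` and `P3a.exists_artin_eq`.
-/

set_option autoImplicit false

namespace Fermat.Agent.CFT

open NumberField
open scoped IsMulCommutative Pointwise nonZeroDivisors

section

variable (F M C : Type*) [Field F] [NumberField F] [Field M] [NumberField M] [Field C]
  [NumberField C] [Algebra F M] [Algebra F C] [Algebra M C] [IsScalarTower F M C]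

lemma P3a.normClasses_ne_top_of_le_index (p : ℕ) [hp : Fact p.Prime]
    (hR4 : p ≤ (normClasses F M).index) : normClasses F M ≠ ⊤ := by
  intro h
  rw [h, Subgroup.index_top] at hR4
  exact absurd hR4 (not_le.mpr hp.out.one_lt)

/-- **P3a (b)**, consumer shape. -/
theorem mk0_mem_normClasses_of_artin_eq_one (p : ℕ) [Fact p.Prime] (_hp : p ≠ 2) (m : ℕ) [NeZero m]
    (hpm : m.Coprime p) [IsCyclotomicExtension {m} F C] [IsAbelianGalois F C] [IsAbelianGalois F M]
    [IsCyclic Gal(M/F)] (hdeg : Module.finrank F M = p) (hunr : IsUnramifiedEverywhere F M)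
    [NumberField.IsTotallyComplex F] (hR4 : p ≤ (normClasses F M).index)
    (hR5 : (normClasses F M).index ≤ p) (𝔞 : (Ideal (𝓞 F))⁰)
    (h𝔞 : IsCoprime (𝔞 : Ideal (𝓞 F)) (Ideal.span {(m : 𝓞 F)})) (h1 : artin F M 𝔞 = 1) :
    ClassGroup.mk0 𝔞 ∈ normClasses F M :=
  P3a.mk0_mem_normClasses_of_artin_eq_one (C := C) hpm
    ((IsGalois.card_aut_eq_finrank F M).trans hdeg) hunr
    (P3a.normClasses_ne_top_of_le_index F M p hR4) hR5 𝔞 h𝔞 h1

/-- **P3a (c)**, consumer shape. -/
theorem exists_artin_eq (p : ℕ) [Fact p.Prime] (m : ℕ) [NeZero m] [IsAbelianGalois F M]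
    [IsCyclic Gal(M/F)] (hdeg : Module.finrank F M = p) (_hunr : IsUnramifiedEverywhere F M)
    [NumberField.IsTotallyComplex F] (hR4 : p ≤ (normClasses F M).index) (g : Gal(M/F)) :
    ∃ 𝔞 : (Ideal (𝓞 F))⁰, IsCoprime (𝔞 : Ideal (𝓞 F)) (Ideal.span {(m : 𝓞 F)}) ∧
      artin F M 𝔞 = g :=
  P3a.exists_artin_eq (NeZero.ne m) ((IsGalois.card_aut_eq_finrank F M).trans hdeg)
    (P3a.normClasses_ne_top_of_le_index F M p hR4) g

end

end Fermat.Agent.CFT
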