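import Mathlib

/-!
# S14 / CFT, package P3b: Artin's lemma (elementary number theory)

For an odd prime `p`, an integer `q ≥ 2` and every `k ≥ 1` there is a prime `r ≠ p` such that
`q` has multiplicative order exactly `p ^ k` modulo `r` (any prime factor `≠ p` of `Φ_{p^k}(q)`); hence there are
such primes outside any given finite set.  These `r` are the conductors of the auxiliary cyclotomic extensions in
Artin's crossing argument.
-/

set_option autoImplicit false

namespace Fermat.Agent.CFT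

open Polynomial Finset

/-- `(1 + p t)^j ≡ 1 + j p t mod p²`. -/
theorem one_add_mul_pow_modEq (p t j : ℕ) : (1 + p * t) ^ j ≡ 1 + j * (p * t) [MOD p ^ 2] := by
  induction j with
  | zero => simp [Nat.ModEq]
  | succ j ih =>
    have h1 : (1 + p * t) ^ (j + 1) ≡ (1 + j * (p * t)) * (1 + p * t) [MOD p ^ 2] := by
      rw [pow_succ]; exact ih.mul_right _
    refine h1.trans ?_
    have : (1 + j * (p * t)) * (1 + p * t) = 1 + (j + 1) * (p * t) + p ^ 2 * (j * t * t) := by ring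
    rw [this]
    have h0 : p ^ 2 * (j * t * t) ≡ 0 [MOD p ^ 2] := (Nat.modEq_zero_iff_dvd).mpr (dvd_mul_right _ _)
    simpa using Nat.ModEq.add_left (1 + (j + 1) * (p * t)) h0

/-- `∑_{j<p} x^j ≡ p mod p²` for `x ≡ 1 mod p`, `p` odd. -/
theorem geom_sum_modEq_self (p : ℕ) (hodd : Odd p) (x : ℕ) (hx : x ≡ 1 [MOD p]) :
    ∑ j ∈ range p, x ^ j ≡ p [MOD p ^ 2] := by
  rcases Nat.eq_zero_or_pos x with rfl | hxpos
  · -- x = 0 ≡ 1 mod p forces p = 1
    have : p = 1 := by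
      have h := (Nat.modEq_iff_dvd' (Nat.zero_le 1)).mp hx
      simpa using h
    subst this; simp [Nat.ModEq]
  obtain ⟨t, ht⟩ : ∃ t, x = 1 + p * t := by
    have h := (Nat.modEq_iff_dvd' hxpos).mp hx.symm
    obtain ⟨t, ht⟩ := h
    exact ⟨t, by omega⟩
  subst ht
  have h1 : ∑ j ∈ range p, (1 + p * t) ^ j ≡ ∑ j ∈ range p, (1 + j * (p * t)) [MOD p ^ 2] := by
    unfold Nat.ModEq
    rw [Finset.sum_nat_mod, Finset.sum_nat_mod (f := fun j => 1 + j * (p * t))]
    congr 1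
    exact Finset.sum_congr rfl fun j _ => one_add_mul_pow_modEq p t j
  refine h1.trans ?_
  obtain ⟨m, hm⟩ := hodd
  have hsum : ∑ j ∈ range p, (1 + j * (p * t)) = p + p ^ 2 * (m * t) := by
    rw [Finset.sum_add_distrib, ← Finset.sum_mul, Finset.sum_const, Finset.card_range, smul_eq_mul, mul_one]
    have h2 : (∑ j ∈ range p, j) * 2 = p * (p - 1) := Finset.sum_range_id_mul_two p
    have h3 : ∑ j ∈ range p, j = p * m := by
      have : p - 1 = 2 * m := by omega
      rw [this] at h2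
      have : (∑ j ∈ range p, j) * 2 = (p * m) * 2 := by rw [h2]; ring
      exact Nat.eq_of_mul_eq_mul_right (by norm_num) this
    rw [h3]; ring
  rw [hsum]
  have h0 : p ^ 2 * (m * t) ≡ 0 [MOD p ^ 2] := (Nat.modEq_zero_iff_dvd).mpr (dvd_mul_right _ _)
  simpa using Nat.ModEq.add_left p h0

/-- `∑_{j<p} x^j ≡ 1 mod p` for `x ≢ 1 mod p`. -/
theorem geom_sum_modEq_one (p : ℕ) [hp : Fact p.Prime] (x : ℕ) (hx : ¬ x ≡ 1 [MOD p]) :
    ∑ j ∈ range p, x ^ j ≡ 1 [MOD p] := by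
  rw [← ZMod.natCast_eq_natCast_iff] at hx ⊢
  push_cast at hx ⊢
  have hne : (x : ZMod p) - 1 ≠ 0 := sub_ne_zero.mpr hx
  have h := geom_sum_mul (x : ZMod p) p
  rw [ZMod.pow_card] at h
  exact mul_right_cancel₀ hne (by rw [h, one_mul])

/-- a divisor `m ≠ 1` of `∑_{j<p} x^j`, prime to `p` (for `x ≥ 2`, `p` an odd prime). -/
theorem exists_dvd_geom_sum_not_dvd (p : ℕ) [hp : Fact p.Prime] (hp2 : p ≠ 2) (x : ℕ) (hx2 : 2 ≤ x) :
    ∃ m : ℕ, m ∣ ∑ j ∈ range p, x ^ j ∧ m ≠ 1 ∧ ¬ p ∣ m := by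
  have hodd : Odd p := hp.out.odd_of_ne_two hp2
  set N : ℕ := ∑ j ∈ range p, x ^ j with hN
  have hNgt : p < N := by
    have h2 : ∑ j ∈ range p, (1 : ℕ) < N := by
      apply Finset.sum_lt_sum
      · intro j _; exact Nat.one_le_pow _ _ (by omega)
      · refine ⟨1, Finset.mem_range.mpr hp.out.one_lt, ?_⟩
        simpa using (show 1 < x by omega)
    simpa using h2
  by_cases hx1 : x ≡ 1 [MOD p]
  · have hNmod : N ≡ p [MOD p ^ 2] := geom_sum_modEq_self p hodd x hx1
    obtain ⟨s, hs⟩ : ∃ s, N = p + p ^ 2 * s := by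
      have h := (Nat.modEq_iff_dvd' hNgt.le).mp hNmod.symm
      obtain ⟨s, hs⟩ := h
      exact ⟨s, by omega⟩
    have hs0 : 0 < s := by
      rcases Nat.eq_zero_or_pos s with rfl | h
      · omega
      · exact h
    refine ⟨1 + p * s, ⟨p, by rw [hs]; ring⟩, ?_, ?_⟩
    · have : 0 < p * s := Nat.mul_pos hp.out.pos hs0
      omega
    · intro h
      have : p ∣ 1 := by
        have h2 : p ∣ p * s := dvd_mul_right _ _
        exact (Nat.dvd_add_right h2).mp (by rwa [add_comm] at h)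
      exact hp.out.one_lt.ne' (Nat.dvd_one.mp this)
  · have hNmod : N ≡ 1 [MOD p] := geom_sum_modEq_one p x hx1
    refine ⟨N, dvd_rfl, ?_, ?_⟩
    · have := hp.out.one_lt
      omega
    · intro h
      have h0 : N ≡ 0 [MOD p] := (Nat.modEq_zero_iff_dvd).mpr h
      have h1 : (1 : ℕ) ≡ 0 [MOD p] := hNmod.symm.trans h0
      have := (Nat.modEq_zero_iff_dvd).mp h1
      exact hp.out.one_lt.ne' (Nat.dvd_one.mp this)

/-- **Artin's lemma, one exponent**: a prime `r ≠ p` modulo which `q` has order exactly `p ^ k`. -/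
theorem exists_prime_orderOf_eq_prime_pow (p : ℕ) [hp : Fact p.Prime] (hp2 : p ≠ 2) (q : ℕ) (hq : 2 ≤ q)
    (k : ℕ) (hk : 1 ≤ k) :
    ∃ r : ℕ, r.Prime ∧ r ≠ p ∧ orderOf (q : ZMod r) = p ^ k := by
  obtain ⟨n, rfl⟩ : ∃ n, k = n + 1 := ⟨k - 1, by omega⟩
  set x : ℕ := q ^ p ^ n with hx
  have hx2 : 2 ≤ x := le_trans hq (Nat.le_self_pow (pow_ne_zero _ hp.out.ne_zero) q)
  set N : ℕ := ∑ j ∈ range p, x ^ j with hN
  obtain ⟨m, hmN, hm1, hpm⟩ := exists_dvd_geom_sum_not_dvd p hp2 x hx2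
  set r : ℕ := m.minFac with hr
  have hrprime : r.Prime := Nat.minFac_prime hm1
  have hrm : r ∣ m := Nat.minFac_dvd m
  have hrp : r ≠ p := fun h => hpm (h ▸ hrm)
  have : Fact r.Prime := ⟨hrprime⟩
  refine ⟨r, hrprime, hrp, ?_⟩
  -- `q` is a root of the cyclotomic polynomial modulo `r`
  have heval : (cyclotomic (p ^ (n + 1)) (ZMod r)).eval ((q : ℕ) : ZMod r) = ((N : ℕ) : ZMod r) := by
    rw [cyclotomic_prime_pow_eq_geom_sum hp.out, eval_finsetSum]
    simp only [eval_pow, eval_X, hN, hx]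
    push_cast
    rfl
  have hroot : IsRoot (cyclotomic (p ^ (n + 1)) (ZMod r)) ((q : ℕ) : ZMod r) := by
    rw [IsRoot.def, heval, ZMod.natCast_eq_zero_iff]
    exact hrm.trans hmN
  have hne : NeZero ((p ^ (n + 1) : ℕ) : ZMod r) := by
    refine NeZero.of_not_dvd (ZMod r) fun h => hrp ?_
    exact (Nat.prime_dvd_prime_iff_eq hrprime hp.out).mp (hrprime.dvd_of_dvd_pow h)
  exact ((isRoot_cyclotomic_iff.mp hroot).eq_orderOf).symm

/-- **Artin's lemma**: outside any finite set of primes there is a prime `r ≠ p` modulo which the order of `q`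
is a positive power of `p`. -/
theorem exists_prime_not_mem_orderOf_eq_prime_pow (p : ℕ) [hp : Fact p.Prime] (hp2 : p ≠ 2) (q : ℕ) (hq : 2 ≤ q)
    (B : Finset ℕ) :
    ∃ r k : ℕ, r.Prime ∧ r ∉ B ∧ r ≠ p ∧ 1 ≤ k ∧ orderOf (q : ZMod r) = p ^ k := by
  classical
  choose f hf using fun k : {k : ℕ // 1 ≤ k} =>
    exists_prime_orderOf_eq_prime_pow p hp2 q hq k.1 k.2
  have hinj : Function.Injective f := by
    intro a b hab
    have h1 := (hf a).2.2
    have h2 := (hf b).2.2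
    rw [hab, h2] at h1
    exact Subtype.ext (Nat.pow_right_injective hp.out.two_le h1).symm
  have : Infinite {k : ℕ // 1 ≤ k} :=
    Infinite.of_injective (fun n : ℕ => (⟨n + 1, by omega⟩ : {k : ℕ // 1 ≤ k}))
      (fun a b h => by simpa using congrArg Subtype.val h)
  obtain ⟨k, hk⟩ : ∃ k, f k ∉ B := by
    by_contra hall
    push Not at hall
    have : Set.Finite (Set.range f) := (B.finite_toSet).subset (by rintro _ ⟨k, rfl⟩; exact hall k)
    exact (Set.infinite_range_of_injective hinj) this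
  exact ⟨f k, k.1, (hf k).1, hk, (hf k).2.1, k.2, (hf k).2.2⟩

end Fermat.Agent.CFT
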