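import Mathlib
import Fermat.Agent.CFT.P1FrobAt
import Fermat.Agent.CFT.P1Tower
import Fermat.Agent.CFT.NormClasses

/-!
# CFT / P3b: one auxiliary layer of Artin's crossing argument

`K ⊆ L` cyclic of prime degree `p`, `K ⊆ F`, `M = L F` (`hgen`), and `L ⊄ F` (`hne`).  Then restriction
`Gal(M/F) → Gal(L/K)` is bijective, `M/F` is cyclic of degree `p`, unramified if `L/K` is, and reciprocity statements
for `M/F` descend to `K` along the norm `N_{F/K}`.
-/

set_option autoImplicit false

open NumberField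
open scoped IsMulCommutative Pointwise nonZeroDivisors

namespace Fermat.Agent.CFT

section Layer

variable (K F L M : Type*) [Field K] [Field F] [Field L] [Field M]
  [Algebra K F] [Algebra K L] [Algebra F M] [Algebra L M] [Algebra K M]
  [IsScalarTower K F M] [IsScalarTower K L M]

/-- if `M = F(L)` then restriction `Gal(M/F) → Gal(L/K)` is injective. -/
theorem resGal_injective_of_adjoin [Normal K L]
    (hgen : IntermediateField.adjoin F (Set.range (algebraMap L M)) = ⊤) :
    Function.Injective (resGal K F L M) := by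
  rw [injective_iff_map_eq_one]
  intro τ hτ
  have hfix : ∀ x : L, τ (algebraMap L M x) = algebraMap L M x := by
    intro x
    rw [← resGal_commutes K F L M τ x, hτ]
    rfl
  ext y
  have hy : y ∈ IntermediateField.adjoin F (Set.range (algebraMap L M)) := by
    rw [hgen]; exact IntermediateField.mem_top
  show τ y = y
  induction hy using IntermediateField.adjoin_induction with
  | mem x hx =>
    obtain ⟨z, rfl⟩ := hx
    exact hfix z
  | algebraMap x => exact τ.commutes x
  | add x y _ _ hx hy => rw [map_add, hx, hy]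
  | inv x _ hx => rw [map_inv₀, hx]
  | mul x y _ _ hx hy => rw [map_mul, hx, hy]

variable {K F L M} in
/-- ... and bijective if moreover `Gal(L/K)` has prime order and `L ⊄ F`. -/
theorem resGal_bijective_of_adjoin [Normal K L] {p : ℕ} [hp : Fact p.Prime]
    (hcard : Nat.card Gal(L/K) = p)
    (hgen : IntermediateField.adjoin F (Set.range (algebraMap L M)) = ⊤)
    (hne : ∃ τ : Gal(M/F), resGal K F L M τ ≠ 1) :
    Function.Bijective (resGal K F L M) := by
  refine ⟨resGal_injective_of_adjoin K F L M hgen, ?_⟩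
  have : Fact (Nat.card Gal(L/K)).Prime := ⟨hcard ▸ hp.out⟩
  rcases Subgroup.eq_bot_or_eq_top_of_prime_card (resGal K F L M).range with h | h
  · obtain ⟨τ, hτ⟩ := hne
    exact absurd ((Subgroup.mem_bot).mp (h ▸ MonoidHom.mem_range.mpr ⟨τ, rfl⟩)) hτ
  · exact MonoidHom.range_eq_top.mp h

end Layer

section LayerNF

variable {K F L M : Type*} [Field K] [Field F] [Field L] [Field M]
  [NumberField K] [NumberField F] [NumberField L] [NumberField M]
  [Algebra K F] [Algebra K L] [Algebra F M] [Algebra L M] [Algebra K M]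
  [IsScalarTower K F M] [IsScalarTower K L M] [IsAbelianGalois K L] [IsAbelianGalois F M]

/-- the degree of the layer. -/
theorem finrank_eq_of_resGal_bijective (hbij : Function.Bijective (resGal K F L M)) :
    Module.finrank F M = Module.finrank K L := by
  rw [← IsGalois.card_aut_eq_finrank, ← IsGalois.card_aut_eq_finrank]
  exact Nat.card_congr (Equiv.ofBijective _ hbij)

theorem isCyclic_of_resGal_bijective {p : ℕ} [hp : Fact p.Prime] (hcard : Nat.card Gal(L/K) = p)
    (hbij : Function.Bijective (resGal K F L M)) : IsCyclic Gal(M/F) := by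
  have : Nat.card Gal(M/F) = p := by
    rw [← hcard]; exact Nat.card_congr (Equiv.ofBijective _ hbij)
  exact isCyclic_of_prime_card this

/-- base change of an unramified extension is unramified. -/
theorem isUnramifiedEverywhere_of_resGal_injective (hinj : Function.Injective (resGal K F L M))
    (hunr : IsUnramifiedEverywhere K L) : IsUnramifiedEverywhere F M := by
  intro 𝔅 h𝔅 hne 𝔓 h𝔓 hu
  rw [Subgroup.eq_bot_iff_forall]
  intro τ hτ
  apply hinj
  rw [map_one]
  have h𝔓L : (𝔓.under (𝓞 L)).IsPrime := Ideal.IsPrime.under _ _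
  have h𝔓ne : 𝔓 ≠ ⊥ := ne_bot_of_under_ne_bot F M (hu ▸ hne)
  have h𝔭ne : (𝔓.under (𝓞 L)).under (𝓞 K) ≠ ⊥ := by
    rw [Ideal.under_under]
    exact Ideal.under_ne_bot (𝓞 K) h𝔓ne
  have h𝔭 : ((𝔓.under (𝓞 L)).under (𝓞 K)).IsPrime := Ideal.IsPrime.under _ _
  have h := hunr _ h𝔭 h𝔭ne (𝔓.under (𝓞 L)) h𝔓L rfl
  rw [Subgroup.eq_bot_iff_forall] at h
  apply h
  intro x
  show (resGal K F L M τ • x - x) ∈ Ideal.comap (algebraMap (𝓞 L) (𝓞 M)) 𝔓
  rw [Ideal.mem_comap, map_sub, algebraMap_resGal_smul]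
  exact hτ _

/-- descent of the reciprocity statement along `N_{F/K}`. -/
theorem mk0_relNorm₀_mem_normClasses_of_artin_eq_one (hinj : Function.Injective (resGal K F L M))
    (hunr : IsUnramifiedEverywhere K L) (𝔄 : (Ideal (𝓞 F))⁰)
    (hrec : artin F M 𝔄 = 1 → ClassGroup.mk0 𝔄 ∈ normClasses F M)
    (h1 : artin K L (relNorm₀ K F 𝔄) = 1) :
    ClassGroup.mk0 (relNorm₀ K F 𝔄) ∈ normClasses K L := by
  rw [← resGal_artin (F := F) (M := M) hunr 𝔄] at h1
  have h2 : artin F M 𝔄 = 1 := hinj (by rw [h1, map_one])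
  have := normCl_mem_normClasses K F L M (hrec h2)
  rwa [normCl_mk0] at this

/-- descent of the surjectivity statement along `N_{F/K}`. -/
theorem exists_artin_relNorm₀_eq (hsurj : Function.Surjective (resGal K F L M))
    (hunr : IsUnramifiedEverywhere K L) (P : (Ideal (𝓞 F))⁰ → Prop)
    (hex : ∀ τ : Gal(M/F), ∃ 𝔄 : (Ideal (𝓞 F))⁰, P 𝔄 ∧ artin F M 𝔄 = τ) (g : Gal(L/K)) :
    ∃ 𝔄 : (Ideal (𝓞 F))⁰, P 𝔄 ∧ artin K L (relNorm₀ K F 𝔄) = g := by
  obtain ⟨τ, rfl⟩ := hsurj g
  obtain ⟨𝔄, hP, h𝔄⟩ := hex τ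
  exact ⟨𝔄, hP, by rw [← resGal_artin (F := F) (M := M) hunr 𝔄, h𝔄]⟩

end LayerNF

end Fermat.Agent.CFT
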