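import Mathlib
import Fermat.Agent.CFT.P3bLayer

/-!
# CFT / P3b: Artin's crossing argument, abstract form

`K ⊆ L` abelian of prime degree `p`.  `classMod K L : (Ideal (𝓞 K))⁰ →* Cl(K) ⧸ normClasses K L`.

* `LayerRec K L F P`: reciprocity for the layer `LF/F`, descended to `K`: an ideal `𝔄` of `F` with property `P`
  (= "prime to `m`") whose norm to `K` has trivial Artin symbol has its norm in the norm classes of `L/K`.
* `classMod_eq_pow_of_layers` (pair lemma): two primes, two layers and a common over-layer.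
* `artin_eq_of_mk0_eq_of_pair`: the pair lemma for all pairs of inert primes + `normClasses ≠ ⊤` give reciprocity.
-/

set_option autoImplicit false

open NumberField
open scoped IsMulCommutative Pointwise nonZeroDivisors

namespace Fermat.Agent.CFT

section ClassMod

variable (K L : Type*) [Field K] [Field L] [NumberField K] [NumberField L] [Algebra K L]

/-- the class of an ideal modulo the norm classes. -/
noncomputable def classMod : (Ideal (𝓞 K))⁰ →* ClassGroup (𝓞 K) ⧸ normClasses K L :=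
  (QuotientGroup.mk' (normClasses K L)).comp ClassGroup.mk0

variable {K L}

lemma classMod_eq_one_iff (𝔞 : (Ideal (𝓞 K))⁰) :
    classMod K L 𝔞 = 1 ↔ ClassGroup.mk0 𝔞 ∈ normClasses K L := by
  rw [classMod, MonoidHom.comp_apply, QuotientGroup.mk'_apply, QuotientGroup.eq_one_iff]

lemma classMod_relNorm₀ (𝔄 : (Ideal (𝓞 L))⁰) : classMod K L (relNorm₀ K L 𝔄) = 1 :=
  (classMod_eq_one_iff _).mpr (mk0_relNorm₀_mem_normClasses 𝔄)

lemma classMod_eq_of_mk0_eq {𝔞 𝔟 : (Ideal (𝓞 K))⁰} (h : ClassGroup.mk0 𝔞 = ClassGroup.mk0 𝔟) :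
    classMod K L 𝔞 = classMod K L 𝔟 := by
  rw [classMod, MonoidHom.comp_apply, MonoidHom.comp_apply, h]

end ClassMod

section Pair

variable (K L : Type*) [Field K] [Field L] [NumberField K] [NumberField L] [Algebra K L]
  [IsAbelianGalois K L]

/-- reciprocity of a layer over `F`, descended to `K` (for the ideals of `F` with property `P`). -/
def LayerRec (F : Type*) [Field F] [NumberField F] [Algebra K F] (P : (Ideal (𝓞 F))⁰ → Prop) : Prop :=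
  ∀ 𝔄 : (Ideal (𝓞 F))⁰, P 𝔄 → artin K L (relNorm₀ K F 𝔄) = 1 → classMod K L (relNorm₀ K F 𝔄) = 1

/-- surjectivity of the Artin map of a layer over `F`, descended to `K`. -/
def LayerSurj (F : Type*) [Field F] [NumberField F] [Algebra K F] (P : (Ideal (𝓞 F))⁰ → Prop) : Prop :=
  ∀ g : Gal(L/K), ∃ 𝔄 : (Ideal (𝓞 F))⁰, P 𝔄 ∧ artin K L (relNorm₀ K F 𝔄) = g

variable {K L}

/-- **Artin's crossing argument** for two primes `𝔮₁ = N 𝔔₁`, `𝔮₂ = N 𝔔₂` (`𝔔ᵢ` in the layer `Fᵢ`), with a common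
over-layer `F ⊇ F₁, F₂`. -/
theorem classMod_eq_pow_of_layers {p : ℕ} (hp : 0 < p) (hpow : ∀ g : Gal(L/K), g ^ p = 1)
    (F₁ F₂ F : Type*) [Field F₁] [Field F₂] [Field F] [NumberField F₁] [NumberField F₂] [NumberField F]
    [Algebra K F₁] [Algebra K F₂] [Algebra K F] [Algebra F₁ F] [Algebra F₂ F]
    [IsScalarTower K F₁ F] [IsScalarTower K F₂ F]
    (P₁ : (Ideal (𝓞 F₁))⁰ → Prop) (P₂ : (Ideal (𝓞 F₂))⁰ → Prop) (P : (Ideal (𝓞 F))⁰ → Prop)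
    (hP₁ : ∀ 𝔄 𝔅, P₁ 𝔄 → P₁ 𝔅 → P₁ (𝔄 * 𝔅)) (hP₂ : ∀ 𝔄 𝔅, P₂ 𝔄 → P₂ 𝔅 → P₂ (𝔄 * 𝔅))
    (hP₁one : P₁ 1) (hP₂one : P₂ 1)
    (hPP₁ : ∀ 𝔅, P 𝔅 → P₁ (relNorm₀ F₁ F 𝔅)) (hPP₂ : ∀ 𝔅, P 𝔅 → P₂ (relNorm₀ F₂ F 𝔅))
    (h₁ : LayerRec K L F₁ P₁) (h₂ : LayerRec K L F₂ P₂) (h : LayerSurj K L F P)
    (𝔔₁ : (Ideal (𝓞 F₁))⁰) (𝔔₂ : (Ideal (𝓞 F₂))⁰) (hQ₁ : P₁ 𝔔₁) (hQ₂ : P₂ 𝔔₂) (d : ℕ)
    (hd : artin K L (relNorm₀ K F₁ 𝔔₁) = artin K L (relNorm₀ K F₂ 𝔔₂) ^ d) :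
    classMod K L (relNorm₀ K F₁ 𝔔₁) = classMod K L (relNorm₀ K F₂ 𝔔₂) ^ d := by
  obtain ⟨𝔅, hB, hBσ⟩ := h (artin K L (relNorm₀ K F₂ 𝔔₂))
  set σ := artin K L (relNorm₀ K F₂ 𝔔₂) with hσ
  have hpowP₁ : ∀ n : ℕ, P₁ (relNorm₀ F₁ F 𝔅 ^ n) := by
    intro n
    induction n with
    | zero => simpa using hP₁one
    | succ n ih => rw [pow_succ]; exact hP₁ _ _ ih (hPP₁ 𝔅 hB)
  have hpowP₂ : ∀ n : ℕ, P₂ (relNorm₀ F₂ F 𝔅 ^ n) := by
    intro n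
    induction n with
    | zero => simpa using hP₂one
    | succ n ih => rw [pow_succ]; exact hP₂ _ _ ih (hPP₂ 𝔅 hB)
  have hN₁ : relNorm₀ K F₁ (relNorm₀ F₁ F 𝔅) = relNorm₀ K F 𝔅 := by
    apply Subtype.ext
    simp only [coe_relNorm₀]
    rw [Ideal.relNorm_relNorm]
  have hN₂ : relNorm₀ K F₂ (relNorm₀ F₂ F 𝔅) = relNorm₀ K F 𝔅 := by
    apply Subtype.ext
    simp only [coe_relNorm₀]
    rw [Ideal.relNorm_relNorm]
  set b := classMod K L (relNorm₀ K F 𝔅) with hb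
  -- first layer
  have e₁ : classMod K L (relNorm₀ K F₁ 𝔔₁) * b ^ ((p - 1) * d) = 1 := by
    have := h₁ (𝔔₁ * relNorm₀ F₁ F 𝔅 ^ ((p - 1) * d)) (hP₁ _ _ hQ₁ (hpowP₁ _)) (by
      rw [map_mul, map_pow, hN₁, map_mul, map_pow, hBσ, hd, ← pow_add]
      have : d + (p - 1) * d = p * d := by
        obtain ⟨n, rfl⟩ : ∃ n, p = n + 1 := ⟨p - 1, by omega⟩
        simp only [Nat.add_sub_cancel]; ring
      rw [this, pow_mul, hpow, one_pow])
    rwa [map_mul, map_pow, hN₁, map_mul, map_pow] at this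
  -- second layer
  have e₂ : classMod K L (relNorm₀ K F₂ 𝔔₂) * b ^ (p - 1) = 1 := by
    have := h₂ (𝔔₂ * relNorm₀ F₂ F 𝔅 ^ (p - 1)) (hP₂ _ _ hQ₂ (hpowP₂ _)) (by
      rw [map_mul, map_pow, hN₂, map_mul, map_pow, hBσ, ← hσ, ← pow_succ']
      have : p - 1 + 1 = p := by omega
      rw [this, hpow])
    rwa [map_mul, map_pow, hN₂, map_mul, map_pow] at this
  have e₂' : classMod K L (relNorm₀ K F₂ 𝔔₂) = (b ^ (p - 1))⁻¹ := eq_inv_of_mul_eq_one_left e₂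
  have e₁' : classMod K L (relNorm₀ K F₁ 𝔔₁) = (b ^ ((p - 1) * d))⁻¹ := eq_inv_of_mul_eq_one_left e₁
  rw [e₁', e₂', inv_pow, ← pow_mul]

end Pair

section Main

variable {K L : Type*} [Field K] [Field L] [NumberField K] [NumberField L] [Algebra K L]
  [IsAbelianGalois K L]

/-- some prime has a nontrivial class modulo the norm classes, if the norm classes are not everything. -/
lemma exists_prime_classMod_ne_one (hR4 : normClasses K L ≠ ⊤) :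
    ∃ (𝔮 : Ideal (𝓞 K)) (_ : 𝔮.IsPrime) (hne : 𝔮 ≠ ⊥),
      classMod K L ⟨𝔮, mem_nonZeroDivisors_of_ne_zero hne⟩ ≠ 1 := by
  by_contra hcon
  push Not at hcon
  apply hR4
  have h1 : classMod K L = 1 := monoidHom_ext_prime _ _ fun 𝔮 h𝔮 hne => by
    rw [hcon 𝔮 h𝔮 hne]; rfl
  rw [eq_top_iff]
  intro c _
  obtain ⟨𝔞, rfl⟩ := ClassGroup.mk0_surjective c
  rw [← classMod_eq_one_iff, h1]
  rfl

/-- **Reciprocity from the pair lemma.**  If `Gal(L/K)` has prime order `p`, the norm classes are not everything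
(second inequality), split primes are norms, and the crossing pair lemma holds for all pairs of non-split primes, then
the Artin map of `L/K` factors through the ideal class group. -/
theorem artin_eq_of_mk0_eq_of_pair {p : ℕ} [hp : Fact p.Prime] (hcard : Nat.card Gal(L/K) = p)
    (hR4 : normClasses K L ≠ ⊤)
    (hsplit : ∀ (𝔮 : Ideal (𝓞 K)) (_ : 𝔮.IsPrime) (hne : 𝔮 ≠ ⊥), frobAt K L 𝔮 = 1 →
      classMod K L ⟨𝔮, mem_nonZeroDivisors_of_ne_zero hne⟩ = 1)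
    (hpair : ∀ (𝔮₁ 𝔮₂ : Ideal (𝓞 K)) (_ : 𝔮₁.IsPrime) (_ : 𝔮₂.IsPrime) (hne₁ : 𝔮₁ ≠ ⊥) (hne₂ : 𝔮₂ ≠ ⊥),
      frobAt K L 𝔮₁ ≠ 1 → frobAt K L 𝔮₂ ≠ 1 → ∀ d : ℕ, frobAt K L 𝔮₁ = frobAt K L 𝔮₂ ^ d →
      classMod K L ⟨𝔮₁, mem_nonZeroDivisors_of_ne_zero hne₁⟩ =
        classMod K L ⟨𝔮₂, mem_nonZeroDivisors_of_ne_zero hne₂⟩ ^ d)
    (𝔞 𝔟 : (Ideal (𝓞 K))⁰) (h : ClassGroup.mk0 𝔞 = ClassGroup.mk0 𝔟) :
    artin K L 𝔞 = artin K L 𝔟 := by
  obtain ⟨𝔮₀, h𝔮₀, hne₀, hc₀⟩ := exists_prime_classMod_ne_one hR4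
  set σ₀ := frobAt K L 𝔮₀ with hσ₀
  set c₀ := classMod K L ⟨𝔮₀, mem_nonZeroDivisors_of_ne_zero hne₀⟩ with hc₀def
  have hσ₀ne : σ₀ ≠ 1 := fun h1 => hc₀ (hsplit 𝔮₀ h𝔮₀ hne₀ h1)
  have hfin : Finite Gal(L/K) := Nat.finite_of_card_ne_zero (hcard ▸ hp.out.ne_zero)
  have hpowG : ∀ g : Gal(L/K), g ^ p = 1 := fun g => by rw [← hcard]; exact pow_card_eq_one'
  have hgen : ∀ x : Gal(L/K), x ∈ Subgroup.zpowers σ₀ := fun x => mem_zpowers_of_prime_card hcard hσ₀ne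
  have hordσ : orderOf σ₀ = p := orderOf_eq_prime (hpowG σ₀) hσ₀ne
  -- `c₀ ^ p = 1` from the pair lemma with `d = p + 1`
  have hc₀p : c₀ ^ p = 1 := by
    have := hpair 𝔮₀ 𝔮₀ h𝔮₀ h𝔮₀ hne₀ hne₀ hσ₀ne hσ₀ne (p + 1) (by
      rw [← hσ₀, pow_succ, hpowG, one_mul])
    rw [← hc₀def, pow_succ] at this
    exact (mul_eq_right.mp this.symm)
  have hordc : orderOf c₀ ∣ orderOf σ₀ := by
    rw [hordσ]; exact orderOf_dvd_of_pow_eq_one hc₀p
  let ψ : Gal(L/K) →* ClassGroup (𝓞 K) ⧸ normClasses K L := monoidHomOfForallMemZpowers hgen hordc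
  have hψσ : ψ σ₀ = c₀ := monoidHomOfForallMemZpowers_apply_gen hgen hordc
  have hcomp : classMod K L = ψ.comp (artin K L) := by
    refine monoidHom_ext_prime _ _ fun 𝔮 h𝔮 hne => ?_
    rw [MonoidHom.comp_apply, artin_prime K L hne]
    by_cases h1 : frobAt K L 𝔮 = 1
    · rw [h1, map_one]; exact hsplit 𝔮 h𝔮 hne h1
    · obtain ⟨d, hd⟩ : ∃ d : ℕ, σ₀ ^ d = frobAt K L 𝔮 := by
        have := mem_powers_of_prime_card (g' := frobAt K L 𝔮) hcard hσ₀ne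
        exact Submonoid.mem_powers_iff _ _ |>.mp this
      rw [hpair 𝔮 𝔮₀ h𝔮 h𝔮₀ hne hne₀ h1 hσ₀ne d hd.symm, ← hd, map_pow, hψσ]
  have hψinj : Function.Injective ψ := by
    rw [← MonoidHom.ker_eq_bot_iff]
    have : Fact (Nat.card Gal(L/K)).Prime := ⟨hcard ▸ hp.out⟩
    rcases Subgroup.eq_bot_or_eq_top_of_prime_card ψ.ker with h0 | h0
    · exact h0
    · exfalso
      apply hc₀
      rw [← hψσ, ← MonoidHom.mem_ker, h0]
      exact Subgroup.mem_top _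
  apply hψinj
  have := classMod_eq_of_mk0_eq (L := L) h
  rwa [hcomp, MonoidHom.comp_apply, MonoidHom.comp_apply] at this

end Main

end Fermat.Agent.CFT
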