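import Mathlib
import Fermat.Agent.CFT.P3bLayer

/-!
# CFT / P3b: the concrete layer `M = F(L) ⊆ Ω`

`K ⊆ L ⊆ Ω`, `K ⊆ F ⊆ Ω`.  `layerField L F Ω : IntermediateField F Ω` is the compositum `L F`; it carries an
`L`-algebra structure (`algebraLayerField`) compatible with the `K`-algebra structures.
-/

set_option autoImplicit false

open NumberField
open scoped IsMulCommutative Pointwise nonZeroDivisors

namespace Fermat.Agent.CFT

section Def

variable (L F Ω : Type*) [Field L] [Field F] [Field Ω] [Algebra L Ω] [Algebra F Ω]

/-- the compositum `L F` inside `Ω`, as an intermediate field of `Ω/F`. -/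
def layerField : IntermediateField F Ω :=
  IntermediateField.adjoin F (Set.range (algebraMap L Ω))

lemma algebraMap_mem_layerField (x : L) : algebraMap L Ω x ∈ layerField L F Ω :=
  IntermediateField.subset_adjoin _ _ ⟨x, rfl⟩

/-- the `L`-algebra structure of the compositum `L F`. -/
noncomputable instance algebraLayerField : Algebra L (layerField L F Ω) :=
  RingHom.toAlgebra ((algebraMap L Ω).codRestrict (layerField L F Ω)
    (algebraMap_mem_layerField L F Ω))

lemma coe_algebraMap_layerField (x : L) :
    ((algebraMap L (layerField L F Ω) x : layerField L F Ω) : Ω) = algebraMap L Ω x := rfl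

instance isScalarTower_layerField_top : IsScalarTower L (layerField L F Ω) Ω :=
  IsScalarTower.of_algebraMap_eq fun _ => rfl

instance isScalarTower_layerField (K : Type*) [Field K] [Algebra K L] [Algebra K F] [Algebra K Ω]
    [IsScalarTower K L Ω] [IsScalarTower K F Ω] : IsScalarTower K L (layerField L F Ω) :=
  IsScalarTower.of_algebraMap_eq fun x => Subtype.ext (by
    rw [coe_algebraMap_layerField]
    exact IsScalarTower.algebraMap_apply K L Ω x)

lemma adjoin_range_algebraMap_layerField :
    IntermediateField.adjoin F (Set.range (algebraMap L (layerField L F Ω))) = ⊤ := by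
  apply IntermediateField.lift_injective
  rw [IntermediateField.lift_adjoin, IntermediateField.lift_top]
  show _ = IntermediateField.adjoin F (Set.range (algebraMap L Ω))
  congr 1
  ext y
  constructor
  · rintro ⟨_, ⟨x, rfl⟩, rfl⟩
    exact ⟨x, rfl⟩
  · rintro ⟨x, rfl⟩
    exact ⟨_, ⟨x, rfl⟩, rfl⟩

end Def

section Gal

variable (K L F Ω : Type*) [Field K] [Field L] [Field F] [Field Ω]
  [Algebra K L] [Algebra K F] [Algebra K Ω] [Algebra L Ω] [Algebra F Ω]
  [IsScalarTower K L Ω] [IsScalarTower K F Ω]

/-- if some `F`-automorphism of `Ω` moves `L`, restriction `Gal(LF/F) → Gal(L/K)` is nontrivial. -/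
theorem exists_resGal_ne_one [Normal K L] [Normal F (layerField L F Ω)]
    (h : ∃ (g : Gal(Ω/F)) (x : L), g (algebraMap L Ω x) ≠ algebraMap L Ω x) :
    ∃ τ : Gal((layerField L F Ω)/F), resGal K F L (layerField L F Ω) τ ≠ 1 := by
  obtain ⟨g, x, hgx⟩ := h
  refine ⟨g.restrictNormal (layerField L F Ω), fun h1 => hgx ?_⟩
  have h2 := resGal_commutes K F L (layerField L F Ω) (g.restrictNormal (layerField L F Ω)) x
  rw [h1] at h2
  have h3 := AlgEquiv.restrictNormal_commutes g (layerField L F Ω)
    (algebraMap L (layerField L F Ω) x)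
  rw [← h2] at h3
  exact h3.symm

end Gal

section NF

variable {p : ℕ} [hp : Fact p.Prime]
variable (K L F Ω : Type*) [Field K] [Field L] [Field F] [Field Ω]
  [NumberField K] [NumberField L] [NumberField F] [NumberField Ω]
  [Algebra K L] [Algebra K F] [Algebra K Ω] [Algebra L Ω] [Algebra F Ω]
  [IsScalarTower K L Ω] [IsScalarTower K F Ω] [IsAbelianGalois K L] [IsAbelianGalois F Ω]

/-- the layer `L F / F`: restriction to `L` is bijective as soon as some `F`-automorphism of `Ω` moves `L`. -/
theorem resGal_layerField_bijective (hcard : Nat.card Gal(L/K) = p)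
    (h : ∃ (g : Gal(Ω/F)) (x : L), g (algebraMap L Ω x) ≠ algebraMap L Ω x) :
    Function.Bijective (resGal K F L (layerField L F Ω)) :=
  resGal_bijective_of_adjoin hcard (adjoin_range_algebraMap_layerField L F Ω)
    (exists_resGal_ne_one K L F Ω h)

end NF

end Fermat.Agent.CFT
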