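import Mathlib

/-!
# CFT / R4: shared definitions for the second inequality (unit side and class-group side)

For an extension `L/K` of number fields:
* `unitsNorm K L : (𝓞 L)ˣ →* (𝓞 K)ˣ`, the relative norm on units (via `Algebra.intNorm`);
* `unitsD σ : (𝓞 L)ˣ →* (𝓞 L)ˣ`, `v ↦ σ v / v` for `σ : Gal(L/K)`.

With these, `H¹(G, E_L) = ker (unitsNorm) / range (unitsD σ)` has order
`(unitsD σ).range.relIndex (unitsNorm K L).ker` and `Ĥ⁰(G, E_L) = E_K / N E_L` has order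
`(unitsNorm K L).range.index` (`σ` a generator of the cyclic group `Gal(L/K)`).
-/

set_option autoImplicit false
set_option linter.unusedSectionVars false

open NumberField

namespace Fermat.Agent.CFT

variable (K L : Type*) [Field K] [NumberField K] [Field L] [NumberField L] [Algebra K L]

/-- the relative norm `(𝓞 L)ˣ →* (𝓞 K)ˣ` on units. -/
noncomputable def unitsNorm : (𝓞 L)ˣ →* (𝓞 K)ˣ :=
  Units.map (Algebra.intNorm (𝓞 K) (𝓞 L))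

@[simp] lemma coe_unitsNorm (v : (𝓞 L)ˣ) :
    ((unitsNorm K L v : (𝓞 K)ˣ) : 𝓞 K) = Algebra.intNorm (𝓞 K) (𝓞 L) (v : 𝓞 L) := rfl

lemma mem_ker_unitsNorm {v : (𝓞 L)ˣ} :
    v ∈ (unitsNorm K L).ker ↔ Algebra.intNorm (𝓞 K) (𝓞 L) (v : 𝓞 L) = 1 := by
  rw [MonoidHom.mem_ker, Units.ext_iff, coe_unitsNorm, Units.val_one]

variable {K L}

/-- the ring automorphism of `𝓞 L` given by `σ : Gal(L/K)`, as a monoid hom on units. -/
noncomputable def unitsGal (σ : Gal(L/K)) : (𝓞 L)ˣ →* (𝓞 L)ˣ :=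
  Units.map ((MulSemiringAction.toRingHom Gal(L/K) (𝓞 L) σ : 𝓞 L →+* 𝓞 L) : 𝓞 L →* 𝓞 L)

@[simp] lemma coe_unitsGal (σ : Gal(L/K)) (v : (𝓞 L)ˣ) :
    ((unitsGal σ v : (𝓞 L)ˣ) : 𝓞 L) = σ • (v : 𝓞 L) := rfl

/-- `v ↦ σ v / v` on the units of `𝓞 L`. -/
noncomputable def unitsD (σ : Gal(L/K)) : (𝓞 L)ˣ →* (𝓞 L)ˣ :=
  unitsGal σ / MonoidHom.id _

lemma unitsD_apply (σ : Gal(L/K)) (v : (𝓞 L)ˣ) : unitsD σ v = unitsGal σ v / v := rfl

lemma coe_unitsD_mul (σ : Gal(L/K)) (v : (𝓞 L)ˣ) :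
    ((unitsD σ v : (𝓞 L)ˣ) : 𝓞 L) * (v : 𝓞 L) = σ • (v : 𝓞 L) := by
  rw [unitsD_apply, ← Units.val_mul, div_mul_cancel, coe_unitsGal]

end Fermat.Agent.CFT
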