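import Mathlib

/-!
# CFT / R4a: an elementary Herbrand-quotient inequality for cyclic groups of prime order

Pure algebra (Mathlib only).  For a finitely generated abelian group `A` with an endomorphism `σ`,
`σ ^ p = 1`, `D = σ - 1`, `N = ∑_{i<p} σ^i`, we bound
`|H¹| = [ker N : D A]` from below by `p * |Ĥ⁰| = p * [ker D : N A]` under rank hypotheses
(`herbrand_of_end`).  No long exact sequences: only index calculus.
-/

set_option autoImplicit false
set_option linter.unusedSectionVars false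

open Module Polynomial
open scoped DirectSum

namespace Fermat.Agent.CFT.R4a


abbrev mulN (X : Type*) [AddCommGroup X] (n : ℕ) : X →+ X := nsmulAddMonoidHom n

section prod
variable {F T : Type*} [AddCommGroup F] [AddCommGroup T]

lemma range_mulN_prod (n : ℕ) :
    (mulN (F × T) n).range = (mulN F n).range.prod (mulN T n).range := by
  ext ⟨a, b⟩
  simp only [AddMonoidHom.mem_range, AddSubgroup.mem_prod, nsmulAddMonoidHom_apply, Prod.exists,
    Prod.smul_mk, Prod.mk.injEq]
  constructor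
  · rintro ⟨x, y, rfl, rfl⟩; exact ⟨⟨x, rfl⟩, ⟨y, rfl⟩⟩
  · rintro ⟨⟨x, rfl⟩, ⟨y, rfl⟩⟩; exact ⟨x, y, rfl, rfl⟩

lemma ker_mulN_prod (n : ℕ) :
    (mulN (F × T) n).ker = (mulN F n).ker.prod (mulN T n).ker := by
  ext ⟨a, b⟩
  simp [AddMonoidHom.mem_ker, AddSubgroup.mem_prod, Prod.ext_iff]

lemma index_range_mulN_prod (n : ℕ) :
    (mulN (F × T) n).range.index = (mulN F n).range.index * (mulN T n).range.index := by
  rw [range_mulN_prod, AddSubgroup.index_prod]

lemma card_ker_mulN_prod (n : ℕ) :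
    Nat.card (mulN (F × T) n).ker = Nat.card (mulN F n).ker * Nat.card (mulN T n).ker := by
  rw [ker_mulN_prod, Nat.card_congr (AddSubgroup.prodEquiv _ _).toEquiv, Nat.card_prod]

end prod

section finite
variable {T : Type*} [AddCommGroup T] [Finite T]

lemma index_range_mulN_finite (n : ℕ) :
    (mulN T n).range.index = Nat.card (mulN T n).ker := by
  haveI : (mulN T n).ker.FiniteIndex := AddSubgroup.finiteIndex_of_finite_quotient
  exact AddSubgroup.index_range

end finite

section free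

lemma index_range_mulN_pi (m n : ℕ) :
    (mulN (Fin m → ℤ) n).range.index = n ^ m := by
  have : (mulN (Fin m → ℤ) n).range =
      AddSubgroup.pi Set.univ (fun _ : Fin m => AddSubgroup.zmultiples (n : ℤ)) := by
    ext x
    simp only [AddMonoidHom.mem_range, nsmulAddMonoidHom_apply, AddSubgroup.mem_pi, Set.mem_univ,
      forall_const, AddSubgroup.mem_zmultiples_iff]
    constructor
    · rintro ⟨y, rfl⟩ i; exact ⟨y i, by simp [mul_comm]⟩
    · intro h
      choose y hy using h
      exact ⟨y, funext fun i => by rw [← hy i]; simp [mul_comm]⟩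
  rw [this, AddSubgroup.index_pi]
  simp [Int.index_zmultiples]

lemma card_ker_mulN_pi (m n : ℕ) (hn : n ≠ 0) :
    Nat.card (mulN (Fin m → ℤ) n).ker = 1 := by
  have : (mulN (Fin m → ℤ) n).ker = ⊥ := by
    ext x
    simp only [AddMonoidHom.mem_ker, nsmulAddMonoidHom_apply, AddSubgroup.mem_bot]
    constructor
    · intro h
      funext i
      have := congrFun h i
      simpa [hn] using this
    · rintro rfl; simp
  rw [this]; simp

end free


section transport
variable {X Y : Type*} [AddCommGroup X] [AddCommGroup Y]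

lemma index_range_mulN_congr (e : X ≃+ Y) (n : ℕ) :
    (mulN X n).range.index = (mulN Y n).range.index := by
  have : (mulN Y n).range = (mulN X n).range.map (e : X →+ Y) := by
    ext y
    simp only [AddMonoidHom.mem_range, AddSubgroup.mem_map]
    constructor
    · rintro ⟨z, rfl⟩
      refine ⟨n • e.symm z, ⟨e.symm z, rfl⟩, ?_⟩
      simp
    · rintro ⟨x, ⟨z, rfl⟩, rfl⟩
      exact ⟨e z, by simp⟩
  rw [this, AddSubgroup.index_map_equiv]

lemma card_ker_mulN_congr (e : X ≃+ Y) (n : ℕ) :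
    Nat.card (mulN X n).ker = Nat.card (mulN Y n).ker := by
  refine Nat.card_congr ⟨fun x => ⟨e x, ?_⟩, fun y => ⟨e.symm y, ?_⟩, ?_, ?_⟩
  · have := x.2
    simp only [AddMonoidHom.mem_ker, nsmulAddMonoidHom_apply] at this ⊢
    rw [← map_nsmul, this, map_zero]
  · have := y.2
    simp only [AddMonoidHom.mem_ker, nsmulAddMonoidHom_apply] at this ⊢
    rw [← map_nsmul, this, map_zero]
  · intro x; simp
  · intro y; simp

end transport

lemma finrank_prod_of_isTorsion {F T : Type} [AddCommGroup F] [AddCommGroup T]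
    (hT : Module.IsTorsion ℤ T) : finrank ℤ (F × T) = finrank ℤ F := by
  have h := LinearMap.rank_range_add_rank_ker (LinearMap.fst ℤ F T)
  have h1 : LinearMap.range (LinearMap.fst ℤ F T) = ⊤ :=
    LinearMap.range_eq_top.mpr LinearMap.fst_surjective
  have h2 : Module.rank ℤ (LinearMap.ker (LinearMap.fst ℤ F T)) = 0 := by
    apply Module.IsTorsion.rank_eq_zero
    rintro ⟨⟨a, b⟩, hab⟩
    obtain ⟨c, hc⟩ := @hT b
    refine ⟨c, ?_⟩
    have ha : a = 0 := by simpa using hab
    subst ha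
    ext
    · simp
    · simpa using hc
  rw [h1, h2, add_zero, rank_top] at h
  simp only [finrank, h]

lemma isTorsion_of_finite (T : Type*) [AddCommGroup T] [Finite T] : Module.IsTorsion ℤ T := by
  intro x
  refine ⟨⟨(Nat.card T : ℤ), ?_⟩, ?_⟩
  · rw [mem_nonZeroDivisors_iff_ne_zero]
    exact_mod_cast Nat.card_pos.ne'
  · show ((Nat.card T : ℤ)) • x = 0
    rw [natCast_zsmul]
    exact card_nsmul_eq_zero'

/-- For a finitely generated abelian group `X` and `n ≠ 0`:
`[X : nX] = n ^ rank X * |X[n]|`. -/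
theorem index_range_mulN_aux (X : Type*) [AddCommGroup X] [Module.Finite ℤ X] {n : ℕ}
    (hn : n ≠ 0) :
    (mulN X n).range.index = n ^ finrank ℤ X * Nat.card (mulN X n).ker ∧
      Nat.card (mulN X n).ker ≠ 0 := by
  haveI : AddGroup.FG X := Module.Finite.iff_addGroup_fg.mp inferInstance
  obtain ⟨m, ι, _, p, hp, e, ⟨f⟩⟩ := AddCommGroup.equiv_free_prod_directSum_zmod X
  have : ∀ i : ι, NeZero (p i ^ e i) := fun i => ⟨pow_ne_zero _ (hp i).ne_zero⟩
  have : Finite (⨁ i : ι, ZMod (p i ^ e i)) :=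
    Finite.of_equiv _ DFinsupp.equivFunOnFintype.symm
  have hT := isTorsion_of_finite (⨁ i : ι, ZMod (p i ^ e i))
  have hr : finrank ℤ X = m := by
    rw [f.toIntLinearEquiv.finrank_eq, finrank_prod_of_isTorsion hT]
    simp
  let g : (Fin m →₀ ℤ) ≃+ (Fin m → ℤ) := (Finsupp.linearEquivFunOnFinite ℤ ℤ (Fin m)).toAddEquiv
  rw [index_range_mulN_congr f, card_ker_mulN_congr f, index_range_mulN_prod, card_ker_mulN_prod,
    index_range_mulN_congr g, card_ker_mulN_congr g, index_range_mulN_pi, card_ker_mulN_pi _ _ hn,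
    index_range_mulN_finite, hr, one_mul]
  exact ⟨rfl, Nat.card_pos.ne'⟩

theorem index_range_mulN (X : Type*) [AddCommGroup X] [Module.Finite ℤ X] {n : ℕ} (hn : n ≠ 0) :
    (mulN X n).range.index = n ^ finrank ℤ X * Nat.card (mulN X n).ker :=
  (index_range_mulN_aux X hn).1

theorem card_ker_mulN_ne_zero (X : Type*) [AddCommGroup X] [Module.Finite ℤ X] {n : ℕ}
    (hn : n ≠ 0) : Nat.card (mulN X n).ker ≠ 0 :=
  (index_range_mulN_aux X hn).2

theorem index_range_mulN_ne_zero (X : Type*) [AddCommGroup X] [Module.Finite ℤ X] {n : ℕ}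
    (hn : n ≠ 0) : (mulN X n).range.index ≠ 0 := by
  rw [index_range_mulN X hn]
  exact mul_ne_zero (pow_ne_zero _ hn) (card_ker_mulN_ne_zero X hn)



/-- `(X - 1)^(p-1) = ∑_{i<p} X^i + p * h` in `ℤ[X]`. -/
lemma exists_poly_identity (p : ℕ) [hp : Fact p.Prime] :
    ∃ h : ℤ[X], (X - 1 : ℤ[X]) ^ (p - 1) = (∑ i ∈ Finset.range p, (X : ℤ[X]) ^ i) + C (p : ℤ) * h := by
  have key : ((X - 1 : (ZMod p)[X]) ^ (p - 1)) = ∑ i ∈ Finset.range p, (X : (ZMod p)[X]) ^ i := by
    have hX : (X - 1 : (ZMod p)[X]) ≠ 0 := X_sub_C_ne_zero (1 : ZMod p)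
    apply mul_right_cancel₀ hX
    rw [geom_sum_mul, ← pow_succ, Nat.sub_add_cancel hp.out.one_le, sub_pow_char, one_pow]
  have hdvd : (C (p : ℤ)) ∣ ((X - 1 : ℤ[X]) ^ (p - 1) - ∑ i ∈ Finset.range p, (X : ℤ[X]) ^ i) := by
    rw [C_dvd_iff_dvd_coeff]
    intro n
    have : map (Int.castRingHom (ZMod p))
        ((X - 1 : ℤ[X]) ^ (p - 1) - ∑ i ∈ Finset.range p, (X : ℤ[X]) ^ i) = 0 := by
      simp [Polynomial.map_sub, Polynomial.map_pow, Polynomial.map_sum, key]
    have h2 := congrArg (fun q => q.coeff n) this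
    simp only [coeff_map, coeff_zero, eq_intCast] at h2
    exact (ZMod.intCast_zmod_eq_zero_iff_dvd _ _).mp h2
  obtain ⟨h, hh⟩ := hdvd
  exact ⟨h, by rw [← hh]; ring⟩



lemma card_eq_pow_of_nsmul_eq_zero (p : ℕ) [Fact p.Prime] (Q : Type*) [AddCommGroup Q] [Finite Q]
    (h : ∀ x : Q, p • x = 0) : ∃ j : ℕ, Nat.card Q = p ^ j := by
  have hP : IsPGroup p (Multiplicative Q) := by
    intro g
    refine ⟨1, ?_⟩
    rw [pow_one]
    exact congrArg Multiplicative.ofAdd (h (Multiplicative.toAdd g))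
  obtain ⟨j, hj⟩ := (IsPGroup.iff_card (p := p) (G := Multiplicative Q)).mp hP
  exact ⟨j, by rw [← hj]; exact Nat.card_congr Multiplicative.ofAdd⟩

lemma relIndex_eq_pow_of_nsmul_mem (p : ℕ) [Fact p.Prime] {A : Type*} [AddCommGroup A]
    (H K : AddSubgroup A) (h0 : H.relIndex K ≠ 0) (h : ∀ x ∈ K, p • x ∈ H) :
    ∃ j : ℕ, H.relIndex K = p ^ j := by
  rw [AddSubgroup.relIndex, AddSubgroup.index_eq_card] at h0 ⊢
  haveI : Finite (↥K ⧸ H.addSubgroupOf K) := Nat.finite_of_card_ne_zero h0
  apply card_eq_pow_of_nsmul_eq_zero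
  intro x
  induction x using QuotientAddGroup.induction_on with
  | H x =>
    rw [← QuotientAddGroup.mk_nsmul, QuotientAddGroup.eq_zero_iff, AddSubgroup.mem_addSubgroupOf]
    exact h x x.2





section abstract
variable {A : Type*} [AddCommGroup A]

/-- `(H ⊔ L).relIndex (K ⊔ L) ∣ H.relIndex K` when `H ≤ K`. -/
lemma relIndex_sup_sup_dvd {H K L : AddSubgroup A} (hHK : H ≤ K) :
    (H ⊔ L).relIndex (K ⊔ L) ∣ H.relIndex K := by
  have h1 : K ⊔ L = K ⊔ (H ⊔ L) := by
    rw [← sup_assoc, sup_eq_left.mpr hHK]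
  rw [h1, AddSubgroup.relIndex_sup_right]
  exact AddSubgroup.relIndex_dvd_of_le_left K le_sup_left

lemma relIndex_map_map_dvd (f : A →+ A) {H K : AddSubgroup A} (hHK : H ≤ K) :
    (H.map f).relIndex (K.map f) ∣ H.relIndex K := by
  rw [AddSubgroup.relIndex_map_map]
  exact relIndex_sup_sup_dvd hHK

/-- iterated images `d^i B`. -/
def iterMap (d : A →+ A) (B : AddSubgroup A) : ℕ → AddSubgroup A
  | 0 => B
  | (i + 1) => (iterMap d B i).map d

lemma iterMap_succ_le (d : A →+ A) (B : AddSubgroup A) (hdB : B.map d ≤ B) (i : ℕ) :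
    iterMap d B (i + 1) ≤ iterMap d B i := by
  induction i with
  | zero => exact hdB
  | succ i ih => exact AddSubgroup.map_mono ih

lemma iterMap_le (d : A →+ A) (B : AddSubgroup A) (hdB : B.map d ≤ B) (i : ℕ) :
    iterMap d B i ≤ B := by
  induction i with
  | zero => exact le_rfl
  | succ i ih => exact (iterMap_succ_le d B hdB i).trans ih

lemma relIndex_iterMap_succ_dvd (d : A →+ A) (B : AddSubgroup A) (hdB : B.map d ≤ B) (i : ℕ) :
    (iterMap d B (i + 1)).relIndex (iterMap d B i) ∣ (B.map d).relIndex B := by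
  induction i with
  | zero => exact dvd_rfl
  | succ i ih =>
    exact (relIndex_map_map_dvd d (iterMap_succ_le d B hdB i)).trans ih

lemma relIndex_iterMap_dvd (d : A →+ A) (B : AddSubgroup A) (hdB : B.map d ≤ B) (i : ℕ) :
    (iterMap d B i).relIndex B ∣ ((B.map d).relIndex B) ^ i := by
  induction i with
  | zero => simp [iterMap]
  | succ i ih =>
    rw [← AddSubgroup.relIndex_mul_relIndex _ _ _ (iterMap_succ_le d B hdB i) (iterMap_le d B hdB i),
      pow_succ, mul_comm]
    exact mul_dvd_mul ih (relIndex_iterMap_succ_dvd d B hdB i)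

lemma mem_iterMap (d : A →+ A) (B : AddSubgroup A) (i : ℕ) (y : A) :
    y ∈ iterMap d B i ↔ ∃ x ∈ B, d^[i] x = y := by
  induction i generalizing y with
  | zero => simp [iterMap]
  | succ i ih =>
    simp only [iterMap, AddSubgroup.mem_map, Function.iterate_succ_apply']
    constructor
    · rintro ⟨z, hz, rfl⟩
      obtain ⟨x, hx, rfl⟩ := (ih z).mp hz
      exact ⟨x, hx, rfl⟩
    · rintro ⟨x, hx, rfl⟩
      exact ⟨d^[i] x, (ih _).mpr ⟨x, hx, rfl⟩, rfl⟩


theorem abstract_herbrand (p : ℕ) [hp : Fact p.Prime] (d n : A →+ A)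
    (hnd : ∀ x, n (d x) = 0) (hdn : ∀ x, d (n x) = 0)
    (hG : ∀ x, d x = 0 → n x = p • x)
    (hsplit : ∀ x, ∃ y, p • x = n x + d y ∧ (n x = 0 → n y = 0))
    (hpow : ∀ x, n x = 0 → ∃ y, n y = 0 ∧ d^[p-1] x = p • y)
    (hA : (mulN A p).range.index ≠ 0)
    (a b c : ℕ) (hc : c = 1 ∨ c = p)
    (hGp : ((d.ker).map (mulN A p)).relIndex d.ker = p ^ a * c)
    (hBp0 : ((n.ker).map (mulN A p)).relIndex n.ker ≠ 0)
    (hBp : p ^ b * c ≤ ((n.ker).map (mulN A p)).relIndex n.ker)
    (hb : (a + 1) * (p - 1) ≤ b) :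
    n.range.relIndex d.ker ≠ 0 ∧ d.range.relIndex n.ker ≠ 0 ∧
      p * n.range.relIndex d.ker ≤ d.range.relIndex n.ker := by
  have hp0 : p ≠ 0 := hp.out.ne_zero
  have hppos : 0 < p := hp.out.pos
  have hc0 : c ≠ 0 := by rcases hc with rfl | rfl <;> simp [hp0]
  set G := d.ker with hGdef
  set B := n.ker with hBdef
  have hrd : d.range ≤ B := by
    rintro _ ⟨x, rfl⟩; exact hnd x
  have hrn : n.range ≤ G := by
    rintro _ ⟨x, rfl⟩; exact hdn x
  have hpA : (mulN A p).range ≤ G ⊔ B := by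
    rintro _ ⟨x, rfl⟩
    obtain ⟨y, hy, -⟩ := hsplit x
    rw [AddSubgroup.mem_sup]
    exact ⟨n x, hdn x, d y, hnd y, hy.symm⟩
  have ht : (G ⊔ B).index ≠ 0 :=
    ne_zero_of_dvd_ne_zero hA (AddSubgroup.index_dvd_of_le hpA)
  -- the `n` side
  have hmapnG : G.map n = G.map (mulN A p) := by
    ext y
    simp only [AddSubgroup.mem_map]
    constructor
    · rintro ⟨x, hx, rfl⟩; exact ⟨x, hx, (hG x hx).symm⟩
    · rintro ⟨x, hx, rfl⟩; exact ⟨x, hx, hG x hx⟩
  have hmapnB : B.map n = ⊥ := (AddSubgroup.map_eq_bot_iff _).mpr le_rfl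
  have h1 : (G.map (mulN A p)).relIndex n.range = (G ⊔ B).index := by
    have := AddSubgroup.relIndex_map_map n (G ⊔ B) ⊤
    rw [AddSubgroup.map_sup, hmapnB, sup_bot_eq, ← AddMonoidHom.range_eq_map, hmapnG,
      sup_eq_left.mpr (le_sup_right : B ≤ G ⊔ B), top_sup_eq, AddSubgroup.relIndex_top_right]
      at this
    exact this
  have hle1 : G.map (mulN A p) ≤ n.range := by
    rw [← hmapnG, AddMonoidHom.range_eq_map]; exact AddSubgroup.map_mono le_top
  have h2 : (G ⊔ B).index * n.range.relIndex G = p ^ a * c := by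
    rw [← h1, AddSubgroup.relIndex_mul_relIndex _ _ _ hle1 hrn, hGp]
  have hH0 : n.range.relIndex G ≠ 0 := by
    intro h0; rw [h0, mul_zero] at h2
    exact (mul_ne_zero (pow_ne_zero a hp0) hc0) h2.symm
  -- the `d` side
  have hmapdG : G.map d = ⊥ := (AddSubgroup.map_eq_bot_iff _).mpr le_rfl
  have h3 : (B.map d).relIndex d.range = (G ⊔ B).index := by
    have := AddSubgroup.relIndex_map_map d (G ⊔ B) ⊤
    rw [AddSubgroup.map_sup, hmapdG, bot_sup_eq, ← AddMonoidHom.range_eq_map,
      sup_eq_left.mpr (le_sup_left : G ≤ G ⊔ B), top_sup_eq, AddSubgroup.relIndex_top_right]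
      at this
    exact this
  have hle2 : B.map d ≤ d.range := by
    rw [AddMonoidHom.range_eq_map]; exact AddSubgroup.map_mono le_top
  have hdB : B.map d ≤ B := hle2.trans hrd
  have h4 : (G ⊔ B).index * d.range.relIndex B = (B.map d).relIndex B := by
    rw [← h3, AddSubgroup.relIndex_mul_relIndex _ _ _ hle2 hrd]
  have hpB : B.map (mulN A p) ≤ B.map d := by
    rintro _ ⟨x, hx, rfl⟩
    obtain ⟨y, hy, hy'⟩ := hsplit x
    refine ⟨y, hy' hx, ?_⟩
    have hx0 : n x = 0 := hx
    rw [hx0, zero_add] at hy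
    exact hy.symm
  have hkdvd : (B.map d).relIndex B ∣ (B.map (mulN A p)).relIndex B :=
    AddSubgroup.relIndex_dvd_of_le_left B hpB
  have hk0 : (B.map d).relIndex B ≠ 0 := ne_zero_of_dvd_ne_zero hBp0 hkdvd
  have hH1 : d.range.relIndex B ≠ 0 := by
    intro h0; rw [h0, mul_zero] at h4; exact hk0 h4.symm
  refine ⟨hH0, hH1, ?_⟩
  obtain ⟨j, hj⟩ := relIndex_eq_pow_of_nsmul_mem p (B.map d) B hk0
    (fun x hx => hpB ⟨x, hx, rfl⟩)
  -- the chain
  have hiter : iterMap d B (p - 1) ≤ B.map (mulN A p) := by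
    intro y hy
    obtain ⟨x, hx, rfl⟩ := (mem_iterMap d B (p - 1) y).mp hy
    obtain ⟨z, hz, hz'⟩ := hpow x hx
    exact ⟨z, hz, hz'.symm⟩
  have hchain : (B.map (mulN A p)).relIndex B ∣ ((B.map d).relIndex B) ^ (p - 1) :=
    (AddSubgroup.relIndex_dvd_of_le_left B hiter).trans (relIndex_iterMap_dvd d B hdB (p - 1))
  have hle : p ^ b * c ≤ (p ^ j) ^ (p - 1) := by
    rw [← hj]
    exact hBp.trans (Nat.le_of_dvd (pow_pos (Nat.pos_of_ne_zero hk0) _) hchain)
  -- arithmetic
  have hp1 : 1 < p := hp.out.one_lt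
  have hgoal : p ^ a * c * p ≤ p ^ j := by
    rw [← pow_mul] at hle
    rcases hc with h | h
    · rw [h, mul_one] at hle ⊢
      have h5 : b ≤ j * (p - 1) := (Nat.pow_le_pow_iff_right hp1).mp hle
      have h6 : (a + 1) * (p - 1) ≤ j * (p - 1) := hb.trans h5
      have h7 : a + 1 ≤ j := Nat.le_of_mul_le_mul_right h6 (by omega)
      rw [← pow_succ]
      exact Nat.pow_le_pow_right hppos h7
    · rw [h] at hle ⊢
      rw [← pow_succ] at hle
      have h5 : b + 1 ≤ j * (p - 1) := (Nat.pow_le_pow_iff_right hp1).mp hle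
      have h6 : (a + 1) * (p - 1) < j * (p - 1) := by omega
      have h7 : a + 1 < j := Nat.lt_of_mul_lt_mul_right h6
      rw [← pow_succ, ← pow_succ]
      exact Nat.pow_le_pow_right hppos h7
  have hfinal : (G ⊔ B).index * (p * n.range.relIndex G) ≤ (G ⊔ B).index * d.range.relIndex B := by
    rw [h4, hj, mul_left_comm, h2, mul_comm p]
    exact hgoal
  exact Nat.le_of_mul_le_mul_left hfinal (Nat.pos_of_ne_zero ht)

end abstract


lemma exists_poly_identity' (p : ℕ) :
    ∃ w : ℤ[X], C (p : ℤ) - (∑ i ∈ Finset.range p, (X : ℤ[X]) ^ i) = (X - 1) * w := by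
  have : (X - C (1 : ℤ)) ∣ C (p : ℤ) - (∑ i ∈ Finset.range p, (X : ℤ[X]) ^ i) := by
    rw [dvd_iff_isRoot]
    simp [eval_finsetSum]
  obtain ⟨w, hw⟩ := this
  exact ⟨w, by simpa using hw⟩

section sub
variable {A : Type*} [AddCommGroup A]

lemma relIndex_map_mulN (S : Submodule ℤ A) (p : ℕ) :
    (S.toAddSubgroup.map (mulN A p)).relIndex S.toAddSubgroup = (mulN ↥S p).range.index := by
  rw [AddSubgroup.relIndex]
  congr 1
  ext x
  simp only [AddSubgroup.mem_addSubgroupOf, AddSubgroup.mem_map, Submodule.mem_toAddSubgroup,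
    nsmulAddMonoidHom_apply, AddMonoidHom.mem_range]
  constructor
  · rintro ⟨y, hy, hyx⟩
    exact ⟨⟨y, hy⟩, Subtype.ext (by simpa using hyx)⟩
  · rintro ⟨y, rfl⟩
    exact ⟨y, y.2, by simp⟩

end sub

section endo
variable {A : Type*} [AddCommGroup A] [Module.Finite ℤ A] (p : ℕ) [hp : Fact p.Prime]
  (σ : Module.End ℤ A)

/-- `D = σ - 1`. -/
def opD : Module.End ℤ A := σ - 1

/-- `N = ∑_{i<p} σ^i`. -/
def opN : Module.End ℤ A := ∑ i ∈ Finset.range p, σ ^ i

lemma opN_eq_aeval : opN p σ = aeval σ (∑ i ∈ Finset.range p, (X : ℤ[X]) ^ i) := by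
  simp [opN, map_sum]

lemma opD_eq_aeval : opD σ = aeval σ (X - 1 : ℤ[X]) := by
  simp [opD]

variable {p σ}

lemma opN_opD (hσ : σ ^ p = 1) (x : A) : opN p σ (opD σ x) = 0 := by
  have : opN p σ * opD σ = 0 := by
    rw [opN, opD, geom_sum_mul, hσ, sub_self]
  exact congrArg (fun f : Module.End ℤ A => f x) this

lemma opD_opN (hσ : σ ^ p = 1) (x : A) : opD σ (opN p σ x) = 0 := by
  have : opD σ * opN p σ = 0 := by
    rw [opN, opD, mul_geom_sum, hσ, sub_self]
  exact congrArg (fun f : Module.End ℤ A => f x) this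

lemma opN_of_fixed (x : A) (hx : opD σ x = 0) : opN p σ x = p • x := by
  have h1 : σ x = x := by
    have : σ x - x = 0 := by simpa [opD] using hx
    exact sub_eq_zero.mp this
  have h2 : ∀ i : ℕ, (σ ^ i) x = x := by
    intro i
    induction i with
    | zero => simp
    | succ i ih => rw [pow_succ, Module.End.mul_apply, h1, ih]
  simp [opN, LinearMap.sum_apply, h2]

lemma opN_aeval_comm (q : ℤ[X]) (x : A) :
    opN p σ (aeval σ q x) = aeval σ q (opN p σ x) := by
  have : opN p σ * aeval σ q = aeval σ q * opN p σ := by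
    rw [opN_eq_aeval, ← map_mul, ← map_mul, mul_comm]
  exact congrArg (fun f : Module.End ℤ A => f x) this

/-- **Herbrand inequality** for a finitely generated abelian group `A` with an endomorphism `σ`
of prime order `p`: if `rank A ≥ a + (a+1)(p-1)` where `a = rank A^σ`, and `A^σ[p]` has at most `p`
elements, then `[ker N : D A] ≥ p * [A^σ : N A]` (both finite). -/
theorem herbrand_of_end (hσ : σ ^ p = 1) (a : ℕ)
    (ha : finrank ℤ (LinearMap.ker (opD σ)) = a)
    (hr : a + (a + 1) * (p - 1) ≤ finrank ℤ A)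
    (hc : Nat.card (mulN (LinearMap.ker (opD σ)) p).ker ≤ p) :
    (opN p σ).toAddMonoidHom.range.relIndex (opD σ).toAddMonoidHom.ker ≠ 0 ∧
    (opD σ).toAddMonoidHom.range.relIndex (opN p σ).toAddMonoidHom.ker ≠ 0 ∧
    p * (opN p σ).toAddMonoidHom.range.relIndex (opD σ).toAddMonoidHom.ker ≤
      (opD σ).toAddMonoidHom.range.relIndex (opN p σ).toAddMonoidHom.ker := by
  have hp0 : p ≠ 0 := hp.out.ne_zero
  set G : Submodule ℤ A := LinearMap.ker (opD σ) with hGdef
  set B : Submodule ℤ A := LinearMap.ker (opN p σ) with hBdef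
  -- c
  set c := Nat.card (mulN G p).ker with hcdef
  have hc0 : c ≠ 0 := card_ker_mulN_ne_zero G hp0
  have hcpow : ∃ j, c = p ^ j := by
    haveI : Finite (mulN G p).ker := Nat.finite_of_card_ne_zero hc0
    apply card_eq_pow_of_nsmul_eq_zero p
    rintro ⟨x, hx⟩
    exact Subtype.ext hx
  have hc1 : c = 1 ∨ c = p := by
    obtain ⟨j, hj⟩ := hcpow
    rcases j with _ | _ | j
    · left; simpa using hj
    · right; simpa using hj
    · exfalso
      have : p ^ (j + 1 + 1) ≤ p := hj ▸ hc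
      have h2 : p ^ (j + 1 + 1) ≥ p ^ 2 := Nat.pow_le_pow_right hp.out.pos (by omega)
      have h3 : p < p ^ 2 := by
        have := hp.out.one_lt; nlinarith
      omega
  -- ranks
  have hrank : finrank ℤ (LinearMap.range (opD σ)) + finrank ℤ G = finrank ℤ A := by
    have h := LinearMap.rank_range_add_rank_ker (opD σ)
    have h' := congrArg Cardinal.toNat h
    rw [Cardinal.toNat_add (Module.rank_lt_aleph0 ℤ _) (Module.rank_lt_aleph0 ℤ _)] at h'
    exact h'
  have hrangeB : LinearMap.range (opD σ) ≤ B := by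
    rintro _ ⟨x, rfl⟩
    exact opN_opD hσ x
  have hb : (a + 1) * (p - 1) ≤ finrank ℤ B := by
    have := Submodule.finrank_mono hrangeB
    omega
  -- torsion comparison
  have hcc' : c ≤ Nat.card (mulN B p).ker := by
    have hc'0 : Nat.card (mulN B p).ker ≠ 0 := card_ker_mulN_ne_zero B hp0
    haveI : Finite (mulN B p).ker := Nat.finite_of_card_ne_zero hc'0
    have hmem : ∀ x : (mulN G p).ker, ((x : G) : A) ∈ B := by
      rintro ⟨⟨x, hx⟩, hx'⟩
      have hx'' : p • (⟨x, hx⟩ : G) = 0 := hx'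
      have h1 : p • x = 0 := by
        have := congrArg Subtype.val hx''
        rwa [AddSubmonoidClass.coe_nsmul, ZeroMemClass.coe_zero] at this
      show opN p σ x = 0
      rw [opN_of_fixed x hx, h1]
    refine Nat.card_le_card_of_injective
      (fun x => ⟨⟨((x : G) : A), hmem x⟩, ?_⟩) ?_
    · have hx' : p • (x : G) = 0 := x.2
      have h1 : p • ((x : G) : A) = 0 := by
        rw [← AddSubmonoidClass.coe_nsmul, hx', ZeroMemClass.coe_zero]
      apply Subtype.ext
      simpa using h1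
    · intro x y hxy
      apply Subtype.ext
      apply Subtype.ext
      have := congrArg (fun z => ((z : B) : A)) (congrArg Subtype.val hxy)
      simpa using this
  -- apply the abstract inequality
  have key := abstract_herbrand p (opD σ).toAddMonoidHom (opN p σ).toAddMonoidHom
    (fun x => opN_opD hσ x) (fun x => opD_opN hσ x)
    (fun x hx => opN_of_fixed x hx) ?_ ?_ (index_range_mulN_ne_zero A hp0)
    a (finrank ℤ B) c hc1 ?_ ?_ ?_ hb
  · exact key
  · -- hsplit
    intro x
    obtain ⟨w, hw⟩ := exists_poly_identity' p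
    refine ⟨aeval σ w x, ?_, ?_⟩
    · have h1 := congrArg (fun q => aeval σ q x) hw
      simp only [map_sub, map_mul, aeval_X, map_one, map_sum, map_pow, aeval_C,
        LinearMap.sub_apply, Module.End.mul_apply] at h1
      have h2 : (algebraMap ℤ (Module.End ℤ A) (p : ℤ)) x = p • x := by
        simp
      rw [h2] at h1
      show p • x = opN p σ x + opD σ (aeval σ w x)
      simp only [opN, opD, LinearMap.sub_apply, LinearMap.sum_apply, Module.End.one_apply]
      simp only [LinearMap.sum_apply, Module.End.one_apply] at h1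
      rw [← h1]; abel
    · intro hx
      show opN p σ (aeval σ w x) = 0
      rw [opN_aeval_comm]
      have : opN p σ x = 0 := hx
      rw [this, map_zero]
  · -- hpow
    intro x hx
    obtain ⟨h, hh⟩ := exists_poly_identity p
    refine ⟨aeval σ h x, ?_, ?_⟩
    · show opN p σ (aeval σ h x) = 0
      rw [opN_aeval_comm]
      have : opN p σ x = 0 := hx
      rw [this, map_zero]
    · have h1 := congrArg (fun q => aeval σ q x) hh
      simp only [map_sub, map_add, map_mul, aeval_X, map_one, map_sum, map_pow, aeval_C,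
        LinearMap.add_apply, Module.End.mul_apply] at h1
      have h2 : ∀ y : A, (algebraMap ℤ (Module.End ℤ A) (p : ℤ)) y = p • y := by
        intro y; simp
      rw [h2] at h1
      have h3 : (∑ i ∈ Finset.range p, σ ^ i) x = 0 := hx
      rw [h3, zero_add] at h1
      rw [← h1]
      show (⇑(opD σ))^[p - 1] x = _
      rw [← Module.End.pow_apply]
      rfl
  · -- hGp
    have := relIndex_map_mulN G p
    rw [index_range_mulN G hp0, ha, LinearMap.ker_toAddSubgroup] at this
    exact this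
  · -- hBp0
    have := relIndex_map_mulN B p
    rw [LinearMap.ker_toAddSubgroup] at this
    rw [this]
    exact index_range_mulN_ne_zero B hp0
  · -- hBp
    have := relIndex_map_mulN B p
    rw [LinearMap.ker_toAddSubgroup] at this
    rw [this, index_range_mulN B hp0]
    exact Nat.mul_le_mul_left _ hcc'

end endo

end Fermat.Agent.CFT.R4a
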