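import Mathlib
import Fermat.Agent.CFT.R4Defs
import Fermat.Agent.CFT.R4aHerbrand

/-!
# CFT / R4b: the unit input of the second inequality

For a cyclic Galois extension `L/K` of number fields of prime degree `p`, `K` totally complex,
`σ` a generator of `Gal(L/K)`:
`|H¹(G, E_L)| = [ker N : D E_L] ≥ p · [E_K : N E_L] = p · |Ĥ⁰(G, E_L)|`, both finite
(`units_herbrand`), in the language of `CFT/R4Defs.lean` (`unitsNorm`, `unitsD`).
Proof: Dirichlet's unit theorem (ranks) + the abstract inequality `R4a.herbrand_of_end`.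
-/

set_option autoImplicit false
set_option linter.unusedSectionVars false

open NumberField Module

namespace Fermat.Agent.CFT

namespace R4b

variable {K L : Type*} [Field K] [NumberField K] [Field L] [NumberField L] [Algebra K L]

lemma unitsGal_mul_apply (σ τ : Gal(L/K)) (u : (𝓞 L)ˣ) :
    unitsGal (σ * τ) u = unitsGal σ (unitsGal τ u) := by
  ext
  simp only [coe_unitsGal, mul_smul]

lemma unitsGal_one_apply (u : (𝓞 L)ˣ) : unitsGal (1 : Gal(L/K)) u = u := by
  ext
  simp only [coe_unitsGal, one_smul]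

/-- the endomorphism of `Additive (𝓞 L)ˣ` induced by `σ`. -/
noncomputable def unitsGalEnd (σ : Gal(L/K)) : Module.End ℤ (Additive (𝓞 L)ˣ) :=
  (MonoidHom.toAdditive (unitsGal σ)).toIntLinearMap

lemma unitsGalEnd_apply (σ : Gal(L/K)) (x : Additive (𝓞 L)ˣ) :
    unitsGalEnd σ x = Additive.ofMul (unitsGal σ x.toMul) := rfl

lemma unitsGalEnd_mul (σ τ : Gal(L/K)) :
    unitsGalEnd (σ * τ) = unitsGalEnd σ * unitsGalEnd τ := by
  ext x
  simp only [unitsGalEnd_apply, Module.End.mul_apply, unitsGal_mul_apply, toMul_ofMul]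

lemma unitsGalEnd_one : unitsGalEnd (1 : Gal(L/K)) = 1 := by
  ext x
  simp only [unitsGalEnd_apply, unitsGal_one_apply, Module.End.one_apply, ofMul_toMul]

lemma unitsGalEnd_pow (σ : Gal(L/K)) (n : ℕ) : unitsGalEnd (σ ^ n) = unitsGalEnd σ ^ n := by
  induction n with
  | zero => simp [unitsGalEnd_one]
  | succ n ih => rw [pow_succ, pow_succ, unitsGalEnd_mul, ih]

lemma opD_unitsGalEnd (σ : Gal(L/K)) (x : Additive (𝓞 L)ˣ) :
    R4a.opD (unitsGalEnd σ) x = Additive.ofMul (unitsD σ x.toMul) := rfl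

lemma opN_unitsGalEnd (p : ℕ) (σ : Gal(L/K)) (x : Additive (𝓞 L)ˣ) :
    R4a.opN p (unitsGalEnd σ) x =
      Additive.ofMul (∏ i ∈ Finset.range p, unitsGal (σ ^ i) x.toMul) := by
  simp only [R4a.opN, LinearMap.sum_apply, ← unitsGalEnd_pow, unitsGalEnd_apply, ofMul_prod]

variable (K L) in
/-- the inclusion `(𝓞 K)ˣ → (𝓞 L)ˣ`. -/
noncomputable def unitsIncl : (𝓞 K)ˣ →* (𝓞 L)ˣ :=
  Units.map ((algebraMap (𝓞 K) (𝓞 L) : 𝓞 K →+* 𝓞 L) : 𝓞 K →* 𝓞 L)

@[simp] lemma coe_unitsIncl (u : (𝓞 K)ˣ) :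
    ((unitsIncl K L u : (𝓞 L)ˣ) : 𝓞 L) = algebraMap (𝓞 K) (𝓞 L) (u : 𝓞 K) := rfl

lemma unitsIncl_injective : Function.Injective (unitsIncl K L) := by
  intro u v h
  have h1 := congrArg (fun w : (𝓞 L)ˣ => (w : 𝓞 L)) h
  simp only [coe_unitsIncl] at h1
  exact Units.ext (FaithfulSMul.algebraMap_injective (𝓞 K) (𝓞 L) h1)

section galois
variable [IsGalois K L]

lemma algebraMap_intNorm_eq_prod (x : 𝓞 L) :
    algebraMap (𝓞 K) (𝓞 L) (Algebra.intNorm (𝓞 K) (𝓞 L) x) = ∏ g : Gal(L/K), g • x := by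
  apply RingOfIntegers.coe_injective
  have h1 : algebraMap (𝓞 L) L (algebraMap (𝓞 K) (𝓞 L) (Algebra.intNorm (𝓞 K) (𝓞 L) x)) =
      algebraMap K L (algebraMap (𝓞 K) K (Algebra.intNorm (𝓞 K) (𝓞 L) x)) := by
    rw [← IsScalarTower.algebraMap_apply (𝓞 K) (𝓞 L) L, ← IsScalarTower.algebraMap_apply (𝓞 K) K L]
  rw [h1, Algebra.algebraMap_intNorm (K := K) (L := L), Algebra.norm_eq_prod_automorphisms]
  rw [map_prod]
  rfl

lemma unitsIncl_unitsNorm (u : (𝓞 L)ˣ) :
    unitsIncl K L (unitsNorm K L u) = ∏ g : Gal(L/K), unitsGal g u := by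
  ext
  rw [coe_unitsIncl, coe_unitsNorm, algebraMap_intNorm_eq_prod, Units.coe_prod]
  rfl

lemma prod_range_unitsGal_eq (p : ℕ) (σ : Gal(L/K)) (hσ : ∀ g, g ∈ Subgroup.zpowers σ)
    (hdeg : Module.finrank K L = p) (u : (𝓞 L)ˣ) :
    ∏ i ∈ Finset.range p, unitsGal (σ ^ i) u = ∏ g : Gal(L/K), unitsGal g u := by
  classical
  have hcard : Nat.card Gal(L/K) = p := by rw [IsGalois.card_aut_eq_finrank, hdeg]
  have hord : orderOf σ = p := by rw [orderOf_eq_card_of_forall_mem_zpowers hσ, hcard]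
  rw [← IsCyclic.image_range_card hσ, hcard, Finset.prod_image]
  intro i hi j hj hij
  rw [Finset.coe_range, Set.mem_Iio] at hi hj
  exact pow_injOn_Iio_orderOf (by rwa [hord]) (by rwa [hord]) hij

lemma exists_unitsIncl_eq (σ : Gal(L/K)) (hσ : ∀ g, g ∈ Subgroup.zpowers σ) (u : (𝓞 L)ˣ)
    (hu : unitsGal σ u = u) : ∃ v : (𝓞 K)ˣ, unitsIncl K L v = u := by
  -- every `g` fixes `u`
  have hall : ∀ g : Gal(L/K), unitsGal g u = u := by
    let S : Subgroup Gal(L/K) :=
      { carrier := {g | unitsGal g u = u}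
        mul_mem' := fun {a b} ha hb => by
          show unitsGal (a * b) u = u
          rw [unitsGal_mul_apply, hb, ha]
        one_mem' := unitsGal_one_apply u
        inv_mem' := fun {a} ha => by
          show unitsGal a⁻¹ u = u
          have h1 : unitsGal a⁻¹ (unitsGal a u) = u := by
            rw [← unitsGal_mul_apply, inv_mul_cancel, unitsGal_one_apply]
          rwa [ha] at h1 }
    have hS : Subgroup.zpowers σ ≤ S := (Subgroup.zpowers_le).mpr hu
    exact fun g => hS (hσ g)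
  have hfix : ∀ (w : (𝓞 L)ˣ), (∀ g : Gal(L/K), unitsGal g w = w) →
      ∃ y : 𝓞 K, algebraMap (𝓞 K) (𝓞 L) y = (w : 𝓞 L) := by
    intro w hw
    have h1 : ((w : 𝓞 L) : L) ∈ Set.range (algebraMap K L) := by
      rw [IsGalois.mem_range_algebraMap_iff_fixed]
      intro g
      have := congrArg (fun z : (𝓞 L)ˣ => ((z : 𝓞 L) : L)) (hw g)
      exact this
    obtain ⟨k, hk⟩ := h1
    have hint : IsIntegral ℤ k := by
      have h2 : IsIntegral ℤ (algebraMap K L k) := by
        rw [hk]; exact RingOfIntegers.isIntegral_coe _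
      exact (isIntegral_algebraMap_iff (FaithfulSMul.algebraMap_injective K L)).mp h2
    refine ⟨⟨k, hint⟩, ?_⟩
    apply RingOfIntegers.coe_injective
    refine Eq.trans ?_ hk
    show algebraMap (𝓞 L) L (algebraMap (𝓞 K) (𝓞 L) ⟨k, hint⟩) = algebraMap K L k
    rw [← IsScalarTower.algebraMap_apply (𝓞 K) (𝓞 L) L, IsScalarTower.algebraMap_apply (𝓞 K) K L]
    rfl
  obtain ⟨y, hy⟩ := hfix u hall
  have hall' : ∀ g : Gal(L/K), unitsGal g u⁻¹ = u⁻¹ := by
    intro g; rw [map_inv, hall g]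
  obtain ⟨z, hz⟩ := hfix u⁻¹ hall'
  have hyz : y * z = 1 := by
    apply FaithfulSMul.algebraMap_injective (𝓞 K) (𝓞 L)
    rw [map_mul, hy, hz, map_one, ← Units.val_mul, mul_inv_cancel, Units.val_one]
  exact ⟨Units.mkOfMulEqOne y z hyz, Units.ext hy⟩

lemma unitsGal_unitsIncl (g : Gal(L/K)) (v : (𝓞 K)ˣ) :
    unitsGal g (unitsIncl K L v) = unitsIncl K L v := by
  ext
  show g (algebraMap (𝓞 L) L (algebraMap (𝓞 K) (𝓞 L) (v : 𝓞 K))) =
    algebraMap (𝓞 L) L (algebraMap (𝓞 K) (𝓞 L) (v : 𝓞 K))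
  rw [← IsScalarTower.algebraMap_apply (𝓞 K) (𝓞 L) L, IsScalarTower.algebraMap_apply (𝓞 K) K L,
    AlgEquiv.commutes]

/-- `unitsIncl` as a `ℤ`-linear map on the additive groups. -/
noncomputable def unitsInclLin : Additive (𝓞 K)ˣ →ₗ[ℤ] Additive (𝓞 L)ˣ :=
  (MonoidHom.toAdditive (unitsIncl K L)).toIntLinearMap

lemma unitsInclLin_apply (x : Additive (𝓞 K)ˣ) :
    unitsInclLin (K := K) (L := L) x = Additive.ofMul (unitsIncl K L x.toMul) := rfl

lemma unitsInclLin_injective : Function.Injective (unitsInclLin (K := K) (L := L)) := by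
  intro x y h
  have := unitsIncl_injective (K := K) (L := L) (Additive.ofMul.injective h)
  exact Additive.toMul.injective this

lemma range_unitsInclLin (σ : Gal(L/K)) (hσ : ∀ g, g ∈ Subgroup.zpowers σ) :
    LinearMap.range (unitsInclLin (K := K) (L := L)) = LinearMap.ker (R4a.opD (unitsGalEnd σ)) := by
  ext x
  simp only [LinearMap.mem_range, LinearMap.mem_ker, opD_unitsGalEnd]
  constructor
  · rintro ⟨y, rfl⟩
    rw [unitsInclLin_apply, toMul_ofMul, unitsD_apply, unitsGal_unitsIncl, div_self']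
    rfl
  · intro h
    have h1 : unitsD σ x.toMul = 1 := Additive.ofMul.injective h
    rw [unitsD_apply, div_eq_one] at h1
    obtain ⟨v, hv⟩ := exists_unitsIncl_eq σ hσ x.toMul h1
    exact ⟨Additive.ofMul v, by rw [unitsInclLin_apply, toMul_ofMul, hv, ofMul_toMul]⟩

lemma finrank_ker_opD (σ : Gal(L/K)) (hσ : ∀ g, g ∈ Subgroup.zpowers σ) :
    finrank ℤ (LinearMap.ker (R4a.opD (unitsGalEnd σ))) = Units.rank K := by
  rw [← range_unitsInclLin σ hσ, LinearMap.finrank_range_of_inj unitsInclLin_injective,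
    Units.finrank_eq]

lemma card_infinitePlace_eq [NumberField.IsTotallyComplex K] :
    Fintype.card (InfinitePlace L) = Fintype.card (InfinitePlace K) * finrank K L := by
  haveI : IsUnramifiedAtInfinitePlaces K L :=
    ⟨fun w => InfinitePlace.isUnramified_iff.mpr
      (Or.inr (NumberField.IsTotallyComplex.isComplex _))⟩
  exact IsUnramifiedAtInfinitePlaces.card_infinitePlace K L

lemma card_ker_mulN_le (p : ℕ) [hp : Fact p.Prime] (σ : Gal(L/K)) :
    Nat.card (R4a.mulN (LinearMap.ker (R4a.opD (unitsGalEnd σ))) p).ker ≤ p := by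
  haveI : NeZero p := ⟨hp.out.ne_zero⟩
  refine le_trans ?_ (card_rootsOfUnity (k := p) (R := 𝓞 L))
  refine Nat.card_le_card_of_injective
    (fun x => ⟨Additive.toMul ((x : LinearMap.ker (R4a.opD (unitsGalEnd σ))) : Additive (𝓞 L)ˣ),
      ?_⟩) ?_
  · have hx : p • (x : LinearMap.ker (R4a.opD (unitsGalEnd σ))) = 0 := x.2
    have h1 : p • ((x : LinearMap.ker (R4a.opD (unitsGalEnd σ))) : Additive (𝓞 L)ˣ) = 0 := by
      rw [← AddSubmonoidClass.coe_nsmul, hx, ZeroMemClass.coe_zero]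
    rw [mem_rootsOfUnity]
    have := congrArg Additive.toMul h1
    rwa [toMul_nsmul, toMul_zero] at this
  · intro x y hxy
    have h1 := congrArg Subtype.val hxy
    simp only at h1
    exact Subtype.ext (Subtype.ext (Additive.toMul.injective h1))

end galois

end R4b

section final
open R4b
variable {K L : Type*} [Field K] [NumberField K] [Field L] [NumberField L] [Algebra K L]
  [IsGalois K L]

/-- **Unit input for the second inequality** (`|H¹(G, E_L)| ≥ p · |Ĥ⁰(G, E_L)|`, both finite). -/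
theorem units_herbrand (σ : Gal(L/K)) (hσ : ∀ g, g ∈ Subgroup.zpowers σ) (p : ℕ)
    [hp : Fact p.Prime] (hdeg : Module.finrank K L = p) [NumberField.IsTotallyComplex K] :
    (unitsNorm K L).range.index ≠ 0 ∧
    (unitsD σ).range.relIndex (unitsNorm K L).ker ≠ 0 ∧
    p * (unitsNorm K L).range.index ≤ (unitsD σ).range.relIndex (unitsNorm K L).ker := by
  classical
  have hcard : Nat.card Gal(L/K) = p := by rw [IsGalois.card_aut_eq_finrank, hdeg]
  have hσp : σ ^ p = 1 := by rw [← hcard]; exact pow_card_eq_one'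
  have hσ' : unitsGalEnd σ ^ p = 1 := by rw [← unitsGalEnd_pow, hσp, unitsGalEnd_one]
  -- ranks
  set s := Fintype.card (InfinitePlace K) with hs
  have hs1 : 1 ≤ s := Fintype.card_pos
  have ha : finrank ℤ (LinearMap.ker (R4a.opD (unitsGalEnd σ))) = s - 1 :=
    finrank_ker_opD σ hσ
  have hA : finrank ℤ (Additive (𝓞 L)ˣ) = s * p - 1 := by
    rw [Units.finrank_eq, Units.rank, card_infinitePlace_eq (K := K) (L := L), hdeg]
  have hr : (s - 1) + ((s - 1) + 1) * (p - 1) ≤ finrank ℤ (Additive (𝓞 L)ˣ) := by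
    rw [hA]
    obtain ⟨s', hs'⟩ : ∃ s', s = s' + 1 := ⟨s - 1, by omega⟩
    obtain ⟨p', hp'⟩ : ∃ p', p = p' + 1 := ⟨p - 1, by have := hp.out.pos; omega⟩
    rw [hs', hp']
    have : (s' + 1) * (p' + 1) = (s' + (s' + 1) * p') + 1 := by ring
    simp only [Nat.add_sub_cancel]
    omega
  obtain ⟨h0, h1, hle⟩ := R4a.herbrand_of_end hσ' (s - 1) ha hr (card_ker_mulN_le p σ)
  -- identification of the four subgroups
  have hDrange : (R4a.opD (unitsGalEnd σ)).toAddMonoidHom.range =
      Subgroup.toAddSubgroup (unitsD σ).range := by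
    ext x
    simp only [AddMonoidHom.mem_range, LinearMap.toAddMonoidHom_coe, opD_unitsGalEnd,
      Additive.mem_toAddSubgroup, MonoidHom.mem_range]
    constructor
    · rintro ⟨y, rfl⟩; exact ⟨y.toMul, rfl⟩
    · rintro ⟨u, hu⟩; exact ⟨Additive.ofMul u, by rw [toMul_ofMul, hu, ofMul_toMul]⟩
  have hNker : (R4a.opN p (unitsGalEnd σ)).toAddMonoidHom.ker =
      Subgroup.toAddSubgroup (unitsNorm K L).ker := by
    ext x
    simp only [AddMonoidHom.mem_ker, LinearMap.toAddMonoidHom_coe, opN_unitsGalEnd,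
      Additive.mem_toAddSubgroup, MonoidHom.mem_ker]
    rw [prod_range_unitsGal_eq p σ hσ hdeg, ← unitsIncl_unitsNorm]
    constructor
    · intro h
      have h2 : unitsIncl K L (unitsNorm K L x.toMul) = 1 := Additive.ofMul.injective h
      rw [← map_one (unitsIncl K L)] at h2
      exact unitsIncl_injective h2
    · intro h
      rw [h, map_one]; rfl
  have hDker : (R4a.opD (unitsGalEnd σ)).toAddMonoidHom.ker =
      Subgroup.toAddSubgroup (unitsIncl K L).range := by
    ext x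
    have := congrArg (fun S : Submodule ℤ (Additive (𝓞 L)ˣ) => x ∈ S) (range_unitsInclLin σ hσ)
    simp only [LinearMap.mem_range, LinearMap.mem_ker, eq_iff_iff] at this
    simp only [AddMonoidHom.mem_ker, LinearMap.toAddMonoidHom_coe, Additive.mem_toAddSubgroup,
      MonoidHom.mem_range]
    rw [← this]
    constructor
    · rintro ⟨y, rfl⟩; exact ⟨y.toMul, rfl⟩
    · rintro ⟨v, hv⟩
      exact ⟨Additive.ofMul v, by rw [unitsInclLin_apply, toMul_ofMul, hv, ofMul_toMul]⟩
  have hNrange : (R4a.opN p (unitsGalEnd σ)).toAddMonoidHom.range =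
      Subgroup.toAddSubgroup ((unitsNorm K L).range.map (unitsIncl K L)) := by
    ext x
    simp only [AddMonoidHom.mem_range, LinearMap.toAddMonoidHom_coe, opN_unitsGalEnd,
      Additive.mem_toAddSubgroup, Subgroup.mem_map, MonoidHom.mem_range]
    constructor
    · rintro ⟨y, rfl⟩
      refine ⟨unitsNorm K L y.toMul, ⟨y.toMul, rfl⟩, ?_⟩
      rw [unitsIncl_unitsNorm, prod_range_unitsGal_eq p σ hσ hdeg, toMul_ofMul]
    · rintro ⟨_, ⟨u, rfl⟩, hu⟩
      refine ⟨Additive.ofMul u, ?_⟩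
      rw [toMul_ofMul, prod_range_unitsGal_eq p σ hσ hdeg, ← unitsIncl_unitsNorm, hu, ofMul_toMul]
  have hidx : ((unitsNorm K L).range.map (unitsIncl K L)).relIndex (unitsIncl K L).range =
      (unitsNorm K L).range.index := by
    rw [MonoidHom.range_eq_map (unitsIncl K L),
      Subgroup.relIndex_map_map_of_injective _ _ unitsIncl_injective, Subgroup.relIndex_top_right]
  rw [hNrange, hDker, Subgroup.relIndex_toAddSubgroup, hidx] at h0 hle
  rw [hDrange, hNker, Subgroup.relIndex_toAddSubgroup] at h1 hle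
  exact ⟨h0, h1, hle⟩

end final

end Fermat.Agent.CFT
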