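/-
S14 moonshot (class field theory), package R4c slice (C): two counting lemmas for homomorphisms of
finite groups used in the class-group half of the second inequality.
-/
import Mathlib

set_option autoImplicit false

namespace Fermat.Agent.CFT

/-- first isomorphism theorem, counting form. -/
theorem card_ker_mul_card_range {S Q : Type*} [Group S] [Group Q] (ψ : S →* Q) :
    Nat.card ψ.ker * Nat.card ψ.range = Nat.card S := by
  rw [← Subgroup.index_ker, Subgroup.card_mul_index]

/-- If `N ∘ τ = N` on a finite commutative group `A`, then the image of `N` is at most as large as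
the group of fixed points of `τ` (the kernel of `a ↦ τ a / a`). -/
theorem card_range_le_card_fixed {A B : Type*} [CommGroup A] [Finite A] [Group B] (τ : A →* A)
    (N : A →* B) (h : ∀ a, N (τ a) = N a) :
    Nat.card N.range ≤ Nat.card (τ / MonoidHom.id A).ker := by
  set D : A →* A := τ / MonoidHom.id A with hD
  have hle : D.range ≤ N.ker := by
    rintro _ ⟨a, rfl⟩
    rw [MonoidHom.mem_ker, hD, MonoidHom.div_apply, MonoidHom.id_apply, map_div, h, div_self']
  have h1 := card_ker_mul_card_range N
  have h2 := card_ker_mul_card_range D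
  have h3 : Nat.card D.range ≤ Nat.card N.ker := Subgroup.card_le_of_le hle
  have hpos : 0 < Nat.card N.ker := Nat.card_pos
  have h4 : Nat.card N.ker * Nat.card N.range ≤ Nat.card N.ker * Nat.card D.ker := by
    calc Nat.card N.ker * Nat.card N.range = Nat.card D.ker * Nat.card D.range := by rw [h1, h2]
      _ ≤ Nat.card D.ker * Nat.card N.ker := Nat.mul_le_mul_left _ h3
      _ = Nat.card N.ker * Nat.card D.ker := Nat.mul_comm _ _
  exact Nat.le_of_mul_le_mul_left h4 hpos

/-- If the kernel of `ψ` is contained in `T`, then `|S| ≤ |T| * |range ψ|`. -/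
theorem card_le_mul_of_hom {S Q : Type*} [Group S] [Finite S] [Group Q] (ψ : S →* Q)
    (T : Subgroup S) (hker : ψ.ker ≤ T) : Nat.card S ≤ Nat.card T * Nat.card ψ.range := by
  rw [← card_ker_mul_card_range ψ]
  exact Nat.mul_le_mul_right _ (Subgroup.card_le_of_le hker)

/-- variant of `card_le_mul_of_hom` with the full (finite) target group. -/
theorem card_le_mul_of_hom' {S Q : Type*} [Group S] [Finite S] [Group Q] [Finite Q] (ψ : S →* Q)
    (T : Subgroup S) (hker : ψ.ker ≤ T) : Nat.card S ≤ Nat.card T * Nat.card Q :=
  (card_le_mul_of_hom ψ T hker).trans (Nat.mul_le_mul_left _ (Subgroup.card_le_card_group _))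

/-- variant without finiteness of `S`, in terms of indices: `[S : T] ∣ |range ψ|`-style bound
`T.index ≤ Nat.card ψ.range` when the latter is finite and nonzero. -/
theorem index_le_card_range_of_ker_le {S Q : Type*} [Group S] [Group Q] (ψ : S →* Q)
    (T : Subgroup S) (hker : ψ.ker ≤ T) (hfin : Nat.card ψ.range ≠ 0) :
    T.index ≤ Nat.card ψ.range := by
  rw [← Subgroup.index_ker] at hfin ⊢
  exact Nat.le_of_dvd (Nat.pos_of_ne_zero hfin) (Subgroup.index_dvd_of_le hker)

end Fermat.Agent.CFT
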