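import Mathlib
import Fermat.Agent.CFT.P1Tower

/-!
# CFT / R4c: Galois-invariant ideals of an unramified extension are extended

`L/K` Galois extension of number fields, unramified at every finite prime (trivial inertia groups).
* `map_eq_prod_primesOver`: `𝔭 𝓞_L` is the product of the primes above `𝔭`;
* `exists_map_eq_of_forall_smul_eq`: a nonzero ideal `𝔅` of `𝓞 L` with `g • 𝔅 = 𝔅` for all
  `g : Gal(L/K)` is of the form `𝔟 𝓞_L`;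
* `map_algebraMap_injective`: `𝔞 ↦ 𝔞 𝓞_L` is injective.
-/

set_option autoImplicit false
set_option linter.unusedSectionVars false

open NumberField
open scoped Pointwise nonZeroDivisors

namespace Fermat.Agent.CFT

variable {K L : Type*} [Field K] [NumberField K] [Field L] [NumberField L] [Algebra K L]
  [IsGalois K L]

/-- the Galois group fixes extended ideals. -/
lemma smul_map_algebraMap (g : Gal(L/K)) (𝔞 : Ideal (𝓞 K)) :
    g • (𝔞.map (algebraMap (𝓞 K) (𝓞 L))) = 𝔞.map (algebraMap (𝓞 K) (𝓞 L)) := by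
  rw [Ideal.pointwise_smul_def, Ideal.map_map]
  congr 1
  ext x
  simp only [RingHom.coe_comp, Function.comp_apply]
  exact smul_algebraMap g x

/-- extension of ideals from `𝓞 K` to `𝓞 L` is injective. -/
lemma map_algebraMap_injective :
    Function.Injective (Ideal.map (algebraMap (𝓞 K) (𝓞 L))) := by
  intro 𝔞 𝔟 h
  have h1 := congrArg (Ideal.relNorm (𝓞 K)) h
  rw [Ideal.relNorm_algebraMap, Ideal.relNorm_algebraMap] at h1
  have hpos : Module.finrank (𝓞 K) (𝓞 L) ≠ 0 := by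
    have : 0 < Module.finrank (𝓞 K) (𝓞 L) := Module.finrank_pos
    omega
  exact pow_left_injective hpos h1

/-- in an unramified Galois extension, `𝔭 𝓞_L` is the product of the primes above `𝔭`. -/
lemma map_dvd_of_forall_primesOver_dvd (hunr : IsUnramifiedEverywhere K L) {𝔭 : Ideal (𝓞 K)}
    [h𝔭 : 𝔭.IsMaximal] (hne : 𝔭 ≠ ⊥) {𝔅 : Ideal (𝓞 L)}
    (h : ∀ 𝔔 : Ideal (𝓞 L), 𝔔.IsPrime → 𝔔.LiesOver 𝔭 → 𝔔 ∣ 𝔅) :
    𝔭.map (algebraMap (𝓞 K) (𝓞 L)) ∣ 𝔅 := by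
  classical
  have hmap := Ideal.map_algebraMap_eq_finsetProd_pow (R := 𝓞 L) (p := 𝔭) hne
  have hone : ∀ P ∈ (𝔭.primesOver (𝓞 L)).toFinset, P ^ P.ramificationIdx (𝓞 K) = P := by
    intro P hP
    rw [Set.mem_toFinset] at hP
    have hP1 : P.IsPrime := hP.1
    have hP2 : P.LiesOver 𝔭 := hP.2
    have hin : P.inertia Gal(L/K) = ⊥ :=
      hunr 𝔭 h𝔭.isPrime hne P hP1 (hP2.over.symm)
    have hcard := Ideal.card_inertia_eq_ramificationIdxIn (G := Gal(L/K)) 𝔭 P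
    rw [Ideal.ramificationIdxIn_eq_ramificationIdx 𝔭 P Gal(L/K)] at hcard
    have hc1 : Nat.card (P.inertia Gal(L/K)) = 1 := by
      rw [hin]; exact Subgroup.card_bot
    rw [← hcard, hc1, pow_one]
  rw [hmap, Finset.prod_congr rfl hone]
  refine Finset.prod_primes_dvd 𝔅 ?_ ?_
  · intro P hP
    rw [Set.mem_toFinset] at hP
    have hP1 : P.IsPrime := hP.1
    have hP2 : P.LiesOver 𝔭 := hP.2
    refine Ideal.prime_of_isPrime ?_ hP1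
    rintro rfl
    apply hne
    have := Ideal.over_def (⊥ : Ideal (𝓞 L)) 𝔭
    rw [this, Ideal.under_bot]
  · intro P hP
    rw [Set.mem_toFinset] at hP
    exact h P hP.1 hP.2

/-- **invariant ideals are extended**: in an unramified Galois extension `L/K`, a nonzero ideal of
`𝓞 L` which is stable under `Gal(L/K)` is the extension of an ideal of `𝓞 K`. -/
theorem exists_map_eq_of_forall_smul_eq (hunr : IsUnramifiedEverywhere K L) (𝔅 : Ideal (𝓞 L))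
    (h0 : 𝔅 ≠ ⊥) (hinv : ∀ g : Gal(L/K), g • 𝔅 = 𝔅) :
    ∃ 𝔟 : Ideal (𝓞 K), 𝔟 ≠ ⊥ ∧ 𝔅 = 𝔟.map (algebraMap (𝓞 K) (𝓞 L)) := by
  induction 𝔅 using IsNoetherian.induction with
  | hgt 𝔅 ih =>
  by_cases htop : 𝔅 = ⊤
  · exact ⟨⊤, top_ne_bot, by rw [htop, Ideal.map_top]⟩
  obtain ⟨𝔓, h𝔓max, h𝔓le⟩ := Ideal.exists_le_maximal 𝔅 htop
  have h𝔓ne : 𝔓 ≠ ⊥ := fun h => h0 (le_bot_iff.mp (h ▸ h𝔓le))
  set 𝔭 := 𝔓.under (𝓞 K) with h𝔭def
  have h𝔭ne : 𝔭 ≠ ⊥ := Ideal.under_ne_bot (𝓞 K) h𝔓ne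
  have h𝔭prime : 𝔭.IsPrime := Ideal.IsPrime.under _ _
  have h𝔭max : 𝔭.IsMaximal := Ring.DimensionLEOne.maximalOfPrime h𝔭ne h𝔭prime
  have h𝔓over : 𝔓.LiesOver 𝔭 := ⟨rfl⟩
  -- every prime over `𝔭` divides `𝔅`
  have hdvd : ∀ 𝔔 : Ideal (𝓞 L), 𝔔.IsPrime → 𝔔.LiesOver 𝔭 → 𝔔 ∣ 𝔅 := by
    intro 𝔔 h𝔔 h𝔔over
    obtain ⟨g, rfl⟩ := Ideal.exists_smul_eq_of_isGaloisGroup 𝔭 𝔓 𝔔 Gal(L/K)
    rw [Ideal.dvd_iff_le, ← hinv g]
    exact Ideal.pointwise_smul_le_pointwise_smul_iff.mpr h𝔓le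
  obtain ⟨𝔅', h𝔅'⟩ := map_dvd_of_forall_primesOver_dvd hunr h𝔭ne hdvd
  have hmapne : 𝔭.map (algebraMap (𝓞 K) (𝓞 L)) ≠ ⊥ := by
    rintro h
    exact h0 (by rw [h𝔅', h, Ideal.bot_mul])
  have h𝔅'ne : 𝔅' ≠ ⊥ := by
    rintro rfl
    exact h0 (by rw [h𝔅', Ideal.mul_bot])
  have hinv' : ∀ g : Gal(L/K), g • 𝔅' = 𝔅' := by
    intro g
    have h1 := hinv g
    rw [h𝔅', smul_mul', smul_map_algebraMap] at h1
    exact mul_left_cancel₀ hmapne h1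
  have hgt : 𝔅 < 𝔅' := by
    refine lt_of_le_of_ne (by rw [h𝔅']; exact Ideal.mul_le_right) ?_
    intro heq
    rw [← heq] at h𝔅'
    have h2 : 𝔭.map (algebraMap (𝓞 K) (𝓞 L)) * 𝔅 = 1 * 𝔅 := by rw [one_mul]; exact h𝔅'.symm
    have h3 := mul_right_cancel₀ h0 h2
    have h4 : 𝔭.map (algebraMap (𝓞 K) (𝓞 L)) ≤ 𝔓 := Ideal.map_le_iff_le_comap.mpr le_rfl
    rw [h3, Ideal.one_eq_top, top_le_iff] at h4
    exact h𝔓max.ne_top h4
  obtain ⟨𝔟', h𝔟'ne, h𝔟'⟩ := ih 𝔅' hgt h𝔅'ne hinv'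
  refine ⟨𝔭 * 𝔟', mul_ne_zero h𝔭ne h𝔟'ne, ?_⟩
  rw [Ideal.map_mul, ← h𝔟', ← h𝔅']

end Fermat.Agent.CFT
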