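import Mathlib
import Fermat.Agent.CFT.NormClasses
import Fermat.Agent.CFT.R4cInvariant

/-!
# CFT / R4c: the Galois action on the class group, norm classes as a range

* `smulIdeal₀ g : (Ideal (𝓞 L))⁰ →* (Ideal (𝓞 L))⁰` and `sigmaCl g : Cl(L) →* Cl(L)` for `g : Gal(L/K)`;
* `normCl_sigmaCl`: the class norm is invariant under the Galois action;
* `normClasses_eq_range`: `normClasses K L = (normCl K L).range`.
-/

set_option autoImplicit false
set_option linter.unusedSectionVars false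

open NumberField
open scoped Pointwise nonZeroDivisors

namespace Fermat.Agent.CFT

variable {K L : Type*} [Field K] [NumberField K] [Field L] [NumberField L] [Algebra K L]
  [IsGalois K L]

/-- the principal nonzero ideal generated by a nonzero element. -/
def spanSingleton₀ {R : Type*} [CommRing R] [IsDomain R] (x : R) (hx : x ≠ 0) : (Ideal R)⁰ :=
  ⟨Ideal.span {x}, mem_nonZeroDivisors_of_ne_zero (by simpa using hx)⟩

@[simp] lemma coe_spanSingleton₀ {R : Type*} [CommRing R] [IsDomain R] (x : R) (hx : x ≠ 0) :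
    ((spanSingleton₀ x hx : (Ideal R)⁰) : Ideal R) = Ideal.span {x} := rfl

lemma mk0_spanSingleton₀ {R : Type*} [CommRing R] [IsDedekindDomain R] (x : R)
    (hx : x ≠ 0) : ClassGroup.mk0 (spanSingleton₀ x hx) = 1 := by
  rw [spanSingleton₀, ClassGroup.mk0_eq_one_iff]
  exact ⟨⟨x, rfl⟩⟩

lemma smul_span_singleton (g : Gal(L/K)) (x : 𝓞 L) :
    g • Ideal.span {x} = Ideal.span {g • x} := by
  rw [Ideal.pointwise_smul_def, Ideal.map_span, Set.image_singleton]
  rfl

lemma smul_ideal_ne_bot (g : Gal(L/K)) {I : Ideal (𝓞 L)} (hI : I ≠ ⊥) : g • I ≠ ⊥ := by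
  intro h
  apply hI
  have h2 : g⁻¹ • (g • I) = g⁻¹ • (⊥ : Ideal (𝓞 L)) := by rw [h]
  rw [inv_smul_smul] at h2
  rw [h2, Ideal.pointwise_smul_def, Ideal.map_bot]

/-- the action of `g : Gal(L/K)` on nonzero ideals, as a monoid hom. -/
noncomputable def smulIdeal₀ (g : Gal(L/K)) : (Ideal (𝓞 L))⁰ →* (Ideal (𝓞 L))⁰ where
  toFun I := ⟨g • (I : Ideal (𝓞 L)), mem_nonZeroDivisors_of_ne_zero
    (smul_ideal_ne_bot g (nonZeroDivisors.coe_ne_zero I))⟩
  map_one' := Subtype.ext (by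
    show g • ((1 : (Ideal (𝓞 L))⁰) : Ideal (𝓞 L)) = 1
    rw [Submonoid.coe_one, smul_one])
  map_mul' I J := Subtype.ext (by
    show g • ((I * J : (Ideal (𝓞 L))⁰) : Ideal (𝓞 L)) = _
    rw [Submonoid.coe_mul, smul_mul']
    rfl)

@[simp] lemma coe_smulIdeal₀ (g : Gal(L/K)) (I : (Ideal (𝓞 L))⁰) :
    ((smulIdeal₀ g I : (Ideal (𝓞 L))⁰) : Ideal (𝓞 L)) = g • (I : Ideal (𝓞 L)) := rfl

/-- the action of `g : Gal(L/K)` on the class group of `L`. -/
noncomputable def sigmaCl (g : Gal(L/K)) : ClassGroup (𝓞 L) →* ClassGroup (𝓞 L) :=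
  classLift ((ClassGroup.mk0 (R := 𝓞 L)).comp (smulIdeal₀ g)) (by
    intro x hx
    rw [MonoidHom.comp_apply, ClassGroup.mk0_eq_one_iff, coe_smulIdeal₀]
    show (g • Ideal.span {x}).IsPrincipal
    rw [smul_span_singleton]
    exact ⟨⟨_, rfl⟩⟩)

@[simp] lemma sigmaCl_mk0 (g : Gal(L/K)) (I : (Ideal (𝓞 L))⁰) :
    sigmaCl g (ClassGroup.mk0 I) = ClassGroup.mk0 (smulIdeal₀ g I) := by
  rw [sigmaCl, classLift_mk0]
  rfl

lemma relNorm₀_smulIdeal₀ (g : Gal(L/K)) (I : (Ideal (𝓞 L))⁰) :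
    relNorm₀ K L (smulIdeal₀ g I) = relNorm₀ K L I := by
  apply Subtype.ext
  rw [coe_relNorm₀, coe_relNorm₀, coe_smulIdeal₀, Ideal.relNorm_smul]

/-- the class norm is invariant under the Galois action. -/
lemma normCl_sigmaCl (g : Gal(L/K)) (c : ClassGroup (𝓞 L)) :
    normCl K L (sigmaCl g c) = normCl K L c := by
  obtain ⟨I, rfl⟩ := ClassGroup.mk0_surjective c
  rw [sigmaCl_mk0, normCl_mk0, normCl_mk0, relNorm₀_smulIdeal₀]

/-- the norm classes are the range of the class norm. -/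
lemma normClasses_eq_range : normClasses K L = (normCl K L).range := by
  apply le_antisymm
  · rw [normClasses_le_iff]
    intro 𝔄
    exact ⟨ClassGroup.mk0 𝔄, normCl_mk0 K L 𝔄⟩
  · rintro _ ⟨c, rfl⟩
    obtain ⟨I, rfl⟩ := ClassGroup.mk0_surjective c
    rw [normCl_mk0]
    exact mk0_relNorm₀_mem_normClasses I

end Fermat.Agent.CFT
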