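import Mathlib

/-!
# CFT / R4c: Hilbert's theorem 90 for cyclic extensions, universe polymorphic

Mathlib's `groupCohomology.exists_div_of_norm_eq_one` is only stated for fields in `Type`.
Here: for `L/K` finite Galois with `Gal(L/K)` generated by `σ`, and `α : L` with `N_{L/K} α = 1`,
there is `β ≠ 0` with `α * σ β = β`; and an integral version for number fields.
-/

set_option autoImplicit false
set_option linter.unusedSectionVars false

open NumberField

namespace Fermat.Agent.CFT

section Field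

variable {K L : Type*} [Field K] [Field L] [Algebra K L] [FiniteDimensional K L]

/-- reindexing a product over a finite cyclic group along the powers of a generator. -/
lemma prod_univ_eq_prod_range_pow {G : Type*} [Group G] [Fintype G] {σ : G}
    (hσ : ∀ g, g ∈ Subgroup.zpowers σ) {M : Type*} [CommMonoid M] (F : G → M) :
    ∏ g : G, F g = ∏ i ∈ Finset.range (orderOf σ), F (σ ^ i) := by
  symm
  refine Finset.prod_bij (fun i _ => σ ^ i) (fun _ _ => Finset.mem_univ _) ?_ ?_ (fun _ _ => rfl)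
  · intro i hi j hj h
    exact pow_injOn_Iio_orderOf (by simpa using hi) (by simpa using hj) h
  · intro g _
    obtain ⟨k, rfl⟩ := Subgroup.mem_zpowers_iff.mp (hσ g)
    have hpos : 0 < orderOf σ := orderOf_pos σ
    refine ⟨(k % (orderOf σ : ℤ)).toNat, ?_, ?_⟩
    · rw [Finset.mem_range]
      have h1 : 0 ≤ k % (orderOf σ : ℤ) := Int.emod_nonneg _ (by exact_mod_cast hpos.ne')
      have h2 : k % (orderOf σ : ℤ) < orderOf σ := Int.emod_lt_of_pos _ (by exact_mod_cast hpos)
      omega
    · have h1 : 0 ≤ k % (orderOf σ : ℤ) := Int.emod_nonneg _ (by exact_mod_cast hpos.ne')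
      rw [← zpow_natCast, Int.toNat_of_nonneg h1, zpow_mod_orderOf]

lemma sum_univ_eq_sum_range_pow {G : Type*} [Group G] [Fintype G] {σ : G}
    (hσ : ∀ g, g ∈ Subgroup.zpowers σ) {M : Type*} [AddCommMonoid M] (F : G → M) :
    ∑ g : G, F g = ∑ i ∈ Finset.range (orderOf σ), F (σ ^ i) :=
  prod_univ_eq_prod_range_pow (M := Multiplicative M) hσ F

variable [IsGalois K L]

/-- **Hilbert 90** for a cyclic extension (polymorphic): `N α = 1 → ∃ β ≠ 0, α * σ β = β`. -/
theorem exists_mul_apply_eq_of_norm_eq_one {σ : Gal(L/K)} (hσ : ∀ g, g ∈ Subgroup.zpowers σ)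
    {α : L} (hα : Algebra.norm K α = 1) : ∃ β : L, β ≠ 0 ∧ α * σ β = β := by
  classical
  have hα0 : α ≠ 0 := by
    rintro rfl
    rw [Algebra.norm_zero] at hα
    exact zero_ne_one hα
  set n := orderOf σ with hn
  -- the partial norms
  let a : ℕ → L := fun i => ∏ j ∈ Finset.range i, (σ ^ j) α
  have ha0 : a 0 = 1 := by simp [a]
  have hasucc : ∀ i, a (i + 1) = α * σ (a i) := by
    intro i
    show ∏ j ∈ Finset.range (i + 1), (σ ^ j) α = α * σ (∏ j ∈ Finset.range i, (σ ^ j) α)
    rw [Finset.prod_range_succ', map_prod, pow_zero, AlgEquiv.one_apply, mul_comm]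
    congr 1
    refine Finset.prod_congr rfl fun j _ => ?_
    rw [pow_succ', AlgEquiv.mul_apply]
  have han : a n = 1 := by
    have h1 : algebraMap K L (Algebra.norm K α) = ∏ g : Gal(L/K), g α :=
      Algebra.norm_eq_prod_automorphisms K α
    rw [hα, map_one, prod_univ_eq_prod_range_pow hσ (fun g => g α)] at h1
    exact h1.symm
  have hane : ∀ i, a i ≠ 0 := by
    intro i
    simp only [a]
    rw [Finset.prod_ne_zero_iff]
    intro j _
    exact (map_ne_zero _).mpr hα0
  -- the index of an element of the group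
  have hex : ∀ g : Gal(L/K), ∃ i, i < n ∧ σ ^ i = g := by
    intro g
    obtain ⟨k, rfl⟩ := Subgroup.mem_zpowers_iff.mp (hσ g)
    have hpos : 0 < orderOf σ := orderOf_pos σ
    have h1 : 0 ≤ k % (orderOf σ : ℤ) := Int.emod_nonneg _ (by exact_mod_cast hpos.ne')
    have h2 : k % (orderOf σ : ℤ) < orderOf σ := Int.emod_lt_of_pos _ (by exact_mod_cast hpos)
    refine ⟨(k % (orderOf σ : ℤ)).toNat, by omega, ?_⟩
    rw [← zpow_natCast, Int.toNat_of_nonneg h1, zpow_mod_orderOf]
  choose idx hidx1 hidx2 using hex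
  have hidx : ∀ i, i < n → idx (σ ^ i) = i := by
    intro i hi
    exact pow_injOn_Iio_orderOf (by simpa using hidx1 (σ ^ i)) (by simpa using hi) (hidx2 (σ ^ i))
  let f : Gal(L/K) → Lˣ := fun g => Units.mk0 (a (idx g)) (hane _)
  obtain ⟨z, hz⟩ : ∃ z, groupCohomology.Hilbert90.aux f z ≠ 0 :=
    not_forall.1 (fun H => groupCohomology.Hilbert90.aux_ne_zero f <| funext <| fun x => H x)
  have haux : groupCohomology.Hilbert90.aux f z = ∑ i ∈ Finset.range n, a i * (σ ^ i) z := by
    have : groupCohomology.Hilbert90.aux f z = ∑ h : Gal(L/K), (f h : L) * h z := by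
      simp [groupCohomology.Hilbert90.aux, Finsupp.linearCombination, Finsupp.sum_fintype]
    rw [this, sum_univ_eq_sum_range_pow hσ]
    refine Finset.sum_congr rfl fun i hi => ?_
    simp only [f, Units.val_mk0]
    rw [hidx i (Finset.mem_range.mp hi)]
  refine ⟨_, hz, ?_⟩
  rw [haux, map_sum, Finset.mul_sum]
  have hterm : ∀ i ∈ Finset.range n, α * σ (a i * (σ ^ i) z) = a (i + 1) * (σ ^ (i + 1)) z := by
    intro i _
    rw [map_mul, ← mul_assoc, ← hasucc, pow_succ', AlgEquiv.mul_apply]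
  rw [Finset.sum_congr rfl hterm]
  have h1 := Finset.sum_range_succ' (fun i => a i * (σ ^ i) z) n
  have h2 := Finset.sum_range_succ (fun i => a i * (σ ^ i) z) n
  have h3 : a n * (σ ^ n) z = a 0 * (σ ^ 0) z := by
    rw [han, ha0, hn, pow_orderOf_eq_one, pow_zero]
  rw [h2] at h1
  rw [h3] at h1
  exact (add_right_cancel h1).symm

end Field

section NumberField

variable {K L : Type*} [Field K] [NumberField K] [Field L] [NumberField L] [Algebra K L]
  [IsGalois K L]

lemma coe_galSMul' (σ : Gal(L/K)) (x : 𝓞 L) : ((σ • x : 𝓞 L) : L) = σ (x : L) := rfl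

lemma norm_coe_eq_algebraMap_intNorm (x : 𝓞 L) :
    Algebra.norm K (x : L) = algebraMap (𝓞 K) K (Algebra.intNorm (𝓞 K) (𝓞 L) x) :=
  (Algebra.algebraMap_intNorm (A := 𝓞 K) (K := K) (L := L) (B := 𝓞 L) x).symm

/-- every element of a number field is an integer divided by a nonzero rational integer. -/
lemma exists_int_mul_eq_coe (β : L) : ∃ (m : ℤ) (b : 𝓞 L), m ≠ 0 ∧ (m : L) * β = (b : L) := by
  have halg : IsAlgebraic ℤ β :=
    (IsFractionRing.isAlgebraic_iff ℤ ℚ L).mpr (Algebra.IsAlgebraic.isAlgebraic (R := ℚ) β)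
  obtain ⟨y, hy0, hint⟩ := halg.exists_integral_multiple
  refine ⟨y, ⟨y • β, hint⟩, hy0, ?_⟩
  show (y : L) * β = y • β
  rw [zsmul_eq_mul]

/-- **Hilbert 90**, integral form: if `u v : 𝓞 L` are nonzero with the same relative norm, there is
`b ≠ 0` in `𝓞 L` with `u * σ b = v * b`. -/
theorem exists_mul_smul_eq_mul {σ : Gal(L/K)} (hσ : ∀ g, g ∈ Subgroup.zpowers σ) {u v : 𝓞 L}
    (hv : v ≠ 0)
    (huv : Algebra.intNorm (𝓞 K) (𝓞 L) u = Algebra.intNorm (𝓞 K) (𝓞 L) v) :
    ∃ b : 𝓞 L, b ≠ 0 ∧ u * σ • b = v * b := by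
  have hv' : (v : L) ≠ 0 := by
    simpa using hv
  have hN : Algebra.norm K ((u : L) / (v : L)) = 1 := by
    rw [div_eq_mul_inv, map_mul, Algebra.norm_inv, norm_coe_eq_algebraMap_intNorm,
      norm_coe_eq_algebraMap_intNorm, huv]
    refine mul_inv_cancel₀ ?_
    rw [← norm_coe_eq_algebraMap_intNorm]
    exact Algebra.norm_ne_zero_iff.mpr hv'
  obtain ⟨β, hβ0, hβ⟩ := exists_mul_apply_eq_of_norm_eq_one hσ hN
  obtain ⟨m, b, hm, hb⟩ := exists_int_mul_eq_coe β
  have hmL : (m : L) ≠ 0 := by exact_mod_cast hm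
  refine ⟨b, ?_, ?_⟩
  · rintro rfl
    exact (mul_ne_zero hmL hβ0) (hb.trans (map_zero _))
  · apply RingOfIntegers.ext
    have h1 : (u : L) * σ β = (v : L) * β := by
      rw [div_mul_eq_mul_div, div_eq_iff hv'] at hβ
      rw [hβ, mul_comm]
    have h2 : algebraMap (𝓞 L) L (σ • b) = (m : L) * σ β := by
      show ((σ • b : 𝓞 L) : L) = (m : L) * σ β
      rw [coe_galSMul', ← hb, map_mul, map_intCast]
    have hb' : algebraMap (𝓞 L) L b = (m : L) * β := hb.symm
    show algebraMap (𝓞 L) L (u * σ • b) = algebraMap (𝓞 L) L (v * b)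
    rw [map_mul, map_mul, h2, hb']
    have h1' : algebraMap (𝓞 L) L u * σ β = algebraMap (𝓞 L) L v * β := h1
    calc algebraMap (𝓞 L) L u * ((m : L) * σ β)
        = (m : L) * (algebraMap (𝓞 L) L u * σ β) := by ring
      _ = algebraMap (𝓞 L) L v * ((m : L) * β) := by rw [h1']; ring

end NumberField

end Fermat.Agent.CFT
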