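import Mathlib
import Fermat.Agent.CFT.R4Defs
import Fermat.Agent.CFT.R4cHilbert
import Fermat.Agent.CFT.R4cClassGroup

/-!
# CFT / R4c, slice (P): ambiguous classes

`L/K` cyclic (generator `σ`), unramified everywhere.  For an ideal class `c` of `L` fixed by `σ` choose
`𝔄 ∈ c` and `x, y ≠ 0` with `(x) σ𝔄 = (y) 𝔄`; then `N y = u N x` for a unit `u` of `𝓞 K`, well defined modulo
norms of units of `L`.  The resulting hom `ψ : Cl(L)^σ → E_K / N E_L` has kernel inside the image of `Cl(K)`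
(Hilbert 90 + invariant ideals are extended), whence
`#Cl(L)^σ ≤ #(image of Cl(K) in Cl(L)) * [E_K : N E_L]`.
-/

set_option autoImplicit false
set_option linter.unusedSectionVars false

open NumberField
open scoped Pointwise nonZeroDivisors

namespace Fermat.Agent.CFT

variable {K L : Type*} [Field K] [NumberField K] [Field L] [NumberField L] [Algebra K L]
  [IsGalois K L]

local notation "Nm" => Algebra.intNorm (𝓞 K) (𝓞 L)

lemma intNorm_smul (g : Gal(L/K)) (a : 𝓞 L) : Nm (g • a) = Nm a :=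
  Algebra.intNorm_map_algEquiv (𝓞 L) a (MulSemiringAction.toAlgEquiv (𝓞 K) (𝓞 L) g)

lemma intNorm_ne_zero {a : 𝓞 L} (ha : a ≠ 0) : Nm a ≠ 0 := by
  rwa [Ne, Algebra.intNorm_eq_zero]

/-- the relation defining `ψ`. -/
def AmbigRel (σ : Gal(L/K)) (c : ClassGroup (𝓞 L)) (u : (𝓞 K)ˣ) : Prop :=
  ∃ (𝔄 : (Ideal (𝓞 L))⁰) (x y : 𝓞 L), x ≠ 0 ∧ y ≠ 0 ∧ ClassGroup.mk0 𝔄 = c ∧
    Ideal.span {x} * σ • (𝔄 : Ideal (𝓞 L)) = Ideal.span {y} * (𝔄 : Ideal (𝓞 L)) ∧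
    Nm y = (u : 𝓞 K) * Nm x

/-- (a) existence. -/
lemma exists_ambigRel {σ : Gal(L/K)} {c : ClassGroup (𝓞 L)} (hc : sigmaCl σ c = c) :
    ∃ u, AmbigRel σ c u := by
  obtain ⟨𝔄, rfl⟩ := ClassGroup.mk0_surjective c
  rw [sigmaCl_mk0, ClassGroup.mk0_eq_mk0_iff] at hc
  obtain ⟨x, y, hx, hy, hxy⟩ := hc
  rw [coe_smulIdeal₀] at hxy
  have h𝔄 : (𝔄 : Ideal (𝓞 L)) ≠ ⊥ := nonZeroDivisors.coe_ne_zero 𝔄
  have hN := congrArg (Ideal.relNorm (𝓞 K)) hxy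
  rw [map_mul, map_mul, Ideal.relNorm_smul, Ideal.relNorm_singleton, Ideal.relNorm_singleton] at hN
  have hN𝔄 : Ideal.relNorm (𝓞 K) (𝔄 : Ideal (𝓞 L)) ≠ 0 := by
    rw [Ne, Ideal.zero_eq_bot, Ideal.relNorm_eq_bot_iff]
    exact h𝔄
  have hN' := mul_right_cancel₀ hN𝔄 hN
  rw [Ideal.span_singleton_eq_span_singleton] at hN'
  obtain ⟨u, hu⟩ := hN'
  exact ⟨u, 𝔄, x, y, hx, hy, rfl, hxy, by rw [← hu, mul_comm]⟩

/-- (b) uniqueness up to norms of units. -/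
lemma ambigRel_unique {σ : Gal(L/K)} {c : ClassGroup (𝓞 L)} {u u' : (𝓞 K)ˣ}
    (h : AmbigRel σ c u) (h' : AmbigRel σ c u') : ∃ ε : (𝓞 L)ˣ, u' = u * unitsNorm K L ε := by
  obtain ⟨𝔄, x, y, hx, hy, rfl, hi, hn⟩ := h
  obtain ⟨𝔄', x', y', hx', hy', hc, hii, hn'⟩ := h'
  rw [eq_comm, ClassGroup.mk0_eq_mk0_iff] at hc
  obtain ⟨a, b, ha, hb, hiii⟩ := hc
  have h𝔄 : (𝔄 : Ideal (𝓞 L)) ≠ 0 := nonZeroDivisors.coe_ne_zero 𝔄
  have hiv : Ideal.span {σ • a} * σ • (𝔄 : Ideal (𝓞 L)) =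
      Ideal.span {σ • b} * σ • (𝔄' : Ideal (𝓞 L)) := by
    rw [← smul_span_singleton, ← smul_span_singleton, ← smul_mul', ← smul_mul', hiii]
  have key : Ideal.span {b * x' * σ • a * y} * (𝔄 : Ideal (𝓞 L)) =
      Ideal.span {x * σ • b * y' * a} * (𝔄 : Ideal (𝓞 L)) := by
    simp only [← Ideal.span_singleton_mul_span_singleton]
    calc Ideal.span {b} * Ideal.span {x'} * Ideal.span {σ • a} * Ideal.span {y} * (𝔄 : Ideal (𝓞 L))
        = Ideal.span {b} * Ideal.span {x'} * Ideal.span {σ • a} *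
            (Ideal.span {y} * (𝔄 : Ideal (𝓞 L))) := by ring
      _ = Ideal.span {b} * Ideal.span {x'} * Ideal.span {σ • a} *
            (Ideal.span {x} * σ • (𝔄 : Ideal (𝓞 L))) := by rw [hi]
      _ = Ideal.span {b} * Ideal.span {x'} * Ideal.span {x} *
            (Ideal.span {σ • a} * σ • (𝔄 : Ideal (𝓞 L))) := by ring
      _ = Ideal.span {b} * Ideal.span {x'} * Ideal.span {x} *
            (Ideal.span {σ • b} * σ • (𝔄' : Ideal (𝓞 L))) := by rw [hiv]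
      _ = Ideal.span {b} * Ideal.span {x} * Ideal.span {σ • b} *
            (Ideal.span {x'} * σ • (𝔄' : Ideal (𝓞 L))) := by ring
      _ = Ideal.span {b} * Ideal.span {x} * Ideal.span {σ • b} *
            (Ideal.span {y'} * (𝔄' : Ideal (𝓞 L))) := by rw [hii]
      _ = Ideal.span {x} * Ideal.span {σ • b} * Ideal.span {y'} *
            (Ideal.span {b} * (𝔄' : Ideal (𝓞 L))) := by ring
      _ = Ideal.span {x} * Ideal.span {σ • b} * Ideal.span {y'} *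
            (Ideal.span {a} * (𝔄 : Ideal (𝓞 L))) := by rw [hiii]
      _ = Ideal.span {x} * Ideal.span {σ • b} * Ideal.span {y'} * Ideal.span {a} *
            (𝔄 : Ideal (𝓞 L)) := by ring
  have key' := mul_right_cancel₀ h𝔄 key
  rw [Ideal.span_singleton_eq_span_singleton] at key'
  obtain ⟨ε, hε⟩ := key'
  refine ⟨ε, ?_⟩
  have hN := congrArg Nm hε
  simp only [map_mul, intNorm_smul, hn, hn'] at hN
  -- hN : N b * N x' * N a * (u * N x) * N ε = N x * N b * (u' * N x') * N a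
  have hnz : Nm b * Nm x' * Nm a * Nm x ≠ 0 :=
    mul_ne_zero (mul_ne_zero (mul_ne_zero (intNorm_ne_zero hb) (intNorm_ne_zero hx'))
      (intNorm_ne_zero ha)) (intNorm_ne_zero hx)
  apply Units.ext
  rw [Units.val_mul, coe_unitsNorm]
  apply mul_left_cancel₀ hnz
  rw [eq_comm]
  calc Nm b * Nm x' * Nm a * Nm x * ((u : 𝓞 K) * Nm (ε : 𝓞 L))
      = Nm b * Nm x' * Nm a * ((u : 𝓞 K) * Nm x) * Nm (ε : 𝓞 L) := by ring
    _ = Nm x * Nm b * ((u' : 𝓞 K) * Nm x') * Nm a := hN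
    _ = Nm b * Nm x' * Nm a * Nm x * (u' : 𝓞 K) := by ring

/-- (c) multiplicativity. -/
lemma ambigRel_mul {σ : Gal(L/K)} {c₁ c₂ : ClassGroup (𝓞 L)} {u₁ u₂ : (𝓞 K)ˣ}
    (h₁ : AmbigRel σ c₁ u₁) (h₂ : AmbigRel σ c₂ u₂) : AmbigRel σ (c₁ * c₂) (u₁ * u₂) := by
  obtain ⟨𝔄₁, x₁, y₁, hx₁, hy₁, rfl, hi₁, hn₁⟩ := h₁
  obtain ⟨𝔄₂, x₂, y₂, hx₂, hy₂, rfl, hi₂, hn₂⟩ := h₂
  refine ⟨𝔄₁ * 𝔄₂, x₁ * x₂, y₁ * y₂, mul_ne_zero hx₁ hx₂, mul_ne_zero hy₁ hy₂, map_mul _ _ _, ?_, ?_⟩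
  · rw [Submonoid.coe_mul, smul_mul', ← Ideal.span_singleton_mul_span_singleton,
      ← Ideal.span_singleton_mul_span_singleton]
    calc Ideal.span {x₁} * Ideal.span {x₂} * (σ • (𝔄₁ : Ideal (𝓞 L)) * σ • (𝔄₂ : Ideal (𝓞 L)))
        = (Ideal.span {x₁} * σ • (𝔄₁ : Ideal (𝓞 L))) *
            (Ideal.span {x₂} * σ • (𝔄₂ : Ideal (𝓞 L))) := by ring
      _ = (Ideal.span {y₁} * (𝔄₁ : Ideal (𝓞 L))) * (Ideal.span {y₂} * (𝔄₂ : Ideal (𝓞 L))) := by
          rw [hi₁, hi₂]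
      _ = Ideal.span {y₁} * Ideal.span {y₂} * ((𝔄₁ : Ideal (𝓞 L)) * (𝔄₂ : Ideal (𝓞 L))) := by ring
  · rw [map_mul, map_mul, hn₁, hn₂, Units.val_mul]
    ring

/-- a `σ`-stable ideal is stable under the whole (cyclic) Galois group. -/
lemma forall_smul_eq_of_smul_eq {σ : Gal(L/K)} (hσ : ∀ g, g ∈ Subgroup.zpowers σ)
    {𝔅 : Ideal (𝓞 L)} (h : σ • 𝔅 = 𝔅) (g : Gal(L/K)) : g • 𝔅 = 𝔅 := by
  have hle : Subgroup.zpowers σ ≤ MulAction.stabilizer Gal(L/K) 𝔅 := by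
    rw [Subgroup.zpowers_le]
    exact h
  exact hle (hσ g)

/-- (d) the kernel: if the unit attached to a fixed class is a norm of a unit, the class comes from `K`. -/
lemma mem_range_extendedHom_of_ambigRel {σ : Gal(L/K)} (hσ : ∀ g, g ∈ Subgroup.zpowers σ)
    (hunr : IsUnramifiedEverywhere K L) {c : ClassGroup (𝓞 L)} {u : (𝓞 K)ˣ}
    (h : AmbigRel σ c u) (hu : u ∈ (unitsNorm K L).range) :
    c ∈ (ClassGroup.extendedHom (𝓞 K) (𝓞 L)).range := by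
  obtain ⟨𝔄, x, y, hx, hy, rfl, hi, hn⟩ := h
  obtain ⟨ε, rfl⟩ := hu
  have hεx : (ε : 𝓞 L) * x ≠ 0 := mul_ne_zero ε.ne_zero hx
  have hnorm : Nm y = Nm ((ε : 𝓞 L) * x) := by
    rw [hn, map_mul, coe_unitsNorm]
  obtain ⟨b, hb0, hb⟩ := exists_mul_smul_eq_mul hσ hεx hnorm
  -- hb : y * σ • b = ε * x * b
  have h𝔄 : (𝔄 : Ideal (𝓞 L)) ≠ 0 := nonZeroDivisors.coe_ne_zero 𝔄
  have hX : Ideal.span {x} ≠ (0 : Ideal (𝓞 L)) := by
    rw [Ne, Ideal.zero_eq_bot, Ideal.span_singleton_eq_bot]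
    exact hx
  set 𝔅 : Ideal (𝓞 L) := Ideal.span {b} * (𝔄 : Ideal (𝓞 L)) with h𝔅
  have h𝔅0 : 𝔅 ≠ ⊥ := by
    have : Ideal.span {b} ≠ (0 : Ideal (𝓞 L)) := by
      rw [Ne, Ideal.zero_eq_bot, Ideal.span_singleton_eq_bot]
      exact hb0
    exact mul_ne_zero this h𝔄
  have hfix : σ • 𝔅 = 𝔅 := by
    apply mul_left_cancel₀ hX
    rw [h𝔅, smul_mul', smul_span_singleton]
    calc Ideal.span {x} * (Ideal.span {σ • b} * σ • (𝔄 : Ideal (𝓞 L)))
        = Ideal.span {σ • b} * (Ideal.span {x} * σ • (𝔄 : Ideal (𝓞 L))) := by ring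
      _ = Ideal.span {σ • b} * (Ideal.span {y} * (𝔄 : Ideal (𝓞 L))) := by rw [hi]
      _ = Ideal.span {y * σ • b} * (𝔄 : Ideal (𝓞 L)) := by
          rw [← Ideal.span_singleton_mul_span_singleton]; ring
      _ = Ideal.span {(ε : 𝓞 L) * (x * b)} * (𝔄 : Ideal (𝓞 L)) := by rw [hb, mul_assoc]
      _ = Ideal.span {x * b} * (𝔄 : Ideal (𝓞 L)) := by
          rw [Ideal.span_singleton_mul_left_unit ε.isUnit]
      _ = Ideal.span {x} * (Ideal.span {b} * (𝔄 : Ideal (𝓞 L))) := by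
          rw [← Ideal.span_singleton_mul_span_singleton]; ring
  obtain ⟨𝔟, h𝔟0, h𝔟⟩ := exists_map_eq_of_forall_smul_eq hunr 𝔅 h𝔅0
    (forall_smul_eq_of_smul_eq hσ hfix)
  refine ⟨ClassGroup.mk0 ⟨𝔟, mem_nonZeroDivisors_of_ne_zero h𝔟0⟩, ?_⟩
  rw [ClassGroup.extendedHom_mk0]
  have h1 : ClassGroup.mk0 𝔄 = ClassGroup.mk0 (spanSingleton₀ b hb0 * 𝔄) := by
    rw [map_mul, mk0_spanSingleton₀, one_mul]
  rw [h1]
  congr 1
  apply Subtype.ext
  show 𝔟.map (algebraMap (𝓞 K) (𝓞 L)) = Ideal.span {b} * (𝔄 : Ideal (𝓞 L))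
  rw [← h𝔟]

/-- the subgroup of `σ`-fixed ideal classes. -/
noncomputable def fixedClasses (σ : Gal(L/K)) : Subgroup (ClassGroup (𝓞 L)) :=
  (sigmaCl σ / MonoidHom.id _).ker

lemma mem_fixedClasses {σ : Gal(L/K)} {c : ClassGroup (𝓞 L)} :
    c ∈ fixedClasses σ ↔ sigmaCl σ c = c := by
  rw [fixedClasses, MonoidHom.mem_ker, MonoidHom.div_apply, MonoidHom.id_apply, div_eq_one]

lemma ambigRel_one (σ : Gal(L/K)) : AmbigRel σ (1 : ClassGroup (𝓞 L)) 1 := by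
  refine ⟨1, 1, 1, one_ne_zero, one_ne_zero, map_one _, ?_, ?_⟩
  · rw [Submonoid.coe_one, smul_one]
  · rw [map_one, Units.val_one, one_mul]

lemma mk_eq_mk_of_ambigRel {σ : Gal(L/K)} {c : ClassGroup (𝓞 L)} {u u' : (𝓞 K)ˣ}
    (h : AmbigRel σ c u) (h' : AmbigRel σ c u') :
    (QuotientGroup.mk u : (𝓞 K)ˣ ⧸ (unitsNorm K L).range) = QuotientGroup.mk u' := by
  obtain ⟨ε, rfl⟩ := ambigRel_unique h h'
  rw [QuotientGroup.eq, inv_mul_cancel_left]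
  exact ⟨ε, rfl⟩

/-- the hom `ψ : Cl(L)^σ → E_K / N E_L`. -/
noncomputable def ambigHom (σ : Gal(L/K)) :
    fixedClasses σ →* (𝓞 K)ˣ ⧸ (unitsNorm K L).range where
  toFun c := QuotientGroup.mk (Classical.choose (exists_ambigRel (mem_fixedClasses.mp c.2)))
  map_one' := by
    have h := Classical.choose_spec
      (exists_ambigRel (mem_fixedClasses.mp (1 : fixedClasses σ).2))
    exact mk_eq_mk_of_ambigRel h (ambigRel_one σ)
  map_mul' c d := by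
    have hc := Classical.choose_spec (exists_ambigRel (mem_fixedClasses.mp c.2))
    have hd := Classical.choose_spec (exists_ambigRel (mem_fixedClasses.mp d.2))
    have hcd := Classical.choose_spec (exists_ambigRel (mem_fixedClasses.mp (c * d).2))
    rw [← QuotientGroup.mk_mul]
    exact mk_eq_mk_of_ambigRel hcd (ambigRel_mul hc hd)

lemma ambigHom_eq {σ : Gal(L/K)} (c : fixedClasses σ) {u : (𝓞 K)ˣ}
    (h : AmbigRel σ (c : ClassGroup (𝓞 L)) u) : ambigHom σ c = QuotientGroup.mk u :=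
  mk_eq_mk_of_ambigRel (Classical.choose_spec (exists_ambigRel (mem_fixedClasses.mp c.2))) h

/-- **slice (P)**: `#Cl(L)^σ ≤ #(image of Cl(K)) * [E_K : N E_L]`. -/
theorem card_fixedClasses_le {σ : Gal(L/K)} (hσ : ∀ g, g ∈ Subgroup.zpowers σ)
    (hunr : IsUnramifiedEverywhere K L) (hfin : (unitsNorm K L).range.index ≠ 0) :
    Nat.card (fixedClasses σ) ≤
      Nat.card (ClassGroup.extendedHom (𝓞 K) (𝓞 L)).range * (unitsNorm K L).range.index := by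
  have hQfin : Finite ((𝓞 K)ˣ ⧸ (unitsNorm K L).range) := by
    apply Nat.finite_of_card_ne_zero
    rwa [← Subgroup.index_eq_card]
  -- kernel of ψ injects into the image of Cl(K)
  have hker : ∀ c : (ambigHom σ).ker, ((c : fixedClasses σ) : ClassGroup (𝓞 L)) ∈
      (ClassGroup.extendedHom (𝓞 K) (𝓞 L)).range := by
    rintro ⟨c, hc⟩
    obtain ⟨u, hu⟩ := exists_ambigRel (mem_fixedClasses.mp c.2)
    rw [MonoidHom.mem_ker, ambigHom_eq c hu, QuotientGroup.eq_one_iff] at hc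
    exact mem_range_extendedHom_of_ambigRel hσ hunr hu hc
  have h1 : Nat.card (ambigHom σ).ker ≤ Nat.card (ClassGroup.extendedHom (𝓞 K) (𝓞 L)).range := by
    refine Nat.card_le_card_of_injective (fun c => ⟨_, hker c⟩) ?_
    intro c d hcd
    have := congrArg Subtype.val hcd
    exact Subtype.ext (Subtype.ext this)
  have h2 : Nat.card (ambigHom σ).range ≤ (unitsNorm K L).range.index := by
    rw [Subgroup.index_eq_card]
    exact Nat.card_le_card_of_injective _ Subtype.val_injective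
  calc Nat.card (fixedClasses σ) = Nat.card (ambigHom σ).ker * (ambigHom σ).ker.index :=
        (Subgroup.card_mul_index _).symm
    _ = Nat.card (ambigHom σ).ker * Nat.card (ambigHom σ).range := by rw [Subgroup.index_ker]
    _ ≤ _ := Nat.mul_le_mul h1 h2

end Fermat.Agent.CFT
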