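import Mathlib
import Fermat.Agent.CFT.R4bUnits
import Fermat.Agent.CFT.R4cCount
import Fermat.Agent.CFT.R4cPsi

/-!
# CFT / R4: the second inequality `[I_F : P_F N(I_M)] ≥ p` for unramified cyclic extensions of prime degree

Assembly: with `σ` a generator of `Gal(M/F)`,
`#N(Cl_M) ≤ #Cl_M^σ ≤ #j(Cl_F) · [E_F : N E_M]` and `#ker j ≥ #H¹(E_M) ≥ p · [E_F : N E_M]`, so
`#N(Cl_M) · p ≤ #j(Cl_F) · #ker j = #Cl_F`.
`R4_of_theta` takes the inequality `#H¹(E_M) ≤ #ker j` (slice (T)) as a hypothesis.
-/

set_option autoImplicit false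
set_option linter.unusedSectionVars false

open NumberField
open scoped Pointwise nonZeroDivisors

namespace Fermat.Agent.CFT

variable (F M : Type*) [Field F] [NumberField F] [Field M] [NumberField M] [Algebra F M]

/-- the second inequality, given slice (T) for a generator `σ`. -/
theorem R4_of_theta (p : ℕ) [Fact p.Prime] [IsGalois F M] {σ : Gal(M/F)}
    (hσ : ∀ g, g ∈ Subgroup.zpowers σ)
    (hdeg : Module.finrank F M = p) (hunr : IsUnramifiedEverywhere F M)
    [NumberField.IsTotallyComplex F]
    (hT : (unitsD σ).range.relIndex (unitsNorm F M).ker ≤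
      Nat.card (ClassGroup.extendedHom (𝓞 F) (𝓞 M)).ker) :
    p ≤ (normClasses F M).index := by
  obtain ⟨hQ0, _, hunits⟩ := units_herbrand σ hσ p hdeg
  set Q := (unitsNorm F M).range.index with hQ
  set H1 := (unitsD σ).range.relIndex (unitsNorm F M).ker with hH1
  set j := ClassGroup.extendedHom (𝓞 F) (𝓞 M) with hj
  have hC : Nat.card (normCl F M).range ≤ Nat.card (fixedClasses σ) :=
    card_range_le_card_fixed (sigmaCl σ) (normCl F M) (normCl_sigmaCl σ)
  have hP : Nat.card (fixedClasses σ) ≤ Nat.card j.range * Q :=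
    card_fixedClasses_le hσ hunr hQ0
  have hkr : Nat.card j.ker * Nat.card j.range = Nat.card (ClassGroup (𝓞 F)) :=
    card_ker_mul_card_range j
  have hmain : Nat.card (normCl F M).range * p ≤ Nat.card (ClassGroup (𝓞 F)) := by
    calc Nat.card (normCl F M).range * p ≤ (Nat.card j.range * Q) * p :=
          Nat.mul_le_mul_right _ (hC.trans hP)
      _ = Nat.card j.range * (p * Q) := by ring
      _ ≤ Nat.card j.range * H1 := Nat.mul_le_mul_left _ hunits
      _ ≤ Nat.card j.range * Nat.card j.ker := Nat.mul_le_mul_left _ hT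
      _ = Nat.card (ClassGroup (𝓞 F)) := by rw [mul_comm, hkr]
  have hidx : Nat.card (normCl F M).range * (normClasses F M).index =
      Nat.card (ClassGroup (𝓞 F)) := by
    rw [normClasses_eq_range]
    exact Subgroup.card_mul_index _
  have hpos : 0 < Nat.card (normCl F M).range := Nat.card_pos
  rw [← hidx] at hmain
  exact Nat.le_of_mul_le_mul_left hmain hpos

end Fermat.Agent.CFT
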