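import Mathlib
import Fermat.Agent.CFT.P1Tower
import Fermat.Agent.CFT.R4Defs
import Fermat.Agent.CFT.R4cHilbert
import Fermat.Agent.CFT.R4cInvariant

/-!
# CFT / R4c (T): `H¹(G, E_L)` injects into the capitulation kernel

`L/K` cyclic (generator `σ`), unramified at all finite primes.  For a unit `u` of `𝓞 L` of relative
norm `1`, Hilbert 90 gives `c ≠ 0` in `𝓞 L` with `u * σ c = c`; the ideal `(c)` is Galois invariant,
hence extended from an ideal `𝔠` of `𝓞 K`, whose class capitulates in `L`.  If the classes attached to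
`u, u'` agree then `u⁻¹ u' = σ w / w` for a unit `w`.  Hence
`[ker N : (σ - 1) E_L] ≤ # ker (Cl(K) → Cl(L))`.
-/

set_option autoImplicit false

open NumberField
open scoped Pointwise nonZeroDivisors

namespace Fermat.Agent.CFT

variable {K L : Type*} [Field K] [NumberField K] [Field L] [NumberField L] [Algebra K L]
  [IsGalois K L]

omit [NumberField K] [NumberField L] [IsGalois K L] in
/-- the action of the Galois group on a principal ideal. -/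
lemma gal_smul_span_singleton (g : Gal(L/K)) (x : 𝓞 L) :
    g • Ideal.span {x} = Ideal.span {g • x} := by
  rw [Ideal.pointwise_smul_def, Ideal.map_span, Set.image_singleton]
  rfl

/-- to a unit of relative norm one we attach `c ≠ 0` with `u * σ c = c` and an ideal `𝔠` of `𝓞 K`
with `𝔠 𝓞 L = (c)`. -/
lemma exists_capitulation_of_mem_ker {σ : Gal(L/K)} (hσ : ∀ g : Gal(L/K), g ∈ Subgroup.zpowers σ)
    (hunr : IsUnramifiedEverywhere K L) (u : (𝓞 L)ˣ) (hu : u ∈ (unitsNorm K L).ker) :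
    ∃ (c : 𝓞 L) (𝔠 : (Ideal (𝓞 K))⁰), c ≠ 0 ∧ (u : 𝓞 L) * σ • c = c ∧
      (𝔠 : Ideal (𝓞 K)).map (algebraMap (𝓞 K) (𝓞 L)) = Ideal.span {c} := by
  have huv : Algebra.intNorm (𝓞 K) (𝓞 L) (u : 𝓞 L) = Algebra.intNorm (𝓞 K) (𝓞 L) 1 := by
    rw [(mem_ker_unitsNorm K L).mp hu, map_one]
  obtain ⟨c, hc0, hc⟩ := exists_mul_smul_eq_mul hσ one_ne_zero huv
  rw [one_mul] at hc
  have hspan0 : Ideal.span {c} ≠ (⊥ : Ideal (𝓞 L)) := by
    rwa [Ne, Ideal.span_singleton_eq_bot]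
  have hσinv : σ • Ideal.span {c} = Ideal.span {c} := by
    rw [gal_smul_span_singleton]
    conv_rhs => rw [← hc]
    exact (Ideal.span_singleton_mul_left_unit u.isUnit _).symm
  have hinv : ∀ g : Gal(L/K), g • Ideal.span {c} = Ideal.span {c} := by
    intro g
    have hle : Subgroup.zpowers σ ≤ MulAction.stabilizer Gal(L/K) (Ideal.span {c}) :=
      Subgroup.zpowers_le.mpr (MulAction.mem_stabilizer_iff.mpr hσinv)
    exact MulAction.mem_stabilizer_iff.mp (hle (hσ g))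
  obtain ⟨𝔟, h𝔟0, h𝔟⟩ := exists_map_eq_of_forall_smul_eq hunr _ hspan0 hinv
  exact ⟨c, ⟨𝔟, mem_nonZeroDivisors_of_ne_zero h𝔟0⟩, hc0, hc, h𝔟.symm⟩

/-- the key relation: if the classes attached to `u` and `u'` agree, then `u⁻¹ u' ∈ (σ - 1) E_L`. -/
lemma inv_mul_mem_range_unitsD {σ : Gal(L/K)} {u u' : (𝓞 L)ˣ} {c c' : 𝓞 L}
    {𝔠 𝔠' : (Ideal (𝓞 K))⁰} (hc0 : c ≠ 0) (hc : (u : 𝓞 L) * σ • c = c)
    (h𝔠 : (𝔠 : Ideal (𝓞 K)).map (algebraMap (𝓞 K) (𝓞 L)) = Ideal.span {c})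
    (hc' : (u' : 𝓞 L) * σ • c' = c')
    (h𝔠' : (𝔠' : Ideal (𝓞 K)).map (algebraMap (𝓞 K) (𝓞 L)) = Ideal.span {c'})
    (h : ClassGroup.mk0 𝔠 = ClassGroup.mk0 𝔠') : u⁻¹ * u' ∈ (unitsD σ).range := by
  obtain ⟨x, y, hx, hy, hxy⟩ := ClassGroup.mk0_eq_mk0_iff.mp h
  have h1 := congrArg (Ideal.map (algebraMap (𝓞 K) (𝓞 L))) hxy
  rw [Ideal.map_mul, Ideal.map_mul, h𝔠, h𝔠', Ideal.map_span, Ideal.map_span, Set.image_singleton,
    Set.image_singleton, Ideal.span_singleton_mul_span_singleton,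
    Ideal.span_singleton_mul_span_singleton, Ideal.span_singleton_eq_span_singleton] at h1
  obtain ⟨w, hw⟩ := h1.symm
  -- `hw : y c' w = x c`
  refine ⟨w, ?_⟩
  rw [unitsD_apply, div_eq_iff_eq_mul, mul_assoc, eq_inv_mul_iff_mul_eq]
  apply Units.ext
  rw [Units.val_mul, Units.val_mul, coe_unitsGal]
  have hx' : algebraMap (𝓞 K) (𝓞 L) x ≠ 0 := by
    rw [Ne, map_eq_zero_iff _ (FaithfulSMul.algebraMap_injective (𝓞 K) (𝓞 L))]
    exact hx
  have hy' : algebraMap (𝓞 K) (𝓞 L) y ≠ 0 := by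
    rw [Ne, map_eq_zero_iff _ (FaithfulSMul.algebraMap_injective (𝓞 K) (𝓞 L))]
    exact hy
  have hc'0 : c' ≠ 0 := by
    rintro rfl
    rw [mul_zero, zero_mul] at hw
    exact (mul_ne_zero hx' hc0) hw.symm
  have h2 := congrArg (fun z => σ • z) hw
  simp only [smul_mul', smul_algebraMap] at h2
  -- `h2 : y * σ c' * σ w = x * σ c`
  have h3 : algebraMap (𝓞 K) (𝓞 L) y * c' * ((u : 𝓞 L) * σ • (w : 𝓞 L)) =
      algebraMap (𝓞 K) (𝓞 L) y * c' * ((u' : 𝓞 L) * (w : 𝓞 L)) := by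
    calc algebraMap (𝓞 K) (𝓞 L) y * c' * ((u : 𝓞 L) * σ • (w : 𝓞 L))
        = (u : 𝓞 L) * (algebraMap (𝓞 K) (𝓞 L) y * ((u' : 𝓞 L) * σ • c') * σ • (w : 𝓞 L)) := by
          rw [hc']; ring
      _ = (u : 𝓞 L) * (u' : 𝓞 L) * (algebraMap (𝓞 K) (𝓞 L) y * σ • c' * σ • (w : 𝓞 L)) := by ring
      _ = (u : 𝓞 L) * (u' : 𝓞 L) * (algebraMap (𝓞 K) (𝓞 L) x * σ • c) := by rw [h2]
      _ = (u' : 𝓞 L) * (algebraMap (𝓞 K) (𝓞 L) x * ((u : 𝓞 L) * σ • c)) := by ring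
      _ = (u' : 𝓞 L) * (algebraMap (𝓞 K) (𝓞 L) y * c' * (w : 𝓞 L)) := by rw [hc, hw]
      _ = algebraMap (𝓞 K) (𝓞 L) y * c' * ((u' : 𝓞 L) * (w : 𝓞 L)) := by ring
  exact mul_left_cancel₀ (mul_ne_zero hy' hc'0) h3

/-- **(T)**: `#H¹(G, E_L) = [ker N : (σ - 1) E_L]` is at most the order of the capitulation kernel
`ker (Cl(K) → Cl(L))`. -/
theorem relIndex_unitsD_le {σ : Gal(L/K)} (hσ : ∀ g : Gal(L/K), g ∈ Subgroup.zpowers σ)
    (hunr : IsUnramifiedEverywhere K L) :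
    (unitsD σ).range.relIndex (unitsNorm K L).ker ≤
      Nat.card (ClassGroup.extendedHom (𝓞 K) (𝓞 L)).ker := by
  classical
  choose c 𝔠 hc0 hc h𝔠 using fun u : (unitsNorm K L).ker =>
    exists_capitulation_of_mem_ker hσ hunr u.1 u.2
  have hmem : ∀ u, ClassGroup.mk0 (𝔠 u) ∈ (ClassGroup.extendedHom (𝓞 K) (𝓞 L)).ker := by
    intro u
    rw [MonoidHom.mem_ker, ClassGroup.extendedHom_mk0, ClassGroup.mk0_eq_one_iff]
    show (Ideal.map (algebraMap (𝓞 K) (𝓞 L)) (𝔠 u : Ideal (𝓞 K))).IsPrincipal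
    rw [h𝔠 u]
    exact ⟨⟨c u, rfl⟩⟩
  rw [Subgroup.relIndex, Subgroup.index]
  let f : (↥(unitsNorm K L).ker ⧸ ((unitsD σ).range.subgroupOf (unitsNorm K L).ker)) →
      (ClassGroup.extendedHom (𝓞 K) (𝓞 L)).ker := fun q => ⟨ClassGroup.mk0 (𝔠 q.out), hmem _⟩
  refine Nat.card_le_card_of_injective f ?_
  intro q q' hqq'
  have h1 : ClassGroup.mk0 (𝔠 q.out) = ClassGroup.mk0 (𝔠 q'.out) := congrArg Subtype.val hqq'
  have h2 := inv_mul_mem_range_unitsD (hc0 q.out) (hc q.out) (h𝔠 q.out) (hc q'.out) (h𝔠 q'.out) h1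
  rw [← QuotientGroup.out_eq' q, ← QuotientGroup.out_eq' q', QuotientGroup.eq,
    Subgroup.mem_subgroupOf]
  exact h2

end Fermat.Agent.CFT
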