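/-
S14 moonshot (class field theory), package R5a: counting lattice points in a bounded region whose
boundary is Lipschitz-parametrisable, with a power-saving error term
`|#(t • s ∩ ℤⁿ) - tⁿ vol(s)| ≤ C tⁿ⁻¹`.
-/
import Mathlib

set_option autoImplicit false
set_option linter.unusedSectionVars false

noncomputable section

open Set Metric MeasureTheory Bornology Module
open scoped NNReal Pointwise

namespace Fermat.Agent.CFT

/-! ### Lipschitz-covered sets -/

/-- `A` is covered by finitely many Lipschitz images of the unit cube `[0,1]^d`. -/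
def IsLipCovered {E : Type*} [PseudoMetricSpace E] (d : ℕ) (A : Set E) : Prop :=
  ∃ (m : ℕ) (φ : Fin m → (Fin d → ℝ) → E) (K : ℝ≥0),
    (∀ j, LipschitzOnWith K (φ j) (Set.Icc 0 1)) ∧ A ⊆ ⋃ j, φ j '' Set.Icc 0 1

section cells

variable {ι : Type*} [Fintype ι]

/-- the half-open cube `{y | ∀ i, ν i ≤ t y i < ν i + 1}`. -/
def cell (t : ℝ) (ν : ι → ℤ) : Set (ι → ℝ) :=
  {y | ∀ i, ⌊t * y i⌋ = ν i}

theorem mem_cell_iff {t : ℝ} {ν : ι → ℤ} {y : ι → ℝ} :
    y ∈ cell t ν ↔ ∀ i, (ν i : ℝ) ≤ t * y i ∧ t * y i < ν i + 1 := by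
  simp only [cell, Set.mem_ofPred_eq, Int.floor_eq_iff]

theorem mem_cell_floor (t : ℝ) (y : ι → ℝ) : y ∈ cell t (fun i => ⌊t * y i⌋) := fun _ => rfl

theorem cell_disjoint {t : ℝ} {ν ν' : ι → ℤ} (h : ν ≠ ν') : Disjoint (cell t ν) (cell t ν') := by
  rw [Set.disjoint_left]
  intro y hy hy'
  exact h (funext fun i => (hy i).symm.trans (hy' i))

theorem cell_eq_pi {t : ℝ} (ht : 0 < t) (ν : ι → ℤ) :
    cell t ν = Set.pi Set.univ fun i => Set.Ico ((ν i : ℝ) / t) (((ν i : ℝ) + 1) / t) := by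
  ext y
  simp only [mem_cell_iff, Set.mem_pi, Set.mem_univ, forall_true_left, Set.mem_Ico]
  refine forall_congr' fun i => ?_
  rw [div_le_iff₀ ht, lt_div_iff₀ ht, mul_comm (y i) t]

theorem measurableSet_cell {t : ℝ} (ht : 0 < t) (ν : ι → ℤ) : MeasurableSet (cell t ν) := by
  rw [cell_eq_pi ht]
  exact MeasurableSet.univ_pi fun _ => measurableSet_Ico

theorem volume_cell {t : ℝ} (ht : 0 < t) (ν : ι → ℤ) :
    volume (cell t ν) = ENNReal.ofReal ((t⁻¹) ^ Fintype.card ι) := by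
  rw [cell_eq_pi ht, Real.volume_pi_Ico]
  have : ∀ i, ((ν i : ℝ) + 1) / t - (ν i : ℝ) / t = t⁻¹ := fun i => by field_simp; ring
  simp only [this, Finset.prod_const, Finset.card_univ]
  rw [ENNReal.ofReal_pow (inv_pos.mpr ht).le]

theorem isPreconnected_cell {t : ℝ} (ht : 0 < t) (ν : ι → ℤ) : IsPreconnected (cell t ν) := by
  rw [cell_eq_pi ht]
  exact isPreconnected_univ_pi fun _ => isPreconnected_Ico

/-- the lattice point `ν / t`. -/
def latPt (t : ℝ) (ν : ι → ℤ) : ι → ℝ := fun i => (ν i : ℝ) / t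

theorem latPt_mem_cell {t : ℝ} (ht : 0 < t) (ν : ι → ℤ) : latPt t ν ∈ cell t ν := by
  rw [mem_cell_iff]
  intro i
  simp only [latPt]
  rw [mul_div_cancel₀ _ ht.ne']
  exact ⟨le_rfl, lt_add_one _⟩

theorem latPt_injective {t : ℝ} (ht : 0 < t) : Function.Injective (latPt (ι := ι) t) := by
  intro ν ν' h
  funext i
  have := congrFun h i
  simp only [latPt] at this
  have h2 : (ν i : ℝ) = ν' i := by
    field_simp at this
    exact this
  exact_mod_cast h2

theorem cell_subset_of_disjoint_frontier {t : ℝ} (ht : 0 < t) {ν : ι → ℤ} {s : Set (ι → ℝ)}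
    (hd : Disjoint (cell t ν) (frontier s)) (hne : (cell t ν ∩ s).Nonempty) : cell t ν ⊆ s := by
  have hsub : cell t ν ⊆ interior s ∪ interior sᶜ := by
    intro y hy
    by_cases hc : y ∈ closure s
    · left
      by_contra hi
      exact (Set.disjoint_left.mp hd hy) ⟨hc, hi⟩
    · right
      rw [interior_compl]
      exact hc
  have hne' : (cell t ν ∩ interior s).Nonempty := by
    obtain ⟨y, hy, hys⟩ := hne
    refine ⟨y, hy, ?_⟩
    by_contra hi
    exact (Set.disjoint_left.mp hd hy) ⟨subset_closure hys, hi⟩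
  have hdisj : Disjoint (interior s) (interior sᶜ) :=
    Set.disjoint_left.mpr fun y hy hy' => (interior_subset hy') (interior_subset hy)
  exact ((isPreconnected_cell ht ν).subset_left_of_subset_union isOpen_interior isOpen_interior
    hdisj hsub hne').trans interior_subset

theorem finite_cell_inter_nonempty {t : ℝ} (ht : 0 < t) {s : Set (ι → ℝ)} (hs : IsBounded s) :
    {ν : ι → ℤ | (cell t ν ∩ s).Nonempty}.Finite := by
  obtain ⟨R, hR⟩ := hs.subset_closedBall (0 : ι → ℝ)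
  set N : ℤ := ⌈t * R⌉ + 1 with hN
  have hfin : (Set.pi Set.univ fun _ : ι => Set.Icc (-N) N).Finite :=
    Set.Finite.pi fun _ => Set.finite_Icc _ _
  refine hfin.subset ?_
  rintro ν ⟨y, hy, hys⟩
  have hyR := hR hys
  rw [mem_closedBall_zero_iff] at hyR
  intro i _
  have hi : |y i| ≤ R := (norm_le_pi_norm y i).trans hyR
  have hyi := mem_cell_iff.mp hy i
  have h1 : t * y i ≤ t * R := mul_le_mul_of_nonneg_left (le_of_abs_le hi) ht.le
  have h2 : -(t * R) ≤ t * y i := by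
    have := mul_le_mul_of_nonneg_left (neg_le_of_abs_le hi) ht.le
    linarith
  have h3 : t * R ≤ ⌈t * R⌉ := Int.le_ceil _
  constructor
  · have : (-(N : ℝ)) < ν i + 1 := by
      rw [hN]; push_cast; linarith [hyi.2]
    have : -N < ν i + 1 := by exact_mod_cast this
    omega
  · have : (ν i : ℝ) ≤ N := by
      rw [hN]; push_cast; linarith [hyi.1]
    exact_mod_cast this

open scoped Classical in
/-- **Main estimate**: the discrepancy between the number of lattice points and the volume is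
bounded by the number of cells meeting the frontier. -/
theorem abs_card_sub_volume_le {t : ℝ} (ht : 0 < t) {s : Set (ι → ℝ)} (hs₁ : IsBounded s)
    (hs₂ : MeasurableSet s) (Bad : Finset (ι → ℤ))
    (hBad : ∀ ν, (cell t ν ∩ frontier s).Nonempty → ν ∈ Bad) :
    |(Nat.card {ν : ι → ℤ // latPt t ν ∈ s} : ℝ) - t ^ Fintype.card ι * volume.real s| ≤
      Bad.card := by
  set n := Fintype.card ι with hn
  have hJfin := finite_cell_inter_nonempty ht hs₁
  set Jf : Finset (ι → ℤ) := hJfin.toFinset with hJf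
  have hmemJ : ∀ ν, ν ∈ Jf ↔ (cell t ν ∩ s).Nonempty := fun ν => by
    rw [hJf, Set.Finite.mem_toFinset]; rfl
  -- counting
  have hset : {ν : ι → ℤ | latPt t ν ∈ s} = ↑(Jf.filter fun ν => latPt t ν ∈ s) := by
    ext ν
    simp only [Set.mem_ofPred_eq, Finset.coe_filter, hmemJ, iff_and_self]
    exact fun h => ⟨latPt t ν, latPt_mem_cell ht ν, h⟩
  have hcard : (Nat.card {ν : ι → ℤ // latPt t ν ∈ s} : ℝ) =
      ∑ ν ∈ Jf, (if latPt t ν ∈ s then (1 : ℝ) else 0) := by
    rw [Finset.sum_ite, Finset.sum_const_zero, add_zero, Finset.sum_const, nsmul_eq_mul, mul_one]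
    congr 1
    rw [← Set.ncard_coe_finset, ← hset]
    exact Nat.card_coe_set_eq _
  -- volume
  have hcover : s = ⋃ ν ∈ Jf, (s ∩ cell t ν) := by
    ext y
    simp only [Set.mem_iUnion, Set.mem_inter_iff, exists_and_left, exists_prop]
    constructor
    · intro hy
      exact ⟨hy, _, (hmemJ _).mpr ⟨y, mem_cell_floor t y, hy⟩, mem_cell_floor t y⟩
    · exact fun h => h.1
  have hfinite : ∀ ν, volume (s ∩ cell t ν) ≠ ⊤ := fun ν =>
    ne_top_of_le_ne_top (by rw [volume_cell ht]; exact ENNReal.ofReal_ne_top)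
      (measure_mono Set.inter_subset_right)
  have hvol : volume.real s = ∑ ν ∈ Jf, volume.real (s ∩ cell t ν) := by
    conv_lhs => rw [hcover]
    refine measureReal_biUnion_finset ?_ (fun ν _ => hs₂.inter (measurableSet_cell ht ν))
      (fun ν _ => hfinite ν)
    intro ν _ ν' _ hne
    exact (cell_disjoint hne).mono Set.inter_subset_right Set.inter_subset_right
  have htn : (0 : ℝ) < t ^ n := pow_pos ht n
  have hcellreal : ∀ ν : ι → ℤ, volume.real (cell t ν) = (t ^ n)⁻¹ := fun ν => by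
    rw [measureReal_def, volume_cell ht ν, ENNReal.toReal_ofReal (by positivity), inv_pow]
  -- termwise comparison
  have hterm : ∀ ν ∈ Jf, |(if latPt t ν ∈ s then (1 : ℝ) else 0) -
      t ^ n * volume.real (s ∩ cell t ν)| ≤ if ν ∈ Bad then 1 else 0 := by
    intro ν hν
    have h0 : 0 ≤ t ^ n * volume.real (s ∩ cell t ν) := by positivity
    have h1 : t ^ n * volume.real (s ∩ cell t ν) ≤ 1 := by
      have : volume.real (s ∩ cell t ν) ≤ (t ^ n)⁻¹ := by
        rw [← hcellreal ν]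
        exact measureReal_mono Set.inter_subset_right
          (by rw [volume_cell ht]; exact ENNReal.ofReal_ne_top)
      calc t ^ n * volume.real (s ∩ cell t ν) ≤ t ^ n * (t ^ n)⁻¹ :=
            mul_le_mul_of_nonneg_left this htn.le
        _ = 1 := mul_inv_cancel₀ htn.ne'
    by_cases hb : ν ∈ Bad
    · rw [if_pos hb]
      split_ifs
      · rw [abs_le]; constructor <;> linarith
      · rw [abs_le]; constructor <;> linarith
    · rw [if_neg hb]
      have hd : Disjoint (cell t ν) (frontier s) := by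
        rw [Set.disjoint_iff_inter_eq_empty]
        by_contra hne
        exact hb (hBad ν (Set.nonempty_iff_ne_empty.mpr hne))
      have hsub := cell_subset_of_disjoint_frontier ht hd ((hmemJ ν).mp hν)
      rw [if_pos (hsub (latPt_mem_cell ht ν)), Set.inter_eq_right.mpr hsub, hcellreal,
        mul_inv_cancel₀ htn.ne', sub_self, abs_zero]
  rw [hcard, hvol, Finset.mul_sum, ← Finset.sum_sub_distrib]
  calc |∑ ν ∈ Jf, ((if latPt t ν ∈ s then (1 : ℝ) else 0) - t ^ n * volume.real (s ∩ cell t ν))|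
      ≤ ∑ ν ∈ Jf, |(if latPt t ν ∈ s then (1 : ℝ) else 0) - t ^ n * volume.real (s ∩ cell t ν)| :=
        Finset.abs_sum_le_sum_abs _ _
    _ ≤ ∑ ν ∈ Jf, (if ν ∈ Bad then (1 : ℝ) else 0) := Finset.sum_le_sum hterm
    _ = ((Jf.filter fun ν => ν ∈ Bad).card : ℝ) := by
        rw [Finset.sum_ite, Finset.sum_const_zero, add_zero, Finset.sum_const, nsmul_eq_mul,
          mul_one]
    _ ≤ Bad.card := by
        exact_mod_cast Finset.card_le_card fun ν hν => (Finset.mem_filter.mp hν).2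

open scoped Classical in
/-- the indices of the cells meeting a sup-norm ball of radius `1/t`: at most `3ⁿ`. -/
def nearIdx (t : ℝ) (y : ι → ℝ) : Finset (ι → ℤ) :=
  Finset.Icc (fun i => ⌊t * y i⌋ - 1) (fun i => ⌊t * y i⌋ + 1)

theorem card_nearIdx (t : ℝ) (y : ι → ℝ) : (nearIdx t y).card = 3 ^ Fintype.card ι := by
  classical
  rw [nearIdx, Pi.card_Icc]
  have : ∀ i : ι, (Finset.Icc (⌊t * y i⌋ - 1) (⌊t * y i⌋ + 1)).card = 3 := fun i => by
    rw [Int.card_Icc]; omega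
  simp [this]

theorem mem_nearIdx_of_inter_closedBall {t : ℝ} (ht : 0 < t) {y : ι → ℝ} {ν : ι → ℤ}
    (h : (cell t ν ∩ closedBall y (1 / t)).Nonempty) : ν ∈ nearIdx t y := by
  classical
  obtain ⟨z, hz, hzy⟩ := h
  rw [nearIdx, Finset.mem_Icc]
  rw [mem_closedBall, dist_pi_le_iff (by positivity)] at hzy
  refine ⟨fun i => ?_, fun i => ?_⟩
  · have hzi := mem_cell_iff.mp hz i
    have hd := hzy i
    rw [Real.dist_eq, abs_le] at hd
    have h1 : t * y i - 1 ≤ t * z i := by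
      have := mul_le_mul_of_nonneg_left hd.1 ht.le
      have h2 : t * (1 / t) = 1 := by field_simp
      nlinarith
    have h3 : (⌊t * y i⌋ : ℝ) ≤ t * y i := Int.floor_le _
    have h4 : (⌊t * y i⌋ : ℝ) - 1 < ν i + 1 := by linarith [hzi.2]
    have : ⌊t * y i⌋ - 1 < ν i + 1 := by exact_mod_cast h4
    show ⌊t * y i⌋ - 1 ≤ ν i
    omega
  · have hzi := mem_cell_iff.mp hz i
    have hd := hzy i
    rw [Real.dist_eq, abs_le] at hd
    have h1 : t * z i ≤ t * y i + 1 := by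
      have := mul_le_mul_of_nonneg_left hd.2 ht.le
      have h2 : t * (1 / t) = 1 := by field_simp
      nlinarith
    have h3 : t * y i < ⌊t * y i⌋ + 1 := Int.lt_floor_add_one _
    have h4 : (ν i : ℝ) < ⌊t * y i⌋ + 1 + 1 := by linarith [hzi.1]
    have : ν i < ⌊t * y i⌋ + 1 + 1 := by exact_mod_cast h4
    show ν i ≤ ⌊t * y i⌋ + 1
    omega

open scoped Classical in
/-- counting with an explicit finite cover of the frontier by balls of radius `1/t`. -/
theorem abs_card_sub_volume_le_of_cover {t : ℝ} (ht : 0 < t) {s : Set (ι → ℝ)} (hs₁ : IsBounded s)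
    (hs₂ : MeasurableSet s) (S : Finset (ι → ℝ))
    (hS : frontier s ⊆ ⋃ y ∈ S, closedBall y (1 / t)) :
    |(Nat.card {ν : ι → ℤ // latPt t ν ∈ s} : ℝ) - t ^ Fintype.card ι * volume.real s| ≤
      3 ^ Fintype.card ι * S.card := by
  refine (abs_card_sub_volume_le ht hs₁ hs₂ (S.biUnion (nearIdx t)) ?_).trans ?_
  · rintro ν ⟨z, hz, hzf⟩
    obtain ⟨y, hy, hzy⟩ := Set.mem_iUnion₂.mp (hS hzf)
    exact Finset.mem_biUnion.mpr ⟨y, hy, mem_nearIdx_of_inter_closedBall ht ⟨z, hz, hzy⟩⟩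
  · have := Finset.card_biUnion_le (s := S) (t := nearIdx t)
    simp only [card_nearIdx, Finset.sum_const, smul_eq_mul] at this
    calc ((S.biUnion (nearIdx t)).card : ℝ) ≤ ((S.card * 3 ^ Fintype.card ι : ℕ) : ℝ) := by
          exact_mod_cast this
      _ = 3 ^ Fintype.card ι * S.card := by push_cast; ring

end cells


section cover

/-- a grid of `(T+1)^d` points in the cube `[0,1]^d`, `1/T`-dense for the sup distance. -/
theorem exists_grid (d T : ℕ) (hT : 0 < T) :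
    ∃ G : Finset (Fin d → ℝ), G.card ≤ (T + 1) ^ d ∧ (↑G ⊆ Set.Icc (0 : Fin d → ℝ) 1) ∧
      ∀ x ∈ Set.Icc (0 : Fin d → ℝ) 1, ∃ u ∈ G, dist x u ≤ 1 / T := by
  classical
  have hT' : (0 : ℝ) < T := by exact_mod_cast hT
  refine ⟨Finset.univ.image (fun k : Fin d → Fin (T + 1) => fun i => ((k i : ℕ) : ℝ) / T), ?_, ?_, ?_⟩
  · refine Finset.card_image_le.trans ?_
    simp
  · intro u hu
    rw [Finset.mem_coe, Finset.mem_image] at hu
    obtain ⟨k, -, rfl⟩ := hu
    rw [Set.mem_Icc]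
    refine ⟨fun i => ?_, fun i => ?_⟩
    · simp only [Pi.zero_apply]; positivity
    · simp only [Pi.one_apply]
      rw [div_le_one hT']
      have : (k i : ℕ) ≤ T := Nat.lt_succ_iff.mp (k i).isLt
      exact_mod_cast this
  · intro x hx
    rw [Set.mem_Icc] at hx
    have hx0 : ∀ i, 0 ≤ x i := fun i => hx.1 i
    have hx1 : ∀ i, x i ≤ 1 := fun i => hx.2 i
    have hk : ∀ i, ⌊(T : ℝ) * x i⌋₊ < T + 1 := fun i => by
      rw [Nat.lt_succ_iff]
      apply Nat.floor_le_of_le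
      calc (T : ℝ) * x i ≤ T * 1 := mul_le_mul_of_nonneg_left (hx1 i) hT'.le
        _ = T := mul_one _
    refine ⟨fun i => ((⌊(T : ℝ) * x i⌋₊ : ℕ) : ℝ) / T, ?_, ?_⟩
    · rw [Finset.mem_image]
      exact ⟨fun i => ⟨⌊(T : ℝ) * x i⌋₊, hk i⟩, Finset.mem_univ _, rfl⟩
    · rw [dist_pi_le_iff (by positivity)]
      intro i
      have h0 : 0 ≤ (T : ℝ) * x i := mul_nonneg hT'.le (hx0 i)
      have h1 : ((⌊(T : ℝ) * x i⌋₊ : ℕ) : ℝ) ≤ T * x i := Nat.floor_le h0
      have h2 : (T : ℝ) * x i < ⌊(T : ℝ) * x i⌋₊ + 1 := Nat.lt_floor_add_one _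
      have hk1 : ((⌊(T : ℝ) * x i⌋₊ : ℕ) : ℝ) / T ≤ x i := by
        rw [div_le_iff₀ hT']; linarith
      have hk2 : x i ≤ ((⌊(T : ℝ) * x i⌋₊ : ℕ) : ℝ) / T + 1 / T := by
        rw [← add_div, le_div_iff₀ hT']; linarith
      have hT1 : (0 : ℝ) < 1 / T := by positivity
      rw [Real.dist_eq, abs_le]
      constructor <;> linarith

theorem IsLipCovered.exists_finset_cover {E : Type*} [PseudoMetricSpace E] {d : ℕ} {A : Set E}
    (h : IsLipCovered d A) :
    ∃ C : ℝ, 0 ≤ C ∧ ∀ t : ℝ, 1 ≤ t → ∃ S : Finset E, (S.card : ℝ) ≤ C * t ^ d ∧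
      A ⊆ ⋃ y ∈ S, closedBall y (1 / t) := by
  classical
  obtain ⟨m, φ, K, hφ, hA⟩ := h
  refine ⟨m * ((K : ℝ) + 3) ^ d, by positivity, fun t ht => ?_⟩
  have ht0 : (0 : ℝ) < t := lt_of_lt_of_le one_pos ht
  set T : ℕ := ⌈(K : ℝ) * t⌉₊ + 1 with hTdef
  have hTpos : 0 < T := Nat.succ_pos _
  have hKt : (0 : ℝ) ≤ (K : ℝ) * t := mul_nonneg K.coe_nonneg ht0.le
  have hT1 : (K : ℝ) * t ≤ T := by
    rw [hTdef]; push_cast
    linarith [Nat.le_ceil ((K : ℝ) * t)]
  have hT2 : ((T : ℝ) + 1) ≤ ((K : ℝ) + 3) * t := by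
    rw [hTdef]; push_cast
    have := Nat.ceil_lt_add_one hKt
    nlinarith
  obtain ⟨G, hGcard, hGsub, hGdense⟩ := exists_grid d T hTpos
  refine ⟨Finset.univ.biUnion fun j => G.image (φ j), ?_, ?_⟩
  · have h1 : (Finset.univ.biUnion fun j => G.image (φ j)).card ≤ m * (T + 1) ^ d := by
      refine Finset.card_biUnion_le.trans ?_
      calc ∑ j : Fin m, (G.image (φ j)).card ≤ ∑ _j : Fin m, (T + 1) ^ d :=
            Finset.sum_le_sum fun j _ => Finset.card_image_le.trans hGcard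
        _ = m * (T + 1) ^ d := by simp
    calc ((Finset.univ.biUnion fun j => G.image (φ j)).card : ℝ) ≤ ((m * (T + 1) ^ d : ℕ) : ℝ) := by
          exact_mod_cast h1
      _ = m * ((T : ℝ) + 1) ^ d := by push_cast; ring
      _ ≤ m * (((K : ℝ) + 3) * t) ^ d := by
          gcongr
      _ = m * ((K : ℝ) + 3) ^ d * t ^ d := by rw [mul_pow]; ring
  · intro a ha
    obtain ⟨j, hj⟩ := Set.mem_iUnion.mp (hA ha)
    obtain ⟨x, hx, rfl⟩ := hj
    obtain ⟨u, hu, hxu⟩ := hGdense x hx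
    refine Set.mem_iUnion₂.mpr ⟨φ j u, ?_, ?_⟩
    · exact Finset.mem_biUnion.mpr ⟨j, Finset.mem_univ _, Finset.mem_image_of_mem _ hu⟩
    · rw [mem_closedBall]
      have hT' : (0 : ℝ) < T := by exact_mod_cast hTpos
      calc dist (φ j x) (φ j u) ≤ K * dist x u := (hφ j).dist_le_mul x hx u (hGsub hu)
        _ ≤ K * (1 / T) := mul_le_mul_of_nonneg_left hxu K.coe_nonneg
        _ ≤ 1 / t := by
            rw [mul_one_div, div_le_div_iff₀ hT' ht0]
            linarith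

end cover

section core

variable {ι : Type*} [Fintype ι]

/-- **Lattice point counting with power-saving error term** for the standard lattice. -/
theorem card_sub_volume_le {s : Set (ι → ℝ)} (hs₁ : IsBounded s) (hs₂ : MeasurableSet s) {d : ℕ}
    (hf : IsLipCovered d (frontier s)) :
    ∃ C : ℝ, 0 ≤ C ∧ ∀ t : ℝ, 1 ≤ t →
      |(Nat.card {ν : ι → ℤ // latPt t ν ∈ s} : ℝ) - t ^ Fintype.card ι * volume.real s| ≤
        C * t ^ d := by
  obtain ⟨C, hC0, hC⟩ := hf.exists_finset_cover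
  refine ⟨3 ^ Fintype.card ι * C, by positivity, fun t ht => ?_⟩
  obtain ⟨S, hScard, hScover⟩ := hC t ht
  have ht0 : (0 : ℝ) < t := lt_of_lt_of_le one_pos ht
  refine (abs_card_sub_volume_le_of_cover ht0 hs₁ hs₂ S hScover).trans ?_
  rw [mul_assoc]
  exact mul_le_mul_of_nonneg_left hScard (by positivity)

end core



section closure

variable {E E' : Type*} [PseudoMetricSpace E] [PseudoMetricSpace E']

theorem IsLipCovered.mono {d : ℕ} {A B : Set E} (h : IsLipCovered d B) (hAB : A ⊆ B) :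
    IsLipCovered d A := by
  obtain ⟨m, φ, K, hφ, hB⟩ := h
  exact ⟨m, φ, K, hφ, hAB.trans hB⟩

theorem IsLipCovered.empty (d : ℕ) : IsLipCovered d (∅ : Set E) :=
  ⟨0, fun j => j.elim0, 0, fun j => j.elim0, Set.empty_subset _⟩

theorem IsLipCovered.union {d : ℕ} {A B : Set E} (hA : IsLipCovered d A) (hB : IsLipCovered d B) :
    IsLipCovered d (A ∪ B) := by
  obtain ⟨m, φ, K, hφ, hA⟩ := hA
  obtain ⟨m', φ', K', hφ', hB⟩ := hB
  refine ⟨m + m', Fin.append φ φ', max K K', fun j => ?_, ?_⟩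
  · refine Fin.addCases (fun i => ?_) (fun i => ?_) j
    · rw [Fin.append_left]
      exact (hφ i).weaken (le_max_left _ _)
    · rw [Fin.append_right]
      exact (hφ' i).weaken (le_max_right _ _)
  · rintro a (ha | ha)
    · obtain ⟨j, hj⟩ := Set.mem_iUnion.mp (hA ha)
      refine Set.mem_iUnion.mpr ⟨Fin.castAdd m' j, ?_⟩
      rwa [Fin.append_left]
    · obtain ⟨j, hj⟩ := Set.mem_iUnion.mp (hB ha)
      refine Set.mem_iUnion.mpr ⟨Fin.natAdd m j, ?_⟩
      rwa [Fin.append_right]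

theorem IsLipCovered.iUnion_fin {d n : ℕ} {A : Fin n → Set E} (hA : ∀ i, IsLipCovered d (A i)) :
    IsLipCovered d (⋃ i, A i) := by
  induction n with
  | zero =>
    have : (⋃ i, A i) = ∅ := by
      ext x; simp only [Set.mem_iUnion, Set.mem_empty_iff_false, iff_false]
      rintro ⟨i, -⟩; exact i.elim0
    rw [this]; exact IsLipCovered.empty d
  | succ n ih =>
    have : (⋃ i, A i) = (⋃ i : Fin n, A i.castSucc) ∪ A (Fin.last n) := by
      ext x
      simp only [Set.mem_iUnion, Set.mem_union]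
      constructor
      · rintro ⟨i, hi⟩
        refine Fin.lastCases (motive := fun i => x ∈ A i → _) (fun h => Or.inr h)
          (fun j h => Or.inl ⟨j, h⟩) i hi
      · rintro (⟨i, hi⟩ | h)
        · exact ⟨_, hi⟩
        · exact ⟨_, h⟩
    rw [this]
    exact (ih fun i => hA i.castSucc).union (hA _)

theorem IsLipCovered.iUnion_finite {d : ℕ} {κ : Type*} [Finite κ] {A : κ → Set E}
    (hA : ∀ i, IsLipCovered d (A i)) : IsLipCovered d (⋃ i, A i) := by
  obtain ⟨n, ⟨e⟩⟩ := Finite.exists_equiv_fin κ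
  have : (⋃ i, A i) = ⋃ j : Fin n, A (e.symm j) := by
    ext x
    simp only [Set.mem_iUnion]
    exact ⟨fun ⟨i, hi⟩ => ⟨e i, by simpa using hi⟩, fun ⟨j, hj⟩ => ⟨_, hj⟩⟩
  rw [this]
  exact IsLipCovered.iUnion_fin fun j => hA _

theorem IsLipCovered.image {d : ℕ} {A : Set E} (hA : IsLipCovered d A) {f : E → E'} {K' : ℝ≥0}
    (hf : LipschitzWith K' f) : IsLipCovered d (f '' A) := by
  obtain ⟨m, φ, K, hφ, hA⟩ := hA
  refine ⟨m, fun j => f ∘ φ j, K' * K, fun j => ?_, ?_⟩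
  · exact (hf.lipschitzOnWith (s := Set.univ)).comp (hφ j) (Set.mapsTo_univ _ _)
  · rintro _ ⟨a, ha, rfl⟩
    obtain ⟨j, x, hx, rfl⟩ := Set.mem_iUnion.mp (hA ha)
    exact Set.mem_iUnion.mpr ⟨j, x, hx, rfl⟩

/-- a single Lipschitz image of the cube -/
theorem IsLipCovered.of_lipschitzOnWith {d : ℕ} {φ : (Fin d → ℝ) → E} {K : ℝ≥0}
    (hφ : LipschitzOnWith K φ (Set.Icc 0 1)) : IsLipCovered d (φ '' Set.Icc 0 1) :=
  ⟨1, fun _ => φ, K, fun _ => hφ, fun _ ha => Set.mem_iUnion.mpr ⟨0, ha⟩⟩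

/-- raising the dimension -/
theorem IsLipCovered.of_le {d d' : ℕ} (hdd : d ≤ d') {A : Set E} (hA : IsLipCovered d A) :
    IsLipCovered d' A := by
  obtain ⟨m, φ, K, hφ, hA⟩ := hA
  let π : (Fin d' → ℝ) → (Fin d → ℝ) := fun x i => x (Fin.castLE hdd i)
  have hπ : LipschitzWith 1 π := by
    refine LipschitzWith.of_dist_le_mul fun x y => ?_
    rw [NNReal.coe_one, one_mul, dist_pi_le_iff dist_nonneg]
    exact fun i => dist_le_pi_dist x y _
  have hπmaps : Set.MapsTo π (Set.Icc 0 1) (Set.Icc 0 1) := by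
    intro x hx
    rw [Set.mem_Icc] at hx ⊢
    exact ⟨fun i => hx.1 _, fun i => hx.2 _⟩
  have hπsurj : Set.SurjOn π (Set.Icc 0 1) (Set.Icc 0 1) := by
    intro y hy
    rw [Set.mem_Icc] at hy
    refine ⟨fun i => if h : (i : ℕ) < d then y ⟨i, h⟩ else 0, ?_, ?_⟩
    · rw [Set.mem_Icc]
      refine ⟨fun i => ?_, fun i => ?_⟩
      · simp only [Pi.zero_apply]; split_ifs
        · exact hy.1 _
        · exact le_rfl
      · simp only [Pi.one_apply]; split_ifs
        · exact hy.2 _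
        · exact zero_le_one
    · funext i
      simp [π]
  refine ⟨m, fun j => φ j ∘ π, K, fun j => ?_, ?_⟩
  · have := (hφ j).comp (hπ.lipschitzOnWith (s := Set.Icc 0 1)) hπmaps
    simpa using this
  · intro a ha
    obtain ⟨j, x, hx, rfl⟩ := Set.mem_iUnion.mp (hA ha)
    obtain ⟨x', hx', rfl⟩ := hπsurj hx
    exact Set.mem_iUnion.mpr ⟨j, x', hx', rfl⟩

end closure



section transfer

open Fintype

variable {E : Type*} [NormedAddCommGroup E] [NormedSpace ℝ E] [FiniteDimensional ℝ E]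
variable {L : Submodule ℤ E} [DiscreteTopology L] [IsZLattice ℝ L]
variable {ι : Type*} [Fintype ι] (b : Basis ι ℤ L)

theorem equivFun_coe_apply (x : L) (i : ι) :
    (b.ofZLatticeBasis ℝ L).equivFun (x : E) i = ((b.repr x i : ℤ) : ℝ) := by
  rw [Basis.equivFun_apply, Basis.ofZLatticeBasis_repr_apply]

theorem mem_smul_iff_latPt {t : ℝ} (ht : 0 < t) (S₁ : Set E) (x : L) :
    (x : E) ∈ t • S₁ ↔
      latPt t (b.equivFun x) ∈ (b.ofZLatticeBasis ℝ L).equivFun '' S₁ := by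
  have hlat : latPt t (b.equivFun x) = (b.ofZLatticeBasis ℝ L).equivFun (t⁻¹ • (x : E)) := by
    funext i
    rw [map_smul, Pi.smul_apply, equivFun_coe_apply, latPt, Basis.equivFun_apply, smul_eq_mul,
      div_eq_inv_mul]
  rw [hlat, Set.mem_smul_set_iff_inv_smul_mem₀ ht.ne']
  constructor
  · exact fun h => ⟨_, h, rfl⟩
  · rintro ⟨y, hy, hxy⟩
    rwa [← (b.ofZLatticeBasis ℝ L).equivFun.injective hxy]

/-- the lattice points of `t • S₁` correspond to the points `ν / t`, `ν ∈ ℤ^ι`, of the image of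
`S₁` in coordinates. -/
theorem card_smul_inter_lattice {t : ℝ} (ht : 0 < t) (S₁ : Set E) :
    Nat.card (t • S₁ ∩ L : Set E) =
      Nat.card {ν : ι → ℤ // latPt t ν ∈ (b.ofZLatticeBasis ℝ L).equivFun '' S₁} := by
  let e₁ : (t • S₁ ∩ L : Set E) ≃ {x : L // (x : E) ∈ t • S₁} :=
    { toFun := fun x => ⟨⟨x.1, x.2.2⟩, x.2.1⟩
      invFun := fun y => ⟨y.1.1, y.2, y.1.2⟩
      left_inv := fun _ => rfl
      right_inv := fun _ => rfl }
  exact Nat.card_congr (e₁.trans (Equiv.subtypeEquiv b.equivFun.toEquiv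
    fun x => mem_smul_iff_latPt b ht S₁ x))

theorem smul_setOf_le_one {X : Set E} (hX : ∀ ⦃x⦄ ⦃r : ℝ⦄, x ∈ X → 0 < r → r • x ∈ X)
    {F : E → ℝ} {n : ℕ} (hF₁ : ∀ x ⦃r : ℝ⦄, 0 ≤ r → F (r • x) = r ^ n * (F x)) {c : ℝ}
    (hc : 0 < c) :
    c • {x ∈ X | F x ≤ 1} = {x ∈ X | F x ≤ c ^ n} := by
  ext x
  simp_rw [Set.mem_smul_set_iff_inv_smul_mem₀ hc.ne', Set.mem_ofPred_eq, hF₁ _
    (inv_pos_of_pos hc).le, inv_pow, inv_mul_le_iff₀ (pow_pos hc _), mul_one, and_congr_left_iff]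
  exact fun _ ↦ ⟨fun h ↦ (smul_inv_smul₀ hc.ne' x) ▸ hX h hc, fun h ↦ hX h (inv_pos_of_pos hc)⟩

/-- **Counting lattice points in a cone with a power-saving error term**, general version
(mirror of `ZLattice.covolume.tendsto_card_le_div''`). -/
theorem card_le_sub_le'' [MeasurableSpace E] [BorelSpace E]
    [Nonempty ι] {X : Set E} (hX : ∀ ⦃x⦄ ⦃r : ℝ⦄, x ∈ X → 0 < r → r • x ∈ X)
    {F : E → ℝ} (h₁ : ∀ x ⦃r : ℝ⦄, 0 ≤ r → F (r • x) = r ^ card ι * (F x))
    (h₂ : IsBounded {x ∈ X | F x ≤ 1}) (h₃ : MeasurableSet {x ∈ X | F x ≤ 1})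
    (h₄ : IsLipCovered (card ι - 1)
      (frontier ((b.ofZLatticeBasis ℝ L).equivFun '' {x | x ∈ X ∧ F x ≤ 1}))) :
    ∃ C : ℝ, 0 ≤ C ∧ ∀ c : ℝ, 1 ≤ c →
      |(Nat.card ({x ∈ X | F x ≤ c} ∩ L : Set E) : ℝ) -
        c * volume.real ((b.ofZLatticeBasis ℝ L).equivFun '' {x ∈ X | F x ≤ 1})| ≤
        C * c ^ (1 - 1 / (card ι : ℝ)) := by
  have hb₁ : IsBounded ((b.ofZLatticeBasis ℝ L).equivFun '' {x ∈ X | F x ≤ 1}) := by
    rw [← NormedSpace.isVonNBounded_iff ℝ] at h₂ ⊢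
    exact Bornology.IsVonNBounded.image h₂ ((b.ofZLatticeBasis ℝ).equivFunL : E →L[ℝ] ι → ℝ)
  have hb₂ : MeasurableSet ((b.ofZLatticeBasis ℝ L).equivFun '' {x ∈ X | F x ≤ 1}) :=
    (b.ofZLatticeBasis ℝ).equivFunL.toHomeomorph.toMeasurableEquiv.measurableSet_image.mpr h₃
  obtain ⟨C, hC0, hC⟩ := card_sub_volume_le hb₁ hb₂ h₄
  refine ⟨C, hC0, fun c hc => ?_⟩
  have hc0 : (0 : ℝ) < c := lt_of_lt_of_le one_pos hc
  have hn0 : (card ι : ℝ) ≠ 0 := Nat.cast_ne_zero.mpr card_ne_zero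
  have hnpos : 0 < card ι := card_pos
  set t : ℝ := c ^ ((card ι : ℝ)⁻¹) with ht
  have ht0 : 0 < t := Real.rpow_pos_of_pos hc0 _
  have ht1 : 1 ≤ t := Real.one_le_rpow hc (inv_nonneg.mpr (Nat.cast_nonneg _))
  have htn : t ^ card ι = c := by
    rw [ht, ← Real.rpow_natCast, Real.rpow_inv_rpow hc0.le hn0]
  have htd : t ^ (card ι - 1) = c ^ (1 - 1 / (card ι : ℝ)) := by
    rw [ht, ← Real.rpow_natCast, ← Real.rpow_mul hc0.le, Nat.cast_sub hnpos, Nat.cast_one]
    congr 1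
    field_simp
  have hset : {x ∈ X | F x ≤ c} = t • {x ∈ X | F x ≤ 1} := by
    rw [smul_setOf_le_one hX h₁ ht0, htn]
  have := hC t ht1
  rwa [← card_smul_inter_lattice b ht0, ← hset, htn, htd] at this

end transfer


section InnerProductSpace

theorem frontier_equivFun_image {E : Type*} [AddCommGroup E] [Module ℝ E] {ι : Type*} [Finite ι]
    [TopologicalSpace E] [IsTopologicalAddGroup E] [ContinuousSMul ℝ E] [T2Space E]
    (b : Basis ι ℝ E) (s : Set E) :
    frontier (b.equivFun '' s) = b.equivFun '' (frontier s) := by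
  rw [LinearEquiv.image_eq_preimage_symm, LinearEquiv.image_eq_preimage_symm]
  exact (Homeomorph.preimage_frontier b.equivFunL.toHomeomorph.symm s).symm

variable {E : Type*} [NormedAddCommGroup E] [InnerProductSpace ℝ E] [FiniteDimensional ℝ E]
  [MeasurableSpace E] [BorelSpace E]
variable (L : Submodule ℤ E) [DiscreteTopology L] [IsZLattice ℝ L]

/-- **Counting lattice points in a cone with a power-saving error term** (mirror of
`ZLattice.covolume.tendsto_card_le_div'`, with the hypothesis `volume (frontier _) = 0` replaced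
by a Lipschitz parametrisation of the frontier). -/
theorem card_le_sub_le' [Nontrivial E] {X : Set E} {F : E → ℝ}
    (hX : ∀ ⦃x⦄ ⦃r : ℝ⦄, x ∈ X → 0 < r → r • x ∈ X)
    (h₁ : ∀ x ⦃r : ℝ⦄, 0 ≤ r → F (r • x) = r ^ finrank ℝ E * (F x))
    (h₂ : IsBounded {x ∈ X | F x ≤ 1}) (h₃ : MeasurableSet {x ∈ X | F x ≤ 1})
    (h₄ : IsLipCovered (finrank ℝ E - 1) (frontier {x ∈ X | F x ≤ 1})) :
    ∃ C : ℝ, 0 ≤ C ∧ ∀ c : ℝ, 1 ≤ c →
      |(Nat.card ({x ∈ X | F x ≤ c} ∩ L : Set E) : ℝ) -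
        c * (volume.real {x ∈ X | F x ≤ 1} / ZLattice.covolume L)| ≤
        C * c ^ (1 - 1 / (finrank ℝ E : ℝ)) := by
  let b := Module.Free.chooseBasis ℤ L
  have hcard : Fintype.card (Module.Free.ChooseBasisIndex ℤ L) = finrank ℝ E := by
    rw [← finrank_eq_card_chooseBasisIndex, ZLattice.rank ℝ L]
  have hne : Nonempty (Module.Free.ChooseBasisIndex ℤ L) := by
    have : Nontrivial L := nontrivial_of_finrank_pos <| (ZLattice.rank ℝ L).symm ▸ finrank_pos
    infer_instance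
  have h₁' : ∀ x ⦃r : ℝ⦄, 0 ≤ r →
      F (r • x) = r ^ Fintype.card (Module.Free.ChooseBasisIndex ℤ L) * (F x) := by
    rw [hcard]; exact h₁
  have h₄' : IsLipCovered (Fintype.card (Module.Free.ChooseBasisIndex ℤ L) - 1)
      (frontier ((b.ofZLatticeBasis ℝ L).equivFun '' {x | x ∈ X ∧ F x ≤ 1})) := by
    rw [hcard, frontier_equivFun_image]
    exact h₄.image (b.ofZLatticeBasis ℝ L).equivFunL.lipschitz
  obtain ⟨C, hC0, hC⟩ := card_le_sub_le'' b hX h₁' h₂ h₃ h₄'
  refine ⟨C, hC0, fun c hc => ?_⟩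
  have := hC c hc
  rw [hcard] at this
  have hvol : volume.real ((b.ofZLatticeBasis ℝ L).equivFun '' {x ∈ X | F x ≤ 1}) =
      volume.real {x ∈ X | F x ≤ 1} / ZLattice.covolume L := by
    simp only [measureReal_def]
    rw [ZLattice.volume_image_eq_volume_div_covolume' L b h₃.nullMeasurableSet, ENNReal.toReal_div,
      ENNReal.toReal_ofReal (ZLattice.covolume_pos L volume).le]
  rwa [hvol] at this

end InnerProductSpace

end Fermat.Agent.CFT
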