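import Mathlib
import Fermat.Agent.CFT.R5aLipschitz

/-!
# S14 / R5b part 1: the frontier of `normLeOne K` is covered by Lipschitz images of cubes

`frontier (normLeOne K) ⊆ normAtAllPlaces ⁻¹' (G '' ∂box)` (Mathlib's `closure_normLeOne_subset`,
`subset_interior_normLeOne`, `compactSet`), and `normAtAllPlaces ⁻¹'` is parametrised by signs at
the real places and angles at the complex places.
-/

set_option autoImplicit false

open NumberField NumberField.InfinitePlace NumberField.mixedEmbedding
  NumberField.mixedEmbedding.fundamentalCone NumberField.Units dirichletUnitTheorem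
open scoped NNReal Classical

noncomputable section

namespace Fermat.Agent.CFT

variable (K : Type*) [Field K] [NumberField K]

/-- The index type of the parameters: one for every infinite place (the scale at `w₀`, the
exponents of the fundamental units at the other places) and one angle for every complex place. -/
abbrev ParamIdx := InfinitePlace K ⊕ {w : InfinitePlace K // IsComplex w}

variable {K}

/-- `a ↦ (a w₀) • expMapBasis (a with w₀ ↦ 0)`. -/
def scaleMap (a : realSpace K) : realSpace K :=
  a w₀ • expMapBasis (fun i ↦ if i = w₀ then 0 else a i)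

theorem contDiff_expMapBasis : ContDiff ℝ 1 (expMapBasis : realSpace K → realSpace K) := by
  have h1 : ContDiff ℝ 1 (expMap : realSpace K → realSpace K) := by
    rw [contDiff_pi]
    intro w
    simp only [expMap_apply]
    fun_prop
  have h2 : (expMapBasis : realSpace K → realSpace K) =
      (expMap : realSpace K → realSpace K) ∘ (completeBasis K).equivFunL.symm := by
    funext x
    rfl
  rw [h2]
  exact h1.comp (ContinuousLinearEquiv.contDiff _)

theorem contDiff_scaleMap : ContDiff ℝ 1 (scaleMap : realSpace K → realSpace K) := by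
  unfold scaleMap
  refine ContDiff.smul (contDiff_apply ℝ ℝ w₀) (contDiff_expMapBasis.comp ?_)
  rw [contDiff_pi]
  intro i
  by_cases h : i = w₀
  · simp only [h, if_true]
    exact contDiff_const
  · simp only [h, if_false]
    exact contDiff_apply ℝ ℝ i

theorem scaleMap_nonneg {a : realSpace K} (h : 0 ≤ a w₀) (w : InfinitePlace K) :
    0 ≤ scaleMap a w := by
  unfold scaleMap
  exact mul_nonneg h (expMapBasis_nonneg _ w)

/-- the full parametrisation, for a sign vector `ε` at the real places. -/
def paramMap (ε : {w : InfinitePlace K // IsReal w} → ℝ) (q : ParamIdx K → ℝ) : mixedSpace K :=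
  (fun w ↦ ε w * scaleMap (fun i ↦ q (Sum.inl i)) w.1,
   fun w ↦ (scaleMap (fun i ↦ q (Sum.inl i)) w.1 : ℂ) *
      Complex.exp ((2 * Real.pi * q (Sum.inr w) : ℝ) * Complex.I))

theorem contDiff_paramMap (ε : {w : InfinitePlace K // IsReal w} → ℝ) :
    ContDiff ℝ 1 (paramMap ε : (ParamIdx K → ℝ) → mixedSpace K) := by
  have h0 : ContDiff ℝ 1 (fun q : ParamIdx K → ℝ ↦ (fun i ↦ q (Sum.inl i) : realSpace K)) := by
    rw [contDiff_pi]
    intro i
    exact contDiff_apply ℝ ℝ (Sum.inl i)
  have h1 : ContDiff ℝ 1 (fun q : ParamIdx K → ℝ ↦ scaleMap (fun i ↦ q (Sum.inl i))) :=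
    contDiff_scaleMap.comp h0
  have h2 : ∀ w : InfinitePlace K,
      ContDiff ℝ 1 (fun q : ParamIdx K → ℝ ↦ scaleMap (fun i ↦ q (Sum.inl i)) w) := fun w ↦
    (contDiff_apply ℝ ℝ w).comp h1
  unfold paramMap
  refine ContDiff.prodMk ?_ ?_
  · rw [contDiff_pi]
    intro w
    exact contDiff_const.mul (h2 w.1)
  · rw [contDiff_pi]
    intro w
    refine ContDiff.mul ?_ ?_
    · exact Complex.ofRealCLM.contDiff.comp (h2 w.1)
    · refine ((Complex.contDiff_exp (𝕜 := ℂ) (n := 1)).restrict_scalars ℝ).comp ?_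
      refine ContDiff.mul ?_ contDiff_const
      refine Complex.ofRealCLM.contDiff.comp ?_
      exact contDiff_const.mul (contDiff_apply ℝ ℝ (Sum.inr w))

theorem normAtAllPlaces_paramMap {ε : {w : InfinitePlace K // IsReal w} → ℝ}
    (hε : ∀ w, |ε w| = 1) {q : ParamIdx K → ℝ} (hq : 0 ≤ q (Sum.inl w₀)) :
    normAtAllPlaces (paramMap ε q) = scaleMap (fun i ↦ q (Sum.inl i)) := by
  funext w
  have hnn : 0 ≤ scaleMap (fun i ↦ q (Sum.inl i)) w := scaleMap_nonneg hq w
  rw [normAtAllPlaces_apply]
  rcases isReal_or_isComplex w with hw | hw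
  · rw [normAtPlace_apply_of_isReal hw]
    simp only [paramMap, Real.norm_eq_abs, abs_mul, hε, one_mul, abs_of_nonneg hnn]
  · rw [normAtPlace_apply_of_isComplex hw]
    simp only [paramMap, norm_mul, Complex.norm_real, Real.norm_eq_abs, abs_of_nonneg hnn,
      Complex.norm_exp_ofReal_mul_I, mul_one]

/-- every point whose norms at all places are `scaleMap a` is in the image of some `paramMap`. -/
theorem exists_paramMap_eq {x : mixedSpace K} {a : realSpace K}
    (hx : normAtAllPlaces x = scaleMap a) :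
    ∃ (s : {w : InfinitePlace K // IsReal w} → Bool)
      (u : {w : InfinitePlace K // IsComplex w} → ℝ), (∀ w, u w ∈ Set.Icc (0 : ℝ) 1) ∧
      paramMap (fun w ↦ if s w then 1 else -1) (Sum.elim a u) = x := by
  refine ⟨fun w ↦ decide (0 ≤ x.1 w), fun w ↦ if 0 ≤ Complex.arg (x.2 w) then
    Complex.arg (x.2 w) / (2 * Real.pi) else Complex.arg (x.2 w) / (2 * Real.pi) + 1, ?_, ?_⟩
  · intro w
    have hpi := Real.pi_pos
    have h1 := Complex.neg_pi_lt_arg (x.2 w)
    have h2 := Complex.arg_le_pi (x.2 w)
    beta_reduce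
    split_ifs with h
    · refine ⟨by positivity, ?_⟩
      rw [div_le_one (by positivity)]
      linarith
    · push Not at h
      refine ⟨?_, ?_⟩
      · have : -1 ≤ Complex.arg (x.2 w) / (2 * Real.pi) := by
          rw [le_div_iff₀ (by positivity)]
          linarith
        linarith
      · have : Complex.arg (x.2 w) / (2 * Real.pi) ≤ 0 :=
          div_nonpos_of_nonpos_of_nonneg h.le (by positivity)
        linarith
  · have hxw : ∀ w, normAtPlace w x = scaleMap a w := fun w ↦ by
      rw [← normAtAllPlaces_apply, hx]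
    refine Prod.ext ?_ ?_
    · funext w
      have h := hxw w.1
      rw [normAtPlace_apply_of_isReal w.2] at h
      simp only [paramMap, Sum.elim_inl, decide_eq_true_eq]
      rw [← h, Real.norm_eq_abs]
      split_ifs with h0
      · rw [one_mul, abs_of_nonneg h0]
      · push Not at h0
        rw [abs_of_neg h0]
        ring
    · funext w
      have h := hxw w.1
      rw [normAtPlace_apply_of_isComplex w.2] at h
      simp only [paramMap, Sum.elim_inl, Sum.elim_inr]
      rw [← h]
      have key : Complex.exp ((2 * Real.pi * (if 0 ≤ Complex.arg (x.2 w) then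
          Complex.arg (x.2 w) / (2 * Real.pi) else Complex.arg (x.2 w) / (2 * Real.pi) + 1) : ℝ) *
            Complex.I) = Complex.exp (Complex.arg (x.2 w) * Complex.I) := by
        have hpi : (2 * Real.pi : ℝ) ≠ 0 := by positivity
        split_ifs with h0
        · congr 2
          field_simp
        · have : ((2 * Real.pi * (Complex.arg (x.2 w) / (2 * Real.pi) + 1) : ℝ) : ℂ) * Complex.I =
              Complex.arg (x.2 w) * Complex.I + 2 * Real.pi * Complex.I := by
            have : (2 * Real.pi * (Complex.arg (x.2 w) / (2 * Real.pi) + 1) : ℝ) =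
                Complex.arg (x.2 w) + 2 * Real.pi := by
              field_simp
            rw [this]
            push_cast
            ring
          rw [this, Complex.exp_add, Complex.exp_two_pi_mul_I, mul_one]
      rw [key]
      exact Complex.norm_mul_exp_arg_mul_I (x.2 w)

variable (K) in
/-- the norms of a point of the frontier of `normLeOne K` are `scaleMap a` for `a` on a face of
the unit cube. -/
theorem exists_scaleMap_of_mem_frontier {x : mixedSpace K} (hx : x ∈ frontier (normLeOne K)) :
    ∃ a : realSpace K, (∀ i, a i ∈ Set.Icc (0 : ℝ) 1) ∧ (∃ k, a k = 0 ∨ a k = 1) ∧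
      normAtAllPlaces x = scaleMap a := by
  have h1 : normAtAllPlaces x ∈ compactSet K := closure_normLeOne_subset K hx.1
  have h2 : normAtAllPlaces x ∉ expMapBasis '' interior (paramSet K) := fun h ↦
    hx.2 (subset_interior_normLeOne K h)
  obtain ⟨c, hc, z, ⟨y, hy, rfl⟩, hz⟩ := h1
  rw [Set.mem_univ_pi] at hy
  have hy0 : y w₀ = 0 := by simpa using hy w₀
  have hyi : ∀ i, i ≠ w₀ → y i ∈ Set.Icc (0 : ℝ) 1 := fun i hi ↦ by simpa [hi] using hy i
  have hya : (fun i ↦ if i = w₀ then 0 else (if i = w₀ then c else y i)) = y := by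
    funext i
    by_cases hi : i = w₀
    · simp [hi, hy0]
    · simp [hi]
  refine ⟨fun i ↦ if i = w₀ then c else y i, ?_, ?_, ?_⟩
  · intro i
    by_cases hi : i = w₀
    · simpa [hi] using hc
    · simpa [hi] using hyi i hi
  · by_contra hcon
    push Not at hcon
    apply h2
    refine ⟨fun i ↦ if i = w₀ then Real.log c else y i, ?_, ?_⟩
    · rw [interior_paramSet, Set.mem_univ_pi]
      intro i
      by_cases hi : i = w₀
      · have h0 := hcon w₀
        simp only [if_true] at h0
        simp only [hi, if_true, Set.mem_Iio]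
        have hcpos : 0 < c := lt_of_le_of_ne hc.1 (Ne.symm h0.1)
        exact Real.log_neg hcpos (lt_of_le_of_ne hc.2 h0.2)
      · have h0 := hcon i
        simp only [hi, if_false] at h0
        simp only [hi, if_false, Set.mem_Ioo]
        exact ⟨lt_of_le_of_ne (hyi i hi).1 (Ne.symm h0.1), lt_of_le_of_ne (hyi i hi).2 h0.2⟩
    · have hcpos : 0 < c := by
        have h0 := hcon w₀
        simp only [if_true] at h0
        exact lt_of_le_of_ne hc.1 (Ne.symm h0.1)
      rw [expMapBasis_apply'', if_pos rfl, Real.exp_log hcpos, ← hz]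
      congr 2
      funext i
      by_cases hi : i = w₀
      · simp [hi, hy0]
      · simp [hi]
  · rw [← hz]
    unfold scaleMap
    simp only [if_true]
    rw [hya]

/-- insert the value `b` at the coordinate `Sum.inl k`. -/
def faceMap (k : InfinitePlace K) (b : ℝ) {d : ℕ}
    (e : {j : ParamIdx K // j ≠ Sum.inl k} ≃ Fin d) (t : Fin d → ℝ) : ParamIdx K → ℝ :=
  fun j ↦ if h : j = Sum.inl k then b else t (e ⟨j, h⟩)

theorem lipschitzWith_faceMap (k : InfinitePlace K) (b : ℝ) {d : ℕ}
    (e : {j : ParamIdx K // j ≠ Sum.inl k} ≃ Fin d) : LipschitzWith 1 (faceMap k b e) := by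
  refine LipschitzWith.of_dist_le_mul fun t t' ↦ ?_
  rw [NNReal.coe_one, one_mul, dist_pi_le_iff dist_nonneg]
  intro j
  unfold faceMap
  split_ifs with h
  · rw [dist_self]
    exact dist_nonneg
  · exact dist_le_pi_dist t t' _

omit [NumberField K] in
theorem mapsTo_faceMap (k : InfinitePlace K) {b : ℝ} (hb : b ∈ Set.Icc (0 : ℝ) 1) {d : ℕ}
    (e : {j : ParamIdx K // j ≠ Sum.inl k} ≃ Fin d) :
    Set.MapsTo (faceMap k b e) (Set.Icc 0 1) (Set.Icc 0 1) := by
  intro t ht
  rw [Set.mem_Icc, Pi.le_def, Pi.le_def] at ht ⊢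
  refine ⟨fun j ↦ ?_, fun j ↦ ?_⟩
  · unfold faceMap
    split_ifs with h
    · exact hb.1
    · exact ht.1 _
  · unfold faceMap
    split_ifs with h
    · exact hb.2
    · exact ht.2 _

omit [NumberField K] in
theorem exists_faceMap_eq (k : InfinitePlace K) {b : ℝ} {d : ℕ}
    (e : {j : ParamIdx K // j ≠ Sum.inl k} ≃ Fin d) {q : ParamIdx K → ℝ}
    (hq : q ∈ Set.Icc (0 : ParamIdx K → ℝ) 1) (hqk : q (Sum.inl k) = b) :
    ∃ t ∈ Set.Icc (0 : Fin d → ℝ) 1, faceMap k b e t = q := by
  refine ⟨fun i ↦ q (e.symm i).1, ?_, ?_⟩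
  · rw [Set.mem_Icc, Pi.le_def, Pi.le_def] at hq ⊢
    exact ⟨fun i ↦ hq.1 _, fun i ↦ hq.2 _⟩
  · funext j
    unfold faceMap
    split_ifs with h
    · rw [h, hqk]
    · simp

theorem card_paramIdx : Fintype.card (ParamIdx K) = Module.finrank ℚ K := by
  rw [Fintype.card_sum, card_eq_nrRealPlaces_add_nrComplexPlaces, ← card_add_two_mul_card_eq_rank]
  unfold nrComplexPlaces
  ring

theorem card_paramIdx_ne (k : InfinitePlace K) :
    Fintype.card {j : ParamIdx K // j ≠ Sum.inl k} = Module.finrank ℚ K - 1 := by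
  rw [← card_paramIdx]
  exact Set.card_ne_eq (Sum.inl k)

variable (K) in
/-- **The frontier of `normLeOne K` is covered by finitely many Lipschitz images of the unit cube
of dimension `[K : ℚ] - 1`.** -/
theorem isLipCovered_frontier_normLeOne :
    IsLipCovered (Module.finrank ℚ K - 1) (frontier (normLeOne K)) := by
  set d := Module.finrank ℚ K - 1 with hd
  let T := ({w : InfinitePlace K // IsReal w} → Bool) × InfinitePlace K × Bool
  let e : ∀ k : InfinitePlace K, {j : ParamIdx K // j ≠ Sum.inl k} ≃ Fin d := fun k ↦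
    Fintype.equivFinOfCardEq (card_paramIdx_ne k)
  let ε : ({w : InfinitePlace K // IsReal w} → Bool) → {w : InfinitePlace K // IsReal w} → ℝ :=
    fun s w ↦ if s w then 1 else -1
  let bval : Bool → ℝ := fun b ↦ if b then 1 else 0
  have hbval : ∀ b, bval b ∈ Set.Icc (0 : ℝ) 1 := fun b ↦ by
    cases b <;> simp [bval]
  let φ : T → (Fin d → ℝ) → mixedSpace K := fun t ↦
    paramMap (ε t.1) ∘ faceMap t.2.1 (bval t.2.2) (e t.2.1)
  have hLip : ∀ t : T, ∃ C : ℝ≥0, LipschitzOnWith C (φ t) (Set.Icc 0 1) := by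
    intro t
    obtain ⟨C, hC⟩ := ((contDiff_paramMap (ε t.1)).locallyLipschitz.locallyLipschitzOn
      (s := Set.Icc 0 1)).exists_lipschitzOnWith_of_compact isCompact_Icc
    exact ⟨C * 1, hC.comp (lipschitzWith_faceMap _ _ _).lipschitzOnWith
      (mapsTo_faceMap _ (hbval _) _)⟩
  choose C hC using hLip
  let eT : Fin (Fintype.card T) ≃ T := (Fintype.equivFin T).symm
  refine ⟨Fintype.card T, fun j ↦ φ (eT j), ∑ t, C t, fun j ↦ (hC (eT j)).weaken ?_, ?_⟩
  · exact Finset.single_le_sum (f := C) (fun _ _ ↦ zero_le) (Finset.mem_univ (eT j))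
  · intro x hx
    obtain ⟨a, ha, ⟨k, hk⟩, hax⟩ := exists_scaleMap_of_mem_frontier K hx
    obtain ⟨s, u, hu, hxs⟩ := exists_paramMap_eq hax
    have hq : Sum.elim a u ∈ Set.Icc (0 : ParamIdx K → ℝ) 1 := by
      rw [Set.mem_Icc, Pi.le_def, Pi.le_def]
      refine ⟨fun j ↦ ?_, fun j ↦ ?_⟩
      · rcases j with i | w
        · exact (ha i).1
        · exact (hu w).1
      · rcases j with i | w
        · exact (ha i).2
        · exact (hu w).2
    have hkb : ∃ b : Bool, (Sum.elim a u : ParamIdx K → ℝ) (Sum.inl k) = bval b := by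
      rcases hk with h | h
      · exact ⟨false, by simp [bval, h]⟩
      · exact ⟨true, by simp [bval, h]⟩
    obtain ⟨b, hb⟩ := hkb
    obtain ⟨t, ht, htq⟩ := exists_faceMap_eq k (e k) hq hb
    rw [Set.mem_iUnion]
    refine ⟨eT.symm (s, k, b), t, ht, ?_⟩
    show φ (eT (eT.symm (s, k, b))) t = x
    rw [Equiv.apply_symm_apply]
    show paramMap (ε s) (faceMap k (bval b) (e k) t) = x
    rw [htq]
    exact hxs

variable (K) in
/-- the same in the Euclidean mixed space, in the form needed by the lattice point count. -/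
theorem isLipCovered_frontier_euclidean :
    IsLipCovered (Module.finrank ℝ (euclidean.mixedSpace K) - 1)
      (frontier {x | x ∈ (euclidean.toMixed K) ⁻¹' fundamentalCone K ∧
        mixedEmbedding.norm (euclidean.toMixed K x) ≤ 1}) := by
  have h₁ : {x | x ∈ (euclidean.toMixed K) ⁻¹' fundamentalCone K ∧
      mixedEmbedding.norm (euclidean.toMixed K x) ≤ 1} =
        euclidean.toMixed K ⁻¹' (normLeOne K) := by
    ext x
    simp [normLeOne]
  rw [h₁, euclidean.finrank, ← (euclidean.toMixed K).coe_toHomeomorph,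
    ← Homeomorph.preimage_frontier, (euclidean.toMixed K).coe_toHomeomorph]
  obtain ⟨m, φ, C, hφ, hcov⟩ := isLipCovered_frontier_normLeOne K
  obtain ⟨C', hC'⟩ : ∃ C' : ℝ≥0, LipschitzWith C' (euclidean.toMixed K).symm :=
    ⟨_, (euclidean.toMixed K).symm.lipschitz⟩
  refine ⟨m, fun j ↦ (euclidean.toMixed K).symm ∘ φ j, C' * C,
    fun j ↦ hC'.comp_lipschitzOnWith (hφ j), ?_⟩
  intro x hx
  obtain ⟨j, t, ht, htx⟩ := Set.mem_iUnion.mp (hcov hx)
  refine Set.mem_iUnion.mpr ⟨j, t, ht, ?_⟩
  simp only [Function.comp_apply, htx]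
  exact (euclidean.toMixed K).symm_apply_apply x

end Fermat.Agent.CFT
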