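import Mathlib
import Fermat.Agent.CFT.R5bParam

/-!
# S14 / R5b part 2: ideals of bounded norm in an ideal class, with a power-saving error term

`#{I ∈ C : N I ≤ s} = κ s + O(s^(1 - 1/n))`, `κ` Mathlib's limit, `n = [K : ℚ]`. The proof is
Mathlib's `NumberField.Ideal.tendsto_norm_le_and_mk_eq_div_atTop` with the Lipschitz lattice point
count `card_le_sub_le'` (R5a) in place of `ZLattice.covolume.tendsto_card_le_div'`.
-/

set_option autoImplicit false

open Ideal NumberField Filter InfinitePlace mixedEmbedding euclidean fundamentalCone Submodule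
  Topology NumberField.Units
open scoped nonZeroDivisors Real

noncomputable section

namespace Fermat.Agent.CFT

variable (K : Type*) [Field K] [NumberField K]

/-- Mathlib's constant: the density of the ideals of a class. -/
def classKappa : ℝ :=
  (2 ^ nrRealPlaces K * (2 * π) ^ nrComplexPlaces K * regulator K) /
    (torsionOrder K * Real.sqrt |discr K|)

variable {C : ClassGroup (𝓞 K)} {J : (Ideal (𝓞 K))⁰} {s : ℝ}

theorem card_class_aux₁ (hJ : ClassGroup.mk0 J = C⁻¹) :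
    Nat.card {I : (Ideal (𝓞 K))⁰ // absNorm (I : Ideal (𝓞 K)) ≤ s ∧ ClassGroup.mk0 I = C}
      = Nat.card {I : (Ideal (𝓞 K))⁰ // (J : Ideal (𝓞 K)) ∣ I ∧ IsPrincipal (I : Ideal (𝓞 K)) ∧
        absNorm (I : Ideal (𝓞 K)) ≤ s * absNorm (J : Ideal (𝓞 K))} := by
  simp_rw [← nonZeroDivisors_dvd_iff_dvd_coe]
  refine Nat.card_congr ?_
  refine ((Equiv.dvd J).subtypeEquiv fun I ↦ ?_).trans
    (Equiv.subtypeSubtypeEquivSubtypeInter (fun I : (Ideal (𝓞 K))⁰ ↦ J ∣ I) _)
  rw [← ClassGroup.mk0_eq_one_iff (SetLike.coe_mem _)]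
  simp_rw [Equiv.dvd_apply, Submonoid.coe_mul, ← Submonoid.mul_def, _root_.map_mul, hJ,
    inv_mul_eq_one, Nat.cast_mul, mul_comm s, eq_comm, and_comm, and_congr_left_iff]
  exact fun _ ↦
    (mul_le_mul_iff_of_pos_left (Nat.cast_pos.mpr (absNorm_pos_of_nonZeroDivisors J))).symm

open scoped Classical in
def card_class_aux₂ :
    ↑({x | x ∈ (toMixed K) ⁻¹' fundamentalCone K ∧ mixedEmbedding.norm ((toMixed K) x) ≤ s} ∩
      (ZLattice.comap ℝ (idealLattice K ((FractionalIdeal.mk0 K) J)) (toMixed K).toLinearMap))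
        ≃ {a : idealSet K J // mixedEmbedding.norm (a : mixedSpace K) ≤ s} := by
  rw [ZLattice.coe_comap]
  refine (((toMixed K).toEquiv.image _).trans (Equiv.subtypeEquivProp ?_)).trans
    (Equiv.subtypeSubtypeEquivSubtypeInter _ (mixedEmbedding.norm · ≤ s)).symm
  ext
  simp_rw [mem_idealSet, Set.mem_image, Set.mem_inter_iff, Set.mem_preimage, SetLike.mem_coe,
    mem_idealLattice, FractionalIdeal.coe_mk0]
  constructor
  · rintro ⟨_, ⟨⟨hx₁, hx₂⟩, _, ⟨x, hx₃, rfl⟩, h⟩, rfl⟩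
    exact ⟨⟨hx₁, x, hx₃, h⟩, hx₂⟩
  · rintro ⟨⟨hx₁, ⟨x, hx₂, rfl⟩⟩, hx₃⟩
    exact ⟨(toMixed K).symm (mixedEmbedding K x), ⟨⟨hx₁, hx₃⟩, ⟨(x : K), by simp [hx₂], rfl⟩⟩, rfl⟩

variable (C) in
/-- **Ideals of norm `≤ s` in a class, with error term.** -/
theorem card_class_sub_le :
    ∃ B : ℝ, ∀ s : ℝ, 1 ≤ s →
      |(Nat.card {I : (Ideal (𝓞 K))⁰ //
          absNorm (I : Ideal (𝓞 K)) ≤ s ∧ ClassGroup.mk0 I = C} : ℝ) - classKappa K * s| ≤
        B * s ^ (1 - 1 / (Module.finrank ℚ K : ℝ)) := by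
  classical
  obtain ⟨J, hJ⟩ := ClassGroup.mk0_surjective C⁻¹
  have hNJ : (0 : ℝ) < absNorm (J : Ideal (𝓞 K)) :=
    Nat.cast_pos.mpr (absNorm_pos_of_nonZeroDivisors J)
  have hNJ1 : (1 : ℝ) ≤ absNorm (J : Ideal (𝓞 K)) := by
    exact_mod_cast Nat.one_le_iff_ne_zero.mpr (absNorm_ne_zero_of_nonZeroDivisors J)
  have hw : (0 : ℝ) < torsionOrder K := Nat.cast_pos.mpr (Nat.pos_of_ne_zero (torsionOrder_ne_zero K))
  have h₂ : {x | x ∈ fundamentalCone K ∧ mixedEmbedding.norm x ≤ 1} = normLeOne K := by ext; simp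
  have h₁ : ∀ s : ℝ,
    {x | x ∈ toMixed K ⁻¹' fundamentalCone K ∧ mixedEmbedding.norm (toMixed K x) ≤ s} =
      toMixed K ⁻¹' {x | x ∈ fundamentalCone K ∧ mixedEmbedding.norm x ≤ s} := fun _ ↦ rfl
  obtain ⟨B, -, hB⟩ := card_le_sub_le'
    (ZLattice.comap ℝ (mixedEmbedding.idealLattice K (FractionalIdeal.mk0 K J))
      (toMixed K).toLinearMap)
    (F := fun x ↦ mixedEmbedding.norm (toMixed K x)) (X := (toMixed K) ⁻¹' (fundamentalCone K))
    (fun _ _ _ h ↦ by rwa [Set.mem_preimage, map_smul, smul_mem_iff_mem h.ne'])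
    (fun _ _ h ↦ by rw [map_smul, mixedEmbedding.norm_smul, euclidean.finrank, abs_of_nonneg h])
    ((toMixed K).antilipschitz.isBounded_preimage (isBounded_normLeOne K))
    ((toMixed K).continuous.measurable (measurableSet_normLeOne K))
    (isLipCovered_frontier_euclidean K)
  have hvol : MeasureTheory.volume.real
      {x | x ∈ toMixed K ⁻¹' fundamentalCone K ∧ mixedEmbedding.norm (toMixed K x) ≤ 1} /
        ZLattice.covolume (ZLattice.comap ℝ (mixedEmbedding.idealLattice K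
          (FractionalIdeal.mk0 K J)) (toMixed K).toLinearMap) =
      classKappa K * torsionOrder K / absNorm (J : Ideal (𝓞 K)) := by
    rw [h₁, h₂, MeasureTheory.measureReal_def, (volumePreserving_toMixed K).measure_preimage
      (measurableSet_normLeOne K).nullMeasurableSet, volume_normLeOne, ZLattice.covolume_comap
      _ _ _ (volumePreserving_toMixed K), covolume_idealLattice, ENNReal.toReal_mul,
      ENNReal.toReal_mul, ENNReal.toReal_pow, ENNReal.toReal_pow, ENNReal.toReal_ofNat,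
      ENNReal.coe_toReal, NNReal.coe_real_pi, ENNReal.toReal_ofReal (regulator_pos K).le,
      FractionalIdeal.coe_mk0, FractionalIdeal.coeIdeal_absNorm, Rat.cast_natCast, classKappa]
    have hd : Real.sqrt |(discr K : ℝ)| ≠ 0 := by
      rw [Real.sqrt_ne_zero']
      exact abs_pos.mpr (Int.cast_ne_zero.mpr (discr_ne_zero K))
    have h2 : ((1 : ℝ) / 2) ^ nrComplexPlaces K * 2 ^ nrComplexPlaces K = 1 := by
      rw [← mul_pow]
      norm_num
    field_simp
    linear_combination (-(π ^ nrComplexPlaces K * regulator K)) * h2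
  refine ⟨B * (absNorm (J : Ideal (𝓞 K)) : ℝ) ^ (1 - 1 / (Module.finrank ℚ K : ℝ)) /
    torsionOrder K, fun s hs ↦ ?_⟩
  have hc : 1 ≤ s * absNorm (J : Ideal (𝓞 K)) := one_le_mul_of_one_le_of_one_le hs hNJ1
  have hcard : (Nat.card {I : (Ideal (𝓞 K))⁰ //
      absNorm (I : Ideal (𝓞 K)) ≤ s ∧ ClassGroup.mk0 I = C} : ℝ) * torsionOrder K =
      (Nat.card ({x | x ∈ toMixed K ⁻¹' fundamentalCone K ∧
        mixedEmbedding.norm (toMixed K x) ≤ s * absNorm (J : Ideal (𝓞 K))} ∩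
        (ZLattice.comap ℝ (mixedEmbedding.idealLattice K (FractionalIdeal.mk0 K J))
          (toMixed K).toLinearMap) : Set (euclidean.mixedSpace K)) : ℝ) := by
    rw [card_class_aux₁ K hJ, Nat.card_congr (card_class_aux₂ K), ← card_isPrincipal_dvd_norm_le,
      Nat.cast_mul]
  have key := hB (s * absNorm (J : Ideal (𝓞 K))) hc
  rw [← hcard, hvol, euclidean.finrank] at key
  have hs0 : 0 ≤ s := le_trans zero_le_one hs
  have e1 : s * (absNorm (J : Ideal (𝓞 K)) : ℝ) *
      (classKappa K * torsionOrder K / absNorm (J : Ideal (𝓞 K))) =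
        classKappa K * s * torsionOrder K := by
    field_simp
  rw [e1, ← sub_mul, abs_mul, abs_of_pos hw, Real.mul_rpow hs0 hNJ.le] at key
  rw [div_mul_eq_mul_div, le_div_iff₀ hw]
  calc _ ≤ _ := key
    _ = _ := by ring

/-- the hypothesis `hcount` of R5c (helper5's shape). -/
theorem exists_card_class_sub_isBigO :
    ∃ κ r : ℝ, 0 ≤ r ∧ r < 1 ∧ ∀ C : ClassGroup (𝓞 K),
      (fun n : ℕ ↦ (Nat.card {I : (Ideal (𝓞 K))⁰ //
        Ideal.absNorm (I : Ideal (𝓞 K)) ≤ n ∧ ClassGroup.mk0 I = C} : ℝ) - κ * n)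
        =O[Filter.atTop] fun n : ℕ ↦ (n : ℝ) ^ r := by
  have hn : (1 : ℝ) ≤ Module.finrank ℚ K := by
    exact_mod_cast Nat.one_le_iff_ne_zero.mpr Module.finrank_pos.ne'
  refine ⟨classKappa K, 1 - 1 / (Module.finrank ℚ K : ℝ), ?_, ?_, fun C ↦ ?_⟩
  · rw [sub_nonneg, div_le_one (by linarith)]
    exact hn
  · have : (0 : ℝ) < 1 / (Module.finrank ℚ K : ℝ) := by positivity
    linarith
  · obtain ⟨B, hB⟩ := card_class_sub_le K C
    refine Asymptotics.IsBigO.of_bound B ?_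
    filter_upwards [Filter.eventually_ge_atTop 1] with n hn1
    have h1 : (1 : ℝ) ≤ n := by exact_mod_cast hn1
    have := hB n h1
    simp only [Nat.cast_le] at this
    rw [Real.norm_eq_abs, Real.norm_eq_abs, abs_of_nonneg (Real.rpow_nonneg (by linarith) _)]
    exact this

end Fermat.Agent.CFT
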