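import Mathlib

/-!
# R5c (S14 moonshot): Euler products over the prime ideals of a Dedekind domain

For a Dedekind domain `R`, the monoid `(Ideal R)⁰` of nonzero ideals is free commutative on the
height one primes.  We prove, for a monoid homomorphism `f : (Ideal R)⁰ →* F` into a complete
normed field:

* `hasSum_factoredIdeals`: the sum of `f` over the ideals all of whose prime divisors lie in a
  finite set `T` is `∏ v ∈ T, (1 - f v)⁻¹`;
* `tendsto_tsum_factoredIdeals`: these partial sums tend to the full sum;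
* `tendsto_prod_one_sub_inv`: the Euler product.
-/

set_option autoImplicit false

open IsDedekindDomain Filter Topology nonZeroDivisors

namespace Fermat.Agent.CFT.R5c

variable {R : Type*} [CommRing R] [IsDedekindDomain R]

/-- the nonzero ideal attached to a height one prime. -/
def primeIdeal (v : HeightOneSpectrum R) : (Ideal R)⁰ :=
  ⟨v.asIdeal, mem_nonZeroDivisors_of_ne_zero v.ne_bot⟩

@[simp] theorem coe_primeIdeal (v : HeightOneSpectrum R) :
    ((primeIdeal v : (Ideal R)⁰) : Ideal R) = v.asIdeal := rfl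

/-- nonzero ideals all of whose prime divisors are in `T`. -/
def factoredIdeals (T : Finset (HeightOneSpectrum R)) : Set (Ideal R)⁰ :=
  {I | ∀ v : HeightOneSpectrum R, v.asIdeal ∣ (I : Ideal R) → v ∈ T}

theorem mem_factoredIdeals {T : Finset (HeightOneSpectrum R)} {I : (Ideal R)⁰} :
    I ∈ factoredIdeals T ↔ ∀ v : HeightOneSpectrum R, v.asIdeal ∣ (I : Ideal R) → v ∈ T :=
  Iff.rfl

theorem coe_ne_zero (I : (Ideal R)⁰) : (I : Ideal R) ≠ 0 :=
  nonZeroDivisors.coe_ne_zero I

theorem factoredIdeals_mono {T T' : Finset (HeightOneSpectrum R)} (h : T ⊆ T') :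
    factoredIdeals T ⊆ factoredIdeals T' := fun _ hI v hv => h (hI v hv)

theorem eq_one_of_forall_not_dvd (I : (Ideal R)⁰)
    (h : ∀ v : HeightOneSpectrum R, ¬ v.asIdeal ∣ (I : Ideal R)) : I = 1 := by
  apply Subtype.ext
  show (I : Ideal R) = 1
  rw [Ideal.one_eq_top]
  by_contra hne
  obtain ⟨M, hM, hIM⟩ := Ideal.exists_le_maximal _ hne
  have hM0 : M ≠ ⊥ := fun h0 => coe_ne_zero I (by rw [h0] at hIM; exact le_bot_iff.mp hIM)
  exact h ⟨M, hM.isPrime, hM0⟩ (Ideal.dvd_iff_le.mpr hIM)

theorem factoredIdeals_empty : factoredIdeals (∅ : Finset (HeightOneSpectrum R)) = {1} := by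
  ext I
  simp only [mem_factoredIdeals, Finset.notMem_empty, imp_false, Set.mem_singleton_iff]
  constructor
  · exact eq_one_of_forall_not_dvd I
  · rintro rfl v hv
    have : v.asIdeal = ⊤ := by
      have h1 : ((1 : (Ideal R)⁰) : Ideal R) = ⊤ := Ideal.one_eq_top
      rw [h1] at hv
      exact top_le_iff.mp (Ideal.le_of_dvd hv)
    exact v.isPrime.ne_top this

/-- the set of primes dividing a nonzero ideal, as a finset. -/
noncomputable def primeDivisors (I : (Ideal R)⁰) : Finset (HeightOneSpectrum R) :=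
  (Ideal.finite_factors (coe_ne_zero I)).toFinset

theorem mem_primeDivisors {I : (Ideal R)⁰} {v : HeightOneSpectrum R} :
    v ∈ primeDivisors I ↔ v.asIdeal ∣ (I : Ideal R) := by
  simp [primeDivisors]

theorem mem_factoredIdeals_of_primeDivisors_subset {I : (Ideal R)⁰}
    {T : Finset (HeightOneSpectrum R)} (h : primeDivisors I ⊆ T) : I ∈ factoredIdeals T :=
  fun _ hv => h (mem_primeDivisors.mpr hv)

section equiv

variable [DecidableEq (HeightOneSpectrum R)]

omit [DecidableEq (HeightOneSpectrum R)] in
theorem not_dvd_of_mem_factoredIdeals {v : HeightOneSpectrum R}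
    {T : Finset (HeightOneSpectrum R)} (hv : v ∉ T) {J : (Ideal R)⁰}
    (hJ : J ∈ factoredIdeals T) : ¬ v.asIdeal ∣ (J : Ideal R) := fun h => hv (hJ v h)

omit [DecidableEq (HeightOneSpectrum R)] in
theorem dvd_asIdeal_iff {v w : HeightOneSpectrum R} : w.asIdeal ∣ v.asIdeal ↔ w = v := by
  constructor
  · intro h
    have hle : v.asIdeal ≤ w.asIdeal := Ideal.le_of_dvd h
    have hmax : v.asIdeal.IsMaximal := v.isMaximal
    have := hmax.eq_of_le w.isPrime.ne_top hle
    exact HeightOneSpectrum.ext this.symm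
  · rintro rfl
    exact dvd_rfl

theorem pow_mul_mem_factoredIdeals {v : HeightOneSpectrum R}
    {T : Finset (HeightOneSpectrum R)} (k : ℕ) {J : (Ideal R)⁰} (hJ : J ∈ factoredIdeals T) :
    primeIdeal v ^ k * J ∈ factoredIdeals (insert v T) := by
  intro w hw
  have hw' : w.asIdeal ∣ v.asIdeal ^ k * (J : Ideal R) := by
    simpa using hw
  rcases (w.prime.dvd_mul).mp hw' with h | h
  · have := w.prime.dvd_of_dvd_pow h
    exact Finset.mem_insert.mpr (Or.inl (dvd_asIdeal_iff.mp this))
  · exact Finset.mem_insert.mpr (Or.inr (hJ w h))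

/-- the map `(k, J) ↦ v ^ k * J`. -/
noncomputable def powMul (v : HeightOneSpectrum R) (T : Finset (HeightOneSpectrum R)) :
    ℕ × factoredIdeals T → factoredIdeals (insert v T) :=
  fun x => ⟨primeIdeal v ^ x.1 * x.2.1, pow_mul_mem_factoredIdeals x.1 x.2.2⟩

theorem powMul_injective {v : HeightOneSpectrum R} {T : Finset (HeightOneSpectrum R)}
    (hv : v ∉ T) : Function.Injective (powMul v T) := by
  rintro ⟨k, J, hJ⟩ ⟨k', J', hJ'⟩ h
  have h0 : (v.asIdeal ^ k * (J : Ideal R) : Ideal R) = v.asIdeal ^ k' * (J' : Ideal R) := by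
    have := congrArg (fun x : factoredIdeals (insert v T) => ((x : (Ideal R)⁰) : Ideal R)) h
    simpa [powMul] using this
  have hp : Prime v.asIdeal := v.prime
  have hJn : ¬ v.asIdeal ∣ (J : Ideal R) := not_dvd_of_mem_factoredIdeals hv hJ
  have hJn' : ¬ v.asIdeal ∣ (J' : Ideal R) := not_dvd_of_mem_factoredIdeals hv hJ'
  have hm : emultiplicity v.asIdeal (v.asIdeal ^ k * (J : Ideal R)) = k := by
    rw [emultiplicity_mul hp, emultiplicity_eq_zero.mpr hJn, add_zero,
      emultiplicity_pow_self hp.ne_zero hp.not_isUnit]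
  have hm' : emultiplicity v.asIdeal (v.asIdeal ^ k' * (J' : Ideal R)) = k' := by
    rw [emultiplicity_mul hp, emultiplicity_eq_zero.mpr hJn', add_zero,
      emultiplicity_pow_self hp.ne_zero hp.not_isUnit]
  have hk : k = k' := by
    rw [h0, hm'] at hm
    exact_mod_cast hm.symm
  subst hk
  have hJJ : (J : Ideal R) = J' := mul_left_cancel₀ (pow_ne_zero k hp.ne_zero) h0
  have : J = J' := Subtype.ext hJJ
  subst this
  rfl

theorem powMul_surjective {v : HeightOneSpectrum R} {T : Finset (HeightOneSpectrum R)} :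
    Function.Surjective (powMul v T) := by
  rintro ⟨I, hI⟩
  have hp : Prime v.asIdeal := v.prime
  have hfin : FiniteMultiplicity v.asIdeal (I : Ideal R) :=
    FiniteMultiplicity.of_prime_left hp (coe_ne_zero I)
  obtain ⟨c, hc, hnc⟩ := hfin.exists_eq_pow_mul_and_not_dvd
  have hc0 : c ≠ 0 := by
    rintro rfl
    exact coe_ne_zero I (by rw [hc, mul_zero])
  let J : (Ideal R)⁰ := ⟨c, mem_nonZeroDivisors_of_ne_zero hc0⟩
  have hJ : J ∈ factoredIdeals T := by
    intro w hw
    have hwI : w.asIdeal ∣ (I : Ideal R) := by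
      rw [hc]; exact Dvd.dvd.mul_left hw _
    rcases Finset.mem_insert.mp (hI w hwI) with rfl | h
    · exact absurd hw hnc
    · exact h
  refine ⟨⟨multiplicity v.asIdeal (I : Ideal R), J, hJ⟩, ?_⟩
  apply Subtype.ext
  apply Subtype.ext
  simp only [powMul, Submonoid.coe_mul, SubmonoidClass.coe_pow, coe_primeIdeal]
  exact hc.symm

/-- `ℕ × factoredIdeals T ≃ factoredIdeals (insert v T)` for `v ∉ T`. -/
noncomputable def powMulEquiv {v : HeightOneSpectrum R} {T : Finset (HeightOneSpectrum R)}
    (hv : v ∉ T) : ℕ × factoredIdeals T ≃ factoredIdeals (insert v T) :=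
  Equiv.ofBijective (powMul v T) ⟨powMul_injective hv, powMul_surjective⟩

end equiv

section sums

variable {F : Type*} [NormedField F] [CompleteSpace F]

/-- **finite Euler product**. -/
theorem hasSum_factoredIdeals (f : (Ideal R)⁰ →* F) (T : Finset (HeightOneSpectrum R))
    (hf : ∀ v ∈ T, ‖f (primeIdeal v)‖ < 1) :
    Summable (fun I : factoredIdeals T => ‖f I‖) ∧
      HasSum (fun I : factoredIdeals T => f I) (∏ v ∈ T, (1 - f (primeIdeal v))⁻¹) := by
  classical
  induction T using Finset.induction_on with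
  | empty =>
    rw [factoredIdeals_empty]
    simp only [Finset.prod_empty]
    haveI : Unique (({1} : Set (Ideal R)⁰)) := Set.uniqueSingleton 1
    refine ⟨(hasSum_unique _).summable, ?_⟩
    have := hasSum_unique (fun I : (({1} : Set (Ideal R)⁰)) => f I)
    have hd : ((default : (({1} : Set (Ideal R)⁰))) : (Ideal R)⁰) = 1 :=
      (default : (({1} : Set (Ideal R)⁰))).2
    rw [hd, map_one] at this
    exact this
  | insert v T hv ih =>
    have hfT : ∀ w ∈ T, ‖f (primeIdeal w)‖ < 1 := fun w hw => hf w (Finset.mem_insert_of_mem hw)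
    obtain ⟨ih1, ih2⟩ := ih hfT
    have hv1 : ‖f (primeIdeal v)‖ < 1 := hf v (Finset.mem_insert_self v T)
    have hgeo : HasSum (fun k : ℕ => f (primeIdeal v) ^ k) (1 - f (primeIdeal v))⁻¹ :=
      hasSum_geometric_of_norm_lt_one hv1
    have hgeon : Summable (fun k : ℕ => ‖f (primeIdeal v) ^ k‖) := by
      simp_rw [norm_pow]
      exact summable_geometric_of_lt_one (norm_nonneg _) hv1
    have key : ∀ x : ℕ × factoredIdeals T,
        f ((powMulEquiv hv x : factoredIdeals (insert v T)) : (Ideal R)⁰) =
          f (primeIdeal v) ^ x.1 * f x.2 := by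
      intro x
      simp [powMulEquiv, powMul, map_mul, map_pow]
    constructor
    · rw [← (powMulEquiv hv).summable_iff]
      have : Summable (fun x : ℕ × factoredIdeals T =>
          ‖f (primeIdeal v) ^ x.1‖ * ‖f (x.2 : (Ideal R)⁰)‖) :=
        hgeon.mul_of_nonneg ih1 (fun _ => norm_nonneg _) (fun _ => norm_nonneg _)
      refine this.congr fun x => ?_
      simp only [Function.comp_apply]
      rw [key, norm_mul]
    · rw [← (powMulEquiv hv).hasSum_iff, Finset.prod_insert hv]
      have hsm : Summable (fun x : ℕ × factoredIdeals T =>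
          f (primeIdeal v) ^ x.1 * f (x.2 : (Ideal R)⁰)) :=
        summable_mul_of_summable_norm hgeon ih1
      have := hgeo.mul ih2 hsm
      refine this.congr_fun fun x => ?_
      simp only [Function.comp_apply]
      rw [key]

/-- the partial sums over `T`-factored ideals tend to the full sum. -/
theorem tendsto_tsum_factoredIdeals (f : (Ideal R)⁰ → F) (hf : Summable fun I => ‖f I‖) :
    Tendsto (fun T : Finset (HeightOneSpectrum R) => ∑' I : factoredIdeals T, f I) atTop
      (𝓝 (∑' I, f I)) := by
  classical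
  have hs : Summable f := hf.of_norm
  rw [Metric.tendsto_atTop]
  intro ε hε
  obtain ⟨s, hs'⟩ := hs.tsum_vanishing (Metric.ball_mem_nhds 0 hε)
  refine ⟨s.biUnion primeDivisors, fun T hT => ?_⟩
  have hdisj : Disjoint ((factoredIdeals T)ᶜ : Set (Ideal R)⁰) (s : Set (Ideal R)⁰) := by
    rw [Set.disjoint_left]
    intro I hI hIs
    apply hI
    apply mem_factoredIdeals_of_primeDivisors_subset
    exact (Finset.subset_biUnion_of_mem primeDivisors hIs).trans hT
  have h1 := hs' _ hdisj
  rw [mem_ball_zero_iff] at h1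
  rw [dist_eq_norm, ← hs.tsum_subtype_add_tsum_subtype_compl (factoredIdeals T),
    sub_add_cancel_left, norm_neg]
  exact h1

/-- **Euler product**: for a norm-summable monoid homomorphism. -/
theorem tendsto_prod_one_sub_inv (f : (Ideal R)⁰ →* F) (hf : Summable fun I => ‖f I‖) :
    Tendsto (fun T : Finset (HeightOneSpectrum R) => ∏ v ∈ T, (1 - f (primeIdeal v))⁻¹) atTop
      (𝓝 (∑' I, f I)) := by
  have hlt : ∀ v : HeightOneSpectrum R, ‖f (primeIdeal v)‖ < 1 := by
    intro v
    rw [← summable_geometric_iff_norm_lt_one]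
    have hinj : Function.Injective (fun k : ℕ => primeIdeal v ^ k) := by
      intro k k' h
      have h' : v.asIdeal ^ k = v.asIdeal ^ k' := by
        have := congrArg (fun x : (Ideal R)⁰ => (x : Ideal R)) h
        simpa using this
      have hp : Prime v.asIdeal := v.prime
      have h1 : emultiplicity v.asIdeal (v.asIdeal ^ k) = k :=
        emultiplicity_pow_self hp.ne_zero hp.not_isUnit k
      have h2 : emultiplicity v.asIdeal (v.asIdeal ^ k') = k' :=
        emultiplicity_pow_self hp.ne_zero hp.not_isUnit k'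
      rw [h', h2] at h1
      exact_mod_cast h1.symm
    have := hf.of_norm.comp_injective hinj
    refine this.congr fun k => ?_
    simp [map_pow]
  refine (tendsto_tsum_factoredIdeals (fun I => f I) hf).congr fun T => ?_
  exact ((hasSum_factoredIdeals f T fun v _ => hlt v).2).tsum_eq

end sums

end Fermat.Agent.CFT.R5c
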