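import Mathlib
import Fermat.Agent.CFT.R5cEuler

/-!
# R5c (S14 moonshot): Dirichlet series over the nonzero ideals of a number field

* `normLE F n`, `normFiber F n`: the finsets of nonzero ideals of norm `≤ n`, `= n`;
* `tsum_eq_LSeries`: a sum over ideals `∑' I, g I * N(I)^(-s)` is the `LSeries` of the fibre sums;
* `summable_norm_rpow`: `∑ N(I)^(-s)` converges for real `s > 1`;
* `zR F s` (the real Dedekind zeta value), `dedekindZeta_eq`, `zR_bounds` (`c/(s-1) ≤ ζ(s) ≤ C/(s-1)`).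
-/

set_option autoImplicit false

open NumberField Ideal Filter Topology nonZeroDivisors Asymptotics

namespace Fermat.Agent.CFT.R5c

variable (F : Type*) [Field F] [NumberField F]

/-- nonzero ideals of norm `≤ n`. -/
noncomputable def normLE (n : ℕ) : Finset (Ideal (𝓞 F))⁰ :=
  (Ideal.finite_setOfPred_absNorm_le₀ (S := 𝓞 F) n).toFinset

variable {F}

theorem mem_normLE {n : ℕ} {I : (Ideal (𝓞 F))⁰} :
    I ∈ normLE F n ↔ absNorm (I : Ideal (𝓞 F)) ≤ n := by
  simp [normLE]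

variable (F)

open Classical in
/-- nonzero ideals of norm `n`. -/
noncomputable def normFiber (n : ℕ) : Finset (Ideal (𝓞 F))⁰ :=
  (normLE F n).filter fun I => absNorm (I : Ideal (𝓞 F)) = n

variable {F}

theorem mem_normFiber {n : ℕ} {I : (Ideal (𝓞 F))⁰} :
    I ∈ normFiber F n ↔ absNorm (I : Ideal (𝓞 F)) = n := by
  classical
  simp only [normFiber, Finset.mem_filter, mem_normLE]
  exact ⟨fun h => h.2, fun h => ⟨h.le, h⟩⟩

theorem absNorm_pos (I : (Ideal (𝓞 F))⁰) : 0 < absNorm (I : Ideal (𝓞 F)) :=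
  Ideal.absNorm_pos_of_nonZeroDivisors I

theorem normFiber_zero : normFiber F 0 = ∅ := by
  ext I
  simp only [mem_normFiber, Finset.notMem_empty, iff_false]
  exact (absNorm_pos I).ne'

/-- sum over the norm fibres `k ∈ [1,n]` = sum over `normLE n`. -/
theorem sum_Icc_sum_normFiber {M : Type*} [AddCommMonoid M] (h : (Ideal (𝓞 F))⁰ → M) (n : ℕ) :
    ∑ k ∈ Finset.Icc 1 n, ∑ I ∈ normFiber F k, h I = ∑ I ∈ normLE F n, h I := by
  classical
  rw [← Finset.sum_fiberwise_of_maps_to (s := normLE F n) (t := Finset.Icc 1 n)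
    (g := fun I => absNorm (I : Ideal (𝓞 F))) (f := h)]
  · refine Finset.sum_congr rfl fun k hk => Finset.sum_congr ?_ fun _ _ => rfl
    ext I
    simp only [mem_normFiber, Finset.mem_filter, mem_normLE]
    constructor
    · intro h1
      exact ⟨h1 ▸ (Finset.mem_Icc.mp hk).2, h1⟩
    · exact fun h1 => h1.2
  · intro I hI
    exact Finset.mem_Icc.mpr ⟨absNorm_pos I, mem_normLE.mp hI⟩

theorem tsum_fiber_eq {M : Type*} [AddCommMonoid M] [TopologicalSpace M]
    (h : (Ideal (𝓞 F))⁰ → M) (n : ℕ) :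
    ∑' I : {I : (Ideal (𝓞 F))⁰ // absNorm (I : Ideal (𝓞 F)) = n}, h I.1 =
      ∑ I ∈ normFiber F n, h I := by
  rw [← Finset.tsum_subtype (normFiber F n) h]
  exact (Equiv.subtypeEquivRight (fun I => (mem_normFiber (n := n) (I := I)).symm)).tsum_eq
    (fun I : {I // I ∈ normFiber F n} => h I.1)

theorem finite_fiber (n : ℕ) :
    Finite {I : (Ideal (𝓞 F))⁰ // absNorm (I : Ideal (𝓞 F)) = n} :=
  Finite.of_equiv {I // I ∈ normFiber F n}
    (Equiv.subtypeEquivRight (fun I => (mem_normFiber (n := n) (I := I))))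

/-- **bridge**: a Dirichlet series over ideals as an `LSeries`. -/
theorem tsum_eq_LSeries (g : (Ideal (𝓞 F))⁰ → ℂ) (s : ℂ)
    (hs : Summable fun I : (Ideal (𝓞 F))⁰ => g I * (absNorm (I : Ideal (𝓞 F)) : ℂ) ^ (-s)) :
    ∑' I : (Ideal (𝓞 F))⁰, g I * (absNorm (I : Ideal (𝓞 F)) : ℂ) ^ (-s) =
      LSeries (fun n => ∑ I ∈ normFiber F n, g I) s := by
  let e := Equiv.sigmaFiberEquiv (fun I : (Ideal (𝓞 F))⁰ => absNorm (I : Ideal (𝓞 F)))
  have h0 : ∑' I : (Ideal (𝓞 F))⁰, g I * (absNorm (I : Ideal (𝓞 F)) : ℂ) ^ (-s) =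
      ∑' p : (Σ n : ℕ, {I : (Ideal (𝓞 F))⁰ // absNorm (I : Ideal (𝓞 F)) = n}),
        g (e p) * (absNorm ((e p : (Ideal (𝓞 F))⁰) : Ideal (𝓞 F)) : ℂ) ^ (-s) :=
    (e.tsum_eq _).symm
  rw [h0, Summable.tsum_sigma'
    (f := fun p : (Σ n : ℕ, {I : (Ideal (𝓞 F))⁰ // absNorm (I : Ideal (𝓞 F)) = n}) =>
        g (e p) * (absNorm ((e p : (Ideal (𝓞 F))⁰) : Ideal (𝓞 F)) : ℂ) ^ (-s))
    (fun n => ?_) (e.summable_iff.mpr hs)]
  · unfold LSeries
    refine tsum_congr fun n => ?_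
    have h1 := tsum_fiber_eq (F := F)
      (fun I => g I * (absNorm (I : Ideal (𝓞 F)) : ℂ) ^ (-s)) n
    have h2 : (∑' c : {I : (Ideal (𝓞 F))⁰ // absNorm (I : Ideal (𝓞 F)) = n},
        g (e ⟨n, c⟩) * (absNorm ((e ⟨n, c⟩ : (Ideal (𝓞 F))⁰) : Ideal (𝓞 F)) : ℂ) ^ (-s)) =
        ∑ I ∈ normFiber F n, g I * (absNorm (I : Ideal (𝓞 F)) : ℂ) ^ (-s) := h1
    rw [h2]
    rcases eq_or_ne n 0 with rfl | hn
    · rw [normFiber_zero, Finset.sum_empty, LSeries.term_zero]
    · rw [LSeries.term_of_ne_zero hn, Finset.sum_div]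
      refine Finset.sum_congr rfl fun I hI => ?_
      rw [mem_normFiber.mp hI, Complex.cpow_neg, div_eq_mul_inv]
  · haveI := finite_fiber (F := F) n
    exact Summable.of_finite

section count

/-- `card (normLE n) = O(n)`. -/
theorem card_normLE_isBigO :
    (fun n : ℕ => ((normLE F n).card : ℝ)) =O[atTop] fun n : ℕ => (n : ℝ) := by
  have h := (Ideal.tendsto_norm_le_div_atTop₀ F).comp tendsto_natCast_atTop_atTop
  have h2 : (fun n : ℕ => ((normLE F n).card : ℝ)) / (fun n : ℕ => (n : ℝ)) =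
      (fun s : ℝ => (Nat.card {I : (Ideal (𝓞 F))⁰ // (absNorm (I : Ideal (𝓞 F)) : ℝ) ≤ s} : ℝ) / s)
        ∘ (Nat.cast : ℕ → ℝ) := by
    funext n
    simp only [Pi.div_apply, Function.comp_apply]
    congr 2
    rw [← Nat.card_eq_finsetCard]
    exact Nat.card_congr (Equiv.subtypeEquivRight fun I => by
      rw [mem_normLE]; exact Nat.cast_le.symm)
  refine isBigO_of_div_tendsto_nhds ?_ _ (h2 ▸ h)
  filter_upwards [eventually_gt_atTop 0] with n hn h0
  exact absurd h0 (Nat.cast_ne_zero.mpr hn.ne')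

theorem lseriesSummable_card {s : ℂ} (hs : 1 < s.re) :
    LSeriesSummable (fun n => ((normFiber F n).card : ℂ)) s := by
  refine LSeriesSummable_of_sum_norm_bigO (r := 1) ?_ zero_le_one hs
  have : (fun n : ℕ => ∑ k ∈ Finset.Icc 1 n, ‖((normFiber F k).card : ℂ)‖) =
      fun n : ℕ => ((normLE F n).card : ℝ) := by
    funext n
    have := sum_Icc_sum_normFiber (F := F) (fun _ => (1 : ℝ)) n
    simp only [Finset.sum_const, nsmul_eq_mul, mul_one] at this
    rw [← this]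
    refine Finset.sum_congr rfl fun k _ => ?_
    simp
  rw [this]
  simpa using card_normLE_isBigO (F := F)

end count

/-- `∑ N(I)^(-s)` converges for real `s > 1`. -/
theorem summable_norm_rpow {s : ℝ} (hs : 1 < s) :
    Summable fun I : (Ideal (𝓞 F))⁰ => (absNorm (I : Ideal (𝓞 F)) : ℝ) ^ (-s) := by
  let e := Equiv.sigmaFiberEquiv (fun I : (Ideal (𝓞 F))⁰ => absNorm (I : Ideal (𝓞 F)))
  rw [← e.summable_iff]
  refine (summable_sigma_of_nonneg (f := (fun I : (Ideal (𝓞 F))⁰ =>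
    (absNorm (I : Ideal (𝓞 F)) : ℝ) ^ (-s)) ∘ e)
    (fun _ => Real.rpow_nonneg (Nat.cast_nonneg _) _)).mpr ⟨fun n => ?_, ?_⟩
  · haveI := finite_fiber (F := F) n
    exact Summable.of_finite
  · have hS := lseriesSummable_card (F := F) (s := (s : ℂ)) (by simpa using hs)
    have hS' := hS.norm
    refine hS'.congr fun n => ?_
    have h1 := tsum_fiber_eq (F := F) (fun I => (absNorm (I : Ideal (𝓞 F)) : ℝ) ^ (-s)) n
    have h2 : (∑' c : {I : (Ideal (𝓞 F))⁰ // absNorm (I : Ideal (𝓞 F)) = n},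
        ((fun I : (Ideal (𝓞 F))⁰ => (absNorm (I : Ideal (𝓞 F)) : ℝ) ^ (-s)) ∘ e) ⟨n, c⟩) =
        ∑ I ∈ normFiber F n, (absNorm (I : Ideal (𝓞 F)) : ℝ) ^ (-s) := h1
    rw [h2]
    rcases eq_or_ne n 0 with rfl | hn
    · rw [normFiber_zero, Finset.sum_empty, LSeries.term_zero, norm_zero]
    · rw [LSeries.term_of_ne_zero hn, norm_div, Complex.norm_natCast,
        Complex.norm_natCast_cpow_of_pos (Nat.pos_of_ne_zero hn), Complex.ofReal_re]
      rw [Finset.sum_congr rfl (fun I hI => by rw [mem_normFiber.mp hI]),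
        Finset.sum_const, nsmul_eq_mul, Real.rpow_neg (Nat.cast_nonneg n), div_eq_mul_inv]

/-- norm-summability of a bounded-coefficient Dirichlet series over ideals. -/
theorem summable_norm_mul_cpow (g : (Ideal (𝓞 F))⁰ → ℂ) (hg : ∀ I, ‖g I‖ ≤ 1) {s : ℝ}
    (hs : 1 < s) :
    Summable fun I : (Ideal (𝓞 F))⁰ =>
      ‖g I * (absNorm (I : Ideal (𝓞 F)) : ℂ) ^ (-(s : ℂ))‖ := by
  refine (summable_norm_rpow (F := F) hs).of_nonneg_of_le (fun _ => norm_nonneg _) fun I => ?_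
  rw [norm_mul, ← Complex.ofReal_neg, ← Complex.ofReal_natCast,
    Complex.norm_cpow_eq_rpow_re_of_pos (by exact_mod_cast absNorm_pos I), Complex.ofReal_re]
  calc ‖g I‖ * _ ≤ 1 * _ := by
        apply mul_le_mul_of_nonneg_right (hg I); positivity
    _ = _ := one_mul _

variable (F)

/-- the real value of the Dedekind zeta function at real `s`. -/
noncomputable def zR (s : ℝ) : ℝ := ∑' I : (Ideal (𝓞 F))⁰, (absNorm (I : Ideal (𝓞 F)) : ℝ) ^ (-s)

variable {F}

theorem zR_nonneg (s : ℝ) : 0 ≤ zR F s := tsum_nonneg fun _ => by positivity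

theorem card_fiber_eq {n : ℕ} (hn : n ≠ 0) :
    Nat.card {I : Ideal (𝓞 F) // absNorm I = n} = (normFiber F n).card := by
  rw [← Nat.card_eq_finsetCard]
  refine Nat.card_congr ?_
  refine
    { toFun := fun I => ⟨⟨I.1, mem_nonZeroDivisors_of_ne_zero (fun h0 => hn ?_)⟩,
        mem_normFiber.mpr I.2⟩
      invFun := fun I => ⟨I.1.1, mem_normFiber.mp I.2⟩
      left_inv := fun I => rfl
      right_inv := fun I => rfl }
  rw [← I.2, h0]
  simp

theorem dedekindZeta_eq {s : ℝ} (hs : 1 < s) : dedekindZeta F (s : ℂ) = ((zR F s : ℝ) : ℂ) := by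
  have hsum := summable_norm_mul_cpow (F := F) (fun _ => (1 : ℂ)) (fun _ => by simp) hs
  have hb := tsum_eq_LSeries (F := F) (fun _ => (1 : ℂ)) (s : ℂ) hsum.of_norm
  unfold dedekindZeta
  rw [LSeries_congr (f := fun n => (Nat.card {I : Ideal (𝓞 F) // absNorm I = n} : ℂ))
    (g := fun n => ∑ I ∈ normFiber F n, (1 : ℂ)) (fun {n} hn => by
      simp [card_fiber_eq (F := F) hn]), ← hb]
  unfold zR
  rw [Complex.ofReal_tsum]
  refine tsum_congr fun I => ?_
  rw [one_mul, Complex.ofReal_cpow (Nat.cast_nonneg _), Complex.ofReal_neg, Complex.ofReal_natCast]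

variable (F)

/-- `c/(s-1) ≤ ζ_F(s) ≤ C/(s-1)` near `1⁺`. -/
theorem zR_bounds : ∃ c C : ℝ, 0 < c ∧ 0 < C ∧
    ∀ᶠ s in 𝓝[>] (1 : ℝ), c / (s - 1) ≤ zR F s ∧ zR F s ≤ C / (s - 1) := by
  have hρ := dedekindZeta_residue_pos F
  have ht := tendsto_sub_one_mul_dedekindZeta_nhdsGT F
  have ht' : Tendsto (fun s : ℝ => (s - 1) * zR F s) (𝓝[>] 1) (𝓝 (dedekindZeta_residue F)) := by
    have h1 := (Complex.continuous_re.tendsto _).comp ht
    simp only [Complex.ofReal_re] at h1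
    refine h1.congr' ?_
    filter_upwards [self_mem_nhdsWithin] with s hs
    simp only [Function.comp_apply]
    rw [dedekindZeta_eq (F := F) hs, ← Complex.ofReal_one, ← Complex.ofReal_sub,
      ← Complex.ofReal_mul, Complex.ofReal_re]
  refine ⟨dedekindZeta_residue F / 2, 2 * dedekindZeta_residue F, by positivity, by positivity, ?_⟩
  have h1 : ∀ᶠ s in 𝓝[>] (1 : ℝ), dedekindZeta_residue F / 2 < (s - 1) * zR F s :=
    ht'.eventually (lt_mem_nhds (by linarith))
  have h2 : ∀ᶠ s in 𝓝[>] (1 : ℝ), (s - 1) * zR F s < 2 * dedekindZeta_residue F :=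
    ht'.eventually (gt_mem_nhds (by linarith))
  filter_upwards [h1, h2, self_mem_nhdsWithin] with s h1 h2 hs
  have hs' : 0 < s - 1 := sub_pos.mpr hs
  constructor
  · rw [div_le_iff₀ hs']; linarith [mul_comm (zR F s) (s - 1)]
  · rw [le_div_iff₀ hs']; linarith [mul_comm (zR F s) (s - 1)]

end Fermat.Agent.CFT.R5c
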