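import Mathlib
import Fermat.Agent.CFT.R5cSeries

/-!
# R5c (S14 moonshot): `L(s, ψ)` is bounded near `s = 1` for a nontrivial character

Given a monoid homomorphism `c : (Ideal (𝓞 F))⁰ →* G` to a finite abelian group and the counting
hypothesis `CountHyp c` (the number of nonzero ideals of norm `≤ n` in a fibre of `c` is
`κ n + O(n^r)` with `r < 1`, `κ` independent of the fibre), the Dirichlet series
`Lfun c ψ s = ∑' I, ψ (c I) N(I)^(-s)` of a nontrivial character `ψ` of `G` is bounded on `(1, 2]`.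
-/

set_option autoImplicit false

open NumberField Ideal Filter Topology nonZeroDivisors Asymptotics MeasureTheory

namespace Fermat.Agent.CFT.R5c

variable {F : Type*} [Field F] [NumberField F] {G : Type*} [CommGroup G] [Fintype G]

/-- **counting hypothesis**: ideals of norm `≤ n` in each fibre of `c` number `κ n + O(n^r)`. -/
def CountHyp (c : (Ideal (𝓞 F))⁰ →* G) : Prop :=
  ∃ κ r : ℝ, 0 ≤ r ∧ r < 1 ∧ ∀ g : G,
    (fun n : ℕ =>
      (Nat.card {I : (Ideal (𝓞 F))⁰ // absNorm (I : Ideal (𝓞 F)) ≤ n ∧ c I = g} : ℝ) - κ * n)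
      =O[atTop] fun n : ℕ => (n : ℝ) ^ r

/-- the character `ψ ∘ c` on nonzero ideals. -/
noncomputable def twist (c : (Ideal (𝓞 F))⁰ →* G) (ψ : AddChar (Additive G) ℂ) :
    (Ideal (𝓞 F))⁰ →* ℂ where
  toFun I := ψ (Additive.ofMul (c I))
  map_one' := by simp
  map_mul' I J := by simp [AddChar.map_add_eq_mul]

theorem twist_apply (c : (Ideal (𝓞 F))⁰ →* G) (ψ : AddChar (Additive G) ℂ)
    (I : (Ideal (𝓞 F))⁰) : twist c ψ I = ψ (Additive.ofMul (c I)) := rfl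

theorem norm_twist (c : (Ideal (𝓞 F))⁰ →* G) (ψ : AddChar (Additive G) ℂ)
    (I : (Ideal (𝓞 F))⁰) : ‖twist c ψ I‖ = 1 := by
  rw [twist_apply]
  exact AddChar.norm_apply ψ _

/-- the Dirichlet series `L(s, ψ ∘ c)` at a real point. -/
noncomputable def Lfun (c : (Ideal (𝓞 F))⁰ →* G) (ψ : AddChar (Additive G) ℂ) (s : ℝ) : ℂ :=
  ∑' I : (Ideal (𝓞 F))⁰, twist c ψ I * (absNorm (I : Ideal (𝓞 F)) : ℂ) ^ (-(s : ℂ))

theorem summable_norm_twist (c : (Ideal (𝓞 F))⁰ →* G) (ψ : AddChar (Additive G) ℂ) {s : ℝ}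
    (hs : 1 < s) :
    Summable fun I : (Ideal (𝓞 F))⁰ =>
      ‖twist c ψ I * (absNorm (I : Ideal (𝓞 F)) : ℂ) ^ (-(s : ℂ))‖ :=
  summable_norm_mul_cpow (F := F) (fun I => twist c ψ I) (fun I => (norm_twist c ψ I).le) hs

/-- the coefficients of `Lfun` as a function on `ℕ`. -/
noncomputable def coeff (c : (Ideal (𝓞 F))⁰ →* G) (ψ : AddChar (Additive G) ℂ) (k : ℕ) : ℂ :=
  ∑ I ∈ normFiber F k, twist c ψ I

theorem Lfun_eq_LSeries (c : (Ideal (𝓞 F))⁰ →* G) (ψ : AddChar (Additive G) ℂ) {s : ℝ}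
    (hs : 1 < s) : Lfun c ψ s = LSeries (coeff c ψ) (s : ℂ) :=
  tsum_eq_LSeries (F := F) (fun I => twist c ψ I) (s : ℂ) (summable_norm_twist c ψ hs).of_norm

theorem card_filter_eq (c : (Ideal (𝓞 F))⁰ →* G) (g : G) (n : ℕ) [DecidablePred fun I => c I = g] :
    ((normLE F n).filter fun I => c I = g).card =
      Nat.card {I : (Ideal (𝓞 F))⁰ // absNorm (I : Ideal (𝓞 F)) ≤ n ∧ c I = g} := by
  rw [← Nat.card_eq_finsetCard]
  exact Nat.card_congr (Equiv.subtypeEquivRight fun I => by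
    simp [Finset.mem_filter, mem_normLE])

/-- the partial sums of the coefficients, grouped by the fibres of `c`. -/
theorem sum_coeff_eq (c : (Ideal (𝓞 F))⁰ →* G) (ψ : AddChar (Additive G) ℂ) (n : ℕ) :
    ∑ k ∈ Finset.Icc 1 n, coeff c ψ k =
      ∑ g : G, ψ (Additive.ofMul g) *
        (Nat.card {I : (Ideal (𝓞 F))⁰ // absNorm (I : Ideal (𝓞 F)) ≤ n ∧ c I = g} : ℂ) := by
  classical
  unfold coeff
  rw [sum_Icc_sum_normFiber (F := F) (fun I => twist c ψ I) n,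
    ← Finset.sum_fiberwise (normLE F n) (fun I => c I) (fun I => twist c ψ I)]
  refine Finset.sum_congr rfl fun g _ => ?_
  rw [← card_filter_eq c g n, mul_comm, ← nsmul_eq_mul, ← Finset.sum_const]
  refine Finset.sum_congr rfl fun I hI => ?_
  rw [twist_apply, (Finset.mem_filter.mp hI).2]

theorem sum_coeff_isBigO {c : (Ideal (𝓞 F))⁰ →* G} {ψ : AddChar (Additive G) ℂ} (hψ : ψ ≠ 0)
    {κ r : ℝ} (h : ∀ g : G,
      (fun n : ℕ =>
        (Nat.card {I : (Ideal (𝓞 F))⁰ // absNorm (I : Ideal (𝓞 F)) ≤ n ∧ c I = g} : ℝ) - κ * n)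
        =O[atTop] fun n : ℕ => (n : ℝ) ^ r) :
    (fun n : ℕ => ∑ k ∈ Finset.Icc 1 n, coeff c ψ k) =O[atTop] fun n : ℕ => (n : ℝ) ^ r := by
  classical
  have hsum0 : ∑ g : G, ψ (Additive.ofMul g) = 0 := by
    have := AddChar.sum_eq_ite ψ
    rw [if_neg hψ] at this
    rw [← this]
    exact (Fintype.sum_equiv Additive.ofMul _ _ fun _ => rfl)
  have hrew : (fun n : ℕ => ∑ k ∈ Finset.Icc 1 n, coeff c ψ k) = fun n : ℕ =>
      ∑ g : G, ψ (Additive.ofMul g) *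
        (((Nat.card {I : (Ideal (𝓞 F))⁰ // absNorm (I : Ideal (𝓞 F)) ≤ n ∧ c I = g} : ℝ)
          - κ * n : ℝ) : ℂ) := by
    funext n
    rw [sum_coeff_eq]
    have : ∑ g : G, ψ (Additive.ofMul g) * ((κ * n : ℝ) : ℂ) = 0 := by
      rw [← Finset.sum_mul, hsum0, zero_mul]
    rw [← sub_zero (∑ g : G, ψ (Additive.ofMul g) * _), ← this, ← Finset.sum_sub_distrib]
    refine Finset.sum_congr rfl fun g _ => ?_
    push_cast
    ring
  rw [hrew]
  have hterm : ∀ g : G, (fun n : ℕ => ψ (Additive.ofMul g) *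
      (((Nat.card {I : (Ideal (𝓞 F))⁰ // absNorm (I : Ideal (𝓞 F)) ≤ n ∧ c I = g} : ℝ)
          - κ * n : ℝ) : ℂ)) =O[atTop] fun n : ℕ => (n : ℝ) ^ r := by
    intro g
    have h1 : (fun n : ℕ =>
        (((Nat.card {I : (Ideal (𝓞 F))⁰ // absNorm (I : Ideal (𝓞 F)) ≤ n ∧ c I = g} : ℝ)
            - κ * n : ℝ) : ℂ)) =O[atTop] fun n : ℕ => (n : ℝ) ^ r := by
      refine IsBigO.of_norm_left ?_
      simp only [Complex.norm_real]
      exact (h g).norm_left
    exact h1.const_mul_left _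
  exact IsBigO.fun_sum fun g _ => hterm g

/-- **`L(s, ψ)` is bounded on `(1, 2]`** for `ψ ≠ 0`. -/
theorem exists_norm_Lfun_le {c : (Ideal (𝓞 F))⁰ →* G} (hc : CountHyp c)
    {ψ : AddChar (Additive G) ℂ} (hψ : ψ ≠ 0) :
    ∃ K : ℝ, ∀ s : ℝ, 1 < s → s ≤ 2 → ‖Lfun c ψ s‖ ≤ K := by
  obtain ⟨κ, r, hr0, hr1, hcount⟩ := hc
  have hO := sum_coeff_isBigO (c := c) hψ hcount
  -- a global bound for the partial sums
  obtain ⟨K₀, hK₀⟩ := (isBigO_nat_atTop_iff (fun n hn => by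
    have hn0 : n = 0 := by
      by_contra hne
      have : 0 < (n : ℝ) ^ r := Real.rpow_pos_of_pos (Nat.cast_pos.mpr (Nat.pos_of_ne_zero hne)) r
      exact this.ne' hn
    subst hn0
    simp)).mp hO
  have hK₀' : ∀ n : ℕ, ‖∑ k ∈ Finset.Icc 1 n, coeff c ψ k‖ ≤ |K₀| * (n : ℝ) ^ r := by
    intro n
    refine (hK₀ n).trans ?_
    rw [Real.norm_of_nonneg (Real.rpow_nonneg (Nat.cast_nonneg n) r)]
    exact mul_le_mul_of_nonneg_right (le_abs_self K₀) (Real.rpow_nonneg (Nat.cast_nonneg n) r)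
  refine ⟨2 * (|K₀| / (1 - r)), fun s hs1 hs2 => ?_⟩
  have hrs : r < s := hr1.trans hs1
  -- summability of the L-series
  have hS : LSeriesSummable (coeff c ψ) (s : ℂ) := by
    refine LSeriesSummable_of_sum_norm_bigO (r := 1) ?_ zero_le_one (by simpa using hs1)
    have hle : (fun n : ℕ => ∑ k ∈ Finset.Icc 1 n, ‖coeff c ψ k‖) =O[atTop]
        fun n : ℕ => ((normLE F n).card : ℝ) := by
      refine isBigO_of_le _ fun n => ?_
      rw [Real.norm_of_nonneg (Finset.sum_nonneg fun _ _ => norm_nonneg _),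
        Real.norm_of_nonneg (Nat.cast_nonneg _)]
      have := sum_Icc_sum_normFiber (F := F) (fun _ => (1 : ℝ)) n
      simp only [Finset.sum_const, nsmul_eq_mul, mul_one] at this
      rw [← this]
      refine Finset.sum_le_sum fun k _ => ?_
      unfold coeff
      refine (norm_sum_le _ _).trans ?_
      rw [Finset.sum_congr rfl (fun I _ => norm_twist c ψ I)]
      simp
    simpa using hle.trans (card_normLE_isBigO (F := F))
  rw [Lfun_eq_LSeries c ψ hs1,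
    LSeries_eq_mul_integral (coeff c ψ) hr0 (by simpa using hrs) hS hO, norm_mul]
  have hsn : ‖(s : ℂ)‖ ≤ 2 := by
    rw [Complex.norm_real, Real.norm_of_nonneg (by linarith)]; exact hs2
  have hexp : r - s - 1 < -1 := by linarith
  have hint : ‖∫ t in Set.Ioi (1 : ℝ),
      (∑ k ∈ Finset.Icc 1 ⌊t⌋₊, coeff c ψ k) * (t : ℂ) ^ (-((s : ℂ) + 1))‖ ≤
      ∫ t in Set.Ioi (1 : ℝ), |K₀| * t ^ (r - s - 1) := by
    refine norm_integral_le_of_norm_le
      ((integrableOn_Ioi_rpow_of_lt hexp zero_lt_one).const_mul _) ?_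
    refine (ae_restrict_iff' measurableSet_Ioi).mpr (Eventually.of_forall fun t ht => ?_)
    have ht0 : (0 : ℝ) < t := zero_lt_one.trans ht
    rw [norm_mul, Complex.norm_cpow_eq_rpow_re_of_pos ht0]
    have hre : (-((s : ℂ) + 1)).re = -(s + 1) := by simp
    rw [hre]
    have h1 := hK₀' ⌊t⌋₊
    have h2 : ((⌊t⌋₊ : ℕ) : ℝ) ^ r ≤ t ^ r :=
      Real.rpow_le_rpow (Nat.cast_nonneg _) (Nat.floor_le ht0.le) hr0
    have h3 : t ^ (r - s - 1) = t ^ r * t ^ (-(s + 1)) := by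
      rw [← Real.rpow_add ht0]; congr 1; ring
    rw [h3, ← mul_assoc]
    refine mul_le_mul_of_nonneg_right (h1.trans ?_) (Real.rpow_nonneg ht0.le _)
    exact mul_le_mul_of_nonneg_left h2 (abs_nonneg _)
  have hval : ∫ t in Set.Ioi (1 : ℝ), |K₀| * t ^ (r - s - 1) = |K₀| / (s - r) := by
    rw [integral_const_mul, integral_Ioi_rpow_of_lt hexp zero_lt_one, Real.one_rpow]
    have h1 : r - s - 1 + 1 = -(s - r) := by ring
    rw [h1, neg_div_neg_eq, mul_one_div]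
  have hsr : 0 < 1 - r := by linarith
  have hsr' : 1 - r ≤ s - r := by linarith
  have hle : |K₀| / (s - r) ≤ |K₀| / (1 - r) :=
    div_le_div_of_nonneg_left (abs_nonneg _) hsr hsr'
  calc ‖(s : ℂ)‖ * ‖∫ t in Set.Ioi (1 : ℝ),
        (∑ k ∈ Finset.Icc 1 ⌊t⌋₊, coeff c ψ k) * (t : ℂ) ^ (-((s : ℂ) + 1))‖
      ≤ 2 * (|K₀| / (s - r)) :=
        mul_le_mul hsn (hint.trans hval.le) (norm_nonneg _) (by norm_num)
    _ ≤ 2 * (|K₀| / (1 - r)) := by gcongr

end Fermat.Agent.CFT.R5c
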