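import Mathlib

/-!
# S14 / R5c (iii): the character product inequality

For a finite abelian group `G`, `g : G` and `0 ≤ x < 1`:
`∏_ψ ‖1 - ψ(g) x‖⁻¹ ≥ 1`, and `≥ exp (|G| x)` for `g = 1`
(`-log ‖1 - z‖ = Re ∑ z^k / k` and orthogonality of characters).
-/

set_option autoImplicit false

open Finset

namespace Fermat.Agent.CFT.R5c

variable {G : Type*} [CommGroup G] [Fintype G]

theorem norm_char_mul_lt (ψ : AddChar (Additive G) ℂ) (a : Additive G) {x : ℝ} (hx0 : 0 ≤ x)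
    (hx1 : x < 1) : ‖ψ a * (x : ℂ)‖ < 1 := by
  rw [norm_mul, AddChar.norm_apply, one_mul, Complex.norm_real, Real.norm_eq_abs, abs_of_nonneg hx0]
  exact hx1

theorem norm_one_sub_char_mul_pos (ψ : AddChar (Additive G) ℂ) (a : Additive G) {x : ℝ}
    (hx0 : 0 ≤ x) (hx1 : x < 1) : 0 < ‖1 - ψ a * (x : ℂ)‖ := by
  rw [norm_pos_iff, sub_ne_zero]
  intro h
  have := norm_char_mul_lt ψ a hx0 hx1
  rw [← h, norm_one] at this
  exact lt_irrefl _ this

/-- `∑_ψ -log (1 - ψ(a) x) = ∑_k (x^k / k) · (|G| if k • a = 0 else 0)`. -/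
theorem hasSum_sum_neg_log [DecidableEq G] (a : Additive G) {x : ℝ} (hx0 : 0 ≤ x) (hx1 : x < 1) :
    HasSum (fun k : ℕ ↦ (((x ^ k / k * (if k • a = 0 then (Fintype.card G : ℝ) else 0) : ℝ)) : ℂ))
      (∑ ψ : AddChar (Additive G) ℂ, -Complex.log (1 - ψ a * (x : ℂ))) := by
  have h : HasSum (fun k : ℕ ↦ ∑ ψ : AddChar (Additive G) ℂ, (ψ a * (x : ℂ)) ^ k / k)
      (∑ ψ : AddChar (Additive G) ℂ, -Complex.log (1 - ψ a * (x : ℂ))) :=
    hasSum_sum fun ψ _ ↦ Complex.hasSum_taylorSeries_neg_log (norm_char_mul_lt ψ a hx0 hx1)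
  convert h using 2 with k
  have h1 : ∑ ψ : AddChar (Additive G) ℂ, (ψ a * (x : ℂ)) ^ k / k =
      (∑ ψ : AddChar (Additive G) ℂ, ψ (k • a)) * ((x : ℂ) ^ k / k) := by
    rw [Finset.sum_mul]
    refine Finset.sum_congr rfl fun ψ _ ↦ ?_
    rw [AddChar.map_nsmul_eq_pow, mul_pow, mul_div_assoc]
  rw [h1, AddChar.sum_apply_eq_ite]
  simp only [Fintype.card_additive]
  split_ifs <;> push_cast <;> ring

/-- the sum of the `-log ‖1 - ψ(a) x‖` is nonnegative. -/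
theorem sum_neg_log_norm_nonneg (a : Additive G) {x : ℝ} (hx0 : 0 ≤ x) (hx1 : x < 1) :
    0 ≤ ∑ ψ : AddChar (Additive G) ℂ, -Real.log ‖1 - ψ a * (x : ℂ)‖ := by
  classical
  have h := hasSum_sum_neg_log a hx0 hx1
  have hre : (∑ ψ : AddChar (Additive G) ℂ, -Complex.log (1 - ψ a * (x : ℂ))).re =
      ∑ ψ : AddChar (Additive G) ℂ, -Real.log ‖1 - ψ a * (x : ℂ)‖ := by
    rw [Complex.re_sum]
    refine Finset.sum_congr rfl fun ψ _ ↦ ?_
    rw [Complex.neg_re, Complex.log_re]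
  rw [← hre]
  have h2 := Complex.hasSum_re h
  simp only [Complex.ofReal_re] at h2
  refine h2.nonneg fun k ↦ ?_
  have : 0 ≤ x ^ k / k := div_nonneg (pow_nonneg hx0 k) (Nat.cast_nonneg k)
  split_ifs
  · exact mul_nonneg this (Nat.cast_nonneg _)
  · simp

theorem one_le_prod_inv_norm (g : G) {x : ℝ} (hx0 : 0 ≤ x) (hx1 : x < 1) :
    1 ≤ ∏ ψ : AddChar (Additive G) ℂ, ‖1 - ψ (Additive.ofMul g) * (x : ℂ)‖⁻¹ := by
  have h := sum_neg_log_norm_nonneg (Additive.ofMul g) hx0 hx1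
  have h1 : ∏ ψ : AddChar (Additive G) ℂ, ‖1 - ψ (Additive.ofMul g) * (x : ℂ)‖⁻¹ =
      Real.exp (∑ ψ : AddChar (Additive G) ℂ, -Real.log ‖1 - ψ (Additive.ofMul g) * (x : ℂ)‖) := by
    rw [Real.exp_sum]
    refine Finset.prod_congr rfl fun ψ _ ↦ ?_
    rw [Real.exp_neg, Real.exp_log (norm_one_sub_char_mul_pos ψ _ hx0 hx1)]
  rw [h1]
  exact Real.one_le_exp h

theorem exp_le_prod_inv_norm_one {x : ℝ} (_hx0 : 0 ≤ x) (hx1 : x < 1) :
    Real.exp (Fintype.card G * x) ≤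
      ∏ ψ : AddChar (Additive G) ℂ, ‖1 - ψ (Additive.ofMul (1 : G)) * (x : ℂ)‖⁻¹ := by
  have h1 : ∀ ψ : AddChar (Additive G) ℂ, ‖1 - ψ (Additive.ofMul (1 : G)) * (x : ℂ)‖⁻¹ =
      (1 - x)⁻¹ := fun ψ ↦ by
    rw [ofMul_one, AddChar.map_zero_eq_one, one_mul, ← Complex.ofReal_one, ← Complex.ofReal_sub,
      Complex.norm_real, Real.norm_eq_abs, abs_of_pos (by linarith)]
  simp only [h1, Finset.prod_const, Finset.card_univ]
  rw [AddChar.card_eq, Fintype.card_additive, mul_comm, Real.exp_mul, Real.rpow_natCast]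
  refine pow_le_pow_left₀ (Real.exp_pos x).le ?_ _
  rw [le_inv_comm₀ (Real.exp_pos x) (by linarith), ← Real.exp_neg]
  exact Real.one_sub_le_exp_neg x

end Fermat.Agent.CFT.R5c
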