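import Mathlib
import Fermat.Agent.CFT.R5cBound
import Fermat.Agent.CFT.R5cChar

/-!
# R5c (S14 moonshot): the product of the `L(s, ψ)` dominates the primes in the kernel

For a homomorphism `c : (Ideal (𝓞 F))⁰ →* G` onto a finite abelian group satisfying the counting
hypothesis, and every finite set `T₁` of primes with `c 𝔮 = 1`:
`exp (|G| · ∑_{𝔮 ∈ T₁} N𝔮^(-s)) ≤ ∏_ψ ‖L(s, ψ)‖ ≤ C / (s - 1)` for `s` close to `1` from above.
-/

set_option autoImplicit false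

open NumberField Ideal Filter Topology nonZeroDivisors Asymptotics IsDedekindDomain

namespace Fermat.Agent.CFT.R5c

variable {F : Type*} [Field F] [NumberField F] {G : Type*} [CommGroup G] [Fintype G]

/-- the completely multiplicative function `I ↦ ψ(c I) N(I)^(-s)`. -/
noncomputable def term (c : (Ideal (𝓞 F))⁰ →* G) (ψ : AddChar (Additive G) ℂ) (s : ℝ) :
    (Ideal (𝓞 F))⁰ →* ℂ where
  toFun I := twist c ψ I * (absNorm (I : Ideal (𝓞 F)) : ℂ) ^ (-(s : ℂ))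
  map_one' := by simp
  map_mul' I J := by
    simp only [map_mul, Submonoid.coe_mul, Nat.cast_mul]
    rw [Complex.natCast_mul_natCast_cpow]
    ring

theorem term_apply (c : (Ideal (𝓞 F))⁰ →* G) (ψ : AddChar (Additive G) ℂ) (s : ℝ)
    (I : (Ideal (𝓞 F))⁰) :
    term c ψ s I = twist c ψ I * (absNorm (I : Ideal (𝓞 F)) : ℂ) ^ (-(s : ℂ)) := rfl

theorem tsum_term (c : (Ideal (𝓞 F))⁰ →* G) (ψ : AddChar (Additive G) ℂ) (s : ℝ) :
    ∑' I, term c ψ s I = Lfun c ψ s := rfl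

theorem one_lt_absNorm (v : HeightOneSpectrum (𝓞 F)) : 1 < absNorm v.asIdeal := by
  have h0 : absNorm v.asIdeal ≠ 0 := by
    rw [Ne, Ideal.absNorm_eq_zero_iff]; exact v.ne_bot
  have h1 : absNorm v.asIdeal ≠ 1 := by
    rw [Ne, Ideal.absNorm_eq_one_iff]; exact v.isPrime.ne_top
  omega

theorem rpow_neg_lt_one (v : HeightOneSpectrum (𝓞 F)) {s : ℝ} (hs : 0 < s) :
    (absNorm v.asIdeal : ℝ) ^ (-s) < 1 :=
  Real.rpow_lt_one_of_one_lt_of_neg (by exact_mod_cast one_lt_absNorm v) (by linarith)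

theorem term_primeIdeal (c : (Ideal (𝓞 F))⁰ →* G) (ψ : AddChar (Additive G) ℂ) (s : ℝ)
    (v : HeightOneSpectrum (𝓞 F)) :
    term c ψ s (primeIdeal v) =
      ψ (Additive.ofMul (c (primeIdeal v))) * (((absNorm v.asIdeal : ℝ) ^ (-s) : ℝ) : ℂ) := by
  rw [term_apply, twist_apply, coe_primeIdeal, Complex.ofReal_cpow (Nat.cast_nonneg _)]
  simp

theorem norm_Lfun_le_zR (c : (Ideal (𝓞 F))⁰ →* G) (ψ : AddChar (Additive G) ℂ) {s : ℝ}
    (hs : 1 < s) : ‖Lfun c ψ s‖ ≤ zR F s := by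
  unfold Lfun zR
  refine (norm_tsum_le_tsum_norm (summable_norm_twist c ψ hs)).trans_eq ?_
  refine tsum_congr fun I => ?_
  rw [norm_mul, norm_twist, one_mul, Complex.norm_natCast_cpow_of_pos (absNorm_pos I)]
  simp

/-- lower bound for the product of the `L`-values by the primes in the kernel of `c`. -/
theorem exp_le_prod_norm_Lfun (c : (Ideal (𝓞 F))⁰ →* G) {s : ℝ} (hs : 1 < s)
    (T₁ : Finset (HeightOneSpectrum (𝓞 F))) (hT₁ : ∀ v ∈ T₁, c (primeIdeal v) = 1) :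
    Real.exp (Fintype.card G * ∑ v ∈ T₁, (absNorm v.asIdeal : ℝ) ^ (-s)) ≤
      ∏ ψ : AddChar (Additive G) ℂ, ‖Lfun c ψ s‖ := by
  classical
  have hs0 : 0 < s := by linarith
  have hlim : Tendsto (fun T : Finset (HeightOneSpectrum (𝓞 F)) =>
      ∏ ψ : AddChar (Additive G) ℂ, ‖∏ v ∈ T, (1 - term c ψ s (primeIdeal v))⁻¹‖) atTop
      (𝓝 (∏ ψ : AddChar (Additive G) ℂ, ‖Lfun c ψ s‖)) := by
    refine tendsto_finset_prod _ fun ψ _ => ?_
    exact (tendsto_prod_one_sub_inv (term c ψ s) (summable_norm_twist c ψ hs)).norm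
  refine ge_of_tendsto hlim ?_
  filter_upwards [eventually_ge_atTop T₁] with T hT
  have hswap : ∏ ψ : AddChar (Additive G) ℂ, ‖∏ v ∈ T, (1 - term c ψ s (primeIdeal v))⁻¹‖ =
      ∏ v ∈ T, ∏ ψ : AddChar (Additive G) ℂ,
        ‖1 - ψ (Additive.ofMul (c (primeIdeal v))) *
          (((absNorm v.asIdeal : ℝ) ^ (-s) : ℝ) : ℂ)‖⁻¹ := by
    simp_rw [norm_prod, norm_inv]
    rw [Finset.prod_comm]
    refine Finset.prod_congr rfl fun v _ => Finset.prod_congr rfl fun ψ _ => ?_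
    rw [term_primeIdeal]
  rw [hswap]
  have hx0 : ∀ v : HeightOneSpectrum (𝓞 F), 0 ≤ (absNorm v.asIdeal : ℝ) ^ (-s) :=
    fun v => Real.rpow_nonneg (Nat.cast_nonneg _) _
  calc Real.exp (Fintype.card G * ∑ v ∈ T₁, (absNorm v.asIdeal : ℝ) ^ (-s))
      = ∏ v ∈ T, (if v ∈ T₁ then
          Real.exp (Fintype.card G * (absNorm v.asIdeal : ℝ) ^ (-s)) else 1) := by
        rw [Finset.prod_ite_mem, Finset.inter_eq_right.mpr hT, Finset.mul_sum, Real.exp_sum]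
    _ ≤ _ := by
        refine Finset.prod_le_prod (fun v _ => by split_ifs <;> positivity) fun v _ => ?_
        split_ifs with hv
        · rw [hT₁ v hv]
          exact exp_le_prod_inv_norm_one (hx0 v) (rpow_neg_lt_one v hs0)
        · exact one_le_prod_inv_norm _ (hx0 v) (rpow_neg_lt_one v hs0)

/-- **(A)**: the primes in the kernel of `c` have "density" at most `1/|G|`. -/
theorem exists_exp_sum_le {c : (Ideal (𝓞 F))⁰ →* G} (hc : CountHyp c) :
    ∃ C : ℝ, 0 < C ∧ ∀ᶠ s in 𝓝[>] (1 : ℝ), ∀ T₁ : Finset (HeightOneSpectrum (𝓞 F)),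
      (∀ v ∈ T₁, c (primeIdeal v) = 1) →
      Real.exp (Fintype.card G * ∑ v ∈ T₁, (absNorm v.asIdeal : ℝ) ^ (-s)) ≤ C / (s - 1) := by
  classical
  obtain ⟨c₀, C₀, -, hC₀, hev⟩ := zR_bounds F
  have hK : ∀ ψ : AddChar (Additive G) ℂ, ∃ K : ℝ, ψ ≠ 0 →
      ∀ s : ℝ, 1 < s → s ≤ 2 → ‖Lfun c ψ s‖ ≤ K := fun ψ => by
    by_cases h : ψ = 0
    · exact ⟨0, fun h' => absurd h h'⟩
    · obtain ⟨K, hK⟩ := exists_norm_Lfun_le hc h
      exact ⟨K, fun _ => hK⟩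
  choose K hK using hK
  refine ⟨C₀ * ∏ ψ ∈ (Finset.univ : Finset (AddChar (Additive G) ℂ)).erase 0, (|K ψ| + 1),
    mul_pos hC₀ (Finset.prod_pos fun ψ _ => by positivity), ?_⟩
  filter_upwards [hev, Ioc_mem_nhdsGT one_lt_two] with s hs hs12 T₁ hT₁
  obtain ⟨hs1, hs2⟩ := hs12
  have hpos : 0 < s - 1 := by linarith
  refine (exp_le_prod_norm_Lfun c hs1 T₁ hT₁).trans ?_
  rw [← Finset.mul_prod_erase Finset.univ _ (Finset.mem_univ (0 : AddChar (Additive G) ℂ)),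
    mul_div_right_comm]
  refine mul_le_mul ((norm_Lfun_le_zR c 0 hs1).trans hs.2) ?_
    (Finset.prod_nonneg fun _ _ => norm_nonneg _) (div_pos hC₀ hpos).le
  refine Finset.prod_le_prod (fun _ _ => norm_nonneg _) fun ψ hψ => ?_
  refine (hK ψ (Finset.ne_of_mem_erase hψ) s hs1 hs2).trans ?_
  linarith [le_abs_self (K ψ)]

end Fermat.Agent.CFT.R5c
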