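import Mathlib
import Fermat.Agent.CFT.R5cUpper
import Fermat.Agent.CFT.R5bCount

/-!
# R5c (S14 moonshot): the first inequality of class field theory (analytic comparison)

* `countHyp_mk0`, `CountHyp.comp_mk'`: the counting hypothesis for `Cl(F) → Cl(F)/H`;
* `index_le_of_log_zR_le`: if the primes in a set `S` have classes in `H` and
  `log ζ_M(s) ≤ n · ∑_{𝔮 ∈ S} N𝔮^(-s) + C` on `(1, 2]`, then `[Cl(F) : H] ≤ n`.
-/

set_option autoImplicit false

open NumberField Ideal Filter Topology nonZeroDivisors Asymptotics IsDedekindDomain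

namespace Fermat.Agent.CFT.R5c

theorem card_fiber_mk {A : Type*} [Group A] [Fintype A] (H : Subgroup A) (g : A ⧸ H)
    [DecidablePred fun a : A => (a : A ⧸ H) = g] :
    (Finset.univ.filter fun a : A => (a : A ⧸ H) = g).card = Nat.card H := by
  rw [← Fintype.card_subtype, ← Nat.card_eq_fintype_card]
  have e := QuotientGroup.preimageMkEquivSubgroupProdSet H ({g} : Set (A ⧸ H))
  have h1 : Nat.card {a : A // (a : A ⧸ H) = g} = Nat.card (H × ({g} : Set (A ⧸ H))) :=
    Nat.card_congr e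
  rw [h1, Nat.card_prod]
  simp

variable {F : Type*} [Field F] [NumberField F]

/-- the counting hypothesis passes to quotients of the target group. -/
theorem CountHyp.comp_mk' {A : Type*} [CommGroup A] [Fintype A] {c₀ : (Ideal (𝓞 F))⁰ →* A}
    (h : CountHyp c₀) (H : Subgroup A) : CountHyp ((QuotientGroup.mk' H).comp c₀) := by
  classical
  obtain ⟨κ, r, hr0, hr1, hO⟩ := h
  refine ⟨Nat.card H * κ, r, hr0, hr1, fun g => ?_⟩
  have hrew : (fun n : ℕ =>
      (Nat.card {I : (Ideal (𝓞 F))⁰ // absNorm (I : Ideal (𝓞 F)) ≤ n ∧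
        ((QuotientGroup.mk' H).comp c₀) I = g} : ℝ) - Nat.card H * κ * n) = fun n : ℕ =>
      ∑ a ∈ Finset.univ.filter (fun a : A => (a : A ⧸ H) = g),
        ((Nat.card {I : (Ideal (𝓞 F))⁰ // absNorm (I : Ideal (𝓞 F)) ≤ n ∧ c₀ I = a} : ℝ)
          - κ * n) := by
    funext n
    rw [Finset.sum_sub_distrib, Finset.sum_const, card_fiber_mk H g, nsmul_eq_mul, mul_assoc]
    congr 1
    rw [← card_filter_eq ((QuotientGroup.mk' H).comp c₀) g n,
      Finset.card_eq_sum_card_fiberwise (f := fun I => c₀ I)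
        (t := Finset.univ.filter (fun a : A => (a : A ⧸ H) = g))
        (fun I hI => by
          simp only [Finset.coe_filter, Finset.mem_univ, true_and, Set.mem_ofPred_eq]
          exact (Finset.mem_filter.mp hI).2)]
    push_cast
    refine Finset.sum_congr rfl fun a ha => ?_
    rw [← card_filter_eq c₀ a n, Finset.filter_filter]
    congr 2
    refine Finset.filter_congr fun I _ => ?_
    constructor
    · exact fun h => h.2
    · intro h
      refine ⟨?_, h⟩
      rw [MonoidHom.comp_apply, h]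
      exact (Finset.mem_filter.mp ha).2
  rw [hrew]
  exact IsBigO.fun_sum fun a _ => hO a

variable (F)

/-- the counting hypothesis for the class map (R5b). -/
theorem countHyp_mk0 : CountHyp (ClassGroup.mk0 : (Ideal (𝓞 F))⁰ →* ClassGroup (𝓞 F)) :=
  Fermat.Agent.CFT.exists_card_class_sub_isBigO F

theorem tendsto_neg_log_sub_one :
    Tendsto (fun s : ℝ => -Real.log (s - 1)) (𝓝[>] 1) atTop := by
  have h1 : Tendsto (fun s : ℝ => s - 1) (𝓝[>] 1) (𝓝[>] 0) := by
    refine tendsto_nhdsWithin_of_tendsto_nhds_of_eventually_within _ ?_ ?_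
    · have : Tendsto (fun s : ℝ => s - 1) (𝓝 1) (𝓝 0) :=
        Continuous.tendsto' (by fun_prop) 1 0 (by simp)
      exact this.mono_left nhdsWithin_le_nhds
    · filter_upwards [self_mem_nhdsWithin] with s hs
      simpa using hs
  exact tendsto_neg_atBot_atTop.comp (Real.tendsto_log_nhdsGT_zero.comp h1)

/-- **the first inequality, analytic core**: if all primes in `S` have class in `H` and
`log ζ_M(s) ≤ n ∑_{𝔮 ∈ S} N𝔮^(-s) + C` for `s ∈ (1,2]`, then `[Cl(F) : H] ≤ n`. -/
theorem index_le_of_log_zR_le (M : Type*) [Field M] [NumberField M] (n : ℕ)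
    (H : Subgroup (ClassGroup (𝓞 F))) (S : Set (HeightOneSpectrum (𝓞 F)))
    (hS : ∀ v ∈ S, ClassGroup.mk0 (primeIdeal v) ∈ H)
    (hB : ∃ C : ℝ, ∀ s : ℝ, 1 < s → s ≤ 2 → Real.log (zR M s) ≤
      (n : ℝ) * ∑' v : S, (absNorm (v : HeightOneSpectrum (𝓞 F)).asIdeal : ℝ) ^ (-s) + C) :
    H.index ≤ n := by
  classical
  letI : Fintype (ClassGroup (𝓞 F) ⧸ H) := Fintype.ofFinite _
  have hc : CountHyp ((QuotientGroup.mk' H).comp
      (ClassGroup.mk0 : (Ideal (𝓞 F))⁰ →* ClassGroup (𝓞 F))) := (countHyp_mk0 F).comp_mk' H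
  obtain ⟨CA, hCA, hA⟩ := exists_exp_sum_le hc
  obtain ⟨CB, hB⟩ := hB
  obtain ⟨cM, CM, hcM, -, hM⟩ : ∃ c C : ℝ, 0 < c ∧ 0 < C ∧
      ∀ᶠ s in 𝓝[>] (1 : ℝ), c / (s - 1) ≤ zR M s ∧ zR M s ≤ C / (s - 1) := zR_bounds M
  have hcard : Fintype.card (ClassGroup (𝓞 F) ⧸ H) = H.index := by
    rw [Subgroup.index_eq_card, Nat.card_eq_fintype_card]
  by_contra hlt
  rw [not_le] at hlt
  have hh : (0 : ℝ) < H.index := by
    exact_mod_cast (Nat.zero_le n).trans_lt hlt
  have key : ∀ᶠ s in 𝓝[>] (1 : ℝ), (1 - (n : ℝ) / H.index) * (-Real.log (s - 1)) ≤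
      (n : ℝ) / H.index * Real.log CA + CB - Real.log cM := by
    filter_upwards [hA, hM, Ioc_mem_nhdsGT one_lt_two] with s hsA hsM hs12
    obtain ⟨hs1, hs2⟩ := hs12
    have hpos : 0 < s - 1 := by linarith
    have htsum : (H.index : ℝ) *
        ∑' v : S, (absNorm (v : HeightOneSpectrum (𝓞 F)).asIdeal : ℝ) ^ (-s) ≤
        Real.log (CA / (s - 1)) := by
      rw [← le_div_iff₀' hh]
      refine Real.tsum_le_of_sum_le (fun v => Real.rpow_nonneg (Nat.cast_nonneg _) _) fun u => ?_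
      rw [le_div_iff₀' hh]
      have h1 := hsA (u.map (Function.Embedding.subtype _)) (fun v hv => by
        obtain ⟨w, -, rfl⟩ := Finset.mem_map.mp hv
        rw [MonoidHom.comp_apply, QuotientGroup.mk'_apply, QuotientGroup.eq_one_iff]
        exact hS _ w.2)
      rw [Finset.sum_map, hcard] at h1
      exact (Real.le_log_iff_exp_le (div_pos hCA hpos)).mpr h1
    have h1 : Real.log (cM / (s - 1)) ≤ Real.log (zR M s) :=
      Real.log_le_log (div_pos hcM hpos) hsM.1
    have h2 := hB s hs1 hs2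
    rw [Real.log_div hcM.ne' hpos.ne'] at h1
    rw [Real.log_div hCA.ne' hpos.ne'] at htsum
    have h3 : (n : ℝ) * ∑' v : S, (absNorm (v : HeightOneSpectrum (𝓞 F)).asIdeal : ℝ) ^ (-s) ≤
        (n : ℝ) / H.index * (Real.log CA - Real.log (s - 1)) := by
      have := mul_le_mul_of_nonneg_left htsum (by positivity : (0 : ℝ) ≤ (n : ℝ) / H.index)
      refine le_trans (le_of_eq ?_) this
      field_simp
    linarith
  have hcoef : 0 < 1 - (n : ℝ) / H.index := by
    rw [sub_pos, div_lt_one hh]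
    exact_mod_cast hlt
  have hL' := tendsto_neg_log_sub_one.const_mul_atTop hcoef
  obtain ⟨s, hs1, hs2⟩ := ((hL'.eventually_gt_atTop
    ((n : ℝ) / H.index * Real.log CA + CB - Real.log cM)).and key).exists
  exact absurd hs2 (not_le.mpr hs1)

end Fermat.Agent.CFT.R5c
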