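import Mathlib
import Fermat.Agent.CFT.R5cMain
import Fermat.Agent.CFT.NormClasses

/-!
# R5c (S14 moonshot): primes of `F` with a prime of the same norm above them are norms
-/

set_option autoImplicit false

open NumberField Ideal Filter Topology nonZeroDivisors IsDedekindDomain

namespace Fermat.Agent.CFT.R5c

variable (F M : Type*) [Field F] [NumberField F] [Field M] [NumberField M] [Algebra F M]

/-- a prime of `F` with a prime of `M` of the same absolute norm above it is a norm from `M`. -/
theorem mk0_primeIdeal_mem_normClasses (v : HeightOneSpectrum (𝓞 F))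
    (w : HeightOneSpectrum (𝓞 M)) (hlies : w.asIdeal.LiesOver v.asIdeal)
    (hnorm : absNorm w.asIdeal = absNorm v.asIdeal) :
    ClassGroup.mk0 (primeIdeal v) ∈ normClasses F M := by
  haveI := v.isPrime
  obtain ⟨s, hs⟩ := Ideal.exists_relNorm_eq_pow_of_isPrime w.asIdeal v.asIdeal
  have h1 : absNorm (Ideal.relNorm (𝓞 F) w.asIdeal) = absNorm w.asIdeal :=
    Ideal.absNorm_relNorm (𝓞 F) (𝓞 M) _
  rw [hs, map_pow, hnorm] at h1
  have hs1 : s = 1 := by
    have h2 : absNorm v.asIdeal ^ s = absNorm v.asIdeal ^ 1 := by rw [h1, pow_one]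
    exact Nat.pow_right_injective (one_lt_absNorm v) h2
  rw [hs1, pow_one] at hs
  have h3 : relNorm₀ F M (primeIdeal w) = primeIdeal v := Subtype.ext (by
    rw [coe_relNorm₀, coe_primeIdeal, coe_primeIdeal, hs])
  rw [← h3]
  exact mk0_relNorm₀_mem_normClasses _

end Fermat.Agent.CFT.R5c
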