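/-
S14 moonshot (class field theory), package R5c/ZU: upper bound for the Dedekind zeta function of
`M` near `1` in terms of the primes of `F` having a prime of the same norm above them in `M`:
`log ζ_M(s) ≤ [M:F] * ∑_{v ∈ degOneSet} N(v)^(-s) + C` for `1 < s ≤ 2`.
-/
import Fermat.Agent.CFT.R5cSeries

set_option autoImplicit false
set_option linter.unusedSectionVars false

noncomputable section

open NumberField Ideal Filter Topology nonZeroDivisors IsDedekindDomain

namespace Fermat.Agent.CFT.R5c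

/-! ### an elementary inequality -/

theorem one_sub_inv_le_exp {x : ℝ} (hx0 : 0 ≤ x) (hx1 : x ≤ 1 / 2) :
    (1 - x)⁻¹ ≤ Real.exp (x + 2 * x ^ 2) := by
  have h1 : 0 < 1 - x := by linarith
  have h2 : (1 - x)⁻¹ = 1 + x / (1 - x) := by field_simp; ring
  have h3 : x / (1 - x) ≤ x + 2 * x ^ 2 := by
    rw [div_le_iff₀ h1]
    nlinarith [mul_nonneg hx0 hx0, mul_nonneg (mul_nonneg hx0 hx0) hx0]
  calc (1 - x)⁻¹ = x / (1 - x) + 1 := by rw [h2]; ring
    _ ≤ Real.exp (x / (1 - x)) := Real.add_one_le_exp _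
    _ ≤ Real.exp (x + 2 * x ^ 2) := Real.exp_le_exp.mpr h3

theorem prod_one_sub_inv_le_exp {ι : Type*} (T : Finset ι) (x : ι → ℝ) (hx0 : ∀ i ∈ T, 0 ≤ x i)
    (hx1 : ∀ i ∈ T, x i ≤ 1 / 2) :
    ∏ i ∈ T, (1 - x i)⁻¹ ≤ Real.exp (∑ i ∈ T, x i + 2 * ∑ i ∈ T, x i ^ 2) := by
  rw [Finset.mul_sum, ← Finset.sum_add_distrib, Real.exp_sum]
  refine Finset.prod_le_prod (fun i hi => ?_) fun i hi => one_sub_inv_le_exp (hx0 i hi) (hx1 i hi)
  have : 0 < 1 - x i := by linarith [hx1 i hi]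
  positivity

/-! ### primes of `M` over primes of `F` -/

variable (F M : Type*) [Field F] [NumberField F] [Field M] [NumberField M] [Algebra F M]

/-- the norm of a prime of `M` is a positive power of the norm of the prime of `F` below it. -/
theorem absNorm_eq_pow_under (w : HeightOneSpectrum (𝓞 M)) :
    ∃ f : ℕ, 0 < f ∧ absNorm w.asIdeal = absNorm (w.under (𝓞 F)).asIdeal ^ f := by
  have hwmax : w.asIdeal.IsMaximal := w.isMaximal
  have hvmax : (w.under (𝓞 F)).asIdeal.IsMaximal := (w.under (𝓞 F)).isMaximal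
  have hlies : w.asIdeal.LiesOver (w.under (𝓞 F)).asIdeal := ⟨rfl⟩
  refine ⟨w.asIdeal.inertiaDeg (𝓞 F), Ideal.inertiaDeg_pos _ _, ?_⟩
  rw [← absNorm_relNorm (𝓞 F) (𝓞 M) w.asIdeal,
    relNorm_eq_pow_of_isMaximal w.asIdeal (w.under (𝓞 F)).asIdeal, map_pow]

/-- at most `[M:F]` primes of `M` lie over a given prime of `F`. -/
theorem card_filter_under_le (T : Finset (HeightOneSpectrum (𝓞 M))) (v : HeightOneSpectrum (𝓞 F))
    [DecidableEq (HeightOneSpectrum (𝓞 F))] :
    (T.filter fun w => w.under (𝓞 F) = v).card ≤ Module.finrank F M := by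
  classical
  have hvmax : v.asIdeal.IsMaximal := v.isMaximal
  have hsum := Ideal.sum_ramification_inertia_eq_finrank v.asIdeal (𝓞 M)
  rw [IsFractionRing.finrank_eq (𝓞 F) F (𝓞 M) M]
  rw [← hsum]
  -- inject the filter into primesOver
  have hinj : (T.filter fun w => w.under (𝓞 F) = v).card ≤
      (Finset.univ : Finset (v.asIdeal.primesOver (𝓞 M))).card := by
    rw [← Finset.card_image_of_injective (T.filter fun w => w.under (𝓞 F) = v)
      (f := HeightOneSpectrum.asIdeal) (fun a b h => HeightOneSpectrum.ext h),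
      Finset.card_univ, ← Set.toFinset_card]
    refine Finset.card_le_card fun P hP => ?_
    obtain ⟨w, hw, rfl⟩ := Finset.mem_image.mp hP
    rw [Set.mem_toFinset]
    refine ⟨w.isPrime, ⟨?_⟩⟩
    rw [← (Finset.mem_filter.mp hw).2]
    rfl
  refine hinj.trans ?_
  rw [Finset.card_eq_sum_ones]
  refine Finset.sum_le_sum fun q _ => ?_
  have : q.1.IsPrime := q.2.1
  exact Nat.succ_le_of_lt (Nat.mul_pos (Ideal.ramificationIdx_pos _ _) (Ideal.inertiaDeg_pos _ _))

/-- the primes of `F` having a prime of the same absolute norm above them in `M`. -/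
def degOneSet : Set (HeightOneSpectrum (𝓞 F)) :=
  {v | ∃ w : HeightOneSpectrum (𝓞 M), w.asIdeal.LiesOver v.asIdeal ∧
    absNorm w.asIdeal = absNorm v.asIdeal}

variable {F} in
theorem two_le_absNorm (v : HeightOneSpectrum (𝓞 F)) : 2 ≤ absNorm v.asIdeal := by
  have h0 : absNorm v.asIdeal ≠ 0 := by
    rw [Ne, Ideal.absNorm_eq_zero_iff]
    exact v.ne_bot
  have h1 : absNorm v.asIdeal ≠ 1 := by
    rw [Ne, Ideal.absNorm_eq_one_iff]
    exact v.isPrime.ne_top
  omega

variable {F} in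
theorem primeIdeal_injective : Function.Injective (primeIdeal (R := 𝓞 F)) := by
  intro v w h
  apply HeightOneSpectrum.ext
  have := congrArg (fun I : (Ideal (𝓞 F))⁰ => (I : Ideal (𝓞 F))) h
  simpa using this

variable {F} in
theorem rpow_le_half (v : HeightOneSpectrum (𝓞 F)) {s : ℝ} (hs : 1 ≤ s) :
    (absNorm v.asIdeal : ℝ) ^ (-s) ≤ 1 / 2 := by
  have h2 : (2 : ℝ) ≤ absNorm v.asIdeal := by exact_mod_cast two_le_absNorm v
  calc (absNorm v.asIdeal : ℝ) ^ (-s) ≤ (2 : ℝ) ^ (-s) :=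
        Real.rpow_le_rpow_of_nonpos (by norm_num) h2 (by linarith)
    _ ≤ (2 : ℝ) ^ (-1 : ℝ) := Real.rpow_le_rpow_of_exponent_le (by norm_num) (by linarith)
    _ = 1 / 2 := by rw [Real.rpow_neg_one]; norm_num

variable {F} in
/-- sums over finitely many primes are bounded by the zeta value. -/
theorem sum_primes_rpow_le_zR (T : Finset (HeightOneSpectrum (𝓞 F))) {s : ℝ} (hs : 1 < s) :
    ∑ v ∈ T, (absNorm v.asIdeal : ℝ) ^ (-s) ≤ zR F s := by
  classical
  have h1 : ∑ v ∈ T, (absNorm v.asIdeal : ℝ) ^ (-s) =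
      ∑ I ∈ T.image primeIdeal, (absNorm (I : Ideal (𝓞 F)) : ℝ) ^ (-s) := by
    rw [Finset.sum_image (fun a _ b _ h => primeIdeal_injective h)]
    rfl
  rw [h1]
  exact (summable_norm_rpow (F := F) hs).sum_le_tsum _ fun _ _ => by positivity

/-- the key estimate for one prime. -/
theorem rpow_le_of_under (w : HeightOneSpectrum (𝓞 M)) {s : ℝ} (hs1 : 1 < s) :
    (absNorm w.asIdeal : ℝ) ^ (-s) ≤
      (degOneSet F M).indicator (fun v => (absNorm v.asIdeal : ℝ) ^ (-s)) (w.under (𝓞 F)) +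
        (absNorm (w.under (𝓞 F)).asIdeal : ℝ) ^ (-(2 : ℝ)) := by
  obtain ⟨f, hf, hN⟩ := absNorm_eq_pow_under F M w
  set v := w.under (𝓞 F) with hv
  have hNv : (1 : ℝ) ≤ absNorm v.asIdeal := by
    have := two_le_absNorm v
    exact_mod_cast (by omega : 1 ≤ absNorm v.asIdeal)
  have hpos : (0 : ℝ) ≤ (absNorm v.asIdeal : ℝ) ^ (-(2 : ℝ)) := by positivity
  rcases Nat.lt_or_ge f 2 with hf2 | hf2
  · have hf1 : f = 1 := by omega
    rw [hf1, pow_one] at hN
    have hmem : v ∈ degOneSet F M := ⟨w, ⟨rfl⟩, hN⟩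
    rw [Set.indicator_of_mem hmem, hN]
    linarith
  · have hind : 0 ≤ (degOneSet F M).indicator (fun v => (absNorm v.asIdeal : ℝ) ^ (-s)) v :=
      Set.indicator_nonneg (fun _ _ => by positivity) _
    have h1 : ((absNorm v.asIdeal : ℝ)) ^ (2 : ℝ) ≤ (absNorm w.asIdeal : ℝ) := by
      rw [hN, Nat.cast_pow, ← Real.rpow_natCast]
      exact Real.rpow_le_rpow_of_exponent_le hNv (by exact_mod_cast hf2)
    have h2 : (absNorm w.asIdeal : ℝ) ^ (-s) ≤ ((absNorm v.asIdeal : ℝ) ^ (2 : ℝ)) ^ (-s) :=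
      Real.rpow_le_rpow_of_nonpos (by positivity) h1 (by linarith)
    have h3 : ((absNorm v.asIdeal : ℝ) ^ (2 : ℝ)) ^ (-s) = (absNorm v.asIdeal : ℝ) ^ (2 * (-s)) :=
      (Real.rpow_mul (by positivity) _ _).symm
    have h4 : (absNorm v.asIdeal : ℝ) ^ (2 * (-s)) ≤ (absNorm v.asIdeal : ℝ) ^ (-(2 : ℝ)) :=
      Real.rpow_le_rpow_of_exponent_le hNv (by linarith)
    linarith

theorem summable_primes_rpow {s : ℝ} (hs : 1 < s) :
    Summable fun v : HeightOneSpectrum (𝓞 F) => (absNorm v.asIdeal : ℝ) ^ (-s) := by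
  have h := (summable_norm_rpow (F := F) hs).comp_injective (primeIdeal_injective (F := F))
  refine h.congr fun v => ?_
  rw [Function.comp_apply, coe_primeIdeal]

/-- the sum over the primes of `degOneSet`. -/
def degOneSum (s : ℝ) : ℝ :=
  ∑' v : degOneSet F M, (absNorm (v : HeightOneSpectrum (𝓞 F)).asIdeal : ℝ) ^ (-s)

theorem sum_indicator_le_degOneSum (T : Finset (HeightOneSpectrum (𝓞 F))) {s : ℝ} (hs : 1 < s) :
    ∑ v ∈ T, (degOneSet F M).indicator (fun v => (absNorm v.asIdeal : ℝ) ^ (-s)) v ≤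
      degOneSum F M s := by
  rw [degOneSum, tsum_subtype (degOneSet F M) (fun v => (absNorm v.asIdeal : ℝ) ^ (-s))]
  exact ((summable_primes_rpow F hs).indicator _).sum_le_tsum _
    fun _ _ => Set.indicator_nonneg (fun _ _ => by positivity) _

/-- the sum of `N(w)^(-s)` over finitely many primes of `M`. -/
theorem sum_rpow_le (T : Finset (HeightOneSpectrum (𝓞 M))) {s : ℝ} (hs1 : 1 < s) :
    ∑ w ∈ T, (absNorm w.asIdeal : ℝ) ^ (-s) ≤
      (Module.finrank F M : ℝ) * (degOneSum F M s + zR F 2) := by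
  classical
  set y : HeightOneSpectrum (𝓞 F) → ℝ := fun v =>
    (degOneSet F M).indicator (fun v => (absNorm v.asIdeal : ℝ) ^ (-s)) v +
      (absNorm v.asIdeal : ℝ) ^ (-(2 : ℝ)) with hy
  have hy0 : ∀ v, 0 ≤ y v := fun v =>
    add_nonneg (Set.indicator_nonneg (fun _ _ => by positivity) _) (by positivity)
  set T' := T.image (fun w => w.under (𝓞 F)) with hT'
  have hmaps : ∀ w ∈ T, w.under (𝓞 F) ∈ T' := fun w hw => Finset.mem_image_of_mem _ hw
  rw [← Finset.sum_fiberwise_of_maps_to hmaps]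
  calc ∑ v ∈ T', ∑ w ∈ T with w.under (𝓞 F) = v, (absNorm w.asIdeal : ℝ) ^ (-s)
      ≤ ∑ v ∈ T', (Module.finrank F M : ℝ) * y v := by
        refine Finset.sum_le_sum fun v _ => ?_
        calc ∑ w ∈ T with w.under (𝓞 F) = v, (absNorm w.asIdeal : ℝ) ^ (-s)
            ≤ ∑ _w ∈ T with _w.under (𝓞 F) = v, y v := by
              refine Finset.sum_le_sum fun w hw => ?_
              have := rpow_le_of_under F M w hs1
              rw [(Finset.mem_filter.mp hw).2] at this
              exact this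
          _ = ((T.filter fun w => w.under (𝓞 F) = v).card : ℝ) * y v := by
              rw [Finset.sum_const, nsmul_eq_mul]
          _ ≤ (Module.finrank F M : ℝ) * y v := by
              refine mul_le_mul_of_nonneg_right ?_ (hy0 v)
              exact_mod_cast card_filter_under_le F M T v
    _ = (Module.finrank F M : ℝ) * ∑ v ∈ T', y v := by rw [Finset.mul_sum]
    _ ≤ (Module.finrank F M : ℝ) * (degOneSum F M s + zR F 2) := by
        refine mul_le_mul_of_nonneg_left ?_ (Nat.cast_nonneg _)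
        rw [hy, Finset.sum_add_distrib]
        exact add_le_add (sum_indicator_le_degOneSum F M T' hs1)
          (sum_primes_rpow_le_zR T' (by norm_num))

/-- `I ↦ N(I)^(-s)` as a monoid hom on the nonzero ideals. -/
def normRpowHom (s : ℝ) : (Ideal (𝓞 M))⁰ →* ℝ where
  toFun I := (absNorm (I : Ideal (𝓞 M)) : ℝ) ^ (-s)
  map_one' := by simp
  map_mul' I J := by
    simp only [Submonoid.coe_mul, map_mul, Nat.cast_mul]
    rw [Real.mul_rpow (Nat.cast_nonneg _) (Nat.cast_nonneg _)]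

theorem tendsto_prod_zR {s : ℝ} (hs : 1 < s) :
    Tendsto (fun T : Finset (HeightOneSpectrum (𝓞 M)) =>
      ∏ w ∈ T, (1 - (absNorm w.asIdeal : ℝ) ^ (-s))⁻¹) atTop (𝓝 (zR M s)) := by
  have h := tendsto_prod_one_sub_inv (normRpowHom M s) (by
    refine (summable_norm_rpow (F := M) hs).congr fun I => ?_
    show _ = ‖(absNorm (I : Ideal (𝓞 M)) : ℝ) ^ (-s)‖
    rw [Real.norm_of_nonneg (by positivity)])
  exact h

theorem zR_le_exp {s : ℝ} (hs1 : 1 < s) :
    zR M s ≤ Real.exp ((Module.finrank F M : ℝ) * (degOneSum F M s + zR F 2) + 2 * zR M 2) := by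
  refine le_of_tendsto' (tendsto_prod_zR M hs1) fun T => ?_
  refine (prod_one_sub_inv_le_exp T (fun w => (absNorm w.asIdeal : ℝ) ^ (-s))
    (fun _ _ => by positivity) (fun w _ => rpow_le_half w hs1.le)).trans ?_
  refine Real.exp_le_exp.mpr (add_le_add (sum_rpow_le F M T hs1) ?_)
  refine mul_le_mul_of_nonneg_left ?_ (by norm_num)
  refine le_trans (Finset.sum_le_sum fun w _ => ?_) (sum_primes_rpow_le_zR T (by norm_num : (1:ℝ) < 2))
  have hNw : (1 : ℝ) ≤ absNorm w.asIdeal := by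
    have := two_le_absNorm w
    exact_mod_cast (by omega : 1 ≤ absNorm w.asIdeal)
  rw [← Real.rpow_natCast, ← Real.rpow_mul (by positivity)]
  exact Real.rpow_le_rpow_of_exponent_le hNw (by push_cast; linarith)

theorem zR_pos {s : ℝ} (hs : 1 < s) : 0 < zR M s := by
  have h1 : (absNorm ((1 : (Ideal (𝓞 M))⁰) : Ideal (𝓞 M)) : ℝ) ^ (-s) ≤ zR M s :=
    (summable_norm_rpow (F := M) hs).le_tsum (1 : (Ideal (𝓞 M))⁰) fun _ _ => by positivity
  have h2 : (absNorm ((1 : (Ideal (𝓞 M))⁰) : Ideal (𝓞 M)) : ℝ) ^ (-s) = 1 := by simp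
  linarith

/-- **ZU**: `log ζ_M(s) ≤ [M:F] ∑_{v ∈ degOneSet} N(v)^(-s) + C` for `1 < s ≤ 2`. -/
theorem log_zR_le : ∃ C : ℝ, ∀ s : ℝ, 1 < s → s ≤ 2 →
    Real.log (zR M s) ≤ (Module.finrank F M : ℝ) *
      ∑' v : degOneSet F M, (absNorm (v : HeightOneSpectrum (𝓞 F)).asIdeal : ℝ) ^ (-s) + C := by
  refine ⟨(Module.finrank F M : ℝ) * zR F 2 + 2 * zR M 2, fun s hs1 _ => ?_⟩
  rw [Real.log_le_iff_le_exp (zR_pos M hs1)]
  refine (zR_le_exp F M hs1).trans (le_of_eq ?_)
  rw [degOneSum]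
  ring_nf

end Fermat.Agent.CFT.R5c
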