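import Mathlib
import Fermat.Agent.CFT.R5cZetaUpper
import Fermat.Agent.CFT.R5cMain
import Fermat.Agent.CFT.R5cNormPrime

/-!
# R5 (S14 moonshot): the first inequality of class field theory

For every extension `M / F` of number fields, `[Cl(F) : normClasses F M] ≤ [M : F]`
(no Galois hypothesis needed).
-/

set_option autoImplicit false

open NumberField

namespace Fermat.Agent.CFT

variable (F M : Type*) [Field F] [NumberField F] [Field M] [NumberField M] [Algebra F M]

/-- **R5** (first inequality, analytic): `[I_F : P_F N(I_M)] ≤ [M : F]`. -/
theorem R5 : (normClasses F M).index ≤ Module.finrank F M :=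
  R5c.index_le_of_log_zR_le F M (Module.finrank F M) (normClasses F M) (R5c.degOneSet F M)
    (fun v ⟨w, h1, h2⟩ => R5c.mk0_primeIdeal_mem_normClasses F M v w h1 h2) (R5c.log_zR_le F M)

/-- in particular the index is nonzero. -/
theorem index_normClasses_ne_zero : (normClasses F M).index ≠ 0 :=
  Subgroup.index_ne_zero_of_finite

end Fermat.Agent.CFT
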