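import Mathlib
import Fermat.Agent.CFT.P3bLayerField
import Fermat.Agent.CFT.P3bCrossing
import Fermat.Agent.CFT.CoprimeNorm
import Fermat.Agent.CFT.P3aAuxRecip
import Fermat.Agent.CFT.R5First
import Fermat.Agent.CFT.R4Second
import Fermat.Agent.CFT.R4cTheta

/-!
# CFT / P3b: a layer `X ⊆ Ω = X(ζ_m)` with `L ⊄ X` satisfies reciprocity (descended to `K`)
-/

set_option autoImplicit false

open NumberField
open scoped IsMulCommutative Pointwise nonZeroDivisors

namespace Fermat.Agent.CFT

section SecondIneq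

variable (F M : Type*) [Field F] [NumberField F] [Field M] [NumberField M] [Algebra F M]

/-- the second inequality (R4), in the form used by the crossing argument. -/
theorem le_index_normClasses (p : ℕ) [Fact p.Prime] [IsGalois F M] [IsCyclic Gal(M/F)]
    (hdeg : Module.finrank F M = p) (hunr : IsUnramifiedEverywhere F M)
    [NumberField.IsTotallyComplex F] : p ≤ (normClasses F M).index := by
  obtain ⟨σ, hσ⟩ := IsCyclic.exists_generator (α := Gal(M/F))
  exact R4_of_theta F M p hσ hdeg hunr (relIndex_unitsD_le hσ hunr)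

/-- ... in particular the norm classes are not everything. -/
theorem normClasses_ne_top_of_cyclic (p : ℕ) [hp : Fact p.Prime] [IsGalois F M] [IsCyclic Gal(M/F)]
    (hdeg : Module.finrank F M = p) (hunr : IsUnramifiedEverywhere F M)
    [NumberField.IsTotallyComplex F] : normClasses F M ≠ ⊤ := by
  intro htop
  have := le_index_normClasses F M p hdeg hunr
  rw [htop, Subgroup.index_top] at this
  exact absurd this (by have := hp.out.two_le; omega)

end SecondIneq

section LayerOK

variable {p : ℕ} [hp : Fact p.Prime]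
variable (K L X Ω : Type*) [Field K] [Field L] [Field X] [Field Ω]
  [NumberField K] [NumberField L] [NumberField X] [NumberField Ω]
  [Algebra K L] [Algebra K X] [Algebra K Ω] [Algebra L Ω] [Algebra X Ω]
  [IsScalarTower K L Ω] [IsScalarTower K X Ω] [IsAbelianGalois K L] [IsAbelianGalois X Ω]

/-- the "prime to `m`" predicate used in the crossing argument. -/
def PrimeTo (m : ℕ) (𝔄 : (Ideal (𝓞 X))⁰) : Prop := (Ideal.absNorm (𝔄 : Ideal (𝓞 X))).Coprime m

variable {X} in
lemma PrimeTo.mul {m : ℕ} {𝔄 𝔅 : (Ideal (𝓞 X))⁰} (h𝔄 : PrimeTo X m 𝔄) (h𝔅 : PrimeTo X m 𝔅) :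
    PrimeTo X m (𝔄 * 𝔅) := by
  unfold PrimeTo at *
  rw [Submonoid.coe_mul, map_mul]
  exact Nat.Coprime.mul_left h𝔄 h𝔅

lemma PrimeTo.one (m : ℕ) : PrimeTo X m 1 := by
  unfold PrimeTo
  rw [Submonoid.coe_one, Ideal.one_eq_top, Ideal.absNorm_top]
  exact Nat.coprime_one_left m

variable {X} in
lemma PrimeTo.relNorm₀ {Y : Type*} [Field Y] [NumberField Y] [Algebra X Y] {m : ℕ}
    {𝔅 : (Ideal (𝓞 Y))⁰} (h : PrimeTo Y m 𝔅) : PrimeTo X m (relNorm₀ X Y 𝔅) := by
  unfold PrimeTo at *
  rwa [coe_relNorm₀, Ideal.absNorm_relNorm]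

/-- **the layer theorem**: if `Ω = X(ζ_m)`, some `X`-automorphism of `Ω` moves `L`, and `L/K` is unramified of prime
degree `p ∤ m`, then the layer `LX/X` satisfies reciprocity and surjectivity, descended to `K`. -/
theorem layerRec_and_layerSurj (hcard : Nat.card Gal(L/K) = p)
    (hunr : IsUnramifiedEverywhere K L) [IsTotallyComplex K] (m : ℕ) [NeZero m] (hpm : m.Coprime p)
    [IsCyclotomicExtension {m} X Ω]
    (hmove : ∃ (g : Gal(Ω/X)) (x : L), g (algebraMap L Ω x) ≠ algebraMap L Ω x) :
    LayerRec K L X (PrimeTo X m) ∧ LayerSurj K L X (PrimeTo X m) := by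
  have hbij := resGal_layerField_bijective K L X Ω hcard hmove
  have hcyc : IsCyclic Gal((layerField L X Ω)/X) := isCyclic_of_resGal_bijective hcard hbij
  have hdeg : Module.finrank X (layerField L X Ω) = p := by
    rw [finrank_eq_of_resGal_bijective hbij, ← IsGalois.card_aut_eq_finrank, hcard]
  have hunrM : IsUnramifiedEverywhere X (layerField L X Ω) :=
    isUnramifiedEverywhere_of_resGal_injective hbij.1 hunr
  have hTC : IsTotallyComplex X := isTotallyComplex_of_algebra K X
  have hcardM : Nat.card Gal((layerField L X Ω)/X) = p := by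
    rw [IsGalois.card_aut_eq_finrank, hdeg]
  have hR4 : normClasses X (layerField L X Ω) ≠ ⊤ :=
    normClasses_ne_top_of_cyclic X (layerField L X Ω) p hdeg hunrM
  have hR5 : (normClasses X (layerField L X Ω)).index ≤ p := hdeg ▸ R5 X (layerField L X Ω)
  constructor
  · intro 𝔄 hP h1
    rw [classMod_eq_one_iff]
    refine mk0_relNorm₀_mem_normClasses_of_artin_eq_one (M := layerField L X Ω) hbij.1 hunr 𝔄
      (fun h => ?_) h1
    exact P3a.mk0_mem_normClasses_of_artin_eq_one (C := Ω) hpm hcardM hunrM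
      hR4 hR5 𝔄 (isCoprime_span_natCast_of_coprime_absNorm hP) h
  · intro g
    refine exists_artin_relNorm₀_eq (M := layerField L X Ω) hbij.2 hunr (PrimeTo X m) (fun τ => ?_) g
    obtain ⟨𝔞, hc, h⟩ := P3a.exists_artin_eq (m := m) (NeZero.ne m) hcardM hR4 τ
    exact ⟨𝔞, (isCoprime_span_natCast_iff_coprime_absNorm₀ 𝔞).mp hc, h⟩

end LayerOK

end Fermat.Agent.CFT
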