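import Mathlib
import Fermat.Agent.CFT.P1Tower

/-!
# CFT / P3b: the subgroups of `Gal(Ω/K)` used in Artin's crossing argument

`K ⊆ L ⊆ Ω`, `Ω/K` finite Galois.  For `σ ∈ Gal(L/K)` and integers `r, q`, `crossSubgroup σ r q` is the subgroup of the
`g ∈ Gal(Ω/K)` which act on `L` and on the `r`-th roots of unity like a common power of "`(σ, q)`":
`g|_L = σ^j`, `g ζ = ζ^(q^j)`.  The fixed field of `crossSubgroup (Frob 𝔮|_L) r (N𝔮)` is the auxiliary field `F` of the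
crossing argument: `𝔮` has a degree-one prime in `F`, `L ⊄ F`, and `F(ζ_m) = Ω`.
-/

set_option autoImplicit false

namespace Fermat.Agent.CFT

section Pow

/-- exponents congruent modulo `r` give the same power of an `r`-th root of unity. -/
lemma pow_eq_pow_of_pow_eq_one_of_modEq {M : Type*} [Monoid M] {ζ : M} {r a b : ℕ} (hζ : ζ ^ r = 1)
    (hab : a ≡ b [MOD r]) : ζ ^ a = ζ ^ b := by
  have h : ∀ n : ℕ, ζ ^ n = ζ ^ (n % r) := fun n => by
    conv_lhs => rw [← Nat.mod_add_div n r, pow_add, pow_mul, hζ, one_pow, mul_one]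
  rw [h a, h b, hab]

end Pow

section Subgroups

variable {K L Ω : Type*} [Field K] [Field L] [Field Ω] [Algebra K L] [Algebra K Ω] [Algebra L Ω]
  [IsScalarTower K L Ω] [Normal K L] [Finite Gal(Ω/K)]

/-- the `g ∈ Gal(Ω/K)` with `g|_L = σ^j` and `g ζ = ζ^(q^j)` on the `r`-th roots of unity, for some `j`. -/
def crossSubgroup (σ : Gal(L/K)) (r q : ℕ) : Subgroup Gal(Ω/K) :=
  let S : Submonoid Gal(Ω/K) :=
    { carrier := {g | ∃ j : ℕ, resGal K K L Ω g = σ ^ j ∧ ∀ ζ : Ω, ζ ^ r = 1 → g ζ = ζ ^ (q ^ j)}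
      one_mem' := ⟨0, by simp, fun ζ _ => by simp⟩
      mul_mem' := by
        rintro g g' ⟨j, hj, hjζ⟩ ⟨j', hj', hjζ'⟩
        refine ⟨j + j', by rw [map_mul, hj, hj', pow_add], fun ζ hζ => ?_⟩
        rw [AlgEquiv.mul_apply, hjζ' ζ hζ, map_pow, hjζ ζ hζ, ← pow_mul, ← pow_add] }
  { S with
    inv_mem' := by
      intro g hg
      have : g⁻¹ = g ^ (orderOf g - 1) := by
        rw [eq_comm, ← mul_eq_one_iff_eq_inv, ← pow_succ,
          Nat.sub_add_cancel (orderOf_pos g), pow_orderOf_eq_one]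
      show g⁻¹ ∈ S
      rw [this]
      exact pow_mem (show g ∈ S from hg) _ }

lemma mem_crossSubgroup {σ : Gal(L/K)} {r q : ℕ} {g : Gal(Ω/K)} :
    g ∈ crossSubgroup (Ω := Ω) σ r q ↔
      ∃ j : ℕ, resGal K K L Ω g = σ ^ j ∧ ∀ ζ : Ω, ζ ^ r = 1 → g ζ = ζ ^ (q ^ j) := Iff.rfl

/-- an element acting like `(σ, q)` itself lies in the subgroup. -/
lemma mem_crossSubgroup_self {σ : Gal(L/K)} {r q : ℕ} {g : Gal(Ω/K)} (h1 : resGal K K L Ω g = σ)
    (h2 : ∀ ζ : Ω, ζ ^ r = 1 → g ζ = ζ ^ q) : g ∈ crossSubgroup (Ω := Ω) σ r q :=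
  ⟨1, by rw [h1, pow_one], fun ζ hζ => by rw [h2 ζ hζ, pow_one]⟩

/-- an element of the subgroup fixing the `r`-th roots of unity is trivial on `L`, if `σ ^ p = 1` and `q` has order a
positive power of `p` modulo `r`. -/
lemma resGal_eq_one_of_mem_crossSubgroup {σ : Gal(L/K)} {r q p k : ℕ} (hr : 0 < r) (hq : 0 < q)
    (hk : 1 ≤ k) (hσ : σ ^ p = 1) (hord : orderOf (q : ZMod r) = p ^ k) {μ : Ω}
    (hμ : IsPrimitiveRoot μ r) {g : Gal(Ω/K)} (hg : g ∈ crossSubgroup (Ω := Ω) σ r q)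
    (hfix : g μ = μ) : resGal K K L Ω g = 1 := by
  obtain ⟨j, hj, hjζ⟩ := hg
  have h1 := hjζ μ hμ.pow_eq_one
  rw [hfix] at h1
  -- `μ = μ ^ (q ^ j)` hence `q ^ j ≡ 1 mod r`
  have h2 : (q : ZMod r) ^ j = 1 := by
    have : NeZero r := ⟨hr.ne'⟩
    have hqpos : 0 < q ^ j := pow_pos hq j
    have h3 : μ ^ (q ^ j - 1) = 1 := by
      have hμ0 : μ ≠ 0 := hμ.ne_zero hr.ne'
      have : μ ^ (q ^ j - 1) * μ = 1 * μ := by
        rw [← pow_succ, Nat.sub_add_cancel hqpos, one_mul]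
        exact h1.symm
      exact mul_right_cancel₀ hμ0 this
    have h4 : r ∣ q ^ j - 1 := (hμ.pow_eq_one_iff_dvd _).mp h3
    have h5 : ((q ^ j : ℕ) : ZMod r) = 1 := by
      have : ((q ^ j - 1 : ℕ) : ZMod r) = 0 := (ZMod.natCast_eq_zero_iff _ _).mpr h4
      rw [Nat.cast_sub hqpos, Nat.cast_one, sub_eq_zero] at this
      exact this
    rwa [Nat.cast_pow] at h5
  have h6 : p ^ k ∣ j := hord ▸ orderOf_dvd_of_pow_eq_one h2
  have h7 : p ∣ j := (dvd_pow_self p (by omega)).trans h6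
  obtain ⟨t, rfl⟩ := h7
  rw [hj, pow_mul, hσ, one_pow]

/-- (R1) an element of the subgroup fixing all `m`-th roots of unity (`r ∣ m`) is trivial, if `Ω = L(ζ_m)` (`hG2`). -/
lemma eq_one_of_mem_crossSubgroup {σ : Gal(L/K)} {r q p k m : ℕ} (hr : 0 < r) (hq : 0 < q)
    (hk : 1 ≤ k) (hσ : σ ^ p = 1) (hord : orderOf (q : ZMod r) = p ^ k) (hrm : r ∣ m) {μ : Ω}
    (hμ : IsPrimitiveRoot μ r)
    (hG2 : ∀ g : Gal(Ω/K), resGal K K L Ω g = 1 → (∀ ζ : Ω, ζ ^ m = 1 → g ζ = ζ) → g = 1)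
    {g : Gal(Ω/K)} (hg : g ∈ crossSubgroup (Ω := Ω) σ r q) (hfix : ∀ ζ : Ω, ζ ^ m = 1 → g ζ = ζ) :
    g = 1 := by
  refine hG2 g (resGal_eq_one_of_mem_crossSubgroup hr hq hk hσ hord hμ hg (hfix μ ?_)) hfix
  obtain ⟨t, rfl⟩ := hrm
  rw [pow_mul, hμ.pow_eq_one, one_pow]

/-- (R2) the crossing element: it lies in both subgroups and restricts to `σ₂` on `L`. -/
lemma exists_mem_crossSubgroup_inf {p : ℕ} [hp : Fact p.Prime] (hcard : Nat.card Gal(L/K) = p)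
    {σ₁ σ₂ : Gal(L/K)} (hσ₁ : σ₁ ≠ 1) {r₁ r₂ q₁ q₂ : ℕ} (hr : r₁.Coprime r₂)
    (hq₁ : q₁.Coprime r₁) (hq₂ : q₂.Coprime r₂)
    (hG3 : ∀ (σ : Gal(L/K)) (u : ℕ), u.Coprime (r₁ * r₂) →
      ∃ g : Gal(Ω/K), resGal K K L Ω g = σ ∧ ∀ ζ : Ω, ζ ^ (r₁ * r₂) = 1 → g ζ = ζ ^ u) :
    ∃ g : Gal(Ω/K), g ∈ crossSubgroup (Ω := Ω) σ₁ r₁ q₁ ⊓ crossSubgroup (Ω := Ω) σ₂ r₂ q₂ ∧
      resGal K K L Ω g = σ₂ := by
  obtain ⟨j, hj⟩ : ∃ j : ℕ, σ₁ ^ j = σ₂ :=
    (Submonoid.mem_powers_iff _ _).mp (mem_powers_of_prime_card (g' := σ₂) hcard hσ₁)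
  obtain ⟨u, hu₁, hu₂⟩ := Nat.chineseRemainder hr (q₁ ^ j) q₂
  have hcop : u.Coprime (r₁ * r₂) := by
    refine Nat.Coprime.mul_right ?_ ?_
    · have := hu₁.gcd_eq
      rw [Nat.Coprime, this]
      exact Nat.Coprime.pow_left j hq₁
    · have := hu₂.gcd_eq
      rw [Nat.Coprime, this]
      exact hq₂
  obtain ⟨g, hg₁, hg₂⟩ := hG3 σ₂ u hcop
  refine ⟨g, ⟨⟨j, by rw [hg₁, hj], fun ζ hζ => ?_⟩, ⟨1, by rw [hg₁, pow_one], fun ζ hζ => ?_⟩⟩, hg₁⟩
  · rw [hg₂ ζ (by rw [pow_mul, hζ, one_pow])]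
    exact pow_eq_pow_of_pow_eq_one_of_modEq hζ hu₁
  · rw [hg₂ ζ (by rw [mul_comm, pow_mul, hζ, one_pow]), pow_one]
    exact pow_eq_pow_of_pow_eq_one_of_modEq hζ hu₂

end Subgroups

section FixedField

variable {K L Ω : Type*} [Field K] [Field L] [Field Ω] [Algebra K L] [Algebra K Ω] [Algebra L Ω]
  [IsScalarTower K L Ω] [Normal K L] [FiniteDimensional K Ω]

/-- an element of `H` moving `L` gives an automorphism of `Ω` over the fixed field of `H` moving `L`. -/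
lemma exists_gal_fixedField_ne (H : Subgroup Gal(Ω/K)) {g : Gal(Ω/K)} (hg : g ∈ H)
    (hne : resGal K K L Ω g ≠ 1) :
    ∃ (g' : Gal(Ω/(IntermediateField.fixedField H))) (x : L),
      g' (algebraMap L Ω x) ≠ algebraMap L Ω x := by
  have hg' : g ∈ (IntermediateField.fixedField H).fixingSubgroup := by
    rw [IntermediateField.fixingSubgroup_fixedField]; exact hg
  refine ⟨IntermediateField.fixingSubgroupEquiv _ ⟨g, hg'⟩, ?_⟩
  by_contra hcon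
  push Not at hcon
  apply hne
  ext x
  apply (algebraMap L Ω).injective
  rw [resGal_commutes K K L Ω g x]
  exact hcon x

/-- an element fixing the fixed field of `H` pointwise lies in `H`. -/
lemma mem_of_forall_mem_fixedField (H : Subgroup Gal(Ω/K)) {g : Gal(Ω/K)}
    (hg : ∀ x ∈ IntermediateField.fixedField H, g x = x) : g ∈ H := by
  rw [← IntermediateField.fixingSubgroup_fixedField H, IntermediateField.mem_fixingSubgroup_iff]
  exact hg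

end FixedField

end Fermat.Agent.CFT
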