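import Mathlib
import Fermat.Agent.CFT.P3bSubgroups
import Fermat.Agent.CFT.P3bLayerOK
import Fermat.Agent.CFT.P1DegreeOne
import Fermat.Agent.CFT.P1Restrict
import Fermat.Agent.CFT.P2CycloLaw

/-!
# CFT / P3b: the pair lemma of Artin's crossing argument inside `Ω = L(ζ_{r₁ r₂})`
-/

set_option autoImplicit false

open NumberField
open scoped IsMulCommutative Pointwise nonZeroDivisors

namespace Fermat.Agent.CFT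

section PairFields

variable {p : ℕ} [hp : Fact p.Prime]
variable (K L Ω : Type*) [Field K] [Field L] [Field Ω] [NumberField K] [NumberField L] [NumberField Ω]
  [Algebra K L] [Algebra K Ω] [Algebra L Ω] [IsScalarTower K L Ω] [IsAbelianGalois K L]
  [IsAbelianGalois K Ω]

/-- a prime ideal whose norm is prime to `m` does not contain `m`. -/
lemma natCast_not_mem_of_coprime_absNorm {𝔮 : Ideal (𝓞 K)} [h𝔮 : 𝔮.IsPrime] {m : ℕ}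
    (h : (Ideal.absNorm 𝔮).Coprime m) : (m : 𝓞 K) ∉ 𝔮 := by
  intro hm
  have hcop := isCoprime_span_natCast_of_coprime_absNorm h
  rw [Ideal.isCoprime_iff_sup_eq] at hcop
  have : 𝔮 ⊔ Ideal.span {(m : 𝓞 K)} = 𝔮 :=
    sup_eq_left.mpr ((Ideal.span_singleton_le_iff_mem _).mpr hm)
  rw [this] at hcop
  exact h𝔮.ne_top hcop

variable {K L Ω} in
/-- **the pair lemma** inside `Ω = L(ζ_{r₁ r₂})`. -/
theorem classMod_eq_pow_of_cyclotomic (hcard : Nat.card Gal(L/K) = p)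
    (hunr : IsUnramifiedEverywhere K L) [IsTotallyComplex K]
    {r₁ r₂ k₁ k₂ : ℕ} (hr₁ : r₁.Prime) (hr₂ : r₂.Prime) (hr : r₁ ≠ r₂) (hr₁p : r₁ ≠ p) (hr₂p : r₂ ≠ p)
    [IsCyclotomicExtension {r₁ * r₂} L Ω]
    (hG2 : ∀ g : Gal(Ω/K), resGal K K L Ω g = 1 → (∀ ζ : Ω, ζ ^ (r₁ * r₂) = 1 → g ζ = ζ) → g = 1)
    (hG3 : ∀ (σ : Gal(L/K)) (u : ℕ), u.Coprime (r₁ * r₂) →
      ∃ g : Gal(Ω/K), resGal K K L Ω g = σ ∧ ∀ ζ : Ω, ζ ^ (r₁ * r₂) = 1 → g ζ = ζ ^ u)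
    (hG4 : ∀ F : IntermediateField K Ω,
      (∀ g : Gal(Ω/K), (∀ x ∈ F, g x = x) → (∀ ζ : Ω, ζ ^ (r₁ * r₂) = 1 → g ζ = ζ) → g = 1) →
      IsCyclotomicExtension {r₁ * r₂} F Ω)
    (𝔮₁ 𝔮₂ : Ideal (𝓞 K)) [h𝔮₁ : 𝔮₁.IsPrime] [h𝔮₂ : 𝔮₂.IsPrime] (hne₁ : 𝔮₁ ≠ ⊥) (hne₂ : 𝔮₂ ≠ ⊥)
    (hq₁ : (Ideal.absNorm 𝔮₁).Coprime (r₁ * r₂)) (hq₂ : (Ideal.absNorm 𝔮₂).Coprime (r₁ * r₂))
    (hk₁ : 1 ≤ k₁) (hk₂ : 1 ≤ k₂)
    (hord₁ : orderOf ((Ideal.absNorm 𝔮₁ : ℕ) : ZMod r₁) = p ^ k₁)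
    (hord₂ : orderOf ((Ideal.absNorm 𝔮₂ : ℕ) : ZMod r₂) = p ^ k₂)
    (hf₁ : frobAt K L 𝔮₁ ≠ 1) (hf₂ : frobAt K L 𝔮₂ ≠ 1) (d : ℕ)
    (hd : frobAt K L 𝔮₁ = frobAt K L 𝔮₂ ^ d) :
    classMod K L ⟨𝔮₁, mem_nonZeroDivisors_of_ne_zero hne₁⟩ =
      classMod K L ⟨𝔮₂, mem_nonZeroDivisors_of_ne_zero hne₂⟩ ^ d := by
  classical
  set m := r₁ * r₂ with hm
  have hm0 : m ≠ 0 := Nat.mul_ne_zero hr₁.ne_zero hr₂.ne_zero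
  have : NeZero m := ⟨hm0⟩
  have hpm : m.Coprime p := by
    refine Nat.Coprime.mul_left ?_ ?_
    · exact (Nat.coprime_primes hr₁ hp.out).mpr hr₁p
    · exact (Nat.coprime_primes hr₂ hp.out).mpr hr₂p
  have hfin : Finite Gal(L/K) := Nat.finite_of_card_ne_zero (hcard ▸ hp.out.ne_zero)
  have hpowG : ∀ g : Gal(L/K), g ^ p = 1 := fun g => by rw [← hcard]; exact pow_card_eq_one'
  set σ₁ := frobAt K L 𝔮₁ with hσ₁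
  set σ₂ := frobAt K L 𝔮₂ with hσ₂
  set q₁ := Ideal.absNorm 𝔮₁ with hq₁def
  set q₂ := Ideal.absNorm 𝔮₂ with hq₂def
  have hq₁pos : 0 < q₁ := Nat.pos_of_ne_zero (by
    rw [hq₁def, Ne, Ideal.absNorm_eq_zero_iff]; exact hne₁)
  have hq₂pos : 0 < q₂ := Nat.pos_of_ne_zero (by
    rw [hq₂def, Ne, Ideal.absNorm_eq_zero_iff]; exact hne₂)
  set s₁ := frobAt K Ω 𝔮₁ with hs₁
  set s₂ := frobAt K Ω 𝔮₂ with hs₂
  have hs₁L : resGal K K L Ω s₁ = σ₁ := resGal_frobAt_self hne₁ (hunr 𝔮₁ h𝔮₁ hne₁)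
  have hs₂L : resGal K K L Ω s₂ = σ₂ := resGal_frobAt_self hne₂ (hunr 𝔮₂ h𝔮₂ hne₂)
  have hs₁ζ : ∀ ζ : Ω, ζ ^ m = 1 → s₁ ζ = ζ ^ q₁ := fun ζ hζ =>
    frobAt_cyclotomic K Ω m hne₁ (natCast_not_mem_of_coprime_absNorm K hq₁) ζ hζ
  have hs₂ζ : ∀ ζ : Ω, ζ ^ m = 1 → s₂ ζ = ζ ^ q₂ := fun ζ hζ =>
    frobAt_cyclotomic K Ω m hne₂ (natCast_not_mem_of_coprime_absNorm K hq₂) ζ hζ
  have hfinΩ : Finite Gal(Ω/K) := inferInstance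
  set H₁ : Subgroup Gal(Ω/K) := crossSubgroup (Ω := Ω) σ₁ r₁ q₁ with hH₁
  set H₂ : Subgroup Gal(Ω/K) := crossSubgroup (Ω := Ω) σ₂ r₂ q₂ with hH₂
  have hs₁H : s₁ ∈ H₁ := mem_crossSubgroup_self hs₁L
    (fun ζ hζ => hs₁ζ ζ (by rw [hm, pow_mul, hζ, one_pow]))
  have hs₂H : s₂ ∈ H₂ := mem_crossSubgroup_self hs₂L
    (fun ζ hζ => hs₂ζ ζ (by rw [hm, mul_comm, pow_mul, hζ, one_pow]))
  -- primitive roots
  obtain ⟨ζm, hζm⟩ := IsCyclotomicExtension.exists_isPrimitiveRoot L Ω (Set.mem_singleton m) hm0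
  have hμ₁ : IsPrimitiveRoot (ζm ^ r₂) r₁ := hζm.pow (Nat.pos_of_ne_zero hm0) (by rw [hm, mul_comm])
  have hμ₂ : IsPrimitiveRoot (ζm ^ r₁) r₂ := hζm.pow (Nat.pos_of_ne_zero hm0) hm
  -- the three fields
  set F₁ : IntermediateField K Ω := IntermediateField.fixedField H₁ with hF₁
  set F₂ : IntermediateField K Ω := IntermediateField.fixedField H₂ with hF₂
  set F : IntermediateField K Ω := IntermediateField.fixedField (H₁ ⊓ H₂) with hF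
  have hF₁F : F₁ ≤ F := IntermediateField.fixedField_le inf_le_left
  have hF₂F : F₂ ≤ F := IntermediateField.fixedField_le inf_le_right
  -- cyclotomic over each
  have htriv₁ : ∀ g : Gal(Ω/K), (∀ x ∈ F₁, g x = x) → (∀ ζ : Ω, ζ ^ m = 1 → g ζ = ζ) → g = 1 :=
    fun g hgF hgζ => eq_one_of_mem_crossSubgroup hr₁.pos hq₁pos hk₁ (hpowG σ₁) hord₁
      (dvd_mul_right r₁ r₂) hμ₁ hG2 (mem_of_forall_mem_fixedField H₁ hgF) hgζ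
  have htriv₂ : ∀ g : Gal(Ω/K), (∀ x ∈ F₂, g x = x) → (∀ ζ : Ω, ζ ^ m = 1 → g ζ = ζ) → g = 1 :=
    fun g hgF hgζ => eq_one_of_mem_crossSubgroup hr₂.pos hq₂pos hk₂ (hpowG σ₂) hord₂
      (dvd_mul_left r₂ r₁) hμ₂ hG2 (mem_of_forall_mem_fixedField H₂ hgF) hgζ
  have htriv : ∀ g : Gal(Ω/K), (∀ x ∈ F, g x = x) → (∀ ζ : Ω, ζ ^ m = 1 → g ζ = ζ) → g = 1 :=
    fun g hgF hgζ => htriv₁ g (fun x hx => hgF x (hF₁F hx)) hgζ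
  have hcyc₁ : IsCyclotomicExtension {m} F₁ Ω := hG4 F₁ htriv₁
  have hcyc₂ : IsCyclotomicExtension {m} F₂ Ω := hG4 F₂ htriv₂
  have hcyc : IsCyclotomicExtension {m} F Ω := hG4 F htriv
  -- moving `L`
  have hmove₁ := exists_gal_fixedField_ne (L := L) H₁ hs₁H (by rw [hs₁L]; exact hf₁)
  have hmove₂ := exists_gal_fixedField_ne (L := L) H₂ hs₂H (by rw [hs₂L]; exact hf₂)
  have hq₁r₁ : q₁.Coprime r₁ := Nat.Coprime.coprime_mul_right_right hq₁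
  have hq₂r₂ : q₂.Coprime r₂ := Nat.Coprime.coprime_mul_left_right hq₂
  obtain ⟨g₀, hg₀H, hg₀L⟩ := exists_mem_crossSubgroup_inf (Ω := Ω) hcard hf₁
    ((Nat.coprime_primes hr₁ hr₂).mpr hr) hq₁r₁ hq₂r₂ hG3
  have hmove := exists_gal_fixedField_ne (L := L) (H₁ ⊓ H₂) hg₀H (by rw [hg₀L]; exact hf₂)
  -- the three layers
  obtain ⟨hrec₁, -⟩ := layerRec_and_layerSurj K L F₁ Ω hcard hunr m hpm hmove₁
  obtain ⟨hrec₂, -⟩ := layerRec_and_layerSurj K L F₂ Ω hcard hunr m hpm hmove₂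
  obtain ⟨-, hsurj⟩ := layerRec_and_layerSurj K L F Ω hcard hunr m hpm hmove
  -- towers `F₁, F₂ ⊆ F`
  let alg₁ : Algebra F₁ F := (IntermediateField.inclusion hF₁F).toRingHom.toAlgebra
  let alg₂ : Algebra F₂ F := (IntermediateField.inclusion hF₂F).toRingHom.toAlgebra
  have tow₁ : IsScalarTower K F₁ F := IsScalarTower.of_algebraMap_eq fun x => rfl
  have tow₂ : IsScalarTower K F₂ F := IsScalarTower.of_algebraMap_eq fun x => rfl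
  -- degree-one primes
  obtain ⟨𝔔₁, h𝔔₁, -, hN₁⟩ := exists_relNorm_eq_of_frobAt_fixes (K := K) (F := F₁) (Ω := Ω) hne₁
    (fun x => (IntermediateField.mem_fixedField_iff H₁ (x : Ω)).mp x.2 s₁ hs₁H)
  obtain ⟨𝔔₂, h𝔔₂, -, hN₂⟩ := exists_relNorm_eq_of_frobAt_fixes (K := K) (F := F₂) (Ω := Ω) hne₂
    (fun x => (IntermediateField.mem_fixedField_iff H₂ (x : Ω)).mp x.2 s₂ hs₂H)
  have h𝔔₁ne : 𝔔₁ ≠ ⊥ := by
    intro h0; apply hne₁; rw [← hN₁, h0, Ideal.relNorm_bot]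
  have h𝔔₂ne : 𝔔₂ ≠ ⊥ := by
    intro h0; apply hne₂; rw [← hN₂, h0, Ideal.relNorm_bot]
  set Q₁ : (Ideal (𝓞 F₁))⁰ := ⟨𝔔₁, mem_nonZeroDivisors_of_ne_zero h𝔔₁ne⟩ with hQ₁
  set Q₂ : (Ideal (𝓞 F₂))⁰ := ⟨𝔔₂, mem_nonZeroDivisors_of_ne_zero h𝔔₂ne⟩ with hQ₂
  have hNQ₁ : relNorm₀ K F₁ Q₁ = ⟨𝔮₁, mem_nonZeroDivisors_of_ne_zero hne₁⟩ := Subtype.ext hN₁
  have hNQ₂ : relNorm₀ K F₂ Q₂ = ⟨𝔮₂, mem_nonZeroDivisors_of_ne_zero hne₂⟩ := Subtype.ext hN₂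
  have hPQ₁ : PrimeTo F₁ m Q₁ := by
    unfold PrimeTo
    rw [← Ideal.absNorm_relNorm (𝓞 K) (𝓞 F₁) 𝔔₁, hN₁]
    exact hq₁
  have hPQ₂ : PrimeTo F₂ m Q₂ := by
    unfold PrimeTo
    rw [← Ideal.absNorm_relNorm (𝓞 K) (𝓞 F₂) 𝔔₂, hN₂]
    exact hq₂
  have key := classMod_eq_pow_of_layers (K := K) (L := L) hp.out.pos hpowG F₁ F₂ F
    (PrimeTo F₁ m) (PrimeTo F₂ m) (PrimeTo F m)
    (fun _ _ h h' => h.mul h') (fun _ _ h h' => h.mul h') (PrimeTo.one F₁ m) (PrimeTo.one F₂ m)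
    (fun _ h => h.relNorm₀) (fun _ h => h.relNorm₀) hrec₁ hrec₂ hsurj Q₁ Q₂ hPQ₁ hPQ₂ d (by
      rw [hNQ₁, hNQ₂, artin_prime K L hne₁, artin_prime K L hne₂]
      exact hd)
  rwa [hNQ₁, hNQ₂] at key

end PairFields

end Fermat.Agent.CFT
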