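/-
S14 side project (class field theory), package P3c: GALOIS STRUCTURE OF `Ω = L(ζ_m)`.

Setting: `K = ℚ(ζ_p)`, `L/K` Galois of degree `p` with `Gal(L/ℚ)` non-commutative, `m` prime to `p`,
`Ω = L(ζ_m)`.  Mathlib only.

* G0 `isGalois_top`, `isGalois_top_rat`, `isAbelianGalois_top`
* G1 `irreducible_cyclotomic`
* G2 `eq_one_of_fix`
* G3 `exists_gal_of_pair`
* G4 `isCyclotomicExtension_of_fix`
-/
import Mathlib

set_option linter.unusedSectionVars false
set_option linter.style.haveILetI false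

namespace Fermat.Agent.CFT.P3c

open NumberField IntermediateField Polynomial Module

variable (K L Ω : Type*) [Field K] [NumberField K] [Field L] [NumberField L] [Field Ω]
  [NumberField Ω] [Algebra K L] [Algebra K Ω] [Algebra L Ω] [IsScalarTower K L Ω]

/-- G2: an automorphism of `Ω` fixing `L` and the `m`-th roots of unity is trivial. -/
theorem eq_one_of_fix (m : ℕ) [NeZero m] [IsCyclotomicExtension {m} L Ω] (g : Gal(Ω/K)) (hL : ∀ x : L, g (algebraMap L Ω x) = algebraMap L Ω x)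
    (hζ : ∀ ζ : Ω, ζ ^ m = 1 → g ζ = ζ) : g = 1 := by
  obtain ⟨ζ, hz⟩ := IsCyclotomicExtension.exists_isPrimitiveRoot L Ω (Set.mem_singleton m)
    (NeZero.ne m)
  have htop := IsCyclotomicExtension.adjoin_primitive_root_eq_top (A := L) (B := Ω) hz
  let g' : Ω →ₐ[L] Ω := { (g : Ω →+* Ω) with commutes' := hL }
  have h1 : g' = AlgHom.id L Ω := by
    apply AlgHom.ext_of_adjoin_eq_top htop
    intro x hx
    rw [Set.mem_singleton_iff] at hx
    subst hx
    exact hζ _ hz.pow_eq_one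
  ext x
  exact DFunLike.congr_fun h1 x

theorem isGalois_top (m : ℕ) [NeZero m] [IsCyclotomicExtension {m} L Ω] [IsGalois K L] :
    IsGalois K Ω := by
  obtain ⟨f, hf, hsp⟩ := IsGalois.is_separable_splitting_field K L
  have h2 : IsSplittingField L Ω (((X : K[X]) ^ m - 1).map (algebraMap K L)) := by
    have := IsCyclotomicExtension.isSplittingField_X_pow_sub_one m L Ω
    simpa using this
  have hf0 : f ≠ 0 := hf.ne_zero
  have hg0 : ((X : K[X]) ^ m - 1) ≠ 0 := X_pow_sub_C_ne_zero (NeZero.pos m) 1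
  have h3 := IsSplittingField.mul (F := K) (K := L) Ω f _ hf0 hg0
  have : Normal K Ω := Normal.of_isSplittingField (f * (X ^ m - 1))
  exact ⟨⟩

/-- G0 (over `ℚ`). -/
theorem isGalois_top_rat (m : ℕ) [NeZero m] [IsCyclotomicExtension {m} L Ω] [IsGalois ℚ L] :
    IsGalois ℚ Ω :=
  isGalois_top ℚ L Ω m

/-- all `m`-th roots of unity are fixed as soon as one primitive one is. -/
theorem map_root_of_map_primitive {m : ℕ} [NeZero m] {ζ : Ω} (hz : IsPrimitiveRoot ζ m)
    (g : Gal(Ω/K)) (u : ℕ) (hg : g ζ = ζ ^ u) (η : Ω) (hη : η ^ m = 1) : g η = η ^ u := by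
  obtain ⟨i, -, rfl⟩ := hz.eq_pow_of_pow_eq_one hη
  rw [map_pow, hg, ← pow_mul, ← pow_mul, mul_comm]

/-- G4. -/
theorem isCyclotomicExtension_of_fix (m : ℕ) [NeZero m] [IsCyclotomicExtension {m} L Ω]
    [IsGalois K L] (F : IntermediateField K Ω)
    (hF : ∀ g : Gal(Ω/K), (∀ x ∈ F, g x = x) → (∀ ζ : Ω, ζ ^ m = 1 → g ζ = ζ) → g = 1) :
    IsCyclotomicExtension {m} ↥F Ω := by
  have hgal : IsGalois K Ω := isGalois_top K L Ω m
  obtain ⟨ζ, hz⟩ := IsCyclotomicExtension.exists_isPrimitiveRoot L Ω (Set.mem_singleton m)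
    (NeZero.ne m)
  -- the field `F(ζ)` viewed over `K` is everything
  have h1 : (adjoin F {ζ}).restrictScalars K = ⊤ := by
    rw [← IsGalois.fixedField_fixingSubgroup ((adjoin F {ζ}).restrictScalars K)]
    have : ((adjoin F {ζ}).restrictScalars K).fixingSubgroup = ⊥ := by
      rw [eq_bot_iff]
      intro g hg
      rw [Subgroup.mem_bot]
      rw [IntermediateField.mem_fixingSubgroup_iff] at hg
      refine hF g (fun x hx => hg x ?_) ?_
      · rw [IntermediateField.mem_restrictScalars]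
        exact IntermediateField.algebraMap_mem (adjoin F {ζ}) (⟨x, hx⟩ : F)
      · have hgz : g ζ = ζ ^ 1 := by
          rw [pow_one]
          apply hg
          rw [IntermediateField.mem_restrictScalars]
          exact mem_adjoin_simple_self F ζ
        intro η hη
        simpa using map_root_of_map_primitive K Ω hz g 1 hgz η hη
    rw [this, IntermediateField.fixedField_bot]
  have h2 : adjoin F {ζ} = ⊤ := by
    apply IntermediateField.restrictScalars_injective K
    rw [h1, IntermediateField.restrictScalars_top]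
  have halg : IsAlgebraic F ζ := Algebra.IsAlgebraic.isAlgebraic ζ
  have h3 : Algebra.adjoin F {ζ} = ⊤ := by
    rw [← IntermediateField.adjoin_simple_toSubalgebra_of_isAlgebraic halg, h2,
      IntermediateField.top_toSubalgebra]
  rw [IsCyclotomicExtension.iff_adjoin_eq_top]
  refine ⟨fun n hn _ => ⟨ζ, by rw [Set.mem_singleton_iff] at hn; rwa [hn]⟩, ?_⟩
  rw [eq_top_iff, ← h3]
  apply Algebra.adjoin_mono
  intro x hx
  rw [Set.mem_singleton_iff] at hx
  exact ⟨m, Set.mem_singleton m, NeZero.ne m, hx ▸ hz.pow_eq_one⟩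

/-- the pair (restriction to `L`, exponent on the `m`-th roots of unity). -/
noncomputable def galProd [IsGalois K L] {m : ℕ} [NeZero m] {ζ : Ω} (hz : IsPrimitiveRoot ζ m) :
    Gal(Ω/K) →* Gal(L/K) × (ZMod m)ˣ :=
  (AlgEquiv.restrictNormalHom L).prod (hz.autToPow K)

theorem galProd_fst [IsGalois K L] {m : ℕ} [NeZero m] {ζ : Ω} (hz : IsPrimitiveRoot ζ m)
    (g : Gal(Ω/K)) (x : L) :
    algebraMap L Ω ((galProd K L Ω hz g).1 x) = g (algebraMap L Ω x) := by
  simp only [galProd, MonoidHom.prod_apply]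
  exact AlgEquiv.restrictNormal_commutes g L x

theorem galProd_snd [IsGalois K L] {m : ℕ} [NeZero m] {ζ : Ω} (hz : IsPrimitiveRoot ζ m)
    (g : Gal(Ω/K)) :
    g ζ = ζ ^ ((galProd K L Ω hz g).2 : ZMod m).val := by
  simp only [galProd, MonoidHom.prod_apply]
  exact (hz.autToPow_spec K g).symm

theorem galProd_injective [IsGalois K L] {m : ℕ} [NeZero m] [IsCyclotomicExtension {m} L Ω]
    {ζ : Ω} (hz : IsPrimitiveRoot ζ m) : Function.Injective (galProd K L Ω hz) := by
  rw [injective_iff_map_eq_one]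
  intro g hg
  apply eq_one_of_fix K L Ω m g
  · intro x
    rw [← galProd_fst K L Ω hz g x, hg]
    rfl
  · have h1 : g ζ = ζ ^ 1 := by
      rw [galProd_snd K L Ω hz g, hg]
      simp only [Prod.snd_one, Units.val_one]
      rw [ZMod.val_one_eq_one_mod]
      have := pow_mod_orderOf ζ 1
      rwa [← hz.eq_orderOf] at this
    intro η hη
    simpa using map_root_of_map_primitive K Ω hz g 1 h1 η hη

/-- G0 (abelian part). -/
theorem isAbelianGalois_top (p : ℕ) [Fact p.Prime] (hdeg : Module.finrank K L = p)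
    (m : ℕ) [NeZero m] [IsCyclotomicExtension {m} L Ω] [IsGalois K L] :
    IsAbelianGalois K Ω := by
  have hgal : IsGalois K Ω := isGalois_top K L Ω m
  obtain ⟨ζ, hz⟩ := IsCyclotomicExtension.exists_isPrimitiveRoot L Ω (Set.mem_singleton m)
    (NeZero.ne m)
  have hcyc : IsCyclic Gal(L/K) := by
    apply isCyclic_of_prime_card (p := p)
    rw [IsGalois.card_aut_eq_finrank, hdeg]
  letI : CommGroup Gal(L/K) := IsCyclic.commGroup
  refine { hgal with is_comm := ⟨fun g h => ?_⟩ }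
  apply galProd_injective K L Ω hz
  rw [map_mul, map_mul, mul_comm]

/-- lower bound for the degree of `K(ζ_m)` over `K = ℚ(ζ_p)`. -/
theorem totient_le_finrank_adjoin (p : ℕ) [Fact p.Prime] [IsCyclotomicExtension {p} ℚ K]
    {m : ℕ} [NeZero m] (hm : m.Coprime p) {ζ : Ω} (hz : IsPrimitiveRoot ζ m) :
    m.totient ≤ finrank K K⟮ζ⟯ := by
  have hp : p.Prime := Fact.out
  haveI : NeZero p := ⟨hp.ne_zero⟩
  obtain ⟨ξ, hξ⟩ := IsCyclotomicExtension.exists_isPrimitiveRoot ℚ K (Set.mem_singleton p)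
    (NeZero.ne p)
  have hx : IsPrimitiveRoot (algebraMap K K⟮ζ⟯ ξ) p :=
    hξ.map_of_injective (algebraMap K K⟮ζ⟯).injective
  have hy : IsPrimitiveRoot (⟨ζ, mem_adjoin_simple_self K ζ⟩ : K⟮ζ⟯) m := by
    rw [← IsPrimitiveRoot.coe_submonoidClass_iff]
    exact hz
  have hirr : Irreducible (cyclotomic (Nat.lcm p m) ℚ) :=
    cyclotomic.irreducible_rat (Nat.lcm_pos hp.pos (NeZero.pos m))
  have h1 := IsPrimitiveRoot.lcm_totient_le_finrank hx hy hirr
  rw [Nat.Coprime.lcm_eq_mul hm.symm, Nat.totient_mul hm.symm,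
    ← Module.finrank_mul_finrank ℚ K K⟮ζ⟯,
    IsCyclotomicExtension.finrank K (cyclotomic.irreducible_rat hp.pos)] at h1
  exact Nat.le_of_mul_le_mul_left h1 (Nat.totient_pos.mpr hp.pos)

/-- degree count: `φ(m) ≤ [Ω : L]`. -/
theorem totient_le_finrank (p : ℕ) [Fact p.Prime] [IsCyclotomicExtension {p} ℚ K]
    [IsGalois K L] (hdeg : finrank K L = p) (hnonab : ¬ IsMulCommutative Gal(L/ℚ))
    {m : ℕ} [NeZero m] (hm : m.Coprime p) {ζ : Ω} (hz : IsPrimitiveRoot ζ m) :
    m.totient ≤ finrank L Ω := by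
  have hp : p.Prime := Fact.out
  let CK : IntermediateField K Ω := K⟮ζ⟯
  let f : L →ₐ[K] Ω := IsScalarTower.toAlgHom K L Ω
  let LK : IntermediateField K Ω := f.fieldRange
  let e : L ≃ₐ[K] LK := AlgEquiv.ofInjectiveField f
  have hLKgal : IsGalois K LK := IsGalois.of_algEquiv e
  have hLKdeg : finrank K LK = p := by rw [← e.toLinearEquiv.finrank_eq, hdeg]
  have hsimple : IsSimpleOrder (IntermediateField K L) :=
    isSimpleOrder_of_finrank_prime K L (hdeg ▸ hp)
  rcases eq_bot_or_eq_top (CK.comap f) with h | h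
  · have hinf : LK ⊓ CK = ⊥ := by
      rw [eq_bot_iff]
      rintro y ⟨⟨x, rfl⟩, hy⟩
      have hx : x ∈ CK.comap f := hy
      rw [h, IntermediateField.mem_bot] at hx
      obtain ⟨k, rfl⟩ := hx
      rw [IntermediateField.mem_bot]
      exact ⟨k, (f.commutes k).symm⟩
    have hld : LK.LinearDisjoint CK := LinearDisjoint.of_inf_eq_bot hinf
    have hsup := hld.finrank_sup
    have h1 : finrank K ↥(LK ⊔ CK) ≤ finrank K Ω := by
      exact finrank_bot_le_finrank_of_isScalarTower K (↥(LK ⊔ CK)) Ω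
    have h2 := totient_le_finrank_adjoin K Ω p hm hz
    have h3 := Module.finrank_mul_finrank K L Ω
    rw [hdeg] at h3
    rw [hsup, hLKdeg, ← h3] at h1
    have h4 : p * m.totient ≤ p * finrank L Ω := le_trans (Nat.mul_le_mul_left p h2) h1
    exact Nat.le_of_mul_le_mul_left h4 hp.pos
  · exfalso
    have hle : ∀ x : L, f x ∈ CK := fun x => by
      have : x ∈ CK.comap f := h ▸ IntermediateField.mem_top
      exact this
    let f' : L →ₐ[K] CK := f.codRestrict CK.toSubalgebra hle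
    haveI : NeZero p := ⟨hp.ne_zero⟩
    haveI : IsCyclotomicExtension {m} K CK := hz.intermediateField_adjoin_isCyclotomicExtension K
    haveI : IsCyclotomicExtension ({p} ∪ {m}) ℚ CK :=
      IsCyclotomicExtension.trans {p} {m} ℚ K CK (algebraMap K CK).injective
    haveI : IsAbelianGalois ℚ CK := IsCyclotomicExtension.isAbelianGalois ({p} ∪ {m}) ℚ CK
    have hab : IsAbelianGalois ℚ L := IsAbelianGalois.of_algHom (f'.restrictScalars ℚ)
    exact hnonab inferInstance

/-- G1. -/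
theorem irreducible_cyclotomic (p : ℕ) [Fact p.Prime] [IsCyclotomicExtension {p} ℚ K]
    [IsGalois K L] (hdeg : finrank K L = p) (hnonab : ¬ IsMulCommutative Gal(L/ℚ))
    (m : ℕ) [NeZero m] (hm : m.Coprime p) [IsCyclotomicExtension {m} L Ω] :
    Irreducible (cyclotomic m L) := by
  obtain ⟨ζ, hz⟩ := IsCyclotomicExtension.exists_isPrimitiveRoot L Ω (Set.mem_singleton m)
    (NeZero.ne m)
  have h1 := totient_le_finrank K L Ω p hdeg hnonab hm hz
  have hint : IsIntegral L ζ := Algebra.IsIntegral.isIntegral ζ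
  have h2 : finrank L Ω = (minpoly L ζ).natDegree := by
    rw [(hz.powerBasis L).finrank, IsPrimitiveRoot.powerBasis_dim]
  have hdvd : minpoly L ζ ∣ cyclotomic m L := by
    apply minpoly.dvd
    rwa [aeval_def, eval₂_eq_eval_map, map_cyclotomic, ← IsRoot.def, isRoot_cyclotomic_iff]
  have heq : cyclotomic m L = minpoly L ζ := by
    apply eq_of_monic_of_dvd_of_natDegree_le (minpoly.monic hint) (cyclotomic.monic m L) hdvd
    rw [natDegree_cyclotomic, ← h2]
    exact h1
  rw [heq]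
  exact minpoly.irreducible hint

theorem galProd_bijective (p : ℕ) [Fact p.Prime] [IsCyclotomicExtension {p} ℚ K]
    [IsGalois K L] (hdeg : finrank K L = p) (hnonab : ¬ IsMulCommutative Gal(L/ℚ))
    {m : ℕ} [NeZero m] (hm : m.Coprime p) [IsCyclotomicExtension {m} L Ω]
    {ζ : Ω} (hz : IsPrimitiveRoot ζ m) : Function.Bijective (galProd K L Ω hz) := by
  have hgal : IsGalois K Ω := isGalois_top K L Ω m
  have hirr := irreducible_cyclotomic K L Ω p hdeg hnonab m hm
  rw [Nat.bijective_iff_injective_and_card]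
  refine ⟨galProd_injective K L Ω hz, ?_⟩
  rw [Nat.card_prod, IsGalois.card_aut_eq_finrank, IsGalois.card_aut_eq_finrank,
    ← Module.finrank_mul_finrank K L Ω, IsCyclotomicExtension.finrank Ω hirr,
    Nat.card_eq_fintype_card, ZMod.card_units_eq_totient]

/-- G3. -/
theorem exists_gal_of_pair (p : ℕ) [Fact p.Prime] [IsCyclotomicExtension {p} ℚ K]
    [IsGalois K L] (hdeg : finrank K L = p) (hnonab : ¬ IsMulCommutative Gal(L/ℚ))
    (m : ℕ) [NeZero m] (hm : m.Coprime p) [IsCyclotomicExtension {m} L Ω]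
    (σ : Gal(L/K)) (u : ℕ) (hu : u.Coprime m) :
    ∃ g : Gal(Ω/K), (∀ x : L, g (algebraMap L Ω x) = algebraMap L Ω (σ x)) ∧
      ∀ ζ : Ω, ζ ^ m = 1 → g ζ = ζ ^ u := by
  obtain ⟨ζ, hz⟩ := IsCyclotomicExtension.exists_isPrimitiveRoot L Ω (Set.mem_singleton m)
    (NeZero.ne m)
  obtain ⟨g, hg⟩ := (galProd_bijective K L Ω p hdeg hnonab hm hz).2 (σ, ZMod.unitOfCoprime u hu)
  refine ⟨g, fun x => ?_, ?_⟩
  · rw [← galProd_fst K L Ω hz g x, hg]
  · have h1 : g ζ = ζ ^ u := by
      rw [galProd_snd K L Ω hz g, hg]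
      simp only [ZMod.coe_unitOfCoprime, ZMod.val_natCast]
      have := pow_mod_orderOf ζ u
      rwa [← hz.eq_orderOf] at this
    exact map_root_of_map_primitive K Ω hz g u h1

/-- the degree of `Ω/L` is `φ(m)`. -/
theorem finrank_top_eq_totient (p : ℕ) [Fact p.Prime] [IsCyclotomicExtension {p} ℚ K]
    [IsGalois K L] (hdeg : finrank K L = p) (hnonab : ¬ IsMulCommutative Gal(L/ℚ))
    (m : ℕ) [NeZero m] (hm : m.Coprime p) [IsCyclotomicExtension {m} L Ω] :
    finrank L Ω = m.totient :=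
  IsCyclotomicExtension.finrank Ω (irreducible_cyclotomic K L Ω p hdeg hnonab m hm)

/-- `Gal(Ω/K) ≃ Gal(L/K) × (ℤ/m)ˣ`. -/
noncomputable def galEquivProd (p : ℕ) [Fact p.Prime] [IsCyclotomicExtension {p} ℚ K]
    [IsGalois K L] (hdeg : finrank K L = p) (hnonab : ¬ IsMulCommutative Gal(L/ℚ))
    {m : ℕ} [NeZero m] (hm : m.Coprime p) [IsCyclotomicExtension {m} L Ω]
    {ζ : Ω} (hz : IsPrimitiveRoot ζ m) : Gal(Ω/K) ≃* Gal(L/K) × (ZMod m)ˣ :=
  MulEquiv.ofBijective (galProd K L Ω hz) (galProd_bijective K L Ω p hdeg hnonab hm hz)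

theorem galEquivProd_apply (p : ℕ) [Fact p.Prime] [IsCyclotomicExtension {p} ℚ K]
    [IsGalois K L] (hdeg : finrank K L = p) (hnonab : ¬ IsMulCommutative Gal(L/ℚ))
    {m : ℕ} [NeZero m] (hm : m.Coprime p) [IsCyclotomicExtension {m} L Ω]
    {ζ : Ω} (hz : IsPrimitiveRoot ζ m) (g : Gal(Ω/K)) :
    galEquivProd K L Ω p hdeg hnonab hm hz g = galProd K L Ω hz g := rfl

end Fermat.Agent.CFT.P3c
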