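import Mathlib
import Fermat.Agent.CFT.P3bArtinLemma
import Fermat.Agent.CFT.P3bPair
import Fermat.Agent.CFT.P3cGalois

/-!
# CFT / P3b: Artin reciprocity for the unramified cyclic extension `L/K` of degree `p`, `K = ℚ(ζ_p)`

`artin_eq_of_mk0_eq`: the Artin map of `L/K` factors through the ideal class group of `K`.
-/

set_option autoImplicit false

open NumberField
open scoped IsMulCommutative Pointwise nonZeroDivisors

namespace Fermat.Agent.CFT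

section Main

variable (p : ℕ) [hp : Fact p.Prime]
variable (K L : Type*) [Field K] [Field L] [NumberField K] [NumberField L] [Algebra K L]

lemma two_le_absNorm_of_isPrime {𝔮 : Ideal (𝓞 K)} [h𝔮 : 𝔮.IsPrime] (hne : 𝔮 ≠ ⊥) :
    2 ≤ Ideal.absNorm 𝔮 := by
  have h0 : Ideal.absNorm 𝔮 ≠ 0 := by rw [Ne, Ideal.absNorm_eq_zero_iff]; exact hne
  have h1 : Ideal.absNorm 𝔮 ≠ 1 := by rw [Ne, Ideal.absNorm_eq_one_iff]; exact h𝔮.ne_top
  omega

/-- **RECIPROCITY** for the unramified cyclic degree-`p` extension `L/K`, `K = ℚ(ζ_p)`, `L/ℚ` Galois non-abelian. -/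
theorem artin_eq_of_mk0_eq (hp2 : p ≠ 2) [IsCyclotomicExtension {p} ℚ K] [IsAbelianGalois K L]
    [IsGalois ℚ L] (hdeg : Module.finrank K L = p) (hunr : IsUnramifiedEverywhere K L)
    (hnonab : ¬ IsMulCommutative Gal(L/ℚ))
    (𝔞 𝔟 : (Ideal (𝓞 K))⁰) (h : ClassGroup.mk0 𝔞 = ClassGroup.mk0 𝔟) :
    artin K L 𝔞 = artin K L 𝔟 := by
  classical
  have hcard : Nat.card Gal(L/K) = p := by rw [IsGalois.card_aut_eq_finrank, hdeg]
  have hp3 : 2 < p := lt_of_le_of_ne hp.out.two_le (Ne.symm hp2)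
  haveI hTC : IsTotallyComplex K := IsCyclotomicExtension.Rat.isTotallyComplex K hp3
  haveI hcyc : IsCyclic Gal(L/K) := isCyclic_of_prime_card hcard
  have hR4 : normClasses K L ≠ ⊤ := normClasses_ne_top_of_cyclic K L p hdeg hunr
  refine artin_eq_of_mk0_eq_of_pair hcard hR4 ?_ ?_ 𝔞 𝔟 h
  · -- split primes are norms
    intro 𝔮 h𝔮 hne h1
    obtain ⟨𝔓, h𝔓, -, hN⟩ := exists_relNorm_eq_of_frobAt_eq_one hne h1
    have h𝔓ne : 𝔓 ≠ ⊥ := by
      intro h0; apply hne; rw [← hN, h0, Ideal.relNorm_bot]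
    have : (⟨𝔮, mem_nonZeroDivisors_of_ne_zero hne⟩ : (Ideal (𝓞 K))⁰) =
        relNorm₀ K L ⟨𝔓, mem_nonZeroDivisors_of_ne_zero h𝔓ne⟩ := Subtype.ext hN.symm
    rw [this]
    exact classMod_relNorm₀ _
  · -- the pair lemma
    intro 𝔮₁ 𝔮₂ h𝔮₁ h𝔮₂ hne₁ hne₂ hf₁ hf₂ d hd
    have hq₁2 := two_le_absNorm_of_isPrime K hne₁
    have hq₂2 := two_le_absNorm_of_isPrime K hne₂
    set q₁ := Ideal.absNorm 𝔮₁ with hq₁def
    set q₂ := Ideal.absNorm 𝔮₂ with hq₂def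
    have hq0 : q₁ * q₂ ≠ 0 := Nat.mul_ne_zero (by omega) (by omega)
    set B₁ : Finset ℕ := insert p (q₁ * q₂).primeFactors with hB₁
    obtain ⟨r₁, k₁, hr₁, hr₁B, hr₁p, hk₁, hord₁⟩ :=
      exists_prime_not_mem_orderOf_eq_prime_pow p hp2 q₁ hq₁2 B₁
    obtain ⟨r₂, k₂, hr₂, hr₂B, hr₂p, hk₂, hord₂⟩ :=
      exists_prime_not_mem_orderOf_eq_prime_pow p hp2 q₂ hq₂2 (insert r₁ B₁)
    have hr : r₁ ≠ r₂ := by
      rintro rfl
      exact hr₂B (Finset.mem_insert_self _ _)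
    have hcop : ∀ r : ℕ, r.Prime → r ∉ B₁ → ∀ q ∈ ({q₁, q₂} : Finset ℕ), q.Coprime r := by
      intro r hrp hrB q hq
      rw [Nat.coprime_comm, hrp.coprime_iff_not_dvd]
      intro hdvd
      apply hrB
      rw [hB₁, Finset.mem_insert]
      right
      rw [Nat.mem_primeFactors]
      refine ⟨hrp, ?_, hq0⟩
      rcases Finset.mem_insert.mp hq with rfl | hq
      · exact hdvd.trans (dvd_mul_right _ _)
      · rw [Finset.mem_singleton] at hq
        subst hq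
        exact hdvd.trans (dvd_mul_left _ _)
    have hr₂B₁ : r₂ ∉ B₁ := fun h => hr₂B (Finset.mem_insert_of_mem h)
    have hq₁ : q₁.Coprime (r₁ * r₂) :=
      Nat.Coprime.mul_right (hcop r₁ hr₁ hr₁B q₁ (by simp)) (hcop r₂ hr₂ hr₂B₁ q₁ (by simp))
    have hq₂ : q₂.Coprime (r₁ * r₂) :=
      Nat.Coprime.mul_right (hcop r₁ hr₁ hr₁B q₂ (by simp)) (hcop r₂ hr₂ hr₂B₁ q₂ (by simp))
    have hm0 : r₁ * r₂ ≠ 0 := Nat.mul_ne_zero hr₁.ne_zero hr₂.ne_zero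
    haveI : NeZero (r₁ * r₂) := ⟨hm0⟩
    have hpm : (r₁ * r₂).Coprime p := by
      refine Nat.Coprime.mul_left ?_ ?_
      · exact (Nat.coprime_primes hr₁ hp.out).mpr hr₁p
      · exact (Nat.coprime_primes hr₂ hp.out).mpr hr₂p
    haveI : IsAbelianGalois K (CyclotomicField (r₁ * r₂) L) :=
      P3c.isAbelianGalois_top K L (CyclotomicField (r₁ * r₂) L) p hdeg (r₁ * r₂)
    have hG2 : ∀ g : Gal((CyclotomicField (r₁ * r₂) L)/K),
        resGal K K L (CyclotomicField (r₁ * r₂) L) g = 1 →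
        (∀ ζ : CyclotomicField (r₁ * r₂) L, ζ ^ (r₁ * r₂) = 1 → g ζ = ζ) → g = 1 := by
      intro g hg hζ
      refine P3c.eq_one_of_fix K L (CyclotomicField (r₁ * r₂) L) (r₁ * r₂) g (fun x => ?_) hζ
      rw [← resGal_commutes K K L (CyclotomicField (r₁ * r₂) L) g x, hg]
      rfl
    have hG3 : ∀ (σ : Gal(L/K)) (u : ℕ), u.Coprime (r₁ * r₂) →
        ∃ g : Gal((CyclotomicField (r₁ * r₂) L)/K),
          resGal K K L (CyclotomicField (r₁ * r₂) L) g = σ ∧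
          ∀ ζ : CyclotomicField (r₁ * r₂) L, ζ ^ (r₁ * r₂) = 1 → g ζ = ζ ^ u := by
      intro σ u hu
      obtain ⟨g, hgL, hgζ⟩ := P3c.exists_gal_of_pair K L (CyclotomicField (r₁ * r₂) L) p hdeg hnonab
        (r₁ * r₂) hpm σ u hu
      refine ⟨g, ?_, hgζ⟩
      ext x
      apply (algebraMap L (CyclotomicField (r₁ * r₂) L)).injective
      rw [resGal_commutes K K L (CyclotomicField (r₁ * r₂) L) g x, hgL]
    exact classMod_eq_pow_of_cyclotomic (Ω := CyclotomicField (r₁ * r₂) L) hcard hunr hr₁ hr₂ hr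
      hr₁p hr₂p hG2 hG3
      (fun F hF => P3c.isCyclotomicExtension_of_fix K L (CyclotomicField (r₁ * r₂) L) (r₁ * r₂) F hF)
      𝔮₁ 𝔮₂ hne₁ hne₂ hq₁ hq₂ hk₁ hk₂ hord₁ hord₂ hf₁ hf₂ d hd

end Main

end Fermat.Agent.CFT
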