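import Mathlib

/-!
# S14 moonshot, package P3c-G1: irreducibility of cyclotomic polynomials over `L`

`K = ℚ(ζ_p)`, `L/K` of prime degree `p`, `L/ℚ` Galois with non-commutative Galois group, `m` prime
to `p`: then `cyclotomic m L` is irreducible (equivalently `[L(ζ_m) : L] = φ(m)`).

Proof: inside `Ω = L(ζ_m)`, the intersection `A = L ∩ ℚ(ζ_m)` is abelian over `ℚ`; `K·A ⊆ L` is
contained in `ℚ(ζ_p, ζ_m) = ℚ(ζ_{pm})`, hence abelian over `ℚ`, hence `≠ L`; as `[L : K]` is prime,
`K·A = K`, so `A ⊆ ℚ(ζ_p) ∩ ℚ(ζ_m) = ℚ` (degrees: `φ(pm) = φ(p) φ(m)`).  So `ℚ(ζ_m)` (Galois over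
`ℚ`) and `L` are linearly disjoint over `ℚ` and `[L(ζ_m) : L] = [ℚ(ζ_m) : ℚ] = φ(m)`.
-/

set_option autoImplicit false

open IntermediateField Polynomial

namespace Fermat.Agent.CFT

section FieldTheory

variable {F E : Type*} [Field F] [Field E] [Algebra F E]

/-- `Kq ≤ Lq` with `[Lq : Kq] = p` prime, `Lq/F` not abelian, `C` with `(Kq ⊔ C)/F` abelian and
`Kq ⊓ C = ⊥`: then `C ⊓ Lq = ⊥`. -/
theorem inf_eq_bot_of_not_isAbelianGalois (Kq Lq C : IntermediateField F E) {p : ℕ}
    (hp : p.Prime) [FiniteDimensional F Lq] (hKL : Kq ≤ Lq)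
    (hdeg : Module.finrank F Lq = p * Module.finrank F Kq)
    [hab : IsAbelianGalois F ↥(Kq ⊔ C)] (hnonab : ¬ IsAbelianGalois F Lq)
    (hKC : Kq ⊓ C = ⊥) : C ⊓ Lq = ⊥ := by
  set B : IntermediateField F E := Kq ⊔ (C ⊓ Lq) with hB
  have hB1 : Kq ≤ B := le_sup_left
  have hB2 : B ≤ Lq := sup_le hKL inf_le_right
  have hB3 : B ≤ Kq ⊔ C := sup_le_sup_left inf_le_left _
  have hBab : IsAbelianGalois F B := IsAbelianGalois.of_algHom (IntermediateField.inclusion hB3)
  have hBne : B ≠ Lq := by
    intro h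
    exact hnonab (h ▸ hBab)
  have hfinK : FiniteDimensional F Kq :=
    Module.Finite.of_injective (IntermediateField.inclusion hKL).toLinearMap
      (IntermediateField.inclusion_injective hKL)
  have hfinB : FiniteDimensional F B :=
    Module.Finite.of_injective (IntermediateField.inclusion hB2).toLinearMap
      (IntermediateField.inclusion_injective hB2)
  have hd1 : Module.finrank F Kq ∣ Module.finrank F B := finrank_dvd_of_le_right hB1
  have hd2 : Module.finrank F B ∣ Module.finrank F Lq := finrank_dvd_of_le_right hB2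
  have hKpos : 0 < Module.finrank F Kq := Module.finrank_pos
  obtain ⟨d, hd⟩ := hd1
  rw [hdeg, hd, mul_comm p, Nat.mul_dvd_mul_iff_left hKpos] at hd2
  rcases (Nat.dvd_prime hp).mp hd2 with h1 | h1
  · -- `B = Kq`
    have hBK : Kq = B := eq_of_le_of_finrank_eq hB1 (by rw [hd, h1, mul_one])
    have hle : C ⊓ Lq ≤ Kq := by rw [hBK]; exact le_sup_right
    exact le_bot_iff.mp (hKC ▸ le_inf hle inf_le_left)
  · exact absurd (eq_of_le_of_finrank_eq hB2 (by rw [hd, h1, hdeg, mul_comm])) hBne

/-- Two cyclotomic subextensions of coprime orders, over a base field over which all cyclotomic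
polynomials are irreducible, meet trivially. -/
theorem cyclotomic_inf_eq_bot (hirr : ∀ n : ℕ, 0 < n → Irreducible (cyclotomic n F))
    (n₁ n₂ : ℕ) [NeZero n₁] [NeZero n₂] (h : n₁.Coprime n₂)
    (F₁ F₂ : IntermediateField F E) [IsCyclotomicExtension {n₁} F F₁]
    [IsCyclotomicExtension {n₂} F F₂] : F₁ ⊓ F₂ = ⊥ := by
  have h12 : IsCyclotomicExtension {n₁.lcm n₂} F ↥(F₁ ⊔ F₂) :=
    IntermediateField.isCyclotomicExtension_lcm_sup F E n₁ n₂ F₁ F₂
  have hne : NeZero (n₁.lcm n₂) := ⟨Nat.lcm_ne_zero (NeZero.ne _) (NeZero.ne _)⟩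
  have hf1 : FiniteDimensional F F₁ := IsCyclotomicExtension.finite_of_singleton n₁ F F₁
  have hf2 : FiniteDimensional F F₂ := IsCyclotomicExtension.finite_of_singleton n₂ F F₂
  have e1 : Module.finrank F F₁ = n₁.totient :=
    IsCyclotomicExtension.finrank F₁ (hirr _ (NeZero.pos n₁))
  have e2 : Module.finrank F F₂ = n₂.totient :=
    IsCyclotomicExtension.finrank F₂ (hirr _ (NeZero.pos n₂))
  have e12 : Module.finrank F ↥(F₁ ⊔ F₂) = (n₁.lcm n₂).totient :=
    IsCyclotomicExtension.finrank _ (hirr _ (NeZero.pos _))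
  refine (LinearDisjoint.of_finrank_sup ?_).inf_eq_bot
  rw [e12, e1, e2, h.lcm_eq_mul, Nat.totient_mul h]

end FieldTheory

section Core

variable {k K L Ω : Type*} [Field k] [Field K] [Field L] [Field Ω]
  [Algebra k K] [Algebra k L] [Algebra K L] [IsScalarTower k K L]
  [Algebra k Ω] [Algebra L Ω] [IsScalarTower k L Ω]

/-- `[L(ζ_m) : L] = φ(m)` for `L` of prime degree `p` over `K = k(ζ_p)`, not abelian over `k`,
`m` prime to `p` (`k` a field over which all cyclotomic polynomials are irreducible). -/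
theorem finrank_eq_totient_of_not_isAbelianGalois
    (hirr : ∀ n : ℕ, 0 < n → Irreducible (cyclotomic n k))
    {p m : ℕ} (hp : p.Prime) [NeZero m] (hpm : m.Coprime p)
    [IsCyclotomicExtension {p} k K] [FiniteDimensional K L] (hdeg : Module.finrank K L = p)
    (hnonab : ¬ IsAbelianGalois k L) [IsCyclotomicExtension {m} L Ω] :
    Module.finrank L Ω = m.totient := by
  have : NeZero p := ⟨hp.ne_zero⟩
  let f : L →ₐ[k] Ω := IsScalarTower.toAlgHom k L Ω
  let g : K →ₐ[k] Ω := f.comp (IsScalarTower.toAlgHom k K L)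
  let Lq : IntermediateField k Ω := f.fieldRange
  let Kq : IntermediateField k Ω := g.fieldRange
  let eL : L ≃ₐ[k] Lq := AlgEquiv.ofInjectiveField f
  let eK : K ≃ₐ[k] Kq := AlgEquiv.ofInjectiveField g
  have hKcyc : IsCyclotomicExtension {p} k Kq := IsCyclotomicExtension.equiv {p} k K eK
  have hfK : FiniteDimensional k K := IsCyclotomicExtension.finite_of_singleton p k K
  have hfL : FiniteDimensional k L := Module.Finite.trans K L
  have hfLq : FiniteDimensional k Lq := Module.Finite.equiv eL.toLinearEquiv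
  have hintL : Algebra.IsIntegral k L := Algebra.IsIntegral.of_finite k L
  have hintΩL : Algebra.IsIntegral L Ω := IsCyclotomicExtension.integral {m} L Ω
  have hintΩ : Algebra.IsIntegral k Ω := Algebra.IsIntegral.trans (A := L)
  set ζ : Ω := IsCyclotomicExtension.zeta m L Ω with hζdef
  have hζ : IsPrimitiveRoot ζ m := IsCyclotomicExtension.zeta_spec m L Ω
  let C : IntermediateField k Ω := IntermediateField.adjoin k {ζ}
  have hCcyc : IsCyclotomicExtension {m} k C :=
    hζ.intermediateField_adjoin_isCyclotomicExtension k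
  have hKL : Kq ≤ Lq := by
    rintro x ⟨y, rfl⟩
    exact ⟨algebraMap K L y, rfl⟩
  have hdegL : Module.finrank k Lq = p * Module.finrank k Kq := by
    rw [← eL.toLinearEquiv.finrank_eq, ← eK.toLinearEquiv.finrank_eq,
      ← Module.finrank_mul_finrank k K L, hdeg, mul_comm]
  have hne : NeZero (p.lcm m) := ⟨Nat.lcm_ne_zero (NeZero.ne _) (NeZero.ne _)⟩
  have h12 : IsCyclotomicExtension {p.lcm m} k ↥(Kq ⊔ C) :=
    IntermediateField.isCyclotomicExtension_lcm_sup k Ω p m Kq C
  have hab : IsAbelianGalois k ↥(Kq ⊔ C) := IsCyclotomicExtension.isAbelianGalois {p.lcm m} k _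
  have hnonab' : ¬ IsAbelianGalois k Lq := fun h =>
    hnonab (IsAbelianGalois.of_algHom eL.toAlgHom)
  have hKC : Kq ⊓ C = ⊥ := cyclotomic_inf_eq_bot hirr p m hpm.symm Kq C
  have hCL : C ⊓ Lq = ⊥ := inf_eq_bot_of_not_isAbelianGalois Kq Lq C hp hKL hdegL hnonab' hKC
  have hCgal : IsGalois k C := IsCyclotomicExtension.isGalois {m} k C
  have hfC : FiniteDimensional k C := IsCyclotomicExtension.finite_of_singleton m k C
  have hdisj : C.LinearDisjoint Lq := LinearDisjoint.of_inf_eq_bot hCL
  have hdisj' : C.LinearDisjoint L := by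
    rw [linearDisjoint_iff'] at hdisj
    exact hdisj
  have hrank := hdisj'.adjoin_rank_eq_rank_left_of_isAlgebraic_left
  have htop : adjoin L (C : Set Ω) = ⊤ := by
    rw [eq_top_iff]
    have h1 : adjoin L {ζ} = ⊤ := by
      rw [← toSubalgebra_inj, adjoin_simple_toSubalgebra_of_isAlgebraic
        (Algebra.IsAlgebraic.isAlgebraic ζ), top_toSubalgebra]
      exact IsCyclotomicExtension.adjoin_primitive_root_eq_top hζ
    rw [← h1]
    exact adjoin.mono L _ _ (Set.singleton_subset_iff.mpr (mem_adjoin_simple_self k ζ))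
  rw [htop] at hrank
  have hfin : Module.finrank L Ω = Module.finrank k C := by
    have := congrArg Cardinal.toNat hrank
    rwa [← Module.finrank, ← Module.finrank, finrank_top'] at this
  rw [hfin]
  exact IsCyclotomicExtension.finrank C (hirr _ (NeZero.pos m))

end Core

/-- If `[L(ζ_m) : L] = φ(m)` then `cyclotomic m L` is irreducible. -/
theorem irreducible_cyclotomic_of_finrank_eq_totient {L Ω : Type*} [Field L] [Field Ω]
    [Algebra L Ω] {m : ℕ} [NeZero m] [IsCyclotomicExtension {m} L Ω]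
    (h : Module.finrank L Ω = m.totient) : Irreducible (cyclotomic m L) := by
  have hζ : IsPrimitiveRoot (IsCyclotomicExtension.zeta m L Ω) m :=
    IsCyclotomicExtension.zeta_spec m L Ω
  set ζ : Ω := IsCyclotomicExtension.zeta m L Ω
  have hdvd : minpoly L ζ ∣ cyclotomic m L := by
    apply minpoly.dvd
    rw [aeval_def, eval₂_eq_eval_map, map_cyclotomic]
    exact hζ.isRoot_cyclotomic (NeZero.pos m)
  have hdeg : (minpoly L ζ).natDegree = m.totient := by
    rw [← h, (hζ.powerBasis L).finrank, IsPrimitiveRoot.powerBasis_dim]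
  have hint : IsIntegral L ζ := (IsCyclotomicExtension.integral {m} L Ω).isIntegral ζ
  have heq : cyclotomic m L = minpoly L ζ :=
    eq_of_monic_of_dvd_of_natDegree_le (minpoly.monic hint) (cyclotomic.monic m L) hdvd
      (by rw [hdeg, natDegree_cyclotomic])
  rw [heq]
  exact minpoly.irreducible hint

section Final

/-- **P3c-G1.** `K = ℚ(ζ_p)`, `L/K` Galois of degree `p`, `L/ℚ` Galois and not abelian, `m` prime
to `p`: the `m`-th cyclotomic polynomial is irreducible over `L`. -/
theorem irreducible_cyclotomic_of_not_isMulCommutative (p : ℕ) [Fact p.Prime]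
    (K L : Type*) [Field K] [NumberField K] [Field L] [NumberField L] [Algebra K L]
    [IsCyclotomicExtension {p} ℚ K] [IsGalois K L] (hdeg : Module.finrank K L = p)
    [IsGalois ℚ L] (hnonab : ¬ IsMulCommutative Gal(L/ℚ)) (m : ℕ) [NeZero m]
    (hm : m.Coprime p) : Irreducible (Polynomial.cyclotomic m L) := by
  have hirr : ∀ n : ℕ, 0 < n → Irreducible (cyclotomic n ℚ) :=
    fun n hn => cyclotomic.irreducible_rat hn
  have hnonab' : ¬ IsAbelianGalois ℚ L := fun h => hnonab h.toIsMulCommutative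
  have hfin : Module.finrank L (CyclotomicField m L) = m.totient :=
    finrank_eq_totient_of_not_isAbelianGalois (k := ℚ) (K := K) (L := L)
      (Ω := CyclotomicField m L) hirr (Fact.out : p.Prime) hm hdeg hnonab'
  exact irreducible_cyclotomic_of_finrank_eq_totient (Ω := CyclotomicField m L) hfin

/-- Variant: the degree of any `m`-th cyclotomic extension `Ω` of `L`. -/
theorem finrank_cyclotomic_of_not_isMulCommutative (p : ℕ) [Fact p.Prime]
    (K L : Type*) [Field K] [NumberField K] [Field L] [NumberField L] [Algebra K L]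
    [IsCyclotomicExtension {p} ℚ K] [IsGalois K L] (hdeg : Module.finrank K L = p)
    [IsGalois ℚ L] (hnonab : ¬ IsMulCommutative Gal(L/ℚ)) (m : ℕ) [NeZero m]
    (hm : m.Coprime p) (Ω : Type*) [Field Ω] [Algebra L Ω] [IsCyclotomicExtension {m} L Ω] :
    Module.finrank L Ω = m.totient :=
  IsCyclotomicExtension.finrank Ω
    (irreducible_cyclotomic_of_not_isMulCommutative p K L hdeg hnonab m hm)

end Final

end Fermat.Agent.CFT
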