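/-
S14 side project (class field theory), package P3c, second file: the statements of
`P3cGalois.lean` in the exact shapes consumed by the crossing argument (P3b):
`G0`, `G1`, `G2`, `G3` (with the irreducibility of the cyclotomic polynomial as a hypothesis),
`G4`, stated with `resGal` from `P1Tower`.
-/
import Fermat.Agent.CFT.P1Tower
import Fermat.Agent.CFT.P3cGalois

set_option linter.unusedSectionVars false
set_option linter.style.haveILetI false

namespace Fermat.Agent.CFT.P3c

open NumberField IntermediateField Polynomial Module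

section Shapes

variable (K L Ω : Type*) [Field K] [NumberField K] [Field L] [NumberField L] [Field Ω]
  [NumberField Ω] [Algebra K L] [Algebra K Ω] [Algebra L Ω] [IsScalarTower K L Ω]
  (m : ℕ) [NeZero m]

/-- `resGal` is the first component of `galProd`. -/
theorem resGal_eq_galProd_fst [IsGalois K L] {ζ : Ω} (hz : IsPrimitiveRoot ζ m) (g : Gal(Ω/K)) :
    resGal K K L Ω g = (galProd K L Ω hz g).1 := by
  ext x
  apply (algebraMap L Ω).injective
  rw [resGal_commutes, galProd_fst]

open scoped IsMulCommutative in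
/-- G0: `Ω = L(ζ_m)` is abelian over `K` as soon as `L` is. -/
theorem G0 [IsAbelianGalois K L] [IsCyclotomicExtension {m} L Ω] : IsAbelianGalois K Ω := by
  have hgal : IsGalois K Ω := isGalois_top K L Ω m
  obtain ⟨ζ, hz⟩ := IsCyclotomicExtension.exists_isPrimitiveRoot L Ω (Set.mem_singleton m)
    (NeZero.ne m)
  refine { hgal with is_comm := ⟨fun g h => ?_⟩ }
  apply galProd_injective K L Ω hz
  rw [map_mul, map_mul, mul_comm]

/-- G2. -/
theorem G2 [IsGalois K L] [IsCyclotomicExtension {m} L Ω] :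
    ∀ g : Gal(Ω/K), resGal K K L Ω g = 1 → (∀ ζ : Ω, ζ ^ m = 1 → g ζ = ζ) → g = 1 := by
  intro g hg hζ
  apply eq_one_of_fix K L Ω m g _ hζ
  intro x
  rw [← resGal_commutes K K L Ω g x, hg]
  rfl

/-- the pair map is bijective as soon as the cyclotomic polynomial is irreducible over `L`. -/
theorem galProd_bijective_of_irreducible [IsGalois K L] [IsCyclotomicExtension {m} L Ω]
    (hirr : Irreducible (Polynomial.cyclotomic m L)) {ζ : Ω} (hz : IsPrimitiveRoot ζ m) :
    Function.Bijective (galProd K L Ω hz) := by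
  have hgal : IsGalois K Ω := isGalois_top K L Ω m
  rw [Nat.bijective_iff_injective_and_card]
  refine ⟨galProd_injective K L Ω hz, ?_⟩
  rw [Nat.card_prod, IsGalois.card_aut_eq_finrank, IsGalois.card_aut_eq_finrank,
    ← Module.finrank_mul_finrank K L Ω, IsCyclotomicExtension.finrank Ω hirr,
    Nat.card_eq_fintype_card, ZMod.card_units_eq_totient]

/-- G3. -/
theorem G3 [IsGalois K L] [IsCyclotomicExtension {m} L Ω]
    (hirr : Irreducible (Polynomial.cyclotomic m L)) :
    ∀ (σ : Gal(L/K)) (u : ℕ), u.Coprime m →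
      ∃ g : Gal(Ω/K), resGal K K L Ω g = σ ∧ ∀ ζ : Ω, ζ ^ m = 1 → g ζ = ζ ^ u := by
  intro σ u hu
  obtain ⟨ζ, hz⟩ := IsCyclotomicExtension.exists_isPrimitiveRoot L Ω (Set.mem_singleton m)
    (NeZero.ne m)
  obtain ⟨g, hg⟩ := (galProd_bijective_of_irreducible K L Ω m hirr hz).2
    (σ, ZMod.unitOfCoprime u hu)
  refine ⟨g, ?_, ?_⟩
  · rw [resGal_eq_galProd_fst K L Ω m hz g, hg]
  · have h1 : g ζ = ζ ^ u := by
      rw [galProd_snd K L Ω hz g, hg]
      simp only [ZMod.coe_unitOfCoprime, ZMod.val_natCast]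
      have := pow_mod_orderOf ζ u
      rwa [← hz.eq_orderOf] at this
    exact map_root_of_map_primitive K Ω hz g u h1

/-- G4. -/
theorem G4 [IsGalois K L] [IsCyclotomicExtension {m} L Ω] (F : IntermediateField K Ω)
    (h : ∀ g : Gal(Ω/K), (∀ x ∈ F, g x = x) → (∀ ζ : Ω, ζ ^ m = 1 → g ζ = ζ) → g = 1) :
    IsCyclotomicExtension {m} F Ω :=
  isCyclotomicExtension_of_fix K L Ω m F h

end Shapes

/-- G1: the `m`-th cyclotomic polynomial is irreducible over `L`, where `L` is a Galois
extension of degree `p` of `K = ℚ(ζ_p)` with `Gal(L/ℚ)` non-commutative and `m` is prime to `p`. -/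
theorem G1 (p : ℕ) [Fact p.Prime] (K L : Type*) [Field K] [NumberField K] [Field L]
    [NumberField L] [Algebra K L] (m : ℕ) [NeZero m] [IsCyclotomicExtension {p} ℚ K]
    [IsGalois K L] (hdeg : Module.finrank K L = p) [IsGalois ℚ L]
    (hnonab : ¬ IsMulCommutative Gal(L/ℚ)) (hm : m.Coprime p) :
    Irreducible (Polynomial.cyclotomic m L) := by
  exact irreducible_cyclotomic K L (CyclotomicField m L) p hdeg hnonab m hm

end Fermat.Agent.CFT.P3c
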