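import Mathlib

/-!
# P6 (part A): a power sum over a finite field

`∑ x : F, x ^ N * (1 - x) ^ N` for `0 < N < #F - 1`.
-/

set_option autoImplicit false

open Finset

namespace Fermat.Agent.CFT.P6

variable {F : Type*} [Field F] [Fintype F]

/-- `∑_{x ∈ F} x ^ k` for `0 < k < 2 (#F - 1)`. -/
theorem sum_pow_eq_ite {k : ℕ} (hk0 : 0 < k) (hk : k < 2 * (Fintype.card F - 1)) :
    ∑ x : F, x ^ k = if k = Fintype.card F - 1 then -1 else 0 := by
  classical
  let φ : Fˣ ↪ F := ⟨fun x ↦ x, Units.val_injective⟩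
  have hmap : univ.map φ = univ \ {(0 : F)} := by
    ext x
    simpa only [mem_map, mem_univ, Function.Embedding.coeFn_mk, true_and, mem_sdiff,
      mem_singleton, φ] using! isUnit_iff_ne_zero
  have h1 : ∑ x : F, x ^ k = ∑ x : Fˣ, (x ^ k : F) := by
    calc ∑ x : F, x ^ k = ∑ x ∈ univ \ {(0 : F)}, x ^ k := by
          rw [← sum_sdiff ({0} : Finset F).subset_univ, sum_singleton, zero_pow hk0.ne', add_zero]
      _ = ∑ x : Fˣ, (x ^ k : F) := by simp [φ, ← hmap, univ.sum_map φ]
  rw [h1, FiniteField.sum_pow_units F k]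
  have hq : 1 < Fintype.card F := Fintype.one_lt_card
  by_cases h : k = Fintype.card F - 1
  · rw [if_pos h, if_pos (h ▸ dvd_rfl)]
  · rw [if_neg h, if_neg]
    rintro ⟨c, hc⟩
    rcases c with _ | _ | c
    · omega
    · omega
    · have : 2 * (Fintype.card F - 1) ≤ k := by
        rw [hc]; nlinarith [Nat.zero_le c, Nat.zero_le (Fintype.card F - 1)]
      omega

/-- The key power sum: for `0 < N < #F - 1`,
`∑ x, x^N (1-x)^N = -(-1)^(#F-1-N) * C(N, #F-1-N)` if `#F - 1 ≤ 2N`, and `0` otherwise. -/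
theorem sum_pow_mul_one_sub_pow {N : ℕ} (hN0 : 0 < N) (hN : N < Fintype.card F - 1) :
    ∑ x : F, x ^ N * (1 - x) ^ N =
      if Fintype.card F - 1 ≤ 2 * N then
        -((-1 : F) ^ (Fintype.card F - 1 - N) * (N.choose (Fintype.card F - 1 - N) : F))
      else 0 := by
  classical
  have hexp : ∀ x : F, x ^ N * (1 - x) ^ N =
      ∑ m ∈ range (N + 1), ((-1 : F) ^ m * (N.choose m : F)) * x ^ (N + m) := by
    intro x
    have : (1 - x) = (-x) + 1 := by ring
    rw [this, add_pow, mul_sum]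
    refine sum_congr rfl fun m _ => ?_
    rw [one_pow, mul_one, neg_pow, pow_add]
    ring
  simp_rw [hexp]
  rw [sum_comm]
  simp_rw [← mul_sum]
  have hterm : ∀ m ∈ range (N + 1), ((-1 : F) ^ m * (N.choose m : F)) * ∑ x : F, x ^ (N + m) =
      if m = Fintype.card F - 1 - N then -((-1 : F) ^ m * (N.choose m : F)) else 0 := by
    intro m hm
    rw [mem_range] at hm
    rw [sum_pow_eq_ite (by omega) (by omega)]
    by_cases h : m = Fintype.card F - 1 - N
    · rw [if_pos h, if_pos (by omega)]; ring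
    · rw [if_neg h, if_neg (by omega), mul_zero]
  rw [sum_congr rfl hterm, sum_ite_eq']
  by_cases h : Fintype.card F - 1 ≤ 2 * N
  · rw [if_pos h, if_pos (by rw [mem_range]; omega)]
  · rw [if_neg h, if_neg (by rw [mem_range]; omega)]

end Fermat.Agent.CFT.P6
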