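import Mathlib
import Fermat.Agent.CFT.P6FiniteField

/-!
# P6: Jacobi sums in `ℚ(ζ_p)` and the Stickelberger element for `c = 2`

Let `K = ℚ(ζ_p)`, `p` an odd prime, and `Q` a prime of `𝓞 K` of absolute norm a prime `q ≠ p`
(a prime of degree one).  Let `χ` be the `p`-th power residue character of `𝓞 K ⧸ Q`, with values
in `μ_p ⊆ 𝓞 K`, and `J = J(χ, χ)` its Jacobi sum.  Then for `σ ∈ Gal(K/ℚ)` with `σ ζ = ζ ^ a`,
`1 ≤ a ≤ p - 1`:  `σ J ∈ Q ↔ 2 a < p`,  and hence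
`(J) = ∏_{σ : 2 a(σ) < p} σ⁻¹ Q`.
-/

set_option autoImplicit false
set_option linter.unusedSectionVars false
set_option linter.style.haveILetI false

open NumberField Ideal IsCyclotomicExtension IsCyclotomicExtension.Rat Finset
open scoped Pointwise

namespace Fermat.Agent.CFT.P6

attribute [local instance] Ideal.Quotient.field

variable (p : ℕ) [hp : Fact p.Prime] (K : Type*) [Field K] [NumberField K]
  [IsCyclotomicExtension {p} ℚ K]

/-- the chosen primitive `p`-th root of unity in `𝓞 K`. -/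
noncomputable def zetaInt : 𝓞 K := (zeta_spec p ℚ K).toInteger

theorem zetaInt_isPrimitiveRoot : IsPrimitiveRoot (zetaInt p K) p :=
  (zeta_spec p ℚ K).toInteger_isPrimitiveRoot

variable {p K}
variable {Q : Ideal (𝓞 K)} [hQmax : Q.IsMaximal] {q : ℕ}

section residue

variable (hq : q.Prime) (hqp : q ≠ p) (hQ : absNorm Q = q)
include hq hqp hQ

theorem card_quot [Fintype (𝓞 K ⧸ Q)] : Fintype.card (𝓞 K ⧸ Q) = q := by
  rw [← Nat.card_eq_fintype_card, ← Submodule.cardQuot_apply, ← Ideal.absNorm_apply, hQ]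

theorem absNorm_ne_one : absNorm Q ≠ 1 := by
  rw [hQ]; exact hq.one_lt.ne'

theorem absNorm_coprime : (absNorm Q).Coprime p := by
  rw [hQ]; exact (Nat.coprime_primes hq hp.out).mpr hqp

/-- the reduction of `ζ` is a primitive `p`-th root of unity in the residue field. -/
theorem mk_zetaInt_isPrimitiveRoot :
    IsPrimitiveRoot (Ideal.Quotient.mk Q (zetaInt p K)) p :=
  (zetaInt_isPrimitiveRoot p K).idealQuotient_mk (absNorm_ne_one hq hqp hQ)
    (absNorm_coprime hq hqp hQ)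

theorem p_dvd_q_sub_one : p ∣ q - 1 := by
  classical
  haveI : Fintype (𝓞 K ⧸ Q) := Fintype.ofFinite _
  have hz := mk_zetaInt_isPrimitiveRoot hq hqp hQ
  have h1 : (Ideal.Quotient.mk Q (zetaInt p K)) ^ (Fintype.card (𝓞 K ⧸ Q) - 1) = 1 :=
    FiniteField.pow_card_sub_one_eq_one _ (hz.ne_zero hp.out.ne_zero)
  rw [card_quot hq hqp hQ] at h1
  exact hz.dvd_of_pow_eq_one _ h1

/-- reduction modulo `Q` is injective on `p`-th roots of unity. -/
theorem eq_of_pow_eq_one_of_mk_eq {y₁ y₂ : 𝓞 K} (h₁ : y₁ ^ p = 1) (h₂ : y₂ ^ p = 1)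
    (h : Ideal.Quotient.mk Q y₁ = Ideal.Quotient.mk Q y₂) : y₁ = y₂ := by
  have hζ := zetaInt_isPrimitiveRoot p K
  have hz := mk_zetaInt_isPrimitiveRoot hq hqp hQ
  obtain ⟨i, hi, rfl⟩ := hζ.eq_pow_of_pow_eq_one h₁
  obtain ⟨j, hj, rfl⟩ := hζ.eq_pow_of_pow_eq_one h₂
  rw [map_pow, map_pow] at h
  rw [hz.pow_inj hi hj h]

/-- existence of the `p`-th power residue character modulo `Q`, with values in `𝓞 K`. -/
theorem exists_mulChar :
    ∃ χ : MulChar (𝓞 K ⧸ Q) (𝓞 K), (∀ x, x ≠ 0 → (χ x) ^ p = 1) ∧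
      ∀ x, Ideal.Quotient.mk Q (χ x) = x ^ ((q - 1) / p) := by
  classical
  haveI : Fintype (𝓞 K ⧸ Q) := Fintype.ofFinite _
  have hζ := zetaInt_isPrimitiveRoot p K
  have hz := mk_zetaInt_isPrimitiveRoot hq hqp hQ
  obtain ⟨m, hm⟩ := p_dvd_q_sub_one hq hqp hQ
  have hmdiv : (q - 1) / p = m := by rw [hm, Nat.mul_div_cancel_left _ hp.out.pos]
  have hm0 : 0 < m := by
    rcases Nat.eq_zero_or_pos m with h | h
    · rw [h, mul_zero] at hm; have := hq.one_lt; omega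
    · exact h
  rw [hmdiv]
  have hex : ∀ x : 𝓞 K ⧸ Q, ∃ y : 𝓞 K, (x ≠ 0 → y ^ p = 1) ∧ (x = 0 → y = 0) ∧
      Ideal.Quotient.mk Q y = x ^ m := by
    intro x
    by_cases hx : x = 0
    · exact ⟨0, fun h => absurd hx h, fun _ => rfl, by rw [hx, map_zero, zero_pow hm0.ne']⟩
    · have hxp : (x ^ m) ^ p = 1 := by
        rw [← pow_mul, mul_comm, ← hm, ← card_quot hq hqp hQ]
        exact FiniteField.pow_card_sub_one_eq_one _ hx
      obtain ⟨i, -, hi⟩ := hz.eq_pow_of_pow_eq_one hxp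
      refine ⟨zetaInt p K ^ i, fun _ => ?_, fun h => absurd h hx, by rw [map_pow, hi]⟩
      rw [← pow_mul, mul_comm, pow_mul, hζ.pow_eq_one, one_pow]
  choose f hf using hex
  have hinj := @eq_of_pow_eq_one_of_mk_eq p hp K _ _ _ Q _ q hq hqp hQ
  have hf1 : f 1 = 1 := by
    refine hinj ((hf 1).1 one_ne_zero) (one_pow p) ?_
    rw [(hf 1).2.2, one_pow, map_one]
  have hfmul : ∀ x y, f (x * y) = f x * f y := by
    intro x y
    by_cases hx : x = 0
    · rw [hx, zero_mul, (hf 0).2.1 rfl, zero_mul]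
    by_cases hy : y = 0
    · rw [hy, mul_zero, (hf 0).2.1 rfl, mul_zero]
    refine hinj ((hf _).1 (mul_ne_zero hx hy)) ?_ ?_
    · rw [mul_pow, (hf x).1 hx, (hf y).1 hy, one_mul]
    · rw [(hf _).2.2, map_mul, (hf x).2.2, (hf y).2.2, mul_pow]
  refine ⟨{ toFun := f, map_one' := hf1, map_mul' := hfmul, map_nonunit' := ?_ }, ?_, ?_⟩
  · intro a ha
    rw [isUnit_iff_ne_zero, not_not] at ha
    exact (hf a).2.1 ha
  · intro x hx; exact (hf x).1 hx
  · intro x; exact (hf x).2.2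

end residue

section galois

variable (p) in
/-- the exponent `a` with `σ ζ = ζ ^ a`, `1 ≤ a ≤ p - 1`. -/
noncomputable def expo (σ : Gal(K/ℚ)) : ℕ := (galEquivZMod p K σ).val.val

theorem expo_lt (σ : Gal(K/ℚ)) : expo p σ < p := ZMod.val_lt _

theorem expo_pos (σ : Gal(K/ℚ)) : 0 < expo p σ := by
  have : Fact (1 < p) := ⟨hp.out.one_lt⟩
  rw [expo, Nat.pos_iff_ne_zero, Ne, ZMod.val_eq_zero]
  exact (galEquivZMod p K σ).ne_zero

theorem smul_eq_pow (σ : Gal(K/ℚ)) {x : 𝓞 K} (hx : x ^ p = 1) : σ • x = x ^ expo p σ :=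
  galEquivZMod_smul_of_pow_eq p K σ hx

theorem expo_symm_apply (u : (ZMod p)ˣ) : expo p ((galEquivZMod p K).symm u) = u.val.val := by
  rw [expo, MulEquiv.apply_symm_apply]

theorem expo_injective : Function.Injective (expo p : Gal(K/ℚ) → ℕ) := by
  intro σ τ h
  apply (galEquivZMod p K).injective
  exact Units.ext (ZMod.val_injective p h)

theorem exists_expo_eq {a : ℕ} (ha0 : 0 < a) (hap : a < p) : ∃ σ : Gal(K/ℚ), expo p σ = a := by
  have hcop : a.Coprime p := by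
    rw [Nat.coprime_comm]
    exact (Nat.Prime.coprime_iff_not_dvd hp.out).mpr (Nat.not_dvd_of_pos_of_lt ha0 hap)
  refine ⟨(galEquivZMod p K).symm (ZMod.unitOfCoprime a hcop), ?_⟩
  rw [expo_symm_apply, ZMod.coe_unitOfCoprime, ZMod.val_natCast_of_lt hap]

theorem image_expo_filter (hp2 : p ≠ 2) [Fintype Gal(K/ℚ)]
    [DecidablePred fun σ : Gal(K/ℚ) => 2 * expo p σ < p] :
    (Finset.univ.filter (fun σ : Gal(K/ℚ) => 2 * expo p σ < p)).image (expo p) =
      Finset.Icc 1 ((p - 1) / 2) := by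
  have hodd : p = 2 * ((p - 1) / 2) + 1 := by
    have := hp.out.eq_one_or_self_of_dvd 2
    have h2le := hp.out.two_le
    rcases Nat.even_or_odd p with he | ho
    · exact absurd ((this he.two_dvd).resolve_left (by norm_num)).symm hp2
    · obtain ⟨k, hk⟩ := ho; omega
  ext a
  simp only [Finset.mem_image, Finset.mem_filter, Finset.mem_univ, true_and, Finset.mem_Icc]
  constructor
  · rintro ⟨σ, hσ, rfl⟩
    have := expo_pos (p := p) σ
    omega
  · rintro ⟨h1, h2⟩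
    obtain ⟨σ, hσ⟩ := exists_expo_eq (p := p) (K := K) (a := a) (by omega) (by omega)
    exact ⟨σ, by omega, hσ⟩

theorem card_filter_expo (hp2 : p ≠ 2) [Fintype Gal(K/ℚ)]
    [DecidablePred fun σ : Gal(K/ℚ) => 2 * expo p σ < p] :
    (Finset.univ.filter (fun σ : Gal(K/ℚ) => 2 * expo p σ < p)).card = (p - 1) / 2 := by
  rw [← Finset.card_image_of_injective _ (expo_injective (p := p) (K := K)),
    image_expo_filter hp2, Nat.card_Icc]
  omega

/-- `∑_{σ : 2 a(σ) < p} a(σ) = (p² - 1)/8`. -/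
theorem sum_expo_filter (hp2 : p ≠ 2) [Fintype Gal(K/ℚ)]
    [DecidablePred fun σ : Gal(K/ℚ) => 2 * expo p σ < p] :
    ∑ σ ∈ Finset.univ.filter (fun σ : Gal(K/ℚ) => 2 * expo p σ < p), expo p σ = (p ^ 2 - 1) / 8 := by
  have hodd : p = 2 * ((p - 1) / 2) + 1 := by
    have := hp.out.eq_one_or_self_of_dvd 2
    have h2le := hp.out.two_le
    rcases Nat.even_or_odd p with he | ho
    · exact absurd ((this he.two_dvd).resolve_left (by norm_num)).symm hp2
    · obtain ⟨k, hk⟩ := ho; omega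
  rw [← Finset.sum_image (s := Finset.univ.filter (fun σ : Gal(K/ℚ) => 2 * expo p σ < p))
    (g := expo p) (f := fun a => a) (fun a _ b _ h => expo_injective h), image_expo_filter hp2]
  set k := (p - 1) / 2 with hk
  have h1 : ∑ a ∈ Finset.Icc 1 k, a = ∑ a ∈ Finset.range (k + 1), a := by
    rw [Finset.range_eq_Ico, Finset.sum_eq_sum_Ico_succ_bot (by omega)]
    simp only [zero_add]
    rfl
  have h2 := Finset.sum_range_id_mul_two (k + 1)
  rw [Nat.add_sub_cancel] at h2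
  rw [h1]
  set T := ∑ a ∈ Finset.range (k + 1), a with hT
  have h8 : p ^ 2 - 1 = 8 * T := by
    have : p ^ 2 = 8 * T + 1 := by
      rw [hodd]; nlinarith [h2]
    omega
  rw [h8, Nat.mul_div_cancel_left _ (by norm_num)]

theorem eight_mul_sq_sub_one_div_eight (hp2 : p ≠ 2) : 8 * ((p ^ 2 - 1) / 8) = p ^ 2 - 1 := by
  have hodd : ∃ k, p = 2 * k + 1 := by
    have := hp.out.eq_one_or_self_of_dvd 2
    rcases Nat.even_or_odd p with he | ho
    · exact absurd ((this he.two_dvd).resolve_left (by norm_num)).symm hp2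
    · exact ho
  obtain ⟨k, hk⟩ := hodd
  apply Nat.mul_div_cancel'
  have hkk : 2 ∣ k * (k + 1) := (Nat.even_mul_succ_self k).two_dvd
  obtain ⟨c, hc⟩ := hkk
  refine ⟨c, ?_⟩
  have : p ^ 2 = 8 * c + 1 := by rw [hk]; nlinarith [hc]
  omega

/-- `p ∤ (p² - 1)/8` for odd `p`. -/
theorem not_dvd_sq_sub_one_div_eight (hp2 : p ≠ 2) : ¬ p ∣ (p ^ 2 - 1) / 8 := by
  intro h
  have h8 : p ∣ p ^ 2 - 1 := by
    rw [← eight_mul_sq_sub_one_div_eight hp2]; exact Dvd.dvd.mul_left h 8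
  have hpp : p ∣ p ^ 2 := dvd_pow_self p two_ne_zero
  have hpos : 1 ≤ p ^ 2 := Nat.one_le_pow _ _ hp.out.pos
  have h1 : p ∣ 1 := by
    have := (Nat.dvd_sub hpp h8)
    rwa [Nat.sub_sub_self hpos] at this
  exact hp.out.one_lt.ne' (Nat.dvd_one.mp h1)

end galois

section congruence

variable (hq : q.Prime) (hqp : q ≠ p) (hQ : absNorm Q = q)
variable {χ : MulChar (𝓞 K ⧸ Q) (𝓞 K)} (hχ1 : ∀ x, x ≠ 0 → (χ x) ^ p = 1)
  (hχ2 : ∀ x, Ideal.Quotient.mk Q (χ x) = x ^ ((q - 1) / p))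
include hq hqp hQ hχ1 hχ2

theorem smul_mulChar_apply (σ : Gal(K/ℚ)) (x : 𝓞 K ⧸ Q) : σ • χ x = (χ x) ^ expo p σ := by
  by_cases hx : x = 0
  · rw [hx, MulChar.map_zero, smul_zero, zero_pow (expo_pos σ).ne']
  · exact smul_eq_pow σ (hχ1 x hx)

theorem smul_jacobiSum [Fintype (𝓞 K ⧸ Q)] (σ : Gal(K/ℚ)) :
    σ • jacobiSum χ χ = ∑ x : 𝓞 K ⧸ Q, (χ x) ^ expo p σ * (χ (1 - x)) ^ expo p σ := by
  rw [jacobiSum, Finset.smul_sum]
  refine Finset.sum_congr rfl fun x _ => ?_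
  rw [smul_mul', smul_mulChar_apply hq hqp hQ hχ1 hχ2, smul_mulChar_apply hq hqp hQ hχ1 hχ2]

theorem mk_smul_jacobiSum [Fintype (𝓞 K ⧸ Q)] (σ : Gal(K/ℚ)) :
    Ideal.Quotient.mk Q (σ • jacobiSum χ χ) =
      ∑ x : 𝓞 K ⧸ Q, x ^ ((q - 1) / p * expo p σ) * (1 - x) ^ ((q - 1) / p * expo p σ) := by
  rw [smul_jacobiSum hq hqp hQ hχ1 hχ2, map_sum]
  refine Finset.sum_congr rfl fun x _ => ?_
  rw [map_mul, map_pow, map_pow, hχ2, hχ2, ← pow_mul, ← pow_mul]

/-- **Key congruence**: `σ J ∈ Q ↔ 2 a(σ) < p`. -/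
theorem smul_jacobiSum_mem_iff [Fintype (𝓞 K ⧸ Q)] (σ : Gal(K/ℚ)) :
    σ • jacobiSum χ χ ∈ Q ↔ 2 * expo p σ < p := by
  classical
  obtain ⟨m, hm⟩ := p_dvd_q_sub_one hq hqp hQ
  have hmdiv : (q - 1) / p = m := by rw [hm, Nat.mul_div_cancel_left _ hp.out.pos]
  have hm0 : 0 < m := by
    rcases Nat.eq_zero_or_pos m with h | h
    · rw [h, mul_zero] at hm; have := hq.one_lt; omega
    · exact h
  have hcard : Fintype.card (𝓞 K ⧸ Q) = q := card_quot hq hqp hQ
  have ha0 := expo_pos (p := p) σ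
  have hap := expo_lt (p := p) σ
  set a := expo p σ with ha
  have hN0 : 0 < m * a := Nat.mul_pos hm0 ha0
  have hN : m * a < Fintype.card (𝓞 K ⧸ Q) - 1 := by
    rw [hcard, hm, mul_comm p m]; exact Nat.mul_lt_mul_of_pos_left hap hm0
  rw [← Ideal.Quotient.eq_zero_iff_mem, mk_smul_jacobiSum hq hqp hQ hχ1 hχ2, hmdiv,
    sum_pow_mul_one_sub_pow hN0 hN, hcard]
  have hiff : q - 1 ≤ 2 * (m * a) ↔ p ≤ 2 * a := by
    rw [hm, show 2 * (m * a) = m * (2 * a) by ring, mul_comm p m]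
    exact Nat.mul_le_mul_left_iff hm0
  by_cases h : q - 1 ≤ 2 * (m * a)
  · rw [if_pos h]
    have h2 : ¬ 2 * a < p := not_lt.mpr (hiff.mp h)
    refine iff_of_false ?_ h2
    rw [neg_eq_zero, mul_eq_zero, not_or]
    refine ⟨pow_ne_zero _ (neg_ne_zero.mpr one_ne_zero), ?_⟩
    haveI : Fact q.Prime := ⟨hq⟩
    haveI : CharP (𝓞 K ⧸ Q) q := charP_of_card_eq_prime hcard
    intro hzero
    have hdvd : q ∣ (m * a).choose (q - 1 - m * a) := (CharP.cast_eq_zero_iff (𝓞 K ⧸ Q) q _).mp hzero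
    have hle : q - 1 - m * a ≤ m * a := by omega
    have hfac := Nat.choose_mul_factorial_mul_factorial hle
    have hdvd' : q ∣ (m * a).factorial := by
      rw [← hfac]; exact Dvd.dvd.mul_right (Dvd.dvd.mul_right hdvd _) _
    have := (hq.dvd_factorial).mp hdvd'
    rw [hcard] at hN
    omega
  · rw [if_neg h]
    refine iff_of_true rfl ?_
    have := mt hiff.mpr h
    omega

end congruence

section norm

theorem exists_generator {F : Type*} [Field F] [Fintype F] :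
    ∃ g : F, g ≠ 0 ∧ ∀ k : ℕ, g ^ k = 1 → (Fintype.card F - 1) ∣ k := by
  classical
  obtain ⟨g, hg⟩ := IsCyclic.exists_ofOrder_eq_natCard (α := Fˣ)
  refine ⟨g, g.ne_zero, fun k hk => ?_⟩
  rw [Nat.card_eq_fintype_card, Fintype.card_units] at hg
  rw [← hg, orderOf_dvd_iff_pow_eq_one]
  exact Units.ext (by simpa using hk)

variable (hp2 : p ≠ 2) (hq : q.Prime) (hqp : q ≠ p) (hQ : absNorm Q = q)
variable {χ : MulChar (𝓞 K ⧸ Q) (𝓞 K)} (hχ1 : ∀ x, x ≠ 0 → (χ x) ^ p = 1)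
  (hχ2 : ∀ x, Ideal.Quotient.mk Q (χ x) = x ^ ((q - 1) / p))
include hq hqp hQ hχ1 hχ2

theorem mulChar_inv_apply (x : 𝓞 K ⧸ Q) : χ⁻¹ x = (χ x) ^ (p - 1) := by
  have hp1 : p - 1 ≠ 0 := by have := hp.out.two_le; omega
  rw [MulChar.inv_apply']
  by_cases hx : x = 0
  · rw [hx, inv_zero, MulChar.map_zero, zero_pow hp1]
  · have hne : χ x ≠ 0 := by
      intro h0
      have := hχ1 x hx
      rw [h0, zero_pow hp.out.ne_zero] at this
      exact zero_ne_one this
    apply mul_right_cancel₀ hne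
    rw [← map_mul, inv_mul_cancel₀ hx, map_one, ← pow_succ, Nat.sub_add_cancel hp.out.one_le,
      hχ1 x hx]

include hp2 in
theorem mulChar_ne_one_aux : χ ≠ 1 ∧ χ * χ ≠ 1 := by
  classical
  haveI : Fintype (𝓞 K ⧸ Q) := Fintype.ofFinite _
  obtain ⟨m, hm⟩ := p_dvd_q_sub_one hq hqp hQ
  have hmdiv : (q - 1) / p = m := by rw [hm, Nat.mul_div_cancel_left _ hp.out.pos]
  have hm0 : 0 < m := by
    rcases Nat.eq_zero_or_pos m with h | h
    · rw [h, mul_zero] at hm; have := hq.one_lt; omega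
    · exact h
  have hcard : Fintype.card (𝓞 K ⧸ Q) = q := card_quot hq hqp hQ
  obtain ⟨g, hg0, hg⟩ := exists_generator (F := 𝓞 K ⧸ Q)
  rw [hcard, hm] at hg
  have hgu : IsUnit g := isUnit_iff_ne_zero.mpr hg0
  constructor
  · intro h1
    have : χ g = 1 := by rw [h1, MulChar.one_apply hgu]
    have h2 : g ^ m = 1 := by rw [← hmdiv, ← hχ2, this, map_one]
    obtain ⟨c, hc⟩ := hg m h2
    have hp2' := hp.out.two_le
    rcases c with _ | c
    · omega
    · nlinarith [Nat.zero_le c, Nat.zero_le (p * m * c)]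
  · intro h1
    have : χ g * χ g = 1 := by rw [← MulChar.mul_apply, h1, MulChar.one_apply hgu]
    have h2 : g ^ (2 * m) = 1 := by
      rw [two_mul, pow_add, ← hmdiv, ← hχ2, ← map_mul, this, map_one]
    obtain ⟨c, hc⟩ := hg _ h2
    have hdvd : p ∣ 2 := by
      have : m * 2 = m * (p * c) := by rw [mul_comm m 2, hc]; ring
      exact ⟨c, Nat.eq_of_mul_eq_mul_left hm0 this⟩
    have := Nat.le_of_dvd two_pos hdvd
    have := hp.out.two_le
    omega

theorem expo_neg_one : expo p ((galEquivZMod p K).symm (-1)) = p - 1 := by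
  have : Fact (1 < p) := ⟨hp.out.one_lt⟩
  rw [expo_symm_apply, Units.val_neg, Units.val_one, ZMod.neg_val, if_neg one_ne_zero, ZMod.val_one]

include hp2 in
/-- `J * σ₋₁(J) = q`. -/
theorem jacobiSum_mul_smul [Fintype (𝓞 K ⧸ Q)] :
    jacobiSum χ χ * ((galEquivZMod p K).symm (-1) • jacobiSum χ χ) = (q : 𝓞 K) := by
  classical
  have hcard : Fintype.card (𝓞 K ⧸ Q) = q := card_quot hq hqp hQ
  have hJ' : (galEquivZMod p K).symm (-1) • jacobiSum χ χ = jacobiSum χ⁻¹ χ⁻¹ := by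
    rw [smul_jacobiSum hq hqp hQ hχ1 hχ2, jacobiSum, expo_neg_one hq hqp hQ hχ1 hχ2]
    refine Finset.sum_congr rfl fun x _ => ?_
    rw [mulChar_inv_apply hq hqp hQ hχ1 hχ2, mulChar_inv_apply hq hqp hQ hχ1 hχ2]
  rw [hJ']
  apply FaithfulSMul.algebraMap_injective (𝓞 K) K
  have hinj : Function.Injective (algebraMap (𝓞 K) K) := FaithfulSMul.algebraMap_injective (𝓞 K) K
  obtain ⟨h1, h2⟩ := mulChar_ne_one_aux hp2 hq hqp hQ hχ1 hχ2
  have hχK : χ.ringHomComp (algebraMap (𝓞 K) K) ≠ 1 := (MulChar.ringHomComp_ne_one_iff hinj).mpr h1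
  have hχK2 : χ.ringHomComp (algebraMap (𝓞 K) K) * χ.ringHomComp (algebraMap (𝓞 K) K) ≠ 1 := by
    rw [← MulChar.ringHomComp_mul]
    exact (MulChar.ringHomComp_ne_one_iff hinj).mpr h2
  have hchar : ringChar K ≠ ringChar (𝓞 K ⧸ Q) := by
    haveI : Fact q.Prime := ⟨hq⟩
    haveI : CharP (𝓞 K ⧸ Q) q := charP_of_card_eq_prime hcard
    rw [ringChar.eq K 0, ringChar.eq (𝓞 K ⧸ Q) q]
    exact hq.ne_zero.symm
  have := jacobiSum_mul_jacobiSum_inv hchar hχK hχK hχK2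
  rw [MulChar.ringHomComp_inv, jacobiSum_ringHomComp, jacobiSum_ringHomComp, hcard] at this
  rw [map_mul, this, map_natCast]

end norm

section factorization

theorem absNorm_smul (σ : Gal(K/ℚ)) (I : Ideal (𝓞 K)) : absNorm (σ • I) = absNorm I := by
  rw [absNorm_apply, absNorm_apply, Submodule.cardQuot_apply, Submodule.cardQuot_apply]
  exact Nat.card_congr (Ideal.quotientEquiv I (σ • I) (MulSemiringAction.toRingEquiv _ (𝓞 K) σ)
    (by rw [Ideal.pointwise_smul_def]; rfl)).toEquiv.symm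

theorem span_smul (σ : Gal(K/ℚ)) (x : 𝓞 K) : Ideal.span {σ • x} = σ • Ideal.span {x} := by
  rw [Ideal.pointwise_smul_def, Ideal.map_span, Set.image_singleton]
  rfl

variable (hp2 : p ≠ 2) (hq : q.Prime) (hqp : q ≠ p) (hQ : absNorm Q = q)
include hq hqp hQ

/-- the stabilizer of a degree-one prime is trivial. -/
theorem eq_one_of_smul_eq {ρ : Gal(K/ℚ)} (hρ : ρ • Q = Q) : ρ = 1 := by
  haveI : Fact q.Prime := ⟨hq⟩
  haveI : Q.LiesOver (Ideal.span {(q : ℤ)}) := by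
    refine ⟨?_⟩
    have := Ideal.span_singleton_absNorm (I := Q) (by rw [hQ]; exact hq)
    rw [hQ] at this
    exact this
  have hn : q.Coprime p := (Nat.coprime_primes hq hp.out).mpr hqp
  have hmem := mem_zpowers_galEquivZMod_of_mem_stabilizer p K q Q hn
    (σ := ρ) (MulAction.mem_stabilizer_iff.mpr hρ)
  have hunit : ZMod.unitOfCoprime q hn = 1 := by
    apply Units.ext
    rw [ZMod.coe_unitOfCoprime, Units.val_one]
    obtain ⟨m, hm⟩ := p_dvd_q_sub_one hq hqp hQ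
    have hq1 : q = p * m + 1 := by have := hq.one_lt; omega
    rw [hq1]; push_cast; rw [ZMod.natCast_self, zero_mul, zero_add]
  rw [hunit, Subgroup.zpowers_one_eq_bot, Subgroup.mem_bot] at hmem
  exact (galEquivZMod p K).injective (by rw [hmem, map_one])

theorem smul_inv_injective : Function.Injective fun σ : Gal(K/ℚ) => σ⁻¹ • Q := by
  intro σ τ h
  simp only at h
  have h1 : (σ * τ⁻¹) • Q = Q := by
    rw [mul_smul, ← h, smul_inv_smul]
  have := eq_one_of_smul_eq hq hqp hQ h1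
  rw [mul_inv_eq_one] at this
  exact this

theorem absNorm_span_natCast : absNorm (Ideal.span {(q : 𝓞 K)}) = q ^ (p - 1) := by
  rw [absNorm_span_singleton, show (q : 𝓞 K) = algebraMap ℤ (𝓞 K) (q : ℤ) by simp,
    Algebra.norm_algebraMap, RingOfIntegers.rank,
    IsCyclotomicExtension.finrank K (Polynomial.cyclotomic.irreducible_rat hp.out.pos),
    Nat.totient_prime hp.out, Int.natAbs_pow, Int.natAbs_natCast]

variable {χ : MulChar (𝓞 K ⧸ Q) (𝓞 K)} (hχ1 : ∀ x, x ≠ 0 → (χ x) ^ p = 1)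
  (hχ2 : ∀ x, Ideal.Quotient.mk Q (χ x) = x ^ ((q - 1) / p))
include hχ1 hχ2 hp2

theorem absNorm_span_jacobiSum [Fintype (𝓞 K ⧸ Q)] :
    absNorm (Ideal.span {jacobiSum χ χ}) = q ^ ((p - 1) / 2) := by
  have h := jacobiSum_mul_smul hp2 hq hqp hQ hχ1 hχ2
  have h2 : absNorm (Ideal.span {jacobiSum χ χ}) * absNorm (Ideal.span {jacobiSum χ χ}) =
      q ^ (p - 1) := by
    rw [← absNorm_span_natCast hq hqp hQ, ← h, ← Ideal.span_singleton_mul_span_singleton, map_mul,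
      span_smul, absNorm_smul]
  have hodd : p - 1 = 2 * ((p - 1) / 2) := by
    have := hp.out.eq_one_or_self_of_dvd 2
    have h2le := hp.out.two_le
    rcases Nat.even_or_odd p with he | ho
    · exact absurd ((this he.two_dvd).resolve_left (by norm_num)).symm hp2
    · obtain ⟨k, hk⟩ := ho; omega
  rw [hodd, pow_mul', ← sq] at h2
  exact Nat.pow_left_injective (n := 2) (by norm_num) h2

/-- **Main theorem**: the factorisation of the Jacobi sum. -/
theorem span_jacobiSum_eq [Fintype (𝓞 K ⧸ Q)] [Fintype Gal(K/ℚ)]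
    [DecidablePred fun σ : Gal(K/ℚ) => 2 * expo p σ < p] :
    Ideal.span {jacobiSum χ χ} =
      ∏ σ ∈ Finset.univ.filter (fun σ : Gal(K/ℚ) => 2 * expo p σ < p), σ⁻¹ • Q := by
  classical
  set S := Finset.univ.filter (fun σ : Gal(K/ℚ) => 2 * expo p σ < p) with hS
  have hinj := smul_inv_injective hq hqp hQ
  have hQ0 : Q ≠ ⊥ := by
    intro h; rw [h, absNorm_bot] at hQ; exact hq.ne_zero hQ.symm
  -- the product divides `(J)`
  have hdvd : ∏ σ ∈ S, σ⁻¹ • Q ∣ Ideal.span {jacobiSum χ χ} := by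
    rw [← Finset.prod_image (s := S) (g := fun σ : Gal(K/ℚ) => σ⁻¹ • Q) (f := fun I => I)
      (fun a _ b _ h => hinj h)]
    refine Finset.prod_primes_dvd _ ?_ ?_
    · intro I hI
      obtain ⟨σ, -, rfl⟩ := Finset.mem_image.mp hI
      refine Ideal.prime_of_isPrime ?_ ?_
      · intro h
        apply hQ0
        have := congrArg (σ • ·) h
        simpa using this
      · rw [Ideal.pointwise_smul_eq_comap]
        exact Ideal.IsPrime.comap _
    · intro I hI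
      obtain ⟨σ, hσ, rfl⟩ := Finset.mem_image.mp hI
      rw [Ideal.dvd_iff_le, Ideal.span_singleton_le_iff_mem, Ideal.mem_inv_pointwise_smul_iff]
      rw [hS, Finset.mem_filter] at hσ
      exact (smul_jacobiSum_mem_iff hq hqp hQ hχ1 hχ2 σ).mpr hσ.2
  obtain ⟨I, hI⟩ := hdvd
  -- compare norms
  have hcardS : S.card = (p - 1) / 2 := card_filter_expo hp2
  have hnorm : absNorm (∏ σ ∈ S, σ⁻¹ • Q) = q ^ ((p - 1) / 2) := by
    rw [map_prod, Finset.prod_congr rfl (fun σ _ => by rw [absNorm_smul, hQ]),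
      Finset.prod_const, hcardS]
  have hI1 : absNorm I = 1 := by
    have := congrArg absNorm hI
    rw [map_mul, absNorm_span_jacobiSum hp2 hq hqp hQ hχ1 hχ2, hnorm] at this
    have hpos : 0 < q ^ ((p - 1) / 2) := pow_pos hq.pos _
    exact (Nat.eq_of_mul_eq_mul_left hpos (by rw [mul_one]; exact this)).symm
  rw [hI, absNorm_eq_one_iff.mp hI1, Ideal.mul_top]

end factorization

section main

/-- **P6 export**: for a degree-one prime `Q` of `ℚ(ζ_p)` above `q ≠ p`, there is `J ∈ 𝓞 K`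
(the Jacobi sum of the `p`-th power residue character) with `σ J ∈ Q ↔ 2 a(σ) < p` and
`(J) = ∏_{σ : 2 a(σ) < p} σ⁻¹ Q`. -/
theorem exists_jacobi (hp2 : p ≠ 2) (hq : q.Prime) (hqp : q ≠ p) (hQ : absNorm Q = q)
    [Fintype Gal(K/ℚ)] [DecidablePred fun σ : Gal(K/ℚ) => 2 * expo p σ < p] :
    ∃ J : 𝓞 K, (∀ σ : Gal(K/ℚ), σ • J ∈ Q ↔ 2 * expo p σ < p) ∧
      Ideal.span {J} =
        ∏ σ ∈ Finset.univ.filter (fun σ : Gal(K/ℚ) => 2 * expo p σ < p), σ⁻¹ • Q := by
  classical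
  haveI : Fintype (𝓞 K ⧸ Q) := Fintype.ofFinite _
  obtain ⟨χ, hχ1, hχ2⟩ := exists_mulChar hq hqp hQ
  exact ⟨jacobiSum χ χ, fun σ => smul_jacobiSum_mem_iff hq hqp hQ hχ1 hχ2 σ,
    span_jacobiSum_eq hp2 hq hqp hQ hχ1 hχ2⟩

/-- the same, with the product of the conjugates written through `Ideal.comap`-free membership:
`J ∈ σ⁻¹ Q ↔ 2 a(σ) < p`. -/
theorem exists_jacobi_mem (hp2 : p ≠ 2) (hq : q.Prime) (hqp : q ≠ p) (hQ : absNorm Q = q) :
    ∃ J : 𝓞 K, (∀ σ : Gal(K/ℚ), J ∈ σ⁻¹ • Q ↔ 2 * expo p σ < p) ∧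
      absNorm (Ideal.span {J}) = q ^ ((p - 1) / 2) := by
  classical
  haveI : Fintype (𝓞 K ⧸ Q) := Fintype.ofFinite _
  obtain ⟨χ, hχ1, hχ2⟩ := exists_mulChar hq hqp hQ
  refine ⟨jacobiSum χ χ, fun σ => ?_, absNorm_span_jacobiSum hp2 hq hqp hQ hχ1 hχ2⟩
  rw [Ideal.mem_inv_pointwise_smul_iff]
  exact smul_jacobiSum_mem_iff hq hqp hQ hχ1 hχ2 σ

end main

end Fermat.Agent.CFT.P6
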