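import Mathlib
import Fermat.Agent.CFT.R4Second
import Fermat.Agent.CFT.R4cTheta

/-!
# CFT / R4: the second inequality, final form

`R4`: for `M/F` cyclic of prime degree `p`, unramified at all finite primes, `F` totally complex:
`p ≤ (normClasses F M).index`, i.e. `[I_F : P_F N_{M/F}(I_M)] ≥ p`.
-/

set_option autoImplicit false

open NumberField

namespace Fermat.Agent.CFT

/-- **R4** (second inequality for unramified cyclic extensions of prime degree). -/
theorem R4 (F M : Type*) [Field F] [NumberField F] [Field M] [NumberField M] [Algebra F M]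
    (p : ℕ) [Fact p.Prime] [IsGalois F M] [IsCyclic Gal(M/F)]
    (hdeg : Module.finrank F M = p) (hunr : IsUnramifiedEverywhere F M)
    [NumberField.IsTotallyComplex F] :
    p ≤ (normClasses F M).index := by
  obtain ⟨σ, hσ⟩ := IsCyclic.exists_generator (α := Gal(M/F))
  exact R4_of_theta F M p hσ hdeg hunr (relIndex_unitsD_le hσ hunr)

/-- consequence: the norm classes are not everything. -/
theorem normClasses_ne_top (F M : Type*) [Field F] [NumberField F] [Field M] [NumberField M]
    [Algebra F M] (p : ℕ) [Fact p.Prime] [IsGalois F M] [IsCyclic Gal(M/F)]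
    (hdeg : Module.finrank F M = p) (hunr : IsUnramifiedEverywhere F M)
    [NumberField.IsTotallyComplex F] : normClasses F M ≠ ⊤ := by
  intro h
  have h4 := R4 F M p hdeg hunr
  rw [h, Subgroup.index_top] at h4
  have := (Fact.out : p.Prime).two_le
  omega

end Fermat.Agent.CFT
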