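import Mathlib

/-!
# S14 / R5c (i): partial summation

If the partial sums of `f` are `O(n^r)` with `r < 1`, then `LSeries f s` is bounded for real
`s ∈ (1, 2]` (where it converges).
-/

set_option autoImplicit false

open Filter Finset MeasureTheory Set
open scoped Topology

namespace Fermat.Agent.CFT

theorem norm_LSeries_le_of_sum_le (f : ℕ → ℂ) {r B : ℝ} (hr : 0 ≤ r) (hB : 0 ≤ B)
    (hA : ∀ n : ℕ, ‖∑ k ∈ Finset.Icc 1 n, f k‖ ≤ B * (n : ℝ) ^ r) {s : ℂ} (hs : r < s.re)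
    (hS : LSeriesSummable f s) : ‖LSeries f s‖ ≤ ‖s‖ * B / (s.re - r) := by
  have hO : (fun n : ℕ ↦ ∑ k ∈ Finset.Icc 1 n, f k) =O[atTop] fun n : ℕ ↦ (n : ℝ) ^ r := by
    refine Asymptotics.IsBigO.of_bound B (Eventually.of_forall fun n ↦ ?_)
    rw [Real.norm_eq_abs, abs_of_nonneg (Real.rpow_nonneg (Nat.cast_nonneg n) r)]
    exact hA n
  rw [LSeries_eq_mul_integral f hr hs hS hO, norm_mul, mul_div_assoc]
  refine mul_le_mul_of_nonneg_left ?_ (norm_nonneg s)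
  have ha : r - s.re - 1 < -1 := by linarith
  have hint : IntegrableOn (fun t : ℝ ↦ B * t ^ (r - s.re - 1)) (Ioi 1) :=
    (integrableOn_Ioi_rpow_of_lt ha zero_lt_one).const_mul B
  have hbound : ∀ᵐ t : ℝ ∂((volume : Measure ℝ).restrict (Ioi (1 : ℝ))),
      ‖(∑ k ∈ Finset.Icc 1 ⌊t⌋₊, f k) * (t : ℂ) ^ (-(s + 1))‖ ≤ B * t ^ (r - s.re - 1) := by
    filter_upwards [ae_restrict_mem measurableSet_Ioi] with t ht
    have ht0 : (0 : ℝ) < t := lt_trans zero_lt_one ht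
    rw [norm_mul, Complex.norm_cpow_eq_rpow_re_of_pos ht0]
    have h1 : (-(s + 1)).re = -s.re - 1 := by simp; ring
    rw [h1]
    have h2 : ‖∑ k ∈ Finset.Icc 1 ⌊t⌋₊, f k‖ ≤ B * t ^ r := by
      refine (hA _).trans (mul_le_mul_of_nonneg_left ?_ hB)
      exact Real.rpow_le_rpow (Nat.cast_nonneg _) (Nat.floor_le ht0.le) hr
    calc _ ≤ B * t ^ r * t ^ (-s.re - 1) :=
          mul_le_mul_of_nonneg_right h2 (Real.rpow_nonneg ht0.le _)
      _ = B * t ^ (r - s.re - 1) := by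
          rw [mul_assoc, ← Real.rpow_add ht0]
          congr 2
          ring
  calc ‖∫ t in Ioi (1 : ℝ), (∑ k ∈ Finset.Icc 1 ⌊t⌋₊, f k) * (t : ℂ) ^ (-(s + 1))‖
      ≤ ∫ t in Ioi (1 : ℝ), B * t ^ (r - s.re - 1) :=
        norm_integral_le_of_norm_le hint hbound
    _ = B / (s.re - r) := by
        rw [integral_const_mul, integral_Ioi_rpow_of_lt ha zero_lt_one, Real.one_rpow]
        have : r - s.re - 1 + 1 = -(s.re - r) := by ring
        rw [this, neg_div_neg_eq, mul_one_div]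

theorem exists_norm_LSeries_le (f : ℕ → ℂ) {r : ℝ} (hr : 0 ≤ r) (hr1 : r < 1)
    (hO : (fun n : ℕ ↦ ∑ k ∈ Finset.Icc 1 n, f k) =O[atTop] fun n : ℕ ↦ (n : ℝ) ^ r) :
    ∃ B : ℝ, ∀ s : ℝ, 1 < s → s ≤ 2 → LSeriesSummable f (s : ℂ) → ‖LSeries f (s : ℂ)‖ ≤ B := by
  obtain ⟨c, hc⟩ := hO.bound
  obtain ⟨N, hN⟩ := eventually_atTop.mp hc
  -- a uniform bound for all `n`
  let B₀ : ℝ := ∑ n ∈ Finset.range N, ‖∑ k ∈ Finset.Icc 1 n, f k‖
  have hB₀ : 0 ≤ B₀ := Finset.sum_nonneg fun _ _ ↦ norm_nonneg _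
  let B : ℝ := max c 0 + B₀
  have hB : 0 ≤ B := add_nonneg (le_max_right _ _) hB₀
  have hA : ∀ n : ℕ, ‖∑ k ∈ Finset.Icc 1 n, f k‖ ≤ B * (n : ℝ) ^ r := by
    intro n
    rcases Nat.eq_zero_or_pos n with rfl | hn0
    · simp only [Finset.Icc_eq_empty_of_lt zero_lt_one, Finset.sum_empty, norm_zero]
      exact mul_nonneg hB (Real.rpow_nonneg (Nat.cast_nonneg _) r)
    have h1 : (1 : ℝ) ≤ (n : ℝ) ^ r :=
      Real.one_le_rpow (by exact_mod_cast hn0) hr
    by_cases hnN : N ≤ n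
    · have := hN n hnN
      rw [Real.norm_eq_abs, abs_of_nonneg (Real.rpow_nonneg (Nat.cast_nonneg n) r)] at this
      refine this.trans (mul_le_mul_of_nonneg_right ?_ (by linarith))
      exact (le_max_left _ _).trans (le_add_of_nonneg_right hB₀)
    · push Not at hnN
      have h2 : ‖∑ k ∈ Finset.Icc 1 n, f k‖ ≤ B₀ :=
        Finset.single_le_sum (f := fun n ↦ ‖∑ k ∈ Finset.Icc 1 n, f k‖)
          (fun _ _ ↦ norm_nonneg _) (Finset.mem_range.mpr hnN)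
      calc _ ≤ B₀ := h2
        _ ≤ B := le_add_of_nonneg_left (le_max_right _ _)
        _ ≤ B * (n : ℝ) ^ r := le_mul_of_one_le_right hB h1
  refine ⟨2 * B / (1 - r), fun s hs1 hs2 hS ↦ ?_⟩
  have hsre : ((s : ℂ)).re = s := Complex.ofReal_re s
  have h := norm_LSeries_le_of_sum_le f hr hB hA (s := (s : ℂ)) (by rw [hsre]; linarith) hS
  rw [hsre, Complex.norm_real, Real.norm_eq_abs, abs_of_pos (by linarith)] at h
  refine h.trans ?_
  have h1r : 0 < 1 - r := by linarith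
  have hsr : 0 < s - r := by linarith
  rw [div_le_div_iff₀ hsr h1r]
  have : s * B * (1 - r) ≤ 2 * B * (s - r) := by
    have h3 : s * (1 - r) ≤ 2 * (s - r) := by nlinarith
    nlinarith
  linarith

end Fermat.Agent.CFT
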