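import Mathlib
import Fermat.Agent.CFT.P1FrobAt
import Fermat.Agent.CFT.P1Tower

/-!
# CFT / TOP (part 1): equivariance of the Frobenius elements under `Gal(L/ℚ)`

`K ⊆ L` number fields, `L/K` abelian, `K/ℚ` and `L/ℚ` Galois.  For `s ∈ Gal(L/ℚ)` with restriction
`σ ∈ Gal(K/ℚ)`, and `g g' ∈ Gal(L/K)` with `g' = s g s⁻¹`: if `g` is the Frobenius at `𝔮`, then `g'` is
the Frobenius at `σ 𝔮`.
-/

set_option autoImplicit false
set_option linter.unusedSectionVars false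

open NumberField
open scoped IsMulCommutative Pointwise nonZeroDivisors

namespace Fermat.Agent.CFT

section Equivariance

variable {K L : Type*} [Field K] [NumberField K] [Field L] [NumberField L] [Algebra K L]
  [IsAbelianGalois K L] [IsGalois ℚ K] [IsGalois ℚ L]

/-- compatibility of the two Galois actions on rings of integers. -/
lemma algebraMap_restrictNormal_smul (s : Gal(L/ℚ)) (x : 𝓞 K) :
    algebraMap (𝓞 K) (𝓞 L) ((s.restrictNormal K) • x) = s • algebraMap (𝓞 K) (𝓞 L) x := by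
  apply RingOfIntegers.ext
  show algebraMap K L ((s.restrictNormal K) (x : K)) = s (algebraMap K L (x : K))
  exact AlgEquiv.restrictNormal_commutes s K (x : K)

/-- `(s 𝔓) ∩ 𝓞 K = (s|_K) (𝔓 ∩ 𝓞 K)`. -/
lemma under_smul (s : Gal(L/ℚ)) (𝔓 : Ideal (𝓞 L)) :
    (s • 𝔓).under (𝓞 K) = (s.restrictNormal K) • (𝔓.under (𝓞 K)) := by
  ext x
  rw [Ideal.under, Ideal.mem_comap, Ideal.mem_pointwise_smul_iff_inv_smul_mem,
    Ideal.mem_pointwise_smul_iff_inv_smul_mem, Ideal.mem_comap]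
  have h := algebraMap_restrictNormal_smul (K := K) s⁻¹ x
  have hinv : (s⁻¹).restrictNormal K = (s.restrictNormal K)⁻¹ :=
    map_inv (AlgEquiv.restrictNormalHom (F := ℚ) (K₁ := L) K) s
  rw [hinv] at h
  rw [h]

/-- a conjugate of a power Frobenius at `𝔓` is a power Frobenius at the conjugate prime. -/
lemma IsPowFrob.conj {n : ℕ} {g g' : Gal(L/K)} {s : Gal(L/ℚ)} {𝔓 : Ideal (𝓞 L)}
    (hg : IsPowFrob n g 𝔓) (hconj : ∀ x : L, g' x = s (g (s⁻¹ x))) :
    IsPowFrob n g' (s • 𝔓) := by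
  intro x
  have key : g' • x - x ^ n = s • (g • (s⁻¹ • x) - (s⁻¹ • x) ^ n) := by
    apply RingOfIntegers.ext
    rw [smul_sub, smul_pow', smul_inv_smul]
    show g' (x : L) - (x : L) ^ n = s (g (s⁻¹ (x : L))) - (x : L) ^ n
    rw [hconj]
  rw [key, Ideal.smul_mem_pointwise_smul_iff]
  exact hg _

/-- **Equivariance of the Frobenius**: if `g' = s g s⁻¹` and `g = Frob(𝔮)` then `g' = Frob(σ 𝔮)`,
`σ = s|_K`. -/
theorem frobAt_smul_eq {𝔮 : Ideal (𝓞 K)} [h𝔮 : 𝔮.IsPrime] (hne : 𝔮 ≠ ⊥)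
    (hunr : IsUnramifiedEverywhere K L) (s : Gal(L/ℚ)) {g' : Gal(L/K)}
    (hconj : ∀ x : L, g' x = s (frobAt K L 𝔮 (s⁻¹ x))) :
    frobAt K L ((s.restrictNormal K) • 𝔮) = g' := by
  obtain ⟨⟨𝔓, h𝔓, h𝔓o⟩⟩ := Ideal.nonempty_primesOver (S := 𝓞 L) 𝔮
  have hu : 𝔓.under (𝓞 K) = 𝔮 := h𝔓o.over.symm
  have h1 := (isPowFrob_frobAt K L hne 𝔓 hu).conj hconj
  have hu' : (s • 𝔓).under (𝓞 K) = (s.restrictNormal K) • 𝔮 := by rw [under_smul, hu]
  have hprime' : (s • 𝔓).IsPrime := by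
    rw [Ideal.pointwise_smul_eq_comap]; exact Ideal.IsPrime.comap _
  have hprime : ((s.restrictNormal K) • 𝔮).IsPrime := by
    rw [Ideal.pointwise_smul_eq_comap]; exact Ideal.IsPrime.comap _
  have hne' : (s.restrictNormal K) • 𝔮 ≠ ⊥ := by
    intro h
    apply hne
    have := congrArg ((s.restrictNormal K)⁻¹ • ·) h
    simpa using this
  have hcard : Nat.card (𝓞 K ⧸ (s.restrictNormal K) • 𝔮) = Nat.card (𝓞 K ⧸ 𝔮) := by
    exact Nat.card_congr (Ideal.quotientEquiv 𝔮 ((s.restrictNormal K) • 𝔮)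
      (MulSemiringAction.toRingEquiv _ (𝓞 K) (s.restrictNormal K))
      (by rw [Ideal.pointwise_smul_def]; rfl)).toEquiv.symm
  rw [← hcard] at h1
  exact (frobAt_unique hne' (hunr _ hprime hne') hu' h1).symm

end Equivariance

end Fermat.Agent.CFT
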