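import Mathlib
import Fermat.Agent.CFT.P1FrobAt
import Fermat.Agent.CFT.P1Tower
import Fermat.Agent.CFT.P6Jacobi
import Fermat.Agent.CFT.TopEquivariance

/-!
# CFT / TOP (part 2): all Frobenius elements are trivial

`K = ℚ(ζ_p)`, `L/K` unramified abelian of degree `p`, `L/ℚ` Galois, `Gal(K/ℚ)` acting on `Gal(L/K)` by
`ω⁻¹` (`hconj`), and reciprocity (`hrecip`: the Artin map factors through the class group).
Then `frobAt K L 𝔮 = 1` for every nonzero prime `𝔮` of `K`.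
-/

set_option autoImplicit false
set_option linter.unusedSectionVars false
set_option linter.style.haveILetI false

open NumberField IsCyclotomicExtension IsCyclotomicExtension.Rat
open scoped IsMulCommutative Pointwise nonZeroDivisors

namespace Fermat.Agent.CFT

section Core

variable {K L : Type*} [Field K] [NumberField K] [Field L] [NumberField L] [Algebra K L]
  [IsAbelianGalois K L] [IsGalois ℚ L]
variable (p : ℕ) [hp : Fact p.Prime] [hK : IsCyclotomicExtension {p} ℚ K]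

/-- the hypothesis "`Gal(K/ℚ)` acts on `Gal(L/K)` through `ω⁻¹`". -/
def ConjHyp (K L : Type*) [Field K] [NumberField K] [Field L] [NumberField L] [Algebra K L]
    (p : ℕ) : Prop :=
  ∀ (σ : Gal(L/ℚ)) (h : Gal(L/K)) (ζ : L) (a : ℕ), IsPrimitiveRoot ζ p →
    σ ζ = ζ ^ a → σ * (h.restrictScalars ℚ) ^ a * σ⁻¹ = h.restrictScalars ℚ

variable {p}

/-- `Frob(σ⁻¹ 𝔮) = Frob(𝔮) ^ a(σ)`. -/
theorem frobAt_inv_smul (hunr : IsUnramifiedEverywhere K L) (hconj : ConjHyp K L p)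
    (σ : Gal(K/ℚ)) {𝔮 : Ideal (𝓞 K)} [h𝔮 : 𝔮.IsPrime] (hne : 𝔮 ≠ ⊥) :
    frobAt K L (σ⁻¹ • 𝔮) = (frobAt K L 𝔮) ^ P6.expo p σ := by
  haveI : IsGalois ℚ K := IsCyclotomicExtension.isGalois {p} ℚ K
  obtain ⟨s, hs⟩ := AlgEquiv.restrictNormalHom_surjective (F := ℚ) (K₁ := K) L σ
  have hs' : s.restrictNormal K = σ := hs
  -- the primitive root in `L`
  have hζK := zeta_spec p ℚ K
  have hζL : IsPrimitiveRoot (algebraMap K L (zeta p ℚ K)) p :=
    hζK.map_of_injective (algebraMap K L).injective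
  have hsζ : s (algebraMap K L (zeta p ℚ K)) = (algebraMap K L (zeta p ℚ K)) ^ P6.expo p σ := by
    rw [← AlgEquiv.restrictNormal_commutes s K, hs', ← map_pow]
    congr 1
    exact galEquivZMod_apply_of_pow_eq p K σ hζK.pow_eq_one
  have h := hconj s (frobAt K L 𝔮) _ _ hζL hsζ
  -- `g ^ a = s⁻¹ g s`
  have hinv : (s⁻¹).restrictNormal K = σ⁻¹ := by
    rw [← hs']
    exact map_inv (AlgEquiv.restrictNormalHom (F := ℚ) (K₁ := L) K) s
  rw [← hinv]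
  refine frobAt_smul_eq hne hunr s⁻¹ (g' := (frobAt K L 𝔮) ^ P6.expo p σ) fun x => ?_
  rw [inv_inv]
  have h2 : ((frobAt K L 𝔮).restrictScalars ℚ) ^ P6.expo p σ =
      s⁻¹ * (frobAt K L 𝔮).restrictScalars ℚ * s := by
    calc ((frobAt K L 𝔮).restrictScalars ℚ) ^ P6.expo p σ
        = s⁻¹ * (s * ((frobAt K L 𝔮).restrictScalars ℚ) ^ P6.expo p σ * s⁻¹) * s := by group
      _ = s⁻¹ * (frobAt K L 𝔮).restrictScalars ℚ * s := by rw [h]
  have h3 := DFunLike.congr_fun h2 x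
  have h4 : (((frobAt K L 𝔮).restrictScalars ℚ) ^ P6.expo p σ) x =
      ((frobAt K L 𝔮) ^ P6.expo p σ) x := by
    have : ((frobAt K L 𝔮).restrictScalars ℚ) ^ P6.expo p σ =
        ((frobAt K L 𝔮) ^ P6.expo p σ).restrictScalars ℚ :=
      (map_pow (AlgEquiv.restrictScalarsHom ℚ (S := K) (A := L)) _ _).symm
    rw [this]; rfl
  rw [← h4, h3]
  rfl

/-- every element of `Gal(L/K)` has order dividing `p`. -/
lemma pow_finrank_eq_one (hdeg : Module.finrank K L = p) (g : Gal(L/K)) : g ^ p = 1 := by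
  rw [← hdeg, ← IsGalois.card_aut_eq_finrank]
  exact pow_card_eq_one'

lemma eq_one_of_pow_eq_one_of_coprime {G : Type*} [Group G] {g : G} {a b : ℕ} (ha : g ^ a = 1)
    (hb : g ^ b = 1) (hab : a.Coprime b) : g = 1 := by
  rw [← orderOf_dvd_iff_pow_eq_one] at ha hb
  have := Nat.dvd_gcd ha hb
  rw [hab.gcd_eq_one, Nat.dvd_one] at this
  exact orderOf_eq_one_iff.mp this

/-- the reciprocity hypothesis: the Artin map factors through the class group. -/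
def RecipHyp (K L : Type*) [Field K] [NumberField K] [Field L] [NumberField L] [Algebra K L]
    [IsAbelianGalois K L] : Prop :=
  ∀ 𝔞 𝔟 : (Ideal (𝓞 K))⁰, ClassGroup.mk0 𝔞 = ClassGroup.mk0 𝔟 → artin K L 𝔞 = artin K L 𝔟

/-- under reciprocity, a principal prime has trivial Frobenius. -/
theorem frobAt_eq_one_of_isPrincipal (hrecip : RecipHyp K L) {𝔮 : Ideal (𝓞 K)} [h𝔮 : 𝔮.IsPrime]
    (hne : 𝔮 ≠ ⊥) (hprin : Submodule.IsPrincipal 𝔮) : frobAt K L 𝔮 = 1 := by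
  rw [← artin_prime K L hne, ← map_one (artin K L)]
  apply hrecip
  rw [map_one]
  exact (ClassGroup.mk0_eq_one_iff _).mpr hprin

/-- a prime fixed by some `τ` with `a(τ) ≠ 1` has trivial Frobenius. -/
theorem frobAt_eq_one_of_smul_eq (hdeg : Module.finrank K L = p)
    (hunr : IsUnramifiedEverywhere K L) (hconj : ConjHyp K L p)
    {𝔮 : Ideal (𝓞 K)} [h𝔮 : 𝔮.IsPrime] (hne : 𝔮 ≠ ⊥) {τ : Gal(K/ℚ)} (hτ : τ • 𝔮 = 𝔮)
    (hτ1 : P6.expo p τ ≠ 1) : frobAt K L 𝔮 = 1 := by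
  have h := frobAt_inv_smul hunr hconj τ hne
  have hτ' : τ⁻¹ • 𝔮 = 𝔮 := by rw [inv_smul_eq_iff, hτ]
  rw [hτ'] at h
  have ha0 := P6.expo_pos (p := p) τ
  have hap := P6.expo_lt (p := p) τ
  set a := P6.expo p τ with ha
  set g := frobAt K L 𝔮 with hg
  have h1 : g ^ (a - 1) = 1 := by
    have : g ^ (a - 1) * g = g := by rw [← pow_succ, Nat.sub_add_cancel ha0]; exact h.symm
    exact mul_eq_right.mp this
  refine eq_one_of_pow_eq_one_of_coprime h1 (pow_finrank_eq_one hdeg g) ?_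
  rw [Nat.coprime_comm]
  exact (Nat.Prime.coprime_iff_not_dvd hp.out).mpr
    (Nat.not_dvd_of_pos_of_lt (by omega) (by omega))

/-- a degree-one prime has trivial Frobenius (Stickelberger via the Jacobi sum + reciprocity). -/
theorem frobAt_eq_one_of_absNorm_prime (hp2 : p ≠ 2) (hdeg : Module.finrank K L = p)
    (hunr : IsUnramifiedEverywhere K L) (hconj : ConjHyp K L p) (hrecip : RecipHyp K L)
    {𝔮 : Ideal (𝓞 K)} [h𝔮 : 𝔮.IsMaximal] {q : ℕ} (hq : q.Prime) (hqp : q ≠ p)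
    (hN : Ideal.absNorm 𝔮 = q) : frobAt K L 𝔮 = 1 := by
  classical
  haveI : Fintype Gal(K/ℚ) := Fintype.ofFinite _
  have hne : 𝔮 ≠ ⊥ := by
    intro h; rw [h, Ideal.absNorm_bot] at hN; exact hq.ne_zero hN.symm
  obtain ⟨J, -, hJ⟩ := P6.exists_jacobi hp2 hq hqp hN
  set S := Finset.univ.filter (fun σ : Gal(K/ℚ) => 2 * P6.expo p σ < p) with hS
  have hne' : ∀ σ : Gal(K/ℚ), σ⁻¹ • 𝔮 ≠ ⊥ := by
    intro σ h
    apply hne
    have := congrArg (σ • ·) h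
    simpa using this
  have hprime' : ∀ σ : Gal(K/ℚ), (σ⁻¹ • 𝔮).IsPrime := by
    intro σ
    rw [Ideal.pointwise_smul_eq_comap]; exact Ideal.IsPrime.comap _
  let f : Gal(K/ℚ) → (Ideal (𝓞 K))⁰ := fun σ =>
    ⟨σ⁻¹ • 𝔮, mem_nonZeroDivisors_of_ne_zero (hne' σ)⟩
  have hcoe : ((∏ σ ∈ S, f σ : (Ideal (𝓞 K))⁰) : Ideal (𝓞 K)) = Ideal.span {J} := by
    rw [Submonoid.coe_finsetProd, hJ]
  have hmk : ClassGroup.mk0 (∏ σ ∈ S, f σ) = ClassGroup.mk0 1 := by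
    rw [map_one]
    have : (∏ σ ∈ S, f σ : (Ideal (𝓞 K))⁰) =
        ⟨Ideal.span {J}, hcoe ▸ (∏ σ ∈ S, f σ : (Ideal (𝓞 K))⁰).2⟩ := Subtype.ext hcoe
    rw [this, ClassGroup.mk0_eq_one_iff]
    exact ⟨⟨J, rfl⟩⟩
  have hart := hrecip _ _ hmk
  rw [map_one, map_prod] at hart
  have hterm : ∀ σ ∈ S, artin K L (f σ) = (frobAt K L 𝔮) ^ P6.expo p σ := by
    intro σ _
    haveI := hprime' σ
    rw [show f σ = ⟨σ⁻¹ • 𝔮, mem_nonZeroDivisors_of_ne_zero (hne' σ)⟩ from rfl,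
      artin_prime K L (hne' σ)]
    haveI : 𝔮.IsPrime := h𝔮.isPrime
    exact frobAt_inv_smul hunr hconj σ hne
  rw [Finset.prod_congr rfl hterm, Finset.prod_pow_eq_pow_sum, P6.sum_expo_filter hp2] at hart
  refine eq_one_of_pow_eq_one_of_coprime hart (pow_finrank_eq_one hdeg _) ?_
  rw [Nat.coprime_comm]
  exact (Nat.Prime.coprime_iff_not_dvd hp.out).mpr (P6.not_dvd_sq_sub_one_div_eight hp2)

/-- **all Frobenius elements are trivial.** -/
theorem frobAt_eq_one (hp2 : p ≠ 2) (hdeg : Module.finrank K L = p)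
    (hunr : IsUnramifiedEverywhere K L) (hconj : ConjHyp K L p) (hrecip : RecipHyp K L)
    (𝔮 : Ideal (𝓞 K)) [h𝔮 : 𝔮.IsPrime] (hne : 𝔮 ≠ ⊥) : frobAt K L 𝔮 = 1 := by
  haveI : NeZero 𝔮 := ⟨hne⟩
  haveI hmax : 𝔮.IsMaximal := h𝔮.isMaximal hne
  set q := Ideal.absNorm (Ideal.under ℤ 𝔮) with hqdef
  have hq : q.Prime := Nat.absNorm_under_prime 𝔮
  haveI : Fact q.Prime := ⟨hq⟩
  haveI hlo : 𝔮.LiesOver (Ideal.span {(q : ℤ)}) := Int.liesOver_span_absNorm 𝔮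
  by_cases hqp : q = p
  · -- the prime above `p` is principal
    haveI : 𝔮.LiesOver (Ideal.span {(p : ℤ)}) := hqp ▸ hlo
    have h := eq_span_zeta_sub_one_of_liesOver' p K (zeta_spec p ℚ K) 𝔮
    exact frobAt_eq_one_of_isPrincipal hrecip hne ⟨⟨_, h⟩⟩
  · have hm : ¬ q ∣ p := fun h => hqp ((Nat.prime_dvd_prime_iff_eq hq hp.out).mp h)
    have hf := inertiaDeg_eq_of_not_dvd q K 𝔮 hm
    have hN := Ideal.pow_inertiaDeg q 𝔮
    by_cases h1 : (q : ZMod p) = 1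
    · rw [hf, h1, orderOf_one, pow_one] at hN
      exact frobAt_eq_one_of_absNorm_prime hp2 hdeg hunr hconj hrecip hq hqp hN.symm
    · have hn : q.Coprime p := (Nat.coprime_primes hq hp.out).mpr hqp
      have hstab := galEquivZMod_stabilizer p K q 𝔮 hn
      have hmem : ZMod.unitOfCoprime q hn ∈
          (galEquivZMod p K).mapSubgroup (MulAction.stabilizer Gal(K/ℚ) 𝔮) := by
        rw [hstab]; exact Subgroup.mem_zpowers _
      obtain ⟨τ, hτ, hτe⟩ := hmem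
      have hexpo : P6.expo p τ ≠ 1 := by
        intro h
        apply h1
        have : (galEquivZMod p K τ : ZMod p) = (q : ZMod p) := by
          have := congrArg (fun u : (ZMod p)ˣ => (u : ZMod p)) hτe
          simpa [ZMod.coe_unitOfCoprime] using this
        rw [← this]
        have hv : ((galEquivZMod p K τ : (ZMod p)ˣ) : ZMod p).val = 1 := h
        have : Fact (1 < p) := ⟨hp.out.one_lt⟩
        rw [← ZMod.natCast_zmod_val ((galEquivZMod p K τ : (ZMod p)ˣ) : ZMod p), hv, Nat.cast_one]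
      exact frobAt_eq_one_of_smul_eq hdeg hunr hconj hne (MulAction.mem_stabilizer_iff.mp hτ) hexpo

/-- if every nonzero prime of `K` is the norm of a prime of `L`, every nonzero ideal is a norm. -/
theorem exists_relNorm_eq_of_forall_prime
    (h : ∀ 𝔭 : Ideal (𝓞 K), 𝔭.IsPrime → 𝔭 ≠ ⊥ →
      ∃ 𝔓 : Ideal (𝓞 L), 𝔓.IsPrime ∧ Ideal.relNorm (𝓞 K) 𝔓 = 𝔭)
    (I : Ideal (𝓞 K)) (hI : I ≠ 0) :
    ∃ 𝔄 : Ideal (𝓞 L), 𝔄 ≠ 0 ∧ Ideal.relNorm (𝓞 K) 𝔄 = I := by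
  induction I using UniqueFactorizationMonoid.induction_on_prime with
  | h₁ => exact absurd rfl hI
  | h₂ x hx =>
    refine ⟨1, one_ne_zero, ?_⟩
    rw [map_one, (Ideal.isUnit_iff.mp hx), Ideal.one_eq_top]
  | h₃ a q ha hq ih =>
    have hq0 : q ≠ ⊥ := hq.ne_zero
    have hqP : q.IsPrime := Ideal.isPrime_of_prime hq
    obtain ⟨𝔓, h𝔓, h𝔓N⟩ := h q hqP hq0
    obtain ⟨𝔄, h𝔄0, h𝔄N⟩ := ih ha
    have h𝔓0 : 𝔓 ≠ 0 := by
      intro h0
      rw [h0, Ideal.zero_eq_bot, Ideal.relNorm_bot] at h𝔓N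
      exact hq0 h𝔓N.symm
    exact ⟨𝔓 * 𝔄, mul_ne_zero h𝔓0 h𝔄0, by rw [map_mul, h𝔓N, h𝔄N]⟩

/-- **TOP, in hypothesis form**: reciprocity (`hrecip`), "a prime with trivial Frobenius is the
norm of a prime" (`hnorm`, P1) and "not every nonzero ideal of `K` is a norm from `L`"
(`hnotall`, from R4) are contradictory. -/
theorem core_of (hp2 : p ≠ 2) (hdeg : Module.finrank K L = p)
    (hunr : IsUnramifiedEverywhere K L) (hconj : ConjHyp K L p) (hrecip : RecipHyp K L)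
    (hnorm : ∀ 𝔭 : Ideal (𝓞 K), 𝔭.IsPrime → 𝔭 ≠ ⊥ → IsUnramifiedIn K L 𝔭 → frobAt K L 𝔭 = 1 →
      ∃ 𝔓 : Ideal (𝓞 L), 𝔓.IsPrime ∧ Ideal.relNorm (𝓞 K) 𝔓 = 𝔭)
    (hnotall : ¬ ∀ I : Ideal (𝓞 K), I ≠ 0 →
      ∃ 𝔄 : Ideal (𝓞 L), 𝔄 ≠ 0 ∧ Ideal.relNorm (𝓞 K) 𝔄 = I) : False := by
  apply hnotall
  intro I hI
  refine exists_relNorm_eq_of_forall_prime (fun 𝔭 h𝔭 hne => ?_) I hI
  haveI := h𝔭
  exact hnorm 𝔭 h𝔭 hne (hunr 𝔭 h𝔭 hne) (frobAt_eq_one hp2 hdeg hunr hconj hrecip 𝔭 hne)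

end Core

end Fermat.Agent.CFT
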