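import Mathlib
import Fermat.Agent.CFT.TopCore

/-!
# CFT / TOP (bridges): instance and hypothesis bridges for the final `core` wrapper

For `L/K` Galois of prime degree `p`: `Gal(L/K)` has `p` elements, is cyclic, `L/K` is abelian
Galois.  For `K = ℚ(ζ_p)`, `p ≠ 2`, and the conjugation hypothesis `ConjHyp K L p`, the group
`Gal(L/ℚ)` is not commutative.
-/

set_option autoImplicit false
set_option linter.unusedSectionVars false
set_option linter.style.haveILetI false

open NumberField IsCyclotomicExtension IsCyclotomicExtension.Rat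

namespace Fermat.Agent.CFT

section Bridges

variable {K L : Type*} [Field K] [NumberField K] [Field L] [NumberField L] [Algebra K L]
variable {p : ℕ} [hp : Fact p.Prime]

/-- `Gal(L/K)` has `p` elements when `L/K` is Galois of degree `p`. -/
theorem natCard_gal_eq [IsGalois K L] (hdeg : Module.finrank K L = p) :
    Nat.card Gal(L/K) = p := by
  rw [IsGalois.card_aut_eq_finrank, hdeg]

/-- a Galois extension of prime degree is cyclic. -/
theorem isCyclic_gal_of_finrank_eq_prime [IsGalois K L] (hdeg : Module.finrank K L = p) :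
    IsCyclic Gal(L/K) :=
  isCyclic_of_prime_card (natCard_gal_eq hdeg)

/-- a Galois extension of prime degree has commutative Galois group. -/
theorem isMulCommutative_gal_of_finrank_eq_prime [IsGalois K L]
    (hdeg : Module.finrank K L = p) : IsMulCommutative Gal(L/K) := by
  haveI := isCyclic_gal_of_finrank_eq_prime hdeg
  exact IsCyclic.isMulCommutative

/-- a Galois extension of prime degree is abelian Galois. -/
theorem isAbelianGalois_of_finrank_eq_prime [IsGalois K L] (hdeg : Module.finrank K L = p) :
    IsAbelianGalois K L :=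
  { ‹IsGalois K L›, isMulCommutative_gal_of_finrank_eq_prime hdeg with }

/-- there is a nontrivial element in `Gal(L/K)`. -/
theorem exists_gal_ne_one [IsGalois K L] (hdeg : Module.finrank K L = p) :
    ∃ h : Gal(L/K), h ≠ 1 := by
  have hcard := natCard_gal_eq hdeg
  haveI : Nontrivial Gal(L/K) := by
    rw [← Finite.one_lt_card_iff_nontrivial, hcard]
    exact hp.out.one_lt
  exact exists_ne 1

/-- **`Gal(L/ℚ)` is not commutative** under the conjugation hypothesis (`p ≠ 2`): for `σ` with
`σ ζ = ζ ^ 2` and `h ≠ 1` in `Gal(L/K)`, commutativity would give `h ^ 2 = h`. -/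
theorem not_isMulCommutative_of_conjHyp (hp2 : p ≠ 2) [IsCyclotomicExtension {p} ℚ K]
    [IsGalois K L] [IsGalois ℚ L] (hdeg : Module.finrank K L = p) (hconj : ConjHyp K L p) :
    ¬ IsMulCommutative Gal(L/ℚ) := by
  intro hcomm
  haveI : IsGalois ℚ K := IsCyclotomicExtension.isGalois {p} ℚ K
  have hp3 : 2 < p := lt_of_le_of_ne hp.out.two_le (Ne.symm hp2)
  obtain ⟨τ, hτ⟩ := P6.exists_expo_eq (p := p) (K := K) (a := 2) (by omega) hp3
  obtain ⟨s, hs⟩ := AlgEquiv.restrictNormalHom_surjective (F := ℚ) (K₁ := K) L τ
  have hs' : s.restrictNormal K = τ := hs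
  have hζK := zeta_spec p ℚ K
  have hζL : IsPrimitiveRoot (algebraMap K L (zeta p ℚ K)) p :=
    hζK.map_of_injective (algebraMap K L).injective
  have hsζ : s (algebraMap K L (zeta p ℚ K)) = (algebraMap K L (zeta p ℚ K)) ^ 2 := by
    rw [← AlgEquiv.restrictNormal_commutes s K, hs', ← map_pow]
    congr 1
    rw [← hτ]
    exact galEquivZMod_apply_of_pow_eq p K τ hζK.pow_eq_one
  obtain ⟨h, hh⟩ := exists_gal_ne_one (K := K) (L := L) hdeg
  have h1 := hconj s h _ _ hζL hsζ
  have h2 : (h.restrictScalars ℚ) ^ 2 = h.restrictScalars ℚ := by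
    have hc : s * (h.restrictScalars ℚ) ^ 2 = (h.restrictScalars ℚ) ^ 2 * s :=
      hcomm.is_comm.comm _ _
    rw [hc, mul_inv_cancel_right] at h1
    exact h1
  have h3 : h.restrictScalars ℚ = 1 := by
    rw [pow_two] at h2
    exact mul_eq_left.mp h2
  apply hh
  ext x
  have := DFunLike.congr_fun h3 x
  exact this

end Bridges

end Fermat.Agent.CFT
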