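import Mathlib
import Fermat.Agent.CFT.TopCore
import Fermat.Agent.CFT.TopBridges
import Fermat.Agent.CFT.P3aAuxRecip
import Fermat.Agent.CFT.R4Second
import Fermat.Agent.CFT.R4cTheta

/-!
# CFT / TOP (assembly): `core` from the reciprocity hypothesis alone

With `K = ℚ(ζ_p)` (`p ≠ 2`), `L/K` Galois of degree `p`, unramified everywhere, `L/ℚ` Galois, and
the conjugation hypothesis, the reciprocity hypothesis `RecipHyp K L` (= P3b) is contradictory:
all Frobenius elements are trivial (`TopCore`), so every prime of `K` is a norm (P3a), so every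
ideal is a norm, so `normClasses K L = ⊤`; but the second inequality (R4) gives index `≥ p`.
-/

set_option autoImplicit false
set_option linter.unusedSectionVars false
set_option linter.style.haveILetI false

open NumberField
open scoped nonZeroDivisors

namespace Fermat.Agent.CFT

section Assembly

variable (K L : Type*) [Field K] [NumberField K] [Field L] [NumberField L] [Algebra K L]

/-- if every nonzero ideal of `K` is a relative norm from `L`, the norm classes are everything. -/
theorem normClasses_eq_top_of_forall_relNorm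
    (h : ∀ I : Ideal (𝓞 K), I ≠ 0 →
      ∃ 𝔄 : Ideal (𝓞 L), 𝔄 ≠ 0 ∧ Ideal.relNorm (𝓞 K) 𝔄 = I) : normClasses K L = ⊤ := by
  rw [eq_top_iff]
  intro c _
  obtain ⟨I, rfl⟩ := ClassGroup.mk0_surjective c
  obtain ⟨𝔄, h𝔄0, h𝔄⟩ := h I (nonZeroDivisors.coe_ne_zero I)
  have hI : I = relNorm₀ K L ⟨𝔄, mem_nonZeroDivisors_of_ne_zero h𝔄0⟩ :=
    Subtype.ext (by rw [coe_relNorm₀]; exact h𝔄.symm)
  rw [hI]
  exact mk0_relNorm₀_mem_normClasses _

/-- **the second inequality** in the shape used by the other packages. -/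
theorem R4_index_ge (p : ℕ) [Fact p.Prime] [IsGalois K L] [IsCyclic Gal(L/K)]
    (hdeg : Module.finrank K L = p) (hunr : IsUnramifiedEverywhere K L)
    [NumberField.IsTotallyComplex K] : p ≤ (normClasses K L).index := by
  obtain ⟨σ, hσ⟩ := IsCyclic.exists_generator (α := Gal(L/K))
  exact R4_of_theta K L p hσ hdeg hunr (relIndex_unitsD_le hσ hunr)

/-- in an unramified cyclic extension of prime degree of a totally complex field, not every
nonzero ideal is a norm. -/
theorem not_forall_relNorm (p : ℕ) [hp : Fact p.Prime] [IsGalois K L] [IsCyclic Gal(L/K)]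
    (hdeg : Module.finrank K L = p) (hunr : IsUnramifiedEverywhere K L)
    [NumberField.IsTotallyComplex K] :
    ¬ ∀ I : Ideal (𝓞 K), I ≠ 0 →
      ∃ 𝔄 : Ideal (𝓞 L), 𝔄 ≠ 0 ∧ Ideal.relNorm (𝓞 K) 𝔄 = I := by
  intro h
  have h4 := R4_index_ge K L p hdeg hunr
  rw [normClasses_eq_top_of_forall_relNorm K L h, Subgroup.index_top] at h4
  exact absurd hp.out.one_lt (not_lt.mpr h4)

/-- **CORE, from reciprocity alone.** -/
theorem core_of_recipHyp (p : ℕ) [hp : Fact p.Prime] (hp2 : p ≠ 2)
    [IsCyclotomicExtension {p} ℚ K] [IsAbelianGalois K L] [IsGalois ℚ L]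
    (hdeg : Module.finrank K L = p) (hunr : IsUnramifiedEverywhere K L)
    (hconj : ConjHyp K L p) (hrecip : RecipHyp K L) : False := by
  have hp3 : 2 < p := lt_of_le_of_ne hp.out.two_le (Ne.symm hp2)
  haveI : NumberField.IsTotallyComplex K := IsCyclotomicExtension.Rat.isTotallyComplex K hp3
  haveI : IsCyclic Gal(L/K) := isCyclic_gal_of_finrank_eq_prime hdeg
  refine core_of hp2 hdeg hunr hconj hrecip (fun 𝔭 h𝔭 hne _ h1 => ?_)
    (not_forall_relNorm K L p hdeg hunr)
  haveI := h𝔭
  exact P3a.exists_relNorm_eq_of_frobAt_eq_one hne h1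

end Assembly

end Fermat.Agent.CFT
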