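import Mathlib
import Fermat.Agent.CFT.TopAssembly
import Fermat.Agent.CFT.P3bMain

/-!
# CFT / TOP (final): the theorem `core`

There is no unramified cyclic degree-`p` extension `L` of `K = ℚ(ζ_p)` (`p ≠ 2`), Galois over `ℚ`,
on whose Galois group `Gal(K/ℚ)` acts through `ω⁻¹`.
Assembly of `core_of_recipHyp` (TOP + R4 + P3a norm lemma) with the reciprocity law
`artin_eq_of_mk0_eq` (P3b).
-/

set_option autoImplicit false
set_option linter.unusedSectionVars false
set_option linter.style.haveILetI false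

open NumberField
open scoped nonZeroDivisors

namespace Fermat.Agent.CFT

/-- CORE: there is no unramified cyclic degree-`p` extension `L` of `K = ℚ(ζ_p)`, Galois over `ℚ`,
on whose Galois group `Gal(K/ℚ)` acts through `ω⁻¹`. -/
theorem core (K L : Type*) [Field K] [NumberField K] [Field L] [NumberField L] [Algebra K L]
    (p : ℕ) [Fact p.Prime] (hp : p ≠ 2) [IsCyclotomicExtension {p} ℚ K]
    [IsGalois K L] [IsGalois ℚ L] (hdeg : Module.finrank K L = p)
    (hunr : IsUnramifiedEverywhere K L)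
    (hconj : ∀ (σ : Gal(L/ℚ)) (h : Gal(L/K)) (ζ : L) (a : ℕ), IsPrimitiveRoot ζ p →
      σ ζ = ζ ^ a → σ * (h.restrictScalars ℚ) ^ a * σ⁻¹ = h.restrictScalars ℚ) :
    False := by
  haveI : IsAbelianGalois K L := isAbelianGalois_of_finrank_eq_prime hdeg
  exact core_of_recipHyp K L p hp hdeg hunr hconj (fun 𝔞 𝔟 h =>
    artin_eq_of_mk0_eq p K L hp hdeg hunr (not_isMulCommutative_of_conjHyp hp hdeg hconj) 𝔞 𝔟 h)

end Fermat.Agent.CFT
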